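import Mathlib

/-!
# X0 / FF5b: the exact different exponent in residue characteristic zero

For an extension `B / A` of Dedekind domains (finite, torsion-free, separable fraction fields) and a
maximal ideal `p ≠ ⊥` of `A` with `A ⧸ p` of characteristic zero, a prime `Q` of `B` occurring in
`pB` with exact exponent `e` occurs in `differentIdeal A B` with exact exponent `e - 1`.
-/

set_option autoImplicit false
set_option linter.style.haveILetI false

namespace Fermat.Agent.X0.Different

open Algebra Module

attribute [local instance] FractionRing.liftAlgebra FractionRing.isScalarTower_liftAlgebra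
  Ideal.Quotient.field

set_option linter.overlappingInstances false

section Exact

variable (A : Type*) {B : Type*} [CommRing A] [CommRing B] [Algebra A B]
  [IsDedekindDomain A] [IsDedekindDomain B] [IsTorsionFree A B] [Module.Finite A B]
  [Algebra.IsSeparable (FractionRing A) (FractionRing B)]

/-- In residue characteristic zero, if `pB = P * Q` with `P`, `Q` coprime and `P ≠ ⊤`, then
`P` does not divide the different. (`P` need not be prime.) -/
theorem not_dvd_differentIdeal_of_isCoprime_of_charZero
    {p : Ideal A} [p.IsMaximal] [CharZero (A ⧸ p)] (P Q : Ideal B) (hPtop : P ≠ ⊤)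
    (hPQ : IsCoprime P Q) (hP : P * Q = Ideal.map (algebraMap A B) p) :
    ¬ P ∣ differentIdeal A B := by
  let _ : Algebra (A ⧸ p) (B ⧸ P) := Ideal.Quotient.algebraQuotientOfLEComap (by
      rw [← Ideal.map_le_iff_le_comap, ← hP]
      exact Ideal.mul_le_left)
  let _ : Algebra (A ⧸ p) (B ⧸ Q) := Ideal.Quotient.algebraQuotientOfLEComap (by
      rw [← Ideal.map_le_iff_le_comap, ← hP]
      exact Ideal.mul_le_right)
  have : IsScalarTower A (A ⧸ p) (B ⧸ P) := .of_algebraMap_eq' rfl
  have : IsScalarTower A (A ⧸ p) (B ⧸ Q) := .of_algebraMap_eq' rfl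
  have : Module.Finite (A ⧸ p) (B ⧸ P) :=
    Module.Finite.of_restrictScalars_finite A (A ⧸ p) (B ⧸ P)
  have : Module.Finite (A ⧸ p) (B ⧸ Q) :=
    Module.Finite.of_restrictScalars_finite A (A ⧸ p) (B ⧸ Q)
  let e : (B ⧸ p.map (algebraMap A B)) ≃ₐ[A ⧸ p] ((B ⧸ P) × B ⧸ Q) :=
    { __ := (Ideal.quotEquivOfEq hP.symm).trans (Ideal.quotientMulEquivQuotientProd P Q hPQ),
      commutes' := Quotient.ind fun _ ↦ rfl }
  obtain ⟨y, hy⟩ := Ideal.Quotient.mk_surjective (e.symm (1, 0))
  refine not_dvd_differentIdeal_of_intTrace_not_mem A P Q hP y ?_ ?_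
  · have := congr((e $hy).2)
    simp at this
    simpa [e, Ideal.Quotient.eq_zero_iff_mem] using this
  · rw [← Ideal.Quotient.eq_zero_iff_mem, ← Algebra.trace_quotient_eq_of_isDedekindDomain,
      hy, Algebra.trace_eq_of_algEquiv, Algebra.trace_prod_apply]
    have hnt : Nontrivial (B ⧸ P) := Ideal.Quotient.nontrivial_iff.mpr hPtop
    have hfr : Module.finrank (A ⧸ p) (B ⧸ P) ≠ 0 := by
      have := Module.finrank_pos (R := A ⧸ p) (M := B ⧸ P)
      omega
    have h1 : Algebra.trace (A ⧸ p) (B ⧸ P) 1 = (Module.finrank (A ⧸ p) (B ⧸ P) : A ⧸ p) := by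
      have := Algebra.trace_algebraMap (S := B ⧸ P) (1 : A ⧸ p)
      simpa using this
    simp only [map_zero, add_zero]
    rw [h1]
    exact_mod_cast hfr

/-- `Q ^ k ∣ I ↔ k ≤ count` for a nonzero prime `Q` and a nonzero ideal `I` of a Dedekind domain. -/
theorem pow_dvd_iff_le_count {I Q : Ideal B} [Q.IsPrime] (hQ : Q ≠ ⊥) (hI : I ≠ ⊥) (k : ℕ) :
    Q ^ k ∣ I ↔ k ≤ (UniqueFactorizationMonoid.normalizedFactors I).count Q := by
  have hirr : Irreducible Q := (Ideal.prime_of_isPrime hQ inferInstance).irreducible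
  rw [pow_dvd_iff_le_emultiplicity,
    UniqueFactorizationMonoid.emultiplicity_eq_count_normalizedFactors hirr hI, normalize_eq]
  exact Nat.cast_le

/-- **Exact different exponent, upper bound** (tame case, residue characteristic zero): if
`Q ^ e` exactly divides `pB` (`e ≠ 0`), then `Q ^ e` does not divide the different. -/
theorem not_pow_dvd_differentIdeal_of_charZero
    {p : Ideal A} [p.IsMaximal] [CharZero (A ⧸ p)] (Q : Ideal B) [Q.IsPrime] (hQ : Q ≠ ⊥)
    {e : ℕ} (he : e ≠ 0) (h1 : Q ^ e ∣ Ideal.map (algebraMap A B) p)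
    (h2 : ¬ Q ^ (e + 1) ∣ Ideal.map (algebraMap A B) p) :
    ¬ Q ^ e ∣ differentIdeal A B := by
  obtain ⟨a, ha⟩ := h1
  have hQa : ¬ Q ∣ a := by
    intro h
    apply h2
    rw [ha, pow_succ]
    exact mul_dvd_mul_left _ h
  have hprime : Prime Q := Ideal.prime_of_isPrime hQ inferInstance
  rw [← hprime.irreducible.gcd_eq_one_iff, ← Ideal.isCoprime_iff_gcd] at hQa
  have htop : Q ^ e ≠ ⊤ := by
    intro h
    have hle : Q ^ e ≤ Q := Ideal.pow_le_self he
    rw [h, top_le_iff] at hle
    exact (inferInstance : Q.IsPrime).ne_top hle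
  exact not_dvd_differentIdeal_of_isCoprime_of_charZero A (Q ^ e) a htop hQa.pow_left ha.symm

/-- **Exact different exponent** (tame case, residue characteristic zero): if `Q ^ e` exactly
divides `pB` (`e ≠ 0`), then `Q ^ n ∣ differentIdeal A B ↔ n ≤ e - 1`. -/
theorem pow_dvd_differentIdeal_iff_of_charZero
    {p : Ideal A} [p.IsMaximal] [CharZero (A ⧸ p)] (hp : p ≠ ⊥) (Q : Ideal B) [Q.IsPrime]
    (hQ : Q ≠ ⊥) {e : ℕ} (he : e ≠ 0) (h1 : Q ^ e ∣ Ideal.map (algebraMap A B) p)
    (h2 : ¬ Q ^ (e + 1) ∣ Ideal.map (algebraMap A B) p) (n : ℕ) :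
    Q ^ n ∣ differentIdeal A B ↔ n ≤ e - 1 := by
  constructor
  · intro h
    by_contra hn
    have hle : e ≤ n := by omega
    exact not_pow_dvd_differentIdeal_of_charZero A Q hQ he h1 h2
      ((pow_dvd_pow Q hle).trans h)
  · intro h
    exact (pow_dvd_pow Q h).trans (pow_sub_one_dvd_differentIdeal A Q e hp h1)

/-- **Exact different exponent**, multiplicity form. -/
theorem count_normalizedFactors_differentIdeal_of_charZero
    {p : Ideal A} [p.IsMaximal] [CharZero (A ⧸ p)] (hp : p ≠ ⊥) (Q : Ideal B) [Q.IsPrime]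
    (hQ : Q ≠ ⊥) {e : ℕ} (he : e ≠ 0) (h1 : Q ^ e ∣ Ideal.map (algebraMap A B) p)
    (h2 : ¬ Q ^ (e + 1) ∣ Ideal.map (algebraMap A B) p) :
    (UniqueFactorizationMonoid.normalizedFactors (differentIdeal A B)).count Q = e - 1 := by
  apply le_antisymm
  · have := (pow_dvd_differentIdeal_iff_of_charZero A hp Q hQ he h1 h2 _).mp
      ((pow_dvd_iff_le_count hQ differentIdeal_ne_bot _).mpr le_rfl)
    exact this
  · exact (pow_dvd_iff_le_count hQ differentIdeal_ne_bot _).mp
      ((pow_dvd_differentIdeal_iff_of_charZero A hp Q hQ he h1 h2 _).mpr le_rfl)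

/-- **Exact different exponent**, in terms of `Ideal.ramificationIdx`: if all residue fields of `A`
at maximal ideals have characteristic zero, then the multiplicity of a nonzero prime `Q` of `B` in
the different is `e(Q) - 1`. -/
theorem count_normalizedFactors_differentIdeal_eq
    (hcz : ∀ p : Ideal A, p.IsMaximal → CharZero (A ⧸ p)) (Q : Ideal B) [Q.IsPrime] (hQ : Q ≠ ⊥) :
    (UniqueFactorizationMonoid.normalizedFactors (differentIdeal A B)).count Q =
      Q.ramificationIdx A - 1 := by
  have hp : Q.under A ≠ ⊥ := mt Ideal.eq_bot_of_comap_eq_bot hQ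
  have hQmax : Q.IsMaximal := Ideal.IsPrime.isMaximal inferInstance hQ
  have hpmax : (Q.under A).IsMaximal := Ideal.isMaximal_comap_of_isIntegral_of_isMaximal Q
  have := hcz _ hpmax
  have hp' : Ideal.map (algebraMap A B) (Q.under A) ≠ ⊥ :=
    (Ideal.map_eq_bot_iff_of_injective (FaithfulSMul.algebraMap_injective A B)).not.mpr hp
  have he := Ideal.IsDedekindDomain.ramificationIdx_eq_normalizedFactors_count (Q.under A) Q hp'
  have hpos : Q.ramificationIdx A ≠ 0 := (Ideal.ramificationIdx_pos Q A).ne'
  refine count_normalizedFactors_differentIdeal_of_charZero A hp Q hQ hpos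
    ((pow_dvd_iff_le_count hQ hp' _).mpr he.le) ?_
  rw [pow_dvd_iff_le_count hQ hp']
  omega

end Exact

section Valuation
open IsDedekindDomain HeightOneSpectrum FractionalIdeal nonZeroDivisors WithZero

variable {R : Type*} [CommRing R] [IsDedekindDomain R] {K : Type*} [Field K] [Algebra R K]
  [IsFractionRing R K]

theorem valuation_eq_exp_neg_count_spanSingleton (v : HeightOneSpectrum R) {y : K} (hy : y ≠ 0) :
    v.valuation K y = exp (-(count K v (spanSingleton R⁰ y))) := by
  obtain ⟨a, b, hb, rfl⟩ := IsFractionRing.div_surjective (A := R) y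
  have hb0 : b ≠ 0 := nonZeroDivisors.ne_zero hb
  have ha0 : a ≠ 0 := by
    rintro rfl
    simp at hy
  have hspan : spanSingleton R⁰ (algebraMap R K a / algebraMap R K b) =
      spanSingleton R⁰ ((algebraMap R K) b)⁻¹ * ((Ideal.span {a} : Ideal R) : FractionalIdeal R⁰ K) := by
    rw [coeIdeal_span_singleton, spanSingleton_mul_spanSingleton, div_eq_inv_mul]
  have hne : spanSingleton R⁰ (algebraMap R K a / algebraMap R K b) ≠ 0 := by
    rwa [Ne, spanSingleton_eq_zero_iff]
  rw [count_well_defined K v hne hspan, map_div₀, valuation_of_algebraMap, valuation_of_algebraMap,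
    intValuation_if_neg _ ha0, intValuation_if_neg _ hb0, ← exp_sub]
  congr 1
  ring

/-- a nonzero fractional ideal all of whose exponents are nonnegative is contained in `1`. -/
theorem le_one_of_count_nonneg {J : FractionalIdeal R⁰ K} (hJ : J ≠ 0)
    (h : ∀ v : HeightOneSpectrum R, 0 ≤ count K v J) : J ≤ 1 := by
  rw [← finprod_heightOneSpectrum_factorization' K hJ]
  refine finprod_induction (fun I : FractionalIdeal R⁰ K => I ≤ 1) le_rfl ?_ ?_
  · intro x y hx hy
    calc x * y ≤ 1 * 1 := mul_le_mul' hx hy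
      _ = 1 := mul_one 1
  · intro v
    obtain ⟨n, hn⟩ := Int.eq_ofNat_of_zero_le (h v)
    rw [hn, zpow_natCast, ← coeIdeal_pow]
    exact coeIdeal_le_one

/-- **Membership in a fractional ideal of a Dedekind domain is detected by the adic valuations.** -/
theorem mem_iff_valuation_le {I : FractionalIdeal R⁰ K} (hI : I ≠ 0) (y : K) :
    y ∈ I ↔ ∀ v : HeightOneSpectrum R, v.valuation K y ≤ exp (-(count K v I)) := by
  rcases eq_or_ne y 0 with rfl | hy
  · simpa using I.zero_mem
  have hne : spanSingleton R⁰ y ≠ 0 := by rwa [Ne, spanSingleton_eq_zero_iff]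
  rw [← spanSingleton_le_iff_mem]
  constructor
  · intro hle v
    rw [valuation_eq_exp_neg_count_spanSingleton v hy, exp_le_exp, neg_le_neg_iff]
    exact count_mono K v hne hle
  · intro h
    have hJ : spanSingleton R⁰ y * I⁻¹ ≠ 0 := mul_ne_zero hne (inv_ne_zero hI)
    have hle : spanSingleton R⁰ y * I⁻¹ ≤ 1 := by
      refine le_one_of_count_nonneg hJ fun v => ?_
      rw [count_mul K v hne (inv_ne_zero hI), count_inv]
      have := h v
      rw [valuation_eq_exp_neg_count_spanSingleton v hy, exp_le_exp, neg_le_neg_iff] at this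
      omega
    calc spanSingleton R⁰ y = spanSingleton R⁰ y * I⁻¹ * I := by
          rw [mul_assoc, inv_mul_cancel₀ hI, mul_one]
      _ ≤ 1 * I := mul_le_mul' hle le_rfl
      _ = I := one_mul I

end Valuation

section Generic

open IsDedekindDomain HeightOneSpectrum FractionalIdeal nonZeroDivisors WithZero

variable (A K L : Type*) {B : Type*} [CommRing A] [Field K] [CommRing B] [Field L] [Algebra A K]
  [Algebra B L] [Algebra A B] [Algebra K L] [Algebra A L] [IsScalarTower A K L]
  [IsScalarTower A B L] [IsFractionRing A K] [FiniteDimensional K L]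
  [Algebra.IsSeparable K L] [IsIntegralClosure B A L] [IsDedekindDomain A] [IsDedekindDomain B]
  [Module.IsTorsionFree A B] [IsFractionRing B L]

include K L in
/-- in the `AKLB` setting with `L / K` finite separable, `Frac B / Frac A` is separable and `B`
is a finite `A`-module. -/
theorem isSeparable_fractionRing_and_finite :
    Algebra.IsSeparable (FractionRing A) (FractionRing B) ∧ Module.Finite A B := by
  have H : RingHom.comp (algebraMap (FractionRing A) (FractionRing B))
      ↑(FractionRing.algEquiv A K).symm.toRingEquiv =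
        RingHom.comp ↑(FractionRing.algEquiv B L).symm.toRingEquiv (algebraMap K L) := by
    apply IsLocalization.ringHom_ext A⁰
    ext
    simp only [RingHom.coe_comp, RingHom.coe_coe,
      AlgEquiv.coe_ringEquiv, Function.comp_apply, AlgEquiv.commutes,
      ← IsScalarTower.algebraMap_apply]
    rw [IsScalarTower.algebraMap_apply A B L, AlgEquiv.commutes, ← IsScalarTower.algebraMap_apply]
  exact ⟨Algebra.IsSeparable.of_equiv_equiv _ _ H, IsIntegralClosure.finite A K L B⟩

include K in
/-- the exponent of a prime `v` of `B` in the different is `e_v - 1` (residue characteristic `0`) -/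
theorem count_differentIdeal_eq (hcz : ∀ p : Ideal A, p.IsMaximal → CharZero (A ⧸ p))
    (v : HeightOneSpectrum B) :
    count L v ((differentIdeal A B : Ideal B) : FractionalIdeal B⁰ L) =
      (v.asIdeal.ramificationIdx A : ℤ) - 1 := by
  obtain ⟨h1, h2⟩ := isSeparable_fractionRing_and_finite A K L (B := B)
  have hpos : 0 < v.asIdeal.ramificationIdx A := Ideal.ramificationIdx_pos v.asIdeal A
  rw [count_coe L v (differentIdeal_ne_bot (A := A) (B := B)),
    Ideal.count_associates_factors_eq differentIdeal_ne_bot v.isPrime v.ne_bot,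
    count_normalizedFactors_differentIdeal_eq A hcz v.asIdeal v.ne_bot]
  omega

/-- the exponent of a prime `v` of `B` in the trace dual of `B` is `-(e_v - 1)` -/
theorem count_dual_one_eq (hcz : ∀ p : Ideal A, p.IsMaximal → CharZero (A ⧸ p))
    (v : HeightOneSpectrum B) :
    count L v (dual A K (1 : FractionalIdeal B⁰ L)) =
      -((v.asIdeal.ramificationIdx A : ℤ) - 1) := by
  rw [← count_differentIdeal_eq A K L hcz v, coeIdeal_differentIdeal A K L B, count_inv, neg_neg]

/-- **The trace dual of `B` in valuation-theoretic terms** (residue characteristic zero):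
`y ∈ B^∨ ↔ ∀ v, ord_v y ≥ -(e_v - 1)`. -/
theorem mem_dual_one_iff_valuation_le (hcz : ∀ p : Ideal A, p.IsMaximal → CharZero (A ⧸ p))
    (y : L) :
    y ∈ dual A K (1 : FractionalIdeal B⁰ L) ↔
      ∀ v : HeightOneSpectrum B,
        v.valuation L y ≤ exp ((v.asIdeal.ramificationIdx A : ℤ) - 1) := by
  rw [mem_iff_valuation_le (dual_ne_zero A K (one_ne_zero : (1 : FractionalIdeal B⁰ L) ≠ 0))]
  refine forall_congr' fun v => ?_
  rw [count_dual_one_eq A K L hcz v, neg_neg]

/-- **The trace dual of `B` in valuation-theoretic terms**, spelled out with traces. -/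
theorem trace_mul_mem_range_iff_valuation_le
    (hcz : ∀ p : Ideal A, p.IsMaximal → CharZero (A ⧸ p)) (y : L) :
    (∀ b : B, Algebra.trace K L (y * algebraMap B L b) ∈ (algebraMap A K).range) ↔
      ∀ v : HeightOneSpectrum B,
        v.valuation L y ≤ exp ((v.asIdeal.ramificationIdx A : ℤ) - 1) := by
  rw [← mem_dual_one_iff_valuation_le A K L hcz y,
    mem_dual (one_ne_zero : (1 : FractionalIdeal B⁰ L) ≠ 0)]
  constructor
  · rintro h _ ⟨b, -, rfl⟩
    exact h b
  · intro h b
    exact h _ ⟨b, trivial, rfl⟩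

end Generic

end Fermat.Agent.X0.Different
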