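import Mathlib
import Fermat.Prelude.Def_AlgebraicCurve_DivisorClassGroup

/-!
# X0 / FF1 (part 1): places of a field containing a Dedekind domain

For a Dedekind domain `R` with fraction field `F` (and a base field `K → R`) the places of `F / K`
whose valuation ring contains `R` are exactly the places `Place.ofHeightOneSpectrum w` attached to
the height one primes `w` of `R`, and `ord` is the `w`-adic valuation.
-/

set_option autoImplicit false

namespace Fermat.Agent.X0

open AlgebraicCurve IsDedekindDomain WithZero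

section General

variable {K F : Type*} [Field K] [Field F] [Algebra K F]
variable {R : Type*} [CommRing R] [IsDedekindDomain R] [Algebra R F] [IsFractionRing R F]
  [Algebra K R] [IsScalarTower K R F]

theorem algebraMap_mem_ofHeightOneSpectrum (w : HeightOneSpectrum R) (r : R) :
    algebraMap R F r ∈ (Place.ofHeightOneSpectrum (K := K) (F := F) w).toValuationSubring := by
  rw [Place.ofHeightOneSpectrum_toValuationSubring, Valuation.mem_valuationSubring_iff]
  exact w.valuation_le_one r

/-- The `ord` function of the place attached to a height one prime is the adic valuation. -/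
theorem valuation_eq_exp_neg_ord (w : HeightOneSpectrum R) {f : F} (hf : f ≠ 0) :
    w.valuation F f = exp (-(Place.ofHeightOneSpectrum (K := K) (F := F) w).ord f) := by
  set v := Place.ofHeightOneSpectrum (K := K) (F := F) w with hv
  have hO : ∀ y : F, y ∈ v.toValuationSubring ↔ w.valuation F y ≤ 1 := fun y => by
    rw [hv, Place.ofHeightOneSpectrum_toValuationSubring, Valuation.mem_valuationSubring_iff]
  obtain ⟨π₀, hπ₀⟩ := w.valuation_exists_uniformizer F
  have hπ₀0 : π₀ ≠ 0 := by
    rintro rfl
    rw [map_zero] at hπ₀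
    exact exp_ne_zero hπ₀.symm
  have hπ₀mem : π₀ ∈ v.toValuationSubring := by
    rw [hO, hπ₀]
    exact le_of_lt (by rw [← exp_zero, exp_lt_exp]; norm_num)
  set π : v.toValuationSubring := ⟨π₀, hπ₀mem⟩ with hπ
  have hirr : Irreducible π := by
    rw [IsDiscreteValuationRing.irreducible_iff_uniformizer]
    apply le_antisymm
    · intro y hy
      rw [Ideal.mem_span_singleton]
      have hy1 : w.valuation F (y : F) < 1 := by
        by_contra hcon
        have h1 : w.valuation F (y : F) = 1 := le_antisymm ((hO _).mp y.2) (not_lt.mp hcon)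
        have hy0 : (y : F) ≠ 0 := by
          intro h0
          rw [h0, map_zero] at h1
          exact zero_ne_one h1
        have hinv : (y : F)⁻¹ ∈ v.toValuationSubring := by
          rw [hO, map_inv₀, h1, inv_one]
        have : IsUnit y := by
          refine IsUnit.of_mul_eq_one ⟨(y : F)⁻¹, hinv⟩ ?_
          ext
          simp [hy0]
        exact (IsLocalRing.mem_maximalIdeal _).mp hy this
      have hy2 : w.valuation F (y : F) ≤ exp (-1 : ℤ) := by
        rcases eq_or_ne (y : F) 0 with h0 | h0
        · rw [h0, map_zero]; exact zero_le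
        · have hne : w.valuation F (y : F) ≠ 0 := (Valuation.ne_zero_iff _).mpr h0
          rw [← exp_log hne, ← exp_zero, exp_lt_exp] at hy1
          rw [← exp_log hne, exp_le_exp]
          omega
      have hq : (y : F) / π₀ ∈ v.toValuationSubring := by
        rw [hO, map_div₀, hπ₀]
        exact div_le_one_of_le₀ hy2 zero_le
      refine ⟨⟨(y : F) / π₀, hq⟩, ?_⟩
      ext
      simp only [hπ, MulMemClass.coe_mul]
      field_simp
    · rw [Ideal.span_singleton_le_iff_mem, IsLocalRing.mem_maximalIdeal, mem_nonunits_iff]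
      intro hu
      obtain ⟨u, hu⟩ := hu
      have h1 : w.valuation F ((u : v.toValuationSubring) : F) *
          w.valuation F (((u⁻¹ : (v.toValuationSubring)ˣ) : v.toValuationSubring) : F) = 1 := by
        rw [← map_mul, ← MulMemClass.coe_mul, Units.mul_inv]
        simp
      rw [hu] at h1
      have h2 := (hO _).mp ((u⁻¹ : (v.toValuationSubring)ˣ) : v.toValuationSubring).2
      have h3 : w.valuation F (π : F) < 1 := by
        show w.valuation F π₀ < 1
        rw [hπ₀, ← exp_zero, exp_lt_exp]; norm_num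
      have : w.valuation F (π : F) *
          w.valuation F (((u⁻¹ : (v.toValuationSubring)ˣ) : v.toValuationSubring) : F) < 1 :=
        mul_lt_one_of_nonneg_of_lt_one_left zero_le h3 h2
      exact absurd h1 this.ne
  have hne : w.valuation F f ≠ 0 := (Valuation.ne_zero_iff _).mpr hf
  set k : ℤ := log (w.valuation F f) with hk
  have hfk : w.valuation F f = exp k := (exp_log hne).symm
  have hu₀ : w.valuation F (f * π₀ ^ k) = 1 := by
    rw [map_mul, map_zpow₀, hπ₀, hfk, ← exp_zsmul, ← exp_add]
    simp
  have hu₀mem : f * π₀ ^ k ∈ v.toValuationSubring := by rw [hO, hu₀]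
  have hu₀inv : (f * π₀ ^ k)⁻¹ ∈ v.toValuationSubring := by rw [hO, map_inv₀, hu₀, inv_one]
  have hu₀ne : f * π₀ ^ k ≠ 0 := mul_ne_zero hf (zpow_ne_zero _ hπ₀0)
  let u : (v.toValuationSubring)ˣ :=
    ⟨⟨f * π₀ ^ k, hu₀mem⟩, ⟨(f * π₀ ^ k)⁻¹, hu₀inv⟩, by ext; exact mul_inv_cancel₀ hu₀ne,
      by ext; exact inv_mul_cancel₀ hu₀ne⟩
  have hf' : f = ((u : v.toValuationSubring) : F) * ((π : F) ^ (-k)) := by
    show f = (f * π₀ ^ k) * (π₀ ^ (-k))
    rw [zpow_neg, mul_assoc, mul_inv_cancel₀ (zpow_ne_zero _ hπ₀0), mul_one]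
  have hord : v.ord f = -k := by
    conv_lhs => rw [hf']
    exact v.ord_unit_smul_zpow u hirr (-k)
  rw [hord, neg_neg, hfk]

theorem ord_ofHeightOneSpectrum (w : HeightOneSpectrum R) {f : F} (hf : f ≠ 0) :
    (Place.ofHeightOneSpectrum (K := K) (F := F) w).ord f = -log (w.valuation F f) := by
  rw [valuation_eq_exp_neg_ord (K := K) w hf, log_exp, neg_neg]

/-- Membership in the maximal ideal of a valuation ring cut out by a valuation. -/
theorem mem_maximalIdeal_iff_of_valuation {Γ : Type*} [LinearOrderedCommGroupWithZero Γ]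
    (A : ValuationSubring F) (val : Valuation F Γ)
    (hO : ∀ y : F, y ∈ A ↔ val y ≤ 1) (y : A) :
    y ∈ IsLocalRing.maximalIdeal A ↔ val (y : F) < 1 := by
  rw [IsLocalRing.mem_maximalIdeal, mem_nonunits_iff]
  constructor
  · intro hnu
    by_contra hcon
    have h1 : val (y : F) = 1 := le_antisymm ((hO _).mp y.2) (not_lt.mp hcon)
    have hy0 : (y : F) ≠ 0 := by
      intro h0
      rw [h0, map_zero] at h1
      exact zero_ne_one h1
    have hinv : (y : F)⁻¹ ∈ A := by
      rw [hO, map_inv₀, h1, inv_one]
    apply hnu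
    refine IsUnit.of_mul_eq_one ⟨(y : F)⁻¹, hinv⟩ ?_
    ext
    simp [hy0]
  · intro hlt hu
    obtain ⟨u, hu⟩ := hu
    have h1 : val ((u : A) : F) * val (((u⁻¹ : Aˣ) : A) : F) = 1 := by
      rw [← map_mul, ← MulMemClass.coe_mul, Units.mul_inv]
      simp
    rw [hu] at h1
    have h2 := (hO _).mp ((u⁻¹ : Aˣ) : A).2
    have : val (y : F) * val (((u⁻¹ : Aˣ) : A) : F) < 1 :=
      mul_lt_one_of_nonneg_of_lt_one_left zero_le hlt h2
    exact absurd h1 this.ne

/-- Membership in the maximal ideal of the valuation ring of the place attached to `w`. -/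
theorem mem_maximalIdeal_ofHeightOneSpectrum_iff (w : HeightOneSpectrum R)
    (y : (Place.ofHeightOneSpectrum (K := K) (F := F) w).toValuationSubring) :
    y ∈ IsLocalRing.maximalIdeal (Place.ofHeightOneSpectrum (K := K) (F := F) w).toValuationSubring
      ↔ w.valuation F (y : F) < 1 :=
  mem_maximalIdeal_iff_of_valuation _ (w.valuation F) (fun y => by
    rw [Place.ofHeightOneSpectrum_toValuationSubring, Valuation.mem_valuationSubring_iff]) y

theorem ofHeightOneSpectrum_injective :
    Function.Injective (Place.ofHeightOneSpectrum (K := K) (F := F) (R := R)) := by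
  intro w w' h
  have h1 : (w.valuation F).valuationSubring = (w'.valuation F).valuationSubring :=
    congrArg Place.toValuationSubring h
  exact HeightOneSpectrum.eq_of_valuation_isEquiv_valuation
    ((Valuation.isEquiv_iff_valuationSubring _ _).mpr h1)

/-- A place whose valuation ring contains the Dedekind domain `R` comes from a height one prime
of `R`. -/
theorem exists_ofHeightOneSpectrum_eq (v : Place K F)
    (hv : ∀ r : R, algebraMap R F r ∈ v.toValuationSubring) :
    ∃ w : HeightOneSpectrum R, Place.ofHeightOneSpectrum (K := K) (F := F) w = v := by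
  -- the ring hom `R → O_v`
  let φ : R →+* v.toValuationSubring :=
    (algebraMap R F).codRestrict v.toValuationSubring.toSubring hv
  have hφ : ∀ r, ((φ r : v.toValuationSubring) : F) = algebraMap R F r := fun _ => rfl
  let P : Ideal R := (IsLocalRing.maximalIdeal v.toValuationSubring).comap φ
  have hPprime : P.IsPrime := Ideal.comap_isPrime φ _
  have hinj : Function.Injective (algebraMap R F) := IsFractionRing.injective R F
  have hPne : P ≠ ⊥ := by
    intro hbot
    apply v.ne_top'
    rw [eq_top_iff]
    intro y _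
    obtain ⟨a, b, hb, rfl⟩ := IsFractionRing.div_surjective (A := R) y
    have hb0 : b ≠ 0 := nonZeroDivisors.ne_zero hb
    have hbP : b ∉ P := by
      rw [hbot, Ideal.mem_bot]
      exact hb0
    have hunit : IsUnit (φ b) := by
      by_contra hnu
      exact hbP ((IsLocalRing.mem_maximalIdeal _).mpr hnu)
    obtain ⟨u, hu⟩ := hunit
    have hinv : (algebraMap R F b)⁻¹ = (((u⁻¹ : (v.toValuationSubring)ˣ) :
        v.toValuationSubring) : F) := by
      have h1 : ((u : v.toValuationSubring) : F) = algebraMap R F b := by rw [hu, hφ]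
      have h2 : ((u : v.toValuationSubring) : F) *
          (((u⁻¹ : (v.toValuationSubring)ˣ) : v.toValuationSubring) : F) = 1 := by
        rw [← MulMemClass.coe_mul, Units.mul_inv]
        rfl
      rw [h1] at h2
      exact inv_eq_of_mul_eq_one_right h2
    rw [div_eq_mul_inv, hinv]
    exact v.toValuationSubring.mul_mem _ _ (hv a) (SetLike.coe_mem _)
  let w : HeightOneSpectrum R := ⟨P, hPprime, hPne⟩
  refine ⟨w, ?_⟩
  apply Place.ext
  rw [Place.ofHeightOneSpectrum_toValuationSubring,
    ← HeightOneSpectrum.valuationSubringAtPrime_eq_valuationSubring]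
  refine ValuationSubring.eq_of_le_of_ne_top _ ?_ v.ne_top'
  intro y hy
  -- `y = a / s` with `s ∉ P`
  have hy' : y ∈ (HeightOneSpectrum.valuationSubringAtPrime F w) := hy
  rw [HeightOneSpectrum.valuationSubringAtPrime_eq_valuationSubring,
    Valuation.mem_valuationSubring_iff] at hy'
  obtain ⟨a, d, hd⟩ := w.exists_primeCompl_mul_eq_of_integer y hy'
  have hdP : (d : R) ∉ P := d.2
  have hunit : IsUnit (φ d) := by
    by_contra hnu
    exact hdP ((IsLocalRing.mem_maximalIdeal _).mpr hnu)
  obtain ⟨u, hu⟩ := hunit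
  have h1 : ((u : v.toValuationSubring) : F) = algebraMap R F d := by rw [hu, hφ]
  have h2 : ((u : v.toValuationSubring) : F) *
      (((u⁻¹ : (v.toValuationSubring)ˣ) : v.toValuationSubring) : F) = 1 := by
    rw [← MulMemClass.coe_mul, Units.mul_inv]
    rfl
  have hy2 : y = algebraMap R F a *
      (((u⁻¹ : (v.toValuationSubring)ˣ) : v.toValuationSubring) : F) := by
    rw [← hd, mul_assoc, ← h1, h2, mul_one]
  rw [hy2]
  exact v.toValuationSubring.mul_mem _ _ (hv a) (SetLike.coe_mem _)

end General

section OrdFacts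

variable {K F : Type*} [Field K] [Field F] [Algebra K F]

/-- `f ∈ O_v` iff `0 ≤ ord_v f` (for `f ≠ 0`). -/
theorem mem_iff_ord_nonneg (v : Place K F) {f : F} (hf : f ≠ 0) :
    f ∈ v.toValuationSubring ↔ 0 ≤ v.ord f := by
  obtain ⟨π, hπ⟩ := IsDiscreteValuationRing.exists_irreducible v.toValuationSubring
  obtain ⟨u, hu⟩ := v.exists_unit_mul_zpow hf hπ
  have hπ0 : (π : F) ≠ 0 := by
    simpa [ne_eq, ZeroMemClass.coe_eq_zero] using hπ.ne_zero
  constructor
  · intro hmem
    by_contra hneg
    have hneg' : v.ord f < 0 := not_le.mp hneg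
    -- then `f⁻¹ = u⁻¹ π^(-ord f)` is in the maximal ideal, so `1 = f * f⁻¹` is too
    obtain ⟨n, hn⟩ : ∃ n : ℕ, -v.ord f = (n : ℤ) + 1 := ⟨(-v.ord f - 1).toNat, by omega⟩
    have hinv : f⁻¹ = (((u⁻¹ : (v.toValuationSubring)ˣ) : v.toValuationSubring) : F) *
        (π : F) ^ (n + 1) := by
      have hu1 : ((u : v.toValuationSubring) : F) *
          (((u⁻¹ : (v.toValuationSubring)ˣ) : v.toValuationSubring) : F) = 1 := by
        rw [← MulMemClass.coe_mul, Units.mul_inv]; rfl
      have hu0 : ((u : v.toValuationSubring) : F) ≠ 0 := left_ne_zero_of_mul_eq_one hu1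
      have hx : v.ord f = -((n : ℤ) + 1) := by omega
      rw [hu, hx, zpow_neg, mul_inv, inv_inv, ← zpow_natCast, Nat.cast_add, Nat.cast_one,
        ← eq_inv_of_mul_eq_one_right hu1]
    have hmem2 : (⟨f, hmem⟩ : v.toValuationSubring) *
        ((u⁻¹ : (v.toValuationSubring)ˣ) : v.toValuationSubring) * π ^ (n + 1) = 1 := by
      ext
      simp only [MulMemClass.coe_mul, SubmonoidClass.coe_pow, OneMemClass.coe_one]
      rw [mul_assoc, ← hinv, mul_inv_cancel₀ hf]
    have hπunit : IsUnit π := by
      have : IsUnit (π ^ (n + 1)) := IsUnit.of_mul_eq_one _ (by rw [mul_comm]; exact hmem2)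
      exact (isUnit_pow_iff (Nat.succ_ne_zero n)).mp this
    exact hπ.not_isUnit hπunit
  · intro hnn
    obtain ⟨n, hn⟩ : ∃ n : ℕ, v.ord f = (n : ℤ) := ⟨(v.ord f).toNat, by omega⟩
    rw [hu, hn, zpow_natCast]
    exact v.toValuationSubring.mul_mem _ _ (SetLike.coe_mem _) (pow_mem (SetLike.coe_mem _) n)

/-- `0 < ord_v y` iff `y` is in the maximal ideal (for `y ≠ 0` in `O_v`). -/
theorem ord_pos_iff_mem_maximalIdeal (v : Place K F) (y : v.toValuationSubring)
    (hy : (y : F) ≠ 0) :
    0 < v.ord (y : F) ↔ y ∈ IsLocalRing.maximalIdeal v.toValuationSubring := by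
  rw [IsLocalRing.mem_maximalIdeal, mem_nonunits_iff]
  constructor
  · intro hpos hunit
    obtain ⟨u, hu⟩ := hunit
    have := v.ord_coe_unit u
    rw [hu] at this
    omega
  · intro hnu
    by_contra hle
    have h0 : v.ord (y : F) = 0 := le_antisymm (not_lt.mp hle) ((mem_iff_ord_nonneg v hy).mp y.2)
    have hinv : (y : F)⁻¹ ∈ v.toValuationSubring := by
      rw [mem_iff_ord_nonneg v (inv_ne_zero hy), v.ord_inv, h0, neg_zero]
    apply hnu
    refine IsUnit.of_mul_eq_one ⟨(y : F)⁻¹, hinv⟩ ?_
    ext
    simp [hy]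

/-- Nonzero constants have `ord = 0`. -/
theorem ord_algebraMap (v : Place K F) (a : K) : v.ord (algebraMap K F a) = 0 := by
  rcases eq_or_ne a 0 with rfl | ha
  · simp
  have ha' : algebraMap K F a ≠ 0 := by simpa using ha
  have h1 := (mem_iff_ord_nonneg v ha').mp (v.algebraMap_mem' a)
  have h2 := (mem_iff_ord_nonneg v (inv_ne_zero ha')).mp
    (by rw [← map_inv₀]; exact v.algebraMap_mem' a⁻¹)
  rw [v.ord_inv] at h2
  omega

end OrdFacts

end Fermat.Agent.X0
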