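import Mathlib
import Fermat.Agent.X0.FF.PlacesGeneral
import Fermat.Agent.X0.FF.Different

/-!
# X0 / FF5d (part 2): an affine chart of a function field

Generic setting: `K` a field of characteristic zero, `A` a Dedekind `K`-algebra with fraction
field `E`, `F / E` a finite separable extension, `B := integralClosure A F`.  We translate the
generic results on the different (`FF/Different.lean`) into the language of places
(`Place.ofHeightOneSpectrum w` for the primes `w` of `B`).
-/

set_option autoImplicit false
set_option linter.unusedSectionVars false
set_option linter.style.haveILetI false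

namespace Fermat.Agent.X0.Chart

open AlgebraicCurve IsDedekindDomain WithZero nonZeroDivisors

variable {K F : Type*} (E : Type*) [Field K] [Field E] [Field F] [Algebra K F] [Algebra E F]
  [FiniteDimensional E F] [Algebra.IsSeparable E F]
variable (A : Type*) [CommRing A] [IsDedekindDomain A] [Algebra A E] [IsFractionRing A E]
  [Algebra A F] [IsScalarTower A E F] [Algebra K A] [IsScalarTower K A F]

include E in
theorem isDedekindDomain_B : IsDedekindDomain (integralClosure A F) :=
  integralClosure.isDedekindDomain A E F

include E in
theorem isFractionRing_B : IsFractionRing (integralClosure A F) F :=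
  integralClosure.isFractionRing_of_finite_extension E F

include E in
theorem finite_B : Module.Finite A (integralClosure A F) :=
  IsIntegralClosure.finite A E F _

include E in
theorem faithfulSMul_A : FaithfulSMul A F := by
  rw [faithfulSMul_iff_algebraMap_injective, IsScalarTower.algebraMap_eq A E F]
  exact (algebraMap E F).injective.comp (IsFractionRing.injective A E)

include E in
theorem isTorsionFree_B : Module.IsTorsionFree A (integralClosure A F) := by
  haveI := faithfulSMul_A (F := F) E A
  infer_instance

omit [IsDedekindDomain A] in
/-- residue characteristic zero for a `K`-algebra, `K` a field of characteristic zero -/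
theorem charZero_quotient [CharZero K] (p : Ideal A) (hp : p.IsMaximal) : CharZero (A ⧸ p) := by
  have : Nontrivial (A ⧸ p) := Ideal.Quotient.nontrivial_iff.mpr hp.ne_top
  exact charZero_of_injective_algebraMap (algebraMap K (A ⧸ p)).injective

variable {A}

/-- **Chart, integrality**: `y ∈ B` iff `y` has no pole at the places of the chart. -/
theorem isIntegral_iff_ord
    [hD : IsDedekindDomain (integralClosure A F)] [hF : IsFractionRing (integralClosure A F) F]
    (y : F) :
    IsIntegral A y ↔
      ∀ w : HeightOneSpectrum (integralClosure A F),
        y = 0 ∨ 0 ≤ (Place.ofHeightOneSpectrum (K := K) (F := F) w).ord y := by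
  have h1 : IsIntegral A y ↔ y ∈ (1 : FractionalIdeal (integralClosure A F)⁰ F) := by
    rw [FractionalIdeal.mem_one_iff]
    constructor
    · intro h
      exact ⟨⟨y, h⟩, rfl⟩
    · rintro ⟨b, rfl⟩
      exact b.2
  rw [h1, Different.mem_iff_valuation_le
    (one_ne_zero : (1 : FractionalIdeal (integralClosure A F)⁰ F) ≠ 0)]
  refine forall_congr' fun w => ?_
  rw [FractionalIdeal.count_one, neg_zero]
  rcases eq_or_ne y 0 with rfl | hy
  · simp
  · rw [valuation_eq_exp_neg_ord (K := K) w hy, exp_le_exp]
    constructor
    · intro h; right; omega
    · rintro (h | h)
      · exact absurd h hy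
      · omega

include E in
/-- **Chart, trace dual**: `Tr (y B) ⊆ A` iff `ord_w y ≥ -(e_w - 1)` at all places of the chart. -/
theorem trace_mem_iff_ord [CharZero K]
    [hD : IsDedekindDomain (integralClosure A F)] [hF : IsFractionRing (integralClosure A F) F]
    (y : F) :
    (∀ b : integralClosure A F, Algebra.trace E F (y * (b : F)) ∈ (algebraMap A E).range) ↔
      ∀ w : HeightOneSpectrum (integralClosure A F),
        y = 0 ∨ -((w.asIdeal.ramificationIdx A : ℤ) - 1) ≤
          (Place.ofHeightOneSpectrum (K := K) (F := F) w).ord y := by
  haveI := isTorsionFree_B (F := F) E A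
  have hcz : ∀ p : Ideal A, p.IsMaximal → CharZero (A ⧸ p) := charZero_quotient (K := K) A
  have h := Different.trace_mul_mem_range_iff_valuation_le A E F (B := integralClosure A F) hcz y
  rw [show (∀ b : integralClosure A F, Algebra.trace E F (y * (b : F)) ∈ (algebraMap A E).range) ↔
      (∀ b : integralClosure A F, Algebra.trace E F (y * algebraMap (integralClosure A F) F b) ∈
        (algebraMap A E).range) from Iff.rfl, h]
  refine forall_congr' fun w => ?_
  rcases eq_or_ne y 0 with rfl | hy
  · simp
  · rw [valuation_eq_exp_neg_ord (K := K) w hy, exp_le_exp]
    constructor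
    · intro h; right; omega
    · rintro (h | h)
      · exact absurd h hy
      · omega

/-- the prime of `A` below a prime of `B` -/
noncomputable def below [hD : IsDedekindDomain (integralClosure A F)]
    (w : HeightOneSpectrum (integralClosure A F)) : HeightOneSpectrum A where
  asIdeal := w.asIdeal.under A
  isPrime := inferInstance
  ne_bot := mt Ideal.eq_bot_of_comap_eq_bot w.ne_bot

include E in
/-- **Chart, ramification**: on `E` the valuation at `w` is the `e_w`-th power of the valuation
at the prime below. -/
theorem valuation_algebraMap
    [hD : IsDedekindDomain (integralClosure A F)] [hF : IsFractionRing (integralClosure A F) F]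
    (w : HeightOneSpectrum (integralClosure A F)) (a : E) :
    w.valuation F (algebraMap E F a) =
      (below w).valuation E a ^ (w.asIdeal.ramificationIdx A) := by
  haveI := isTorsionFree_B (F := F) E A
  haveI : w.asIdeal.LiesOver (below w).asIdeal := ⟨rfl⟩
  rw [← HeightOneSpectrum.valuation_liesOver F (below w) w a,
    Ideal.ramificationIdx'_eq_ramificationIdx (below w).asIdeal w.asIdeal (below w).ne_bot]

end Fermat.Agent.X0.Chart
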