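import Mathlib
import Fermat.Prelude.Def_AlgebraicCurve_DivisorClassGroup
import Fermat.Agent.X0.FF.PlacesGeneral

/-!
# X0 / FF1 (part 2): places of a function field of one variable

Setting: `K` an algebraically closed field of characteristic zero, `F / K` a field, with a
`K[X]`-algebra structure on `F` (i.e. a chosen element `𝔵 = algebraMap K[X] F X`) which is faithful
(`𝔵` transcendental) and such that `F` is finite over `RatFunc K` (w.r.t. `RatFunc.liftAlgebra`).
-/

set_option autoImplicit false
set_option linter.unusedSectionVars false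

namespace Fermat.Agent.X0

open AlgebraicCurve IsDedekindDomain WithZero Polynomial

open scoped RatFunc

section Basic

variable {K F : Type*} [Field K] [Field F] [Algebra K F] [Algebra K[X] F] [IsScalarTower K K[X] F]

theorem algebraMap_poly_eq_aeval (p : K[X]) :
    algebraMap K[X] F p = aeval (algebraMap K[X] F X) p := by
  have h := Polynomial.aeval_algHom_apply (IsScalarTower.toAlgHom K K[X] F) X p
  rw [aeval_X_left_apply] at h
  exact h.symm

theorem algebraMap_poly_mem (v : Place K F) (hx : algebraMap K[X] F X ∈ v.toValuationSubring)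
    (p : K[X]) : algebraMap K[X] F p ∈ v.toValuationSubring := by
  rw [algebraMap_poly_eq_aeval, aeval_eq_sum_range]
  refine Subring.sum_mem v.toValuationSubring.toSubring fun i _ => ?_
  rw [Algebra.smul_def]
  exact v.toValuationSubring.mul_mem _ _ (v.algebraMap_mem' _)
    (pow_mem hx i)

theorem integralClosure_mem (v : Place K F) (hx : algebraMap K[X] F X ∈ v.toValuationSubring)
    (s : integralClosure K[X] F) : (s : F) ∈ v.toValuationSubring := by
  let φ : K[X] →+* v.toValuationSubring :=
    (algebraMap K[X] F).codRestrict v.toValuationSubring.toSubring (algebraMap_poly_mem v hx)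
  have hint : IsIntegral v.toValuationSubring (s : F) :=
    IsIntegral.map_of_comp_eq φ (RingHom.id F) (RingHom.ext fun _ => rfl) s.2
  obtain ⟨y, hy⟩ := IsIntegrallyClosed.isIntegral_iff.mp hint
  rw [← hy]
  exact y.2

end Basic

theorem exists_algebraMap_eq_of_isIntegral {k A : Type*} [Field k] [IsAlgClosed k] [CommRing A]
    [IsDomain A] [Algebra k A] {z : A} (hz : IsIntegral k z) : ∃ a : k, algebraMap k A a = z := by
  refine ⟨-(minpoly k z).coeff 0, ?_⟩
  have hq : (minpoly k z).leadingCoeff = 1 := minpoly.monic hz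
  have h : (minpoly k z).degree = 1 :=
    IsAlgClosed.degree_eq_one_of_irreducible k (minpoly.irreducible hz)
  have : aeval z (minpoly k z) = 0 := minpoly.aeval k z
  rw [eq_X_add_C_of_degree_eq_one h, hq, C_1, one_mul, aeval_add, aeval_X, aeval_C,
    add_eq_zero_iff_eq_neg] at this
  exact (map_neg (algebraMap k A) ((minpoly k z).coeff 0)).symm ▸ this.symm

section FunctionField

variable (K F : Type*) [Field K] [Field F] [Algebra K F] [Algebra K[X] F] [IsScalarTower K K[X] F]
  [FaithfulSMul K[X] F] [FiniteDimensional (RatFunc K) F] [CharZero K]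

theorem isDedekindDomain_integralClosure : IsDedekindDomain (integralClosure K[X] F) :=
  integralClosure.isDedekindDomain K[X] (RatFunc K) F

theorem isFractionRing_integralClosure : IsFractionRing (integralClosure K[X] F) F :=
  integralClosure.isFractionRing_of_finite_extension (RatFunc K) F

theorem finite_integralClosure : Module.Finite K[X] (integralClosure K[X] F) :=
  IsIntegralClosure.finite K[X] (RatFunc K) F _

attribute [local instance] isDedekindDomain_integralClosure isFractionRing_integralClosure
  finite_integralClosure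

variable {K F}

/-- A place whose valuation ring contains `𝔵` comes from a prime of the integral closure. -/
theorem exists_heightOneSpectrum_of_gen_mem (v : Place K F)
    (hx : algebraMap K[X] F X ∈ v.toValuationSubring) :
    ∃ w : HeightOneSpectrum (integralClosure K[X] F),
      Place.ofHeightOneSpectrum (K := K) (F := F) w = v :=
  exists_ofHeightOneSpectrum_eq v (integralClosure_mem v hx)

theorem coe_algebraMap_X_sub_C (c : K) :
    algebraMap (integralClosure K[X] F) F (algebraMap K[X] (integralClosure K[X] F) (X - C c)) =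
      algebraMap K[X] F X - algebraMap K F c := by
  rw [← IsScalarTower.algebraMap_apply K[X] (integralClosure K[X] F) F, map_sub,
    ← Polynomial.algebraMap_eq, ← IsScalarTower.algebraMap_apply K K[X] F]

theorem gen_sub_ne_zero (c : K) : algebraMap K[X] F X - algebraMap K F c ≠ 0 := by
  rw [← coe_algebraMap_X_sub_C, ← IsScalarTower.algebraMap_apply K[X] (integralClosure K[X] F) F]
  intro h
  have := (FaithfulSMul.algebraMap_injective K[X] F) (h.trans (map_zero _).symm)
  exact X_sub_C_ne_zero c this

/-- Positivity of `ord (𝔵 - c)` detects the centre. -/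
theorem ord_gen_sub_pos_iff (w : HeightOneSpectrum (integralClosure K[X] F)) (c : K) :
    0 < (Place.ofHeightOneSpectrum (K := K) (F := F) w).ord
        (algebraMap K[X] F X - algebraMap K F c) ↔
      algebraMap K[X] (integralClosure K[X] F) (X - C c) ∈ w.asIdeal := by
  have h1 := valuation_eq_exp_neg_ord (K := K) w (gen_sub_ne_zero (F := F) c)
  rw [← HeightOneSpectrum.valuation_lt_one_iff_mem (K := F)]
  change _ ↔ w.valuation F (algebraMap (integralClosure K[X] F) F
    (algebraMap K[X] (integralClosure K[X] F) (X - C c))) < 1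
  rw [coe_algebraMap_X_sub_C, h1, ← exp_zero, exp_lt_exp]
  omega

/-- The prime `(X - c)` of `K[X]`. -/
noncomputable def primeXSubC (c : K) : HeightOneSpectrum K[X] where
  asIdeal := Ideal.span {X - C c}
  isPrime := (Ideal.span_singleton_prime (X_sub_C_ne_zero c)).mpr (prime_X_sub_C c)
  ne_bot := by
    rw [Ne, Ideal.span_singleton_eq_bot]
    exact X_sub_C_ne_zero c

theorem liesOver_primeXSubC (w : HeightOneSpectrum (integralClosure K[X] F)) (c : K)
    (hc : algebraMap K[X] (integralClosure K[X] F) (X - C c) ∈ w.asIdeal) :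
    w.asIdeal.LiesOver (primeXSubC c).asIdeal := by
  constructor
  have hmax : (primeXSubC c).asIdeal.IsMaximal := (primeXSubC c).isMaximal
  have hle : (primeXSubC c).asIdeal ≤ w.asIdeal.under K[X] := by
    show Ideal.span {X - C c} ≤ _
    rw [Ideal.span_singleton_le_iff_mem]
    exact hc
  have hne : w.asIdeal.under K[X] ≠ ⊤ := (Ideal.comap_isPrime _ _).ne_top
  exact hmax.eq_of_le hne hle

/-- `ord (𝔵 - c)` is the ramification index. -/
theorem ord_gen_sub_eq_ramificationIdx (w : HeightOneSpectrum (integralClosure K[X] F)) (c : K)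
    (hc : algebraMap K[X] (integralClosure K[X] F) (X - C c) ∈ w.asIdeal) :
    (Place.ofHeightOneSpectrum (K := K) (F := F) w).ord
        (algebraMap K[X] F X - algebraMap K F c) =
      ((Ideal.span {X - C c}).ramificationIdx' w.asIdeal : ℤ) := by
  have hlo := liesOver_primeXSubC w c hc
  have h1 := HeightOneSpectrum.intValuation_liesOver (primeXSubC c) w (X - C c)
  have h2 : (primeXSubC c).intValuation (X - C c) = exp (-1 : ℤ) :=
    HeightOneSpectrum.intValuation_singleton _ (X_sub_C_ne_zero c) rfl
  rw [h2] at h1
  have h3 := valuation_eq_exp_neg_ord (K := K) w (gen_sub_ne_zero (F := F) c)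
  rw [← coe_algebraMap_X_sub_C, HeightOneSpectrum.valuation_of_algebraMap, ← h1,
    ← exp_nsmul, exp_inj] at h3
  have h4 : (primeXSubC c).asIdeal = Ideal.span {X - C c} := rfl
  rw [h4] at h3
  simp only [nsmul_eq_mul, mul_neg, mul_one, neg_inj] at h3
  rw [coe_algebraMap_X_sub_C] at h3
  exact h3.symm

variable [IsAlgClosed K]

/-- Every nonzero prime of `K[X]` contains `X - C c` for some `c`. -/
theorem exists_X_sub_C_mem_of_isPrime {p : Ideal K[X]} [hp : p.IsPrime] (hp0 : p ≠ ⊥) :
    ∃ c : K, X - C c ∈ p := by
  obtain ⟨q, hq0, hqp⟩ : ∃ q ∈ p, q ≠ 0 := by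
    by_contra hcon
    apply hp0
    rw [eq_bot_iff]
    intro q hq
    by_contra hq0
    exact hcon ⟨q, hq, hq0⟩
  have hsplit := (IsAlgClosed.splits q).eq_prod_roots
  rw [hsplit] at hq0
  rcases hp.mem_or_mem hq0 with h | h
  · exfalso
    apply hp.ne_top
    rw [Ideal.eq_top_iff_one]
    have hlc : q.leadingCoeff ≠ 0 := leadingCoeff_ne_zero.mpr hqp
    have : C (q.leadingCoeff)⁻¹ * C q.leadingCoeff ∈ p := p.mul_mem_left _ h
    rwa [← C_mul, inv_mul_cancel₀ hlc, C_1] at this
  · obtain ⟨r, hr, hrp⟩ := (hp.multiset_prod_mem_iff_exists_mem _).mp h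
    obtain ⟨c, -, rfl⟩ := Multiset.mem_map.mp hr
    exact ⟨c, hrp⟩

/-- Every height one prime of the integral closure has a centre `c : K`. -/
theorem exists_centre (w : HeightOneSpectrum (integralClosure K[X] F)) :
    ∃ c : K, algebraMap K[X] (integralClosure K[X] F) (X - C c) ∈ w.asIdeal := by
  have hp : (w.asIdeal.comap (algebraMap K[X] (integralClosure K[X] F))).IsPrime :=
    Ideal.comap_isPrime _ _
  have hp0 : w.asIdeal.comap (algebraMap K[X] (integralClosure K[X] F)) ≠ ⊥ := fun h =>
    w.ne_bot (Ideal.eq_bot_of_comap_eq_bot h)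
  obtain ⟨c, hc⟩ := exists_X_sub_C_mem_of_isPrime hp0
  exact ⟨c, hc⟩

/-- The residue field of the place attached to a prime of the integral closure is `K`. -/
theorem residue_surjective_ofHeightOneSpectrum (w : HeightOneSpectrum (integralClosure K[X] F)) :
    ∀ y : (Place.ofHeightOneSpectrum (K := K) (F := F) w).toValuationSubring,
    ∃ k : K, IsLocalRing.residue _ y =
      algebraMap K (Place.ofHeightOneSpectrum (K := K) (F := F) w).ResidueField k := by
  set v := Place.ofHeightOneSpectrum (K := K) (F := F) w with hv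
  intro y
  let φ : (integralClosure K[X] F) →+* v.toValuationSubring :=
    (algebraMap (integralClosure K[X] F) F).codRestrict v.toValuationSubring.toSubring
      (algebraMap_mem_ofHeightOneSpectrum w)
  let ρ : (integralClosure K[X] F) →+* v.ResidueField :=
    (IsLocalRing.residue v.toValuationSubring).comp φ
  -- kernel of ρ
  have hker : ∀ s : integralClosure K[X] F, ρ s = 0 ↔ s ∈ w.asIdeal := by
    intro s
    show IsLocalRing.residue v.toValuationSubring (φ s) = 0 ↔ _
    rw [IsLocalRing.residue_eq_zero_iff, mem_maximalIdeal_ofHeightOneSpectrum_iff,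
      ← HeightOneSpectrum.valuation_lt_one_iff_mem (K := F)]
    rfl
  obtain ⟨c, hc⟩ := exists_centre w
  -- ρ restricted to K[X] is evaluation at c
  have hψ : ρ.comp (algebraMap K[X] (integralClosure K[X] F)) =
      (algebraMap K v.ResidueField).comp (evalRingHom c) := by
    have hC : ∀ a : K, ρ (algebraMap K[X] (integralClosure K[X] F) (C a)) =
        algebraMap K v.ResidueField a := by
      intro a
      show IsLocalRing.residue _ (φ (algebraMap K[X] (integralClosure K[X] F) (C a))) = _
      rw [IsScalarTower.algebraMap_apply K v.toValuationSubring v.ResidueField,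
        IsLocalRing.ResidueField.algebraMap_eq]
      congr 1
      ext
      show algebraMap (integralClosure K[X] F) F (algebraMap K[X] (integralClosure K[X] F) (C a)) =
        algebraMap K F a
      rw [← IsScalarTower.algebraMap_apply K[X] (integralClosure K[X] F) F,
        ← Polynomial.algebraMap_eq, ← IsScalarTower.algebraMap_apply K K[X] F]
    refine Polynomial.ringHom_ext (fun a => ?_) ?_
    · simp only [RingHom.comp_apply, coe_evalRingHom, eval_C]
      exact hC a
    · simp only [RingHom.comp_apply, coe_evalRingHom, eval_X]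
      have h0 := (hker _).mpr hc
      rw [map_sub, map_sub, sub_eq_zero] at h0
      rw [h0]
      exact hC c
  -- every ρ s is in K
  have hS : ∀ s : integralClosure K[X] F, ∃ k : K, ρ s = algebraMap K v.ResidueField k := by
    intro s
    obtain ⟨P, hPm, hP⟩ := Algebra.IsIntegral.isIntegral (R := K[X]) s
    have h1 : P.eval₂ (ρ.comp (algebraMap K[X] (integralClosure K[X] F))) (ρ s) = 0 := by
      rw [← Polynomial.hom_eval₂, hP, map_zero]
    rw [hψ, ← Polynomial.eval₂_map] at h1
    have hint : IsIntegral K (ρ s) := ⟨P.map (evalRingHom c), hPm.map _, h1⟩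
    obtain ⟨k, hk⟩ := exists_algebraMap_eq_of_isIntegral hint
    exact ⟨k, hk.symm⟩
  -- general y
  have hy1 : w.valuation F (y : F) ≤ 1 := (Valuation.mem_valuationSubring_iff _ _).mp y.2
  obtain ⟨a, d, hd⟩ := w.exists_primeCompl_mul_eq_of_integer (y : F) hy1
  have hyd : y * φ d = φ a := Subtype.ext hd
  obtain ⟨ka, hka⟩ := hS a
  obtain ⟨kd, hkd⟩ := hS d
  have hρd : ρ d ≠ 0 := fun h => d.2 ((hker _).mp h)
  have hkd0 : kd ≠ 0 := by
    rintro rfl
    rw [map_zero] at hkd
    exact hρd hkd
  refine ⟨ka / kd, ?_⟩
  have h2 : IsLocalRing.residue v.toValuationSubring y * ρ d = ρ a := by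
    show IsLocalRing.residue v.toValuationSubring y * IsLocalRing.residue _ (φ d) =
      IsLocalRing.residue _ (φ a)
    rw [← map_mul, hyd]
  rw [map_div₀, ← hka, ← hkd, ← h2, mul_div_assoc, div_self hρd, mul_one]

theorem deg_ofHeightOneSpectrum (w : HeightOneSpectrum (integralClosure K[X] F)) :
    (Place.ofHeightOneSpectrum (K := K) (F := F) w).deg = 1 := by
  set v := Place.ofHeightOneSpectrum (K := K) (F := F) w with hv
  have hsurj : Function.Surjective (algebraMap K v.ResidueField) := by
    intro z
    obtain ⟨y, rfl⟩ := IsLocalRing.residue_surjective z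
    obtain ⟨k, hk⟩ := residue_surjective_ofHeightOneSpectrum w y
    exact ⟨k, hk.symm⟩
  have hbij : Function.Bijective (Algebra.linearMap K v.ResidueField) :=
    ⟨(algebraMap K v.ResidueField).injective, hsurj⟩
  rw [Place.deg, ← (LinearEquiv.ofBijective _ hbij).finrank_eq, Module.finrank_self]

/-- Inertia degrees over `(X - c)` are one. -/
theorem inertiaDeg_eq_one (c : K) (P : Ideal (integralClosure K[X] F)) [hP : P.IsPrime]
    [hlo : P.LiesOver (Ideal.span {X - C c})] :
    (Ideal.span {X - C c}).inertiaDeg' P = 1 := by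
  have hmax : (Ideal.span {X - C c} : Ideal K[X]).IsMaximal := (primeXSubC c).isMaximal
  rw [Ideal.inertiaDeg'_algebraMap]
  let _ : Field (K[X] ⧸ (Ideal.span {X - C c} : Ideal K[X])) := Ideal.Quotient.field _
  have hac : IsAlgClosed (K[X] ⧸ (Ideal.span {X - C c} : Ideal K[X])) :=
    IsAlgClosed.of_ringEquiv _ _ (quotientSpanXSubCAlgEquiv c).symm.toRingEquiv
  have hbij := IsAlgClosed.algebraMap_bijective_of_isIntegral
    (k := K[X] ⧸ (Ideal.span {X - C c} : Ideal K[X])) (K := (integralClosure K[X] F) ⧸ P)
  have hbij' : Function.Bijective (Algebra.linearMap (K[X] ⧸ (Ideal.span {X - C c} : Ideal K[X]))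
      ((integralClosure K[X] F) ⧸ P)) := hbij
  rw [← (LinearEquiv.ofBijective _ hbij').finrank_eq, Module.finrank_self]

open Classical in
/-- The places centred at `c`: they form a finite set and their ramification indices sum up to
the degree `[F : K(𝔵)]`. -/
theorem sum_ord_centre (c : K) :
    ∃ s : Finset (Place K F),
      (∀ v, v ∈ s ↔ 0 < v.ord (algebraMap K[X] F X - algebraMap K F c)) ∧
      ∑ v ∈ s, v.ord (algebraMap K[X] F X - algebraMap K F c) =
        (Module.finrank (RatFunc K) F : ℤ) := by
  set p : Ideal K[X] := Ideal.span {X - C c} with hp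
  have hp0 : p ≠ ⊥ := (primeXSubC c).ne_bot
  have hmax : p.IsMaximal := (primeXSubC c).isMaximal
  have hsum := Ideal.sum_ramification_inertia (integralClosure K[X] F) (RatFunc K) F hp0
  set T := IsDedekindDomain.primesOverFinset p (integralClosure K[X] F) with hT
  have hmem : ∀ P ∈ T, P.IsPrime ∧ P.LiesOver p := fun P hP =>
    (IsDedekindDomain.mem_primesOverFinset_iff hp0 _).mp hP
  have hne : ∀ P ∈ T, P ≠ ⊥ := by
    intro P hP hbot
    have h1 := (hmem P hP).2.over
    rw [hbot] at h1
    apply hp0
    rw [h1]
    exact Ideal.under_bot _ _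
  -- the place attached to `P ∈ T`
  let g : {P // P ∈ T} → Place K F := fun P =>
    Place.ofHeightOneSpectrum (K := K) (F := F)
      (⟨P.1, (hmem P.1 P.2).1, hne P.1 P.2⟩ : HeightOneSpectrum (integralClosure K[X] F))
  have hginj : Function.Injective g := by
    intro P Q h
    have := ofHeightOneSpectrum_injective (K := K) (F := F) h
    exact Subtype.ext (congrArg HeightOneSpectrum.asIdeal this)
  have hcmem : ∀ P : {P // P ∈ T},
      algebraMap K[X] (integralClosure K[X] F) (X - C c) ∈ P.1 := by
    intro P
    have h1 := (hmem P.1 P.2).2.over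
    have h2 : X - C c ∈ p := Ideal.subset_span rfl
    rw [h1] at h2
    exact h2
  have hord : ∀ P : {P // P ∈ T},
      (g P).ord (algebraMap K[X] F X - algebraMap K F c) = (p.ramificationIdx' P.1 : ℤ) :=
    fun P => ord_gen_sub_eq_ramificationIdx _ c (hcmem P)
  refine ⟨T.attach.image g, ?_, ?_⟩
  · intro v
    rw [Finset.mem_image]
    constructor
    · rintro ⟨P, -, rfl⟩
      exact (ord_gen_sub_pos_iff _ c).mpr (hcmem P)
    · intro hpos
      -- `𝔵 ∈ O_v`
      have hx : algebraMap K[X] F X ∈ v.toValuationSubring := by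
        have h1 : algebraMap K[X] F X - algebraMap K F c ∈ v.toValuationSubring :=
          (mem_iff_ord_nonneg v (gen_sub_ne_zero c)).mpr hpos.le
        have := v.toValuationSubring.add_mem _ _ h1 (v.algebraMap_mem' c)
        simpa using this
      obtain ⟨w, rfl⟩ := exists_heightOneSpectrum_of_gen_mem v hx
      have hcw := (ord_gen_sub_pos_iff w c).mp hpos
      have hlo := liesOver_primeXSubC w c hcw
      have hwT : w.asIdeal ∈ T := (IsDedekindDomain.mem_primesOverFinset_iff hp0 _).mpr ⟨w.isPrime, hlo⟩
      exact ⟨⟨w.asIdeal, hwT⟩, Finset.mem_attach _ _, rfl⟩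
  · rw [Finset.sum_image (fun P _ Q _ h => hginj h)]
    simp_rw [hord]
    rw [Finset.sum_attach T (fun P => (p.ramificationIdx' P : ℤ)), ← hsum, Nat.cast_sum]
    refine Finset.sum_congr rfl fun P hP => ?_
    have h1 := (hmem P hP).1
    have h2 := (hmem P hP).2
    rw [inertiaDeg_eq_one c P, mul_one]

end FunctionField

end Fermat.Agent.X0
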