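import Mathlib
import Fermat.Agent.X0.FF.Places
import Fermat.Agent.X0.FF.Chart

/-!
# X0 / FF5d (part 4): the finite chart

Setting of `FF/Places.lean`.  Integrality over `K[X]` and the trace dual of the integral closure of
`K[X]` in `F` in terms of the places at which `𝔵 = algebraMap K[X] F X` is regular.
-/

set_option autoImplicit false
set_option linter.unusedSectionVars false
set_option linter.style.haveILetI false

namespace Fermat.Agent.X0.ChartFin

open AlgebraicCurve IsDedekindDomain WithZero Polynomial

open scoped RatFunc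

variable {K F : Type*} [Field K] [Field F] [Algebra K F] [Algebra K[X] F] [IsScalarTower K K[X] F]
  [FaithfulSMul K[X] F] [FiniteDimensional (RatFunc K) F] [CharZero K]

attribute [local instance] isDedekindDomain_integralClosure isFractionRing_integralClosure
  finite_integralClosure

theorem gen_ne_zero : algebraMap K[X] F X ≠ 0 := by
  rw [Ne, map_eq_zero_iff _ (FaithfulSMul.algebraMap_injective K[X] F)]
  exact X_ne_zero

theorem ord_gen_nonneg (w : HeightOneSpectrum (integralClosure K[X] F)) :
    0 ≤ (Place.ofHeightOneSpectrum (K := K) (F := F) w).ord (algebraMap K[X] F X) := by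
  rw [← mem_iff_ord_nonneg _ gen_ne_zero]
  have := algebraMap_mem_ofHeightOneSpectrum (K := K) (F := F) w
    (algebraMap K[X] (integralClosure K[X] F) X)
  rwa [← IsScalarTower.algebraMap_apply K[X] (integralClosure K[X] F) F] at this

/-- **Finite chart, integrality**: `y` is integral over `K[X]` iff `y` is regular at all places
at which `𝔵` is regular. -/
theorem isIntegral_poly_iff (y : F) :
    IsIntegral K[X] y ↔
      ∀ v : Place K F, 0 ≤ v.ord (algebraMap K[X] F X) → y = 0 ∨ 0 ≤ v.ord y := by
  rw [Chart.isIntegral_iff_ord (K := K)]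
  constructor
  · intro h v hv
    obtain ⟨w, rfl⟩ := exists_heightOneSpectrum_of_gen_mem v
      ((mem_iff_ord_nonneg v gen_ne_zero).mpr hv)
    exact h w
  · intro h w
    exact h (Place.ofHeightOneSpectrum (K := K) (F := F) w) (ord_gen_nonneg w)

variable [IsAlgClosed K]

/-- the ramification index of a prime centred at `c` is `ord (𝔵 - c)` -/
theorem ramificationIdx_eq_ord (w : HeightOneSpectrum (integralClosure K[X] F)) (c : K)
    (hc : algebraMap K[X] (integralClosure K[X] F) (X - C c) ∈ w.asIdeal) :
    (w.asIdeal.ramificationIdx K[X] : ℤ) =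
      (Place.ofHeightOneSpectrum (K := K) (F := F) w).ord
        (algebraMap K[X] F X - algebraMap K F c) := by
  haveI := liesOver_primeXSubC w c hc
  rw [ord_gen_sub_eq_ramificationIdx w c hc,
    ← Ideal.ramificationIdx'_eq_ramificationIdx (primeXSubC c).asIdeal w.asIdeal
      (primeXSubC c).ne_bot]
  rfl

/-- **Finite chart, trace dual**: `Tr (y S) ⊆ K[X]` iff `ord_v y ≥ -(e_v - 1)` at all places `v`
with a finite centre `c`, where `e_v = ord_v (𝔵 - c)`. -/
theorem trace_mem_poly_iff (y : F) :
    (∀ b : integralClosure K[X] F,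
        Algebra.trace (RatFunc K) F (y * (b : F)) ∈ (algebraMap K[X] (RatFunc K)).range) ↔
      ∀ (v : Place K F) (c : K), 0 < v.ord (algebraMap K[X] F X - algebraMap K F c) →
        y = 0 ∨ -(v.ord (algebraMap K[X] F X - algebraMap K F c) - 1) ≤ v.ord y := by
  rw [Chart.trace_mem_iff_ord (K := K) (RatFunc K)]
  constructor
  · intro h v c hc
    have hx : algebraMap K[X] F X ∈ v.toValuationSubring := by
      have h1 : algebraMap K[X] F X - algebraMap K F c ∈ v.toValuationSubring :=
        (mem_iff_ord_nonneg v (gen_sub_ne_zero c)).mpr hc.le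
      have := v.toValuationSubring.add_mem _ _ h1 (v.algebraMap_mem' c)
      simpa using this
    obtain ⟨w, rfl⟩ := exists_heightOneSpectrum_of_gen_mem v hx
    have hcw := (ord_gen_sub_pos_iff w c).mp hc
    have := h w
    rwa [ramificationIdx_eq_ord w c hcw] at this
  · intro h w
    obtain ⟨c, hc⟩ := exists_centre w
    have := h (Place.ofHeightOneSpectrum (K := K) (F := F) w) c ((ord_gen_sub_pos_iff w c).mpr hc)
    rwa [← ramificationIdx_eq_ord w c hc] at this

end Fermat.Agent.X0.ChartFin
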