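import Mathlib
import Fermat.Agent.X0.FF.Places

/-!
# X0 / FF1 (part 3): function fields of one variable with an explicit generator `x`

`IsFFGen K x`: `x : F` is transcendental over `K` and `F` is finite over `K⟮x⟯`.
Main results (for `K` algebraically closed of characteristic zero):

* `IsFFGen.deg_eq_one`: every place has degree one;
* `IsFFGen.exists_centre`, `centre_unique`, `ord_sub_const_of_ord_neg`: centres of places;
* `IsFFGen.sum_ord_centre`, `IsFFGen.sum_ord_infty`: the places over a centre `c` (resp. the poles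
  of `x`) form a finite set and the ramification indices sum up to `[F : K(x)]`.
-/

set_option autoImplicit false
set_option linter.unusedSectionVars false
set_option linter.style.haveILetI false

namespace Fermat.Agent.X0

open AlgebraicCurve IsDedekindDomain WithZero Polynomial IntermediateField

open scoped RatFunc

section Wrapper

variable {K F : Type*} [Field K] [Field F] [Algebra K F]

/-- The `K[X]`-algebra structure on `F` with `X ↦ x`. -/
@[reducible] noncomputable def polyAlgebra (K : Type*) {F : Type*} [Field K] [Field F]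
    [Algebra K F] (x : F) : Algebra K[X] F :=
  (aeval x : K[X] →ₐ[K] F).toRingHom.toAlgebra

theorem polyAlgebra_algebraMap (x : F) (p : K[X]) :
    letI := polyAlgebra K x
    algebraMap K[X] F p = aeval x p := rfl

theorem polyAlgebra_isScalarTower (x : F) :
    letI := polyAlgebra K x
    IsScalarTower K K[X] F := by
  letI := polyAlgebra K x
  refine IsScalarTower.of_algebraMap_eq fun a => ?_
  show algebraMap K F a = aeval x (C a)
  rw [aeval_C]

theorem polyAlgebra_faithfulSMul {x : F} (hx : Transcendental K x) :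
    letI := polyAlgebra K x
    FaithfulSMul K[X] F := by
  letI := polyAlgebra K x
  rw [faithfulSMul_iff_algebraMap_injective]
  exact transcendental_iff_injective.mp hx

/-- Compatibility of `RatFunc.liftAlgebra` with `K⟮x⟯`. -/
theorem polyAlgebra_algebraMap_ratFunc {x : F} (hx : Transcendental K x) (r : RatFunc K) :
    letI := polyAlgebra K x
    haveI := polyAlgebra_faithfulSMul hx
    algebraMap (RatFunc K) F r = ((RatFunc.algEquivOfTranscendental x hx r : K⟮x⟯) : F) := by
  letI := polyAlgebra K x
  haveI := polyAlgebra_faithfulSMul hx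
  have key : (algebraMap (RatFunc K) F) =
      (algebraMap K⟮x⟯ F).comp (RatFunc.algEquivOfTranscendental x hx : RatFunc K →+* K⟮x⟯) := by
    refine IsLocalization.ringHom_ext (nonZeroDivisors K[X]) ?_
    ext p
    · simp only [RingHom.comp_apply]
      rw [← IsScalarTower.algebraMap_apply K[X] (RatFunc K) F]
      show _ = algebraMap K⟮x⟯ F (RatFunc.algEquivOfTranscendental x hx
        (algebraMap K[X] (RatFunc K) (C p)))
      rw [RatFunc.algEquivOfTranscendental_algebraMap]
      simp [polyAlgebra_algebraMap]
    · simp only [RingHom.comp_apply]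
      rw [← IsScalarTower.algebraMap_apply K[X] (RatFunc K) F]
      show _ = algebraMap K⟮x⟯ F (RatFunc.algEquivOfTranscendental x hx
        (algebraMap K[X] (RatFunc K) X))
      rw [RatFunc.algEquivOfTranscendental_algebraMap]
      simp [polyAlgebra_algebraMap]
  exact DFunLike.congr_fun key r

theorem polyAlgebra_comp_eq {x : F} (hx : Transcendental K x) :
    letI := polyAlgebra K x
    haveI := polyAlgebra_faithfulSMul hx
    (algebraMap (RatFunc K) F).comp
        ((RatFunc.algEquivOfTranscendental x hx).symm : K⟮x⟯ ≃+* RatFunc K) =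
      (RingEquiv.refl F : F →+* F).comp (algebraMap K⟮x⟯ F) := by
  letI := polyAlgebra K x
  haveI := polyAlgebra_faithfulSMul hx
  ext y
  simp only [RingHom.comp_apply]
  have := polyAlgebra_algebraMap_ratFunc hx ((RatFunc.algEquivOfTranscendental x hx).symm y)
  rw [AlgEquiv.apply_symm_apply] at this
  exact this

theorem polyAlgebra_finiteDimensional {x : F} (hx : Transcendental K x)
    [FiniteDimensional K⟮x⟯ F] :
    letI := polyAlgebra K x
    haveI := polyAlgebra_faithfulSMul hx
    FiniteDimensional (RatFunc K) F := by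
  letI := polyAlgebra K x
  haveI := polyAlgebra_faithfulSMul hx
  exact Module.Finite.of_equiv_equiv
    ((RatFunc.algEquivOfTranscendental x hx).symm : K⟮x⟯ ≃+* RatFunc K) (RingEquiv.refl F)
    (polyAlgebra_comp_eq hx)

theorem polyAlgebra_finrank {x : F} (hx : Transcendental K x) :
    letI := polyAlgebra K x
    haveI := polyAlgebra_faithfulSMul hx
    Module.finrank (RatFunc K) F = Module.finrank K⟮x⟯ F := by
  letI := polyAlgebra K x
  haveI := polyAlgebra_faithfulSMul hx
  exact (Algebra.finrank_eq_of_equiv_equiv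
    ((RatFunc.algEquivOfTranscendental x hx).symm : K⟮x⟯ ≃+* RatFunc K) (RingEquiv.refl F)
    (polyAlgebra_comp_eq hx)).symm

/-- `x` generates `F` as a function field of one variable over `K`. -/
structure IsFFGen (K : Type*) {F : Type*} [Field K] [Field F] [Algebra K F] (x : F) : Prop where
  transcendental : Transcendental K x
  finite : FiniteDimensional K⟮x⟯ F

theorem adjoin_simple_inv (x : F) : K⟮x⁻¹⟯ = K⟮x⟯ := by
  apply le_antisymm
  · rw [adjoin_simple_le_iff]
    exact inv_mem (mem_adjoin_simple_self K x)
  · rw [adjoin_simple_le_iff]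
    have := inv_mem (mem_adjoin_simple_self K x⁻¹)
    rwa [inv_inv] at this

theorem IsFFGen.inv {x : F} (h : IsFFGen K x) : IsFFGen K x⁻¹ where
  transcendental := fun halg => h.transcendental (IsAlgebraic.inv_iff.mp halg)
  finite := by
    have := h.finite
    rw [adjoin_simple_inv]
    exact this

theorem IsFFGen.finrank_inv {x : F} (_h : IsFFGen K x) :
    Module.finrank K⟮x⁻¹⟯ F = Module.finrank K⟮x⟯ F := by
  rw [adjoin_simple_inv]

variable [IsAlgClosed K] [CharZero K]

/-- Sum of the ramification indices over a finite centre. -/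
theorem IsFFGen.sum_ord_centre {x : F} (h : IsFFGen K x) (c : K) :
    ∃ s : Finset (Place K F),
      (∀ v, v ∈ s ↔ 0 < v.ord (x - algebraMap K F c)) ∧
      ∑ v ∈ s, v.ord (x - algebraMap K F c) = (Module.finrank K⟮x⟯ F : ℤ) := by
  letI := polyAlgebra K x
  haveI := polyAlgebra_isScalarTower (K := K) x
  haveI := polyAlgebra_faithfulSMul h.transcendental
  haveI := h.finite
  haveI := polyAlgebra_finiteDimensional h.transcendental
  have := Fermat.Agent.X0.sum_ord_centre (K := K) (F := F) c
  rw [polyAlgebra_finrank h.transcendental] at this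
  simpa [polyAlgebra_algebraMap] using this

/-- Sum of the pole orders of `x`. -/
theorem IsFFGen.sum_ord_infty {x : F} (h : IsFFGen K x) :
    ∃ s : Finset (Place K F),
      (∀ v, v ∈ s ↔ v.ord x < 0) ∧
      ∑ v ∈ s, (-v.ord x) = (Module.finrank K⟮x⟯ F : ℤ) := by
  obtain ⟨s, hs1, hs2⟩ := h.inv.sum_ord_centre 0
  simp only [map_zero, sub_zero, Place.ord_inv] at hs1 hs2
  rw [h.finrank_inv] at hs2
  refine ⟨s, fun v => ?_, hs2⟩
  rw [hs1]
  omega

theorem IsFFGen.ne_zero {x : F} (h : IsFFGen K x) : x ≠ 0 := by
  rintro rfl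
  exact h.transcendental isAlgebraic_zero

/-- Every place has degree one. -/
theorem IsFFGen.deg_eq_one {x : F} (h : IsFFGen K x) (v : Place K F) : v.deg = 1 := by
  by_cases hx : x ∈ v.toValuationSubring
  · letI := polyAlgebra K x
    haveI := polyAlgebra_isScalarTower (K := K) x
    haveI := polyAlgebra_faithfulSMul h.transcendental
    haveI := h.finite
    haveI := polyAlgebra_finiteDimensional h.transcendental
    obtain ⟨w, rfl⟩ := exists_heightOneSpectrum_of_gen_mem v (by simpa [polyAlgebra_algebraMap])
    exact deg_ofHeightOneSpectrum w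
  · have hx' : x⁻¹ ∈ v.toValuationSubring := (v.toValuationSubring.mem_or_inv_mem x).resolve_left hx
    have h' := h.inv
    letI := polyAlgebra K x⁻¹
    haveI := polyAlgebra_isScalarTower (K := K) x⁻¹
    haveI := polyAlgebra_faithfulSMul h'.transcendental
    haveI := h'.finite
    haveI := polyAlgebra_finiteDimensional h'.transcendental
    obtain ⟨w, rfl⟩ := exists_heightOneSpectrum_of_gen_mem v (by simpa [polyAlgebra_algebraMap])
    exact deg_ofHeightOneSpectrum w

/-- A place where `x` is regular has a centre. -/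
theorem IsFFGen.exists_centre {x : F} (h : IsFFGen K x) (v : Place K F) (hx : 0 ≤ v.ord x) :
    ∃ c : K, 0 < v.ord (x - algebraMap K F c) := by
  have hx' : x ∈ v.toValuationSubring := (mem_iff_ord_nonneg v h.ne_zero).mpr hx
  letI := polyAlgebra K x
  haveI := polyAlgebra_isScalarTower (K := K) x
  haveI := polyAlgebra_faithfulSMul h.transcendental
  haveI := h.finite
  haveI := polyAlgebra_finiteDimensional h.transcendental
  obtain ⟨w, rfl⟩ := exists_heightOneSpectrum_of_gen_mem v (by simpa [polyAlgebra_algebraMap])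
  obtain ⟨c, hc⟩ := Fermat.Agent.X0.exists_centre w
  refine ⟨c, ?_⟩
  have := (ord_gen_sub_pos_iff w c).mpr hc
  simpa [polyAlgebra_algebraMap] using this

omit [IsAlgClosed K] [CharZero K] in
/-- The centre of a place is unique. -/
theorem centre_unique (v : Place K F) {x : F} {c c' : K}
    (h1 : 0 < v.ord (x - algebraMap K F c)) (h2 : 0 < v.ord (x - algebraMap K F c')) : c = c' := by
  by_contra hne
  have hx1 : x - algebraMap K F c ≠ 0 := by
    intro h0; rw [h0, v.ord_zero] at h1; exact lt_irrefl _ h1
  have hx2 : x - algebraMap K F c' ≠ 0 := by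
    intro h0; rw [h0, v.ord_zero] at h2; exact lt_irrefl _ h2
  have hm1 : x - algebraMap K F c ∈ v.toValuationSubring := (mem_iff_ord_nonneg v hx1).mpr h1.le
  have hm2 : x - algebraMap K F c' ∈ v.toValuationSubring := (mem_iff_ord_nonneg v hx2).mpr h2.le
  have hi1 := (ord_pos_iff_mem_maximalIdeal v ⟨_, hm1⟩ hx1).mp h1
  have hi2 := (ord_pos_iff_mem_maximalIdeal v ⟨_, hm2⟩ hx2).mp h2
  have hsub := Ideal.sub_mem _ hi2 hi1
  have hd : algebraMap K F (c - c') ≠ 0 := by
    rw [Ne, map_eq_zero, sub_eq_zero]; exact hne
  have hmem : algebraMap K F (c - c') ∈ v.toValuationSubring := v.algebraMap_mem' _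
  have heq : (⟨x - algebraMap K F c', hm2⟩ - ⟨x - algebraMap K F c, hm1⟩ : v.toValuationSubring) =
      ⟨algebraMap K F (c - c'), hmem⟩ := by
    ext
    simp only [AddSubgroupClass.coe_sub, map_sub]
    ring
  rw [heq] at hsub
  have hpos := (ord_pos_iff_mem_maximalIdeal v ⟨_, hmem⟩ hd).mpr hsub
  rw [ord_algebraMap] at hpos
  exact lt_irrefl _ hpos

omit [IsAlgClosed K] [CharZero K] in
/-- At a pole of `x`, all `x - c` have the same order as `x`. -/
theorem ord_sub_const_of_ord_neg (v : Place K F) {x : F} (hx : v.ord x < 0) (c : K) :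
    v.ord (x - algebraMap K F c) = v.ord x := by
  have hx0 : x ≠ 0 := by
    rintro rfl
    rw [v.ord_zero] at hx
    exact lt_irrefl _ hx
  have hinv0 : x⁻¹ ≠ 0 := inv_ne_zero hx0
  have hinvpos : 0 < v.ord x⁻¹ := by rw [v.ord_inv]; omega
  have hinvmem : x⁻¹ ∈ v.toValuationSubring := (mem_iff_ord_nonneg v hinv0).mpr hinvpos.le
  have hinvmax := (ord_pos_iff_mem_maximalIdeal v ⟨_, hinvmem⟩ hinv0).mp hinvpos
  -- the unit `1 - c x⁻¹`
  have hcmem : algebraMap K F c ∈ v.toValuationSubring := v.algebraMap_mem' c
  set u : v.toValuationSubring := 1 - ⟨algebraMap K F c, hcmem⟩ * ⟨x⁻¹, hinvmem⟩ with hu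
  have hunit : IsUnit u := by
    by_contra hnu
    have hum : u ∈ IsLocalRing.maximalIdeal v.toValuationSubring :=
      (IsLocalRing.mem_maximalIdeal _).mpr hnu
    have h1 : (1 : v.toValuationSubring) ∈ IsLocalRing.maximalIdeal v.toValuationSubring := by
      have := Ideal.add_mem _ hum (Ideal.mul_mem_left _ ⟨algebraMap K F c, hcmem⟩ hinvmax)
      rwa [hu, sub_add_cancel] at this
    exact (Ideal.ne_top_iff_one _).mp (IsLocalRing.maximalIdeal.isMaximal _).ne_top h1
  obtain ⟨u', hu'⟩ := hunit
  have hu0 : v.ord (u : F) = 0 := by rw [← hu']; exact v.ord_coe_unit u'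
  have hfac : x - algebraMap K F c = x * (u : F) := by
    simp only [hu, AddSubgroupClass.coe_sub, OneMemClass.coe_one, MulMemClass.coe_mul]
    field_simp
  have hune : (u : F) ≠ 0 := by
    intro h0
    have : u = 0 := Subtype.ext h0
    rw [this] at hu'
    exact (u'.ne_zero) hu'
  rw [hfac, v.ord_mul hx0 hune, hu0, add_zero]

end Wrapper

end Fermat.Agent.X0
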