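import Mathlib
import Fermat.Prelude.Def_AlgebraicCurve_DivisorClassGroup

/-!
# X0 / FF5d (part 1): the place at infinity of `K(X)`

`placeInfty K : Place K (RatFunc K)` has valuation ring `{a | a = 0 ∨ a.intDegree ≤ 0}`, uniformizer
`X⁻¹`, `ord a = - a.intDegree` and residue field `K`.  Its valuation ring `Oinf K` is the discrete
valuation ring used at infinity in the Dedekind–Weber / Riemann–Roch argument.
-/

set_option autoImplicit false

namespace Fermat.Agent.X0.Infinity

open AlgebraicCurve Polynomial WithZero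

open scoped Classical

variable (K : Type*) [Field K]

/-- the valuation ring at infinity of `K(X)` -/
noncomputable def vsInfty : ValuationSubring (RatFunc K) :=
  (RatFunc.inftyValuation K).valuationSubring

theorem mem_vsInfty_iff (a : RatFunc K) : a ∈ vsInfty K ↔ a = 0 ∨ a.intDegree ≤ 0 := by
  rw [vsInfty, Valuation.mem_valuationSubring_iff, RatFunc.inftyValuation_apply]
  by_cases ha : a = 0
  · simp [ha, RatFunc.inftyValuationDef]
  · rw [RatFunc.inftyValuation_of_nonzero K ha, ← exp_zero, exp_le_exp]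
    simp [ha]

variable {K}

theorem mem_vsInfty_of_intDegree_le {a : RatFunc K} (h : a.intDegree ≤ 0) : a ∈ vsInfty K :=
  (mem_vsInfty_iff K a).mpr (Or.inr h)

theorem intDegree_le_of_mem {a : RatFunc K} (h : a ∈ vsInfty K) : a.intDegree ≤ 0 := by
  rcases (mem_vsInfty_iff K a).mp h with rfl | h
  · simp
  · exact h

theorem intDegree_div {a b : RatFunc K} (ha : a ≠ 0) (hb : b ≠ 0) :
    (a / b).intDegree = a.intDegree - b.intDegree := by
  rw [div_eq_mul_inv, RatFunc.intDegree_mul ha (inv_ne_zero hb), RatFunc.intDegree_inv]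
  ring

theorem intDegree_zpow (a : RatFunc K) (n : ℤ) : (a ^ n).intDegree = n * a.intDegree := by
  rcases eq_or_ne a 0 with rfl | ha
  · rcases eq_or_ne n 0 with rfl | hn
    · simp
    · simp [zero_zpow n hn]
  induction n using Int.induction_on with
  | zero => simp
  | succ n ih =>
    rw [zpow_add_one₀ ha, RatFunc.intDegree_mul (zpow_ne_zero _ ha) ha, ih]
    ring
  | pred n ih =>
    rw [zpow_sub_one₀ ha, RatFunc.intDegree_mul (zpow_ne_zero _ ha) (inv_ne_zero ha), ih,
      RatFunc.intDegree_inv]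
    ring

variable (K)

theorem isPrincipalIdealRing_vsInfty : IsPrincipalIdealRing (vsInfty K) := by
  refine ⟨fun I => ?_⟩
  by_cases hI : I = ⊥
  · rw [hI]
    exact bot_isPrincipal
  have hex : ∃ n : ℕ, ∃ a ∈ I, a ≠ 0 ∧ (a : RatFunc K).intDegree = -(n : ℤ) := by
    obtain ⟨a, haI, ha0⟩ := Submodule.exists_mem_ne_zero_of_ne_bot hI
    have hle := intDegree_le_of_mem a.2
    exact ⟨(-(a : RatFunc K).intDegree).toNat, a, haI, ha0, by omega⟩
  obtain ⟨a₀, ha₀I, ha₀0, ha₀d⟩ := Nat.find_spec hex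
  have ha₀0' : (a₀ : RatFunc K) ≠ 0 := fun h => ha₀0 (Subtype.ext h)
  refine ⟨a₀, le_antisymm ?_ ?_⟩
  · intro a haI
    rcases eq_or_ne a 0 with rfl | ha0
    · exact Submodule.zero_mem _
    have ha0' : (a : RatFunc K) ≠ 0 := fun h => ha0 (Subtype.ext h)
    have hle := intDegree_le_of_mem a.2
    have hmin : Nat.find hex ≤ (-(a : RatFunc K).intDegree).toNat :=
      Nat.find_min' hex ⟨a, haI, ha0, by omega⟩
    have hq : (a : RatFunc K) / a₀ ∈ vsInfty K := by
      apply mem_vsInfty_of_intDegree_le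
      rw [intDegree_div ha0' ha₀0', ha₀d]
      omega
    rw [Submodule.mem_span_singleton]
    refine ⟨⟨_, hq⟩, ?_⟩
    apply Subtype.ext
    show (a : RatFunc K) / a₀ * a₀ = a
    rw [div_mul_cancel₀ _ ha₀0']
  · rw [Submodule.span_singleton_le_iff_mem]
    exact ha₀I

/-- **The place at infinity of `K(X) / K`.** -/
noncomputable def placeInfty : Place K (RatFunc K) where
  toValuationSubring := vsInfty K
  algebraMap_mem' a := by
    apply mem_vsInfty_of_intDegree_le
    rw [RatFunc.algebraMap_eq_C, RatFunc.intDegree_C]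
  ne_top' := by
    intro h
    have hX : (RatFunc.X : RatFunc K) ∈ vsInfty K := by rw [h]; trivial
    have := intDegree_le_of_mem hX
    rw [RatFunc.intDegree_X] at this
    omega
  isPrincipalIdealRing' := isPrincipalIdealRing_vsInfty K

/-- The discrete valuation ring at infinity. -/
abbrev Oinf : Type _ := (placeInfty K).toValuationSubring

theorem mem_Oinf_iff (a : RatFunc K) :
    a ∈ (placeInfty K).toValuationSubring ↔ a = 0 ∨ a.intDegree ≤ 0 :=
  mem_vsInfty_iff K a

/-- the uniformizer `X⁻¹` at infinity -/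
noncomputable def uInf : Oinf K :=
  ⟨(RatFunc.X : RatFunc K)⁻¹, mem_vsInfty_of_intDegree_le (by
    rw [RatFunc.intDegree_inv, RatFunc.intDegree_X]; omega)⟩

@[simp] theorem coe_uInf : ((uInf K : Oinf K) : RatFunc K) = (RatFunc.X : RatFunc K)⁻¹ := rfl

variable {K}

theorem isUnit_Oinf_iff (a : Oinf K) :
    IsUnit a ↔ (a : RatFunc K) ≠ 0 ∧ (a : RatFunc K).intDegree = 0 := by
  constructor
  · rintro ⟨u, rfl⟩
    have h1 : ((u : Oinf K) : RatFunc K) * (((u⁻¹ : (Oinf K)ˣ) : Oinf K) : RatFunc K) = 1 := by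
      rw [← MulMemClass.coe_mul, Units.mul_inv]
      rfl
    have hu0 : ((u : Oinf K) : RatFunc K) ≠ 0 := left_ne_zero_of_mul_eq_one h1
    have hv0 : (((u⁻¹ : (Oinf K)ˣ) : Oinf K) : RatFunc K) ≠ 0 := right_ne_zero_of_mul_eq_one h1
    have hd := congrArg RatFunc.intDegree h1
    rw [RatFunc.intDegree_mul hu0 hv0, RatFunc.intDegree_one] at hd
    have h2 := intDegree_le_of_mem (u : Oinf K).2
    have h3 := intDegree_le_of_mem ((u⁻¹ : (Oinf K)ˣ) : Oinf K).2
    exact ⟨hu0, by omega⟩
  · rintro ⟨h0, hd⟩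
    have hinv : (a : RatFunc K)⁻¹ ∈ vsInfty K := by
      apply mem_vsInfty_of_intDegree_le
      rw [RatFunc.intDegree_inv, hd]
      simp
    refine IsUnit.of_mul_eq_one ⟨_, hinv⟩ ?_
    apply Subtype.ext
    show (a : RatFunc K) * (a : RatFunc K)⁻¹ = 1
    exact mul_inv_cancel₀ h0

theorem mem_maximalIdeal_Oinf_iff (a : Oinf K) :
    a ∈ IsLocalRing.maximalIdeal (Oinf K) ↔
      (a : RatFunc K) = 0 ∨ (a : RatFunc K).intDegree < 0 := by
  rw [IsLocalRing.mem_maximalIdeal, mem_nonunits_iff, isUnit_Oinf_iff]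
  have hle := intDegree_le_of_mem a.2
  constructor
  · intro h
    by_cases h0 : (a : RatFunc K) = 0
    · exact Or.inl h0
    · right
      by_contra hcon
      exact h ⟨h0, by omega⟩
  · rintro (h | h) ⟨h0, hd⟩
    · exact h0 h
    · omega

variable (K)

theorem irreducible_uInf : Irreducible (uInf K) := by
  rw [IsDiscreteValuationRing.irreducible_iff_uniformizer]
  apply le_antisymm
  · intro a ha
    rw [mem_maximalIdeal_Oinf_iff] at ha
    rw [Ideal.mem_span_singleton]
    have hq : (a : RatFunc K) * RatFunc.X ∈ vsInfty K := by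
      rcases ha with h | h
      · rw [h, zero_mul]; exact (vsInfty K).zero_mem
      · have h0 : (a : RatFunc K) ≠ 0 := by
          intro h0; rw [h0, RatFunc.intDegree_zero] at h; exact lt_irrefl _ h
        apply mem_vsInfty_of_intDegree_le
        rw [RatFunc.intDegree_mul h0 RatFunc.X_ne_zero, RatFunc.intDegree_X]
        omega
    refine ⟨⟨_, hq⟩, ?_⟩
    apply Subtype.ext
    show (a : RatFunc K) = (RatFunc.X : RatFunc K)⁻¹ * ((a : RatFunc K) * RatFunc.X)
    rw [mul_comm, mul_assoc, mul_inv_cancel₀ RatFunc.X_ne_zero, mul_one]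
  · rw [Ideal.span_singleton_le_iff_mem, mem_maximalIdeal_Oinf_iff]
    right
    rw [coe_uInf, RatFunc.intDegree_inv, RatFunc.intDegree_X]
    omega

/-- `ord_∞ a = - deg a`. -/
theorem ord_placeInfty {a : RatFunc K} (ha : a ≠ 0) : (placeInfty K).ord a = -a.intDegree := by
  obtain ⟨u, hu⟩ := (placeInfty K).exists_unit_mul_zpow ha (irreducible_uInf K)
  have hd := congrArg RatFunc.intDegree hu
  have hu0 : ((u : Oinf K) : RatFunc K) ≠ 0 := ((isUnit_Oinf_iff _).mp u.isUnit).1
  have hud : ((u : Oinf K) : RatFunc K).intDegree = 0 := ((isUnit_Oinf_iff _).mp u.isUnit).2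
  have hπ0 : ((uInf K : Oinf K) : RatFunc K) ≠ 0 := by
    rw [coe_uInf]; exact inv_ne_zero RatFunc.X_ne_zero
  rw [RatFunc.intDegree_mul hu0 (zpow_ne_zero _ hπ0), hud, intDegree_zpow, coe_uInf,
    RatFunc.intDegree_inv, RatFunc.intDegree_X] at hd
  omega

/-- The residue field at infinity is `K`. -/
theorem residue_Oinf (y : Oinf K) :
    ∃ c : K, y - algebraMap K (Oinf K) c ∈ IsLocalRing.maximalIdeal (Oinf K) := by
  have hle := intDegree_le_of_mem y.2
  by_cases hy : (y : RatFunc K) = 0 ∨ (y : RatFunc K).intDegree < 0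
  · refine ⟨0, ?_⟩
    rw [map_zero, sub_zero, mem_maximalIdeal_Oinf_iff]
    exact hy
  push Not at hy
  obtain ⟨hy0, hyd⟩ := hy
  have hd0 : (y : RatFunc K).intDegree = 0 := by omega
  set p := (y : RatFunc K).num with hp
  set q := (y : RatFunc K).denom with hq
  have hq0 : q ≠ 0 := RatFunc.denom_ne_zero _
  have hqm : q.Monic := RatFunc.monic_denom _
  have hp0 : p ≠ 0 := RatFunc.num_ne_zero hy0
  have hdeg : p.natDegree = q.natDegree := by
    have := hd0
    rw [RatFunc.intDegree, ← hp, ← hq] at this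
    omega
  refine ⟨p.leadingCoeff, ?_⟩
  rw [mem_maximalIdeal_Oinf_iff]
  by_cases hz : ((y - algebraMap K (Oinf K) p.leadingCoeff : Oinf K) : RatFunc K) = 0
  · exact Or.inl hz
  right
  have hyq : (y : RatFunc K) = algebraMap K[X] (RatFunc K) p / algebraMap K[X] (RatFunc K) q :=
    (RatFunc.num_div_denom _).symm
  have hq0' : algebraMap K[X] (RatFunc K) q ≠ 0 := by
    rwa [Ne, map_eq_zero_iff _ (IsFractionRing.injective K[X] (RatFunc K))]
  have hrepr : ((y - algebraMap K (Oinf K) p.leadingCoeff : Oinf K) : RatFunc K) =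
      algebraMap K[X] (RatFunc K) (p - C p.leadingCoeff * q) / algebraMap K[X] (RatFunc K) q := by
    show (y : RatFunc K) - algebraMap K (RatFunc K) p.leadingCoeff = _
    rw [hyq, map_sub, map_mul, sub_div, mul_div_assoc, div_self hq0', mul_one,
      RatFunc.algebraMap_eq_C, RatFunc.algebraMap_C]
  have hr0 : p - C p.leadingCoeff * q ≠ 0 := by
    intro h0
    apply hz
    rw [hrepr, h0, map_zero, zero_div]
  have hr0' : algebraMap K[X] (RatFunc K) (p - C p.leadingCoeff * q) ≠ 0 := by
    rwa [Ne, map_eq_zero_iff _ (IsFractionRing.injective K[X] (RatFunc K))]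
  rw [hrepr, intDegree_div hr0' hq0', RatFunc.intDegree_polynomial, RatFunc.intDegree_polynomial]
  have hlt : (p - C p.leadingCoeff * q).degree < p.degree := by
    apply Polynomial.degree_sub_lt_left
    · rw [Polynomial.degree_C_mul (leadingCoeff_ne_zero.mpr hp0),
        Polynomial.degree_eq_natDegree hp0, Polynomial.degree_eq_natDegree hq0, hdeg]
    · exact hp0
    · rw [Polynomial.leadingCoeff_mul, Polynomial.leadingCoeff_C, hqm.leadingCoeff, mul_one]
  have hlt' : (p - C p.leadingCoeff * q).natDegree < p.natDegree :=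
    Polynomial.natDegree_lt_natDegree hr0 hlt
  omega

end Fermat.Agent.X0.Infinity
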