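import Mathlib
import Fermat.Agent.X0.FF.Places
import Fermat.Agent.X0.FF.FunctionField
import Fermat.Agent.X0.FF.Infinity
import Fermat.Agent.X0.FF.Chart

/-!
# X0 / FF5d (part 3): the chart at infinity

Setting of `FF/Places.lean`: `F` is a `K[X]`-algebra (`𝔵 = algebraMap K[X] F X`), finite over
`RatFunc K`.  The integral closure `Sinf` of `Oinf K` (the valuation ring of the place at infinity
of `K(X)`) in `F` is a Dedekind domain whose primes are the poles of `𝔵`.
-/

set_option autoImplicit false
set_option linter.unusedSectionVars false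
set_option linter.style.haveILetI false

namespace Fermat.Agent.X0.ChartInf

open AlgebraicCurve IsDedekindDomain WithZero Polynomial Infinity

variable {K F : Type*} [Field K] [Field F] [Algebra K F] [Algebra K[X] F] [IsScalarTower K K[X] F]
  [FaithfulSMul K[X] F] [Algebra (RatFunc K) F] [IsScalarTower K[X] (RatFunc K) F]

/-- `K → K(X) → F` is the structure map. -/
theorem isScalarTower_ratFunc : IsScalarTower K (RatFunc K) F := by
  refine IsScalarTower.of_algebraMap_eq fun c => ?_
  rw [IsScalarTower.algebraMap_apply K K[X] F, IsScalarTower.algebraMap_apply K[X] (RatFunc K) F,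
    ← IsScalarTower.algebraMap_apply K K[X] (RatFunc K)]

/-- the `Oinf K`-algebra structure of `F` (to be used with `letI`) -/
@[reducible] noncomputable def algOinf (K F : Type*) [Field K] [Field F] [Algebra (RatFunc K) F] :
    Algebra (Oinf K) F :=
  ((algebraMap (RatFunc K) F).comp (algebraMap (Oinf K) (RatFunc K))).toAlgebra

theorem isScalarTower_algOinf (K F : Type*) [Field K] [Field F] [Algebra (RatFunc K) F] :
    letI := algOinf K F
    IsScalarTower (Oinf K) (RatFunc K) F := by
  letI := algOinf K F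
  exact IsScalarTower.of_algebraMap_eq fun a => rfl

variable [Algebra (Oinf K) F] [IsScalarTower (Oinf K) (RatFunc K) F]

attribute [local instance] isScalarTower_ratFunc

theorem isScalarTower_K_Oinf : IsScalarTower K (Oinf K) F := by
  refine IsScalarTower.of_algebraMap_eq fun c => ?_
  rw [IsScalarTower.algebraMap_apply (Oinf K) (RatFunc K) F,
    ← IsScalarTower.algebraMap_apply K (Oinf K) (RatFunc K),
    ← IsScalarTower.algebraMap_apply K (RatFunc K) F]

attribute [local instance] isScalarTower_K_Oinf

theorem algebraMap_Oinf_apply (a : Oinf K) :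
    algebraMap (Oinf K) F a = algebraMap (RatFunc K) F (a : RatFunc K) :=
  IsScalarTower.algebraMap_apply (Oinf K) (RatFunc K) F a

/-! ### Orders of rational functions at a pole of `𝔵` -/

theorem ord_multiset_prod (v : Place K F) (s : Multiset F) (hs : ∀ f ∈ s, f ≠ 0) :
    v.ord s.prod = (s.map v.ord).sum := by
  induction s using Multiset.induction_on with
  | empty => simp
  | cons a s ih =>
    have ha : a ≠ 0 := hs a (Multiset.mem_cons_self a s)
    have hs' : ∀ f ∈ s, f ≠ 0 := fun f hf => hs f (Multiset.mem_cons_of_mem hf)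
    have hprod : s.prod ≠ 0 := Multiset.prod_ne_zero fun h0 => hs' 0 h0 rfl
    rw [Multiset.prod_cons, v.ord_mul ha hprod, ih hs', Multiset.map_cons, Multiset.sum_cons]

variable [IsAlgClosed K]

theorem ord_algebraMap_poly_of_pole (v : Place K F) (hv : v.ord (algebraMap K[X] F X) < 0)
    {p : K[X]} (hp : p ≠ 0) :
    v.ord (algebraMap K[X] F p) = (p.natDegree : ℤ) * v.ord (algebraMap K[X] F X) := by
  have hs := IsAlgClosed.splits p
  have hlc : p.leadingCoeff ≠ 0 := leadingCoeff_ne_zero.mpr hp
  conv_lhs => rw [hs.eq_prod_roots]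
  rw [map_mul, map_multiset_prod, Multiset.map_map]
  have hC : algebraMap K[X] F (C p.leadingCoeff) = algebraMap K F p.leadingCoeff := by
    rw [← Polynomial.algebraMap_eq, ← IsScalarTower.algebraMap_apply K K[X] F]
  have hterm : ∀ r : K, algebraMap K[X] F (X - C r) =
      algebraMap K[X] F X - algebraMap K F r := fun r => by
    rw [map_sub, ← Polynomial.algebraMap_eq, ← IsScalarTower.algebraMap_apply K K[X] F]
  have hne : ∀ f ∈ Multiset.map (⇑(algebraMap K[X] F) ∘ fun x => X - C x) p.roots, f ≠ 0 := by
    intro f hf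
    obtain ⟨r, -, rfl⟩ := Multiset.mem_map.mp hf
    rw [Function.comp_apply, Ne, map_eq_zero_iff _ (FaithfulSMul.algebraMap_injective K[X] F)]
    exact X_sub_C_ne_zero r
  have hC0 : algebraMap K F p.leadingCoeff ≠ 0 := by simpa using hlc
  rw [hC, v.ord_mul hC0 (Multiset.prod_ne_zero fun h0 => hne 0 h0 rfl), ord_algebraMap,
    zero_add, ord_multiset_prod v _ hne, Multiset.map_map]
  have hconst : ∀ r ∈ p.roots, (v.ord ∘ ⇑(algebraMap K[X] F) ∘ fun x => X - C x) r =
      v.ord (algebraMap K[X] F X) := by
    intro r _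
    rw [Function.comp_apply, Function.comp_apply, hterm, ord_sub_const_of_ord_neg v hv]
  rw [Multiset.map_congr rfl hconst, Multiset.map_const', Multiset.sum_replicate,
    ← hs.natDegree_eq_card_roots, nsmul_eq_mul]

/-- At a pole of `𝔵`, `ord_v a = deg a * ord_v 𝔵` for `a ∈ K(X)`. -/
theorem ord_algebraMap_ratFunc_of_pole (v : Place K F) (hv : v.ord (algebraMap K[X] F X) < 0)
    {a : RatFunc K} (ha : a ≠ 0) :
    v.ord (algebraMap (RatFunc K) F a) = a.intDegree * v.ord (algebraMap K[X] F X) := by
  have hn : a.num ≠ 0 := RatFunc.num_ne_zero ha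
  have hd : a.denom ≠ 0 := RatFunc.denom_ne_zero a
  have hn' : algebraMap K[X] F a.num ≠ 0 := by
    rwa [Ne, map_eq_zero_iff _ (FaithfulSMul.algebraMap_injective K[X] F)]
  have hd' : algebraMap K[X] F a.denom ≠ 0 := by
    rwa [Ne, map_eq_zero_iff _ (FaithfulSMul.algebraMap_injective K[X] F)]
  conv_lhs => rw [← RatFunc.num_div_denom a]
  rw [map_div₀, ← IsScalarTower.algebraMap_apply K[X] (RatFunc K) F,
    ← IsScalarTower.algebraMap_apply K[X] (RatFunc K) F, div_eq_mul_inv,
    v.ord_mul hn' (inv_ne_zero hd'), v.ord_inv, ord_algebraMap_poly_of_pole v hv hn,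
    ord_algebraMap_poly_of_pole v hv hd, RatFunc.intDegree]
  ring

/-! ### The Dedekind domain at infinity -/

variable [FiniteDimensional (RatFunc K) F] [CharZero K]

theorem isDedekindDomain_Sinf : IsDedekindDomain (integralClosure (Oinf K) F) :=
  Chart.isDedekindDomain_B (RatFunc K) (Oinf K)

theorem isFractionRing_Sinf : IsFractionRing (integralClosure (Oinf K) F) F :=
  Chart.isFractionRing_B (RatFunc K) (Oinf K)

theorem finite_Sinf : Module.Finite (Oinf K) (integralClosure (Oinf K) F) :=
  Chart.finite_B (RatFunc K) (Oinf K)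

attribute [local instance] isDedekindDomain_Sinf isFractionRing_Sinf finite_Sinf

theorem algebraMap_ratFunc_X : algebraMap (RatFunc K) F RatFunc.X = algebraMap K[X] F X := by
  rw [← RatFunc.algebraMap_X, ← IsScalarTower.algebraMap_apply K[X] (RatFunc K) F]

/-- `Oinf K` is contained in the valuation ring of every pole of `𝔵`. -/
theorem algebraMap_Oinf_mem (v : Place K F) (hv : v.ord (algebraMap K[X] F X) < 0) (a : Oinf K) :
    algebraMap (Oinf K) F a ∈ v.toValuationSubring := by
  rw [algebraMap_Oinf_apply]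
  rcases eq_or_ne (a : RatFunc K) 0 with h0 | h0
  · rw [h0, map_zero]; exact v.toValuationSubring.zero_mem
  have hne : algebraMap (RatFunc K) F (a : RatFunc K) ≠ 0 := by
    rwa [Ne, map_eq_zero]
  rw [mem_iff_ord_nonneg v hne, ord_algebraMap_ratFunc_of_pole v hv h0]
  have := intDegree_le_of_mem a.2
  nlinarith

/-- the integral closure of `Oinf K` is contained in the valuation ring of every pole of `𝔵` -/
theorem coe_Sinf_mem (v : Place K F) (hv : v.ord (algebraMap K[X] F X) < 0)
    (s : integralClosure (Oinf K) F) : (s : F) ∈ v.toValuationSubring := by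
  let φ : Oinf K →+* v.toValuationSubring :=
    (algebraMap (Oinf K) F).codRestrict v.toValuationSubring.toSubring (algebraMap_Oinf_mem v hv)
  have hint : IsIntegral v.toValuationSubring (s : F) :=
    IsIntegral.map_of_comp_eq φ (RingHom.id F) (RingHom.ext fun _ => rfl) s.2
  obtain ⟨y, hy⟩ := IsIntegrallyClosed.isIntegral_iff.mp hint
  rw [← hy]
  exact y.2

/-- every pole of `𝔵` comes from a prime of the integral closure of `Oinf K` -/
theorem exists_heightOneSpectrum_of_pole (v : Place K F)
    (hv : v.ord (algebraMap K[X] F X) < 0) :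
    ∃ w : HeightOneSpectrum (integralClosure (Oinf K) F),
      Place.ofHeightOneSpectrum (K := K) (F := F) w = v :=
  exists_ofHeightOneSpectrum_eq v (coe_Sinf_mem v hv)

theorem below_asIdeal (w : HeightOneSpectrum (integralClosure (Oinf K) F)) :
    (Chart.below w).asIdeal = Ideal.span {uInf K} := by
  rw [← (irreducible_uInf K).maximalIdeal_eq]
  exact ((Chart.below w).isMaximal).eq_of_le (IsLocalRing.maximalIdeal.isMaximal _).ne_top
    (IsLocalRing.le_maximalIdeal (Chart.below w).isPrime.ne_top)

/-- **ramification at infinity**: `ord_w 𝔵 = - e_w`. -/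
theorem ord_gen_ofHeightOneSpectrum (w : HeightOneSpectrum (integralClosure (Oinf K) F)) :
    (Place.ofHeightOneSpectrum (K := K) (F := F) w).ord (algebraMap K[X] F X) =
      -(w.asIdeal.ramificationIdx (Oinf K) : ℤ) := by
  have h1 := Chart.valuation_algebraMap (RatFunc K) w ((RatFunc.X : RatFunc K)⁻¹)
  have h2 : (Chart.below w).valuation (RatFunc K) ((RatFunc.X : RatFunc K)⁻¹) = exp (-1 : ℤ) := by
    have : ((RatFunc.X : RatFunc K)⁻¹) = algebraMap (Oinf K) (RatFunc K) (uInf K) := rfl
    rw [this, HeightOneSpectrum.valuation_of_algebraMap]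
    exact HeightOneSpectrum.intValuation_singleton _ (irreducible_uInf K).ne_zero (below_asIdeal w)
  have hx0 : algebraMap K[X] F X ≠ 0 := by
    rw [Ne, map_eq_zero_iff _ (FaithfulSMul.algebraMap_injective K[X] F)]
    exact X_ne_zero
  rw [h2, map_inv₀, algebraMap_ratFunc_X, valuation_eq_exp_neg_ord (K := K) w (inv_ne_zero hx0),
    Place.ord_inv, neg_neg, ← exp_nsmul, exp_inj] at h1
  rw [h1]
  simp

theorem ord_gen_neg_ofHeightOneSpectrum (w : HeightOneSpectrum (integralClosure (Oinf K) F)) :
    (Place.ofHeightOneSpectrum (K := K) (F := F) w).ord (algebraMap K[X] F X) < 0 := by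
  rw [ord_gen_ofHeightOneSpectrum]
  have := Ideal.ramificationIdx_pos w.asIdeal (Oinf K)
  omega

/-- **Chart at infinity, integrality**: `y` is integral over `Oinf K` iff `y` is regular at all
poles of `𝔵`. -/
theorem isIntegral_Oinf_iff (y : F) :
    IsIntegral (Oinf K) y ↔
      ∀ v : Place K F, v.ord (algebraMap K[X] F X) < 0 → y = 0 ∨ 0 ≤ v.ord y := by
  rw [Chart.isIntegral_iff_ord (K := K)]
  constructor
  · intro h v hv
    obtain ⟨w, rfl⟩ := exists_heightOneSpectrum_of_pole v hv
    exact h w
  · intro h w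
    exact h (Place.ofHeightOneSpectrum (K := K) (F := F) w) (ord_gen_neg_ofHeightOneSpectrum w)

/-- **Chart at infinity, trace dual**: `Tr (y Sinf) ⊆ Oinf` iff `ord_v y ≥ -(e_v - 1)` at all
poles `v` of `𝔵`, where `e_v = - ord_v 𝔵`. -/
theorem trace_mem_Oinf_iff (y : F) :
    (∀ b : integralClosure (Oinf K) F,
        Algebra.trace (RatFunc K) F (y * (b : F)) ∈ (algebraMap (Oinf K) (RatFunc K)).range) ↔
      ∀ v : Place K F, v.ord (algebraMap K[X] F X) < 0 →
        y = 0 ∨ -(-v.ord (algebraMap K[X] F X) - 1) ≤ v.ord y := by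
  rw [Chart.trace_mem_iff_ord (K := K) (RatFunc K)]
  constructor
  · intro h v hv
    obtain ⟨w, rfl⟩ := exists_heightOneSpectrum_of_pole v hv
    have := h w
    rwa [ord_gen_ofHeightOneSpectrum, neg_neg]
  · intro h w
    have := h (Place.ofHeightOneSpectrum (K := K) (F := F) w) (ord_gen_neg_ofHeightOneSpectrum w)
    rwa [ord_gen_ofHeightOneSpectrum, neg_neg] at this

end Fermat.Agent.X0.ChartInf
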