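import Mathlib

/-!
# Primes of an intermediate field and orbits of a decomposition group

`A` is a Dedekind domain with fraction field `E`, `F / E` a finite extension, `L / E` a finite Galois
extension, `S_F`, `S_L` the integral closures of `A` in `F` and `L`.  Fix a maximal ideal `p` of `A`
and a prime `P` of `S_L` over `p`, with stabilizer (decomposition group) `D` in `Gal(L/E)`.
Then `ψ ↦ ψ⁻¹(P)` maps the set `X = (F →ₐ[E] L)` onto the primes of `S_F` over `p`, and its fibres are
the `D`-orbits on `X` (`σ • ψ = σ ∘ ψ`).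
-/

set_option autoImplicit false

universe u

namespace Fermat.Agent.X0

open Ideal

section Setup

variable (A : Type*) {E F L : Type*} (SF SL : Type*)
  [CommRing A] [IsDedekindDomain A]
  [Field E] [Algebra A E] [IsFractionRing A E]
  [Field F] [Algebra E F] [Algebra A F] [IsScalarTower A E F]
  [Field L] [Algebra E L] [Algebra A L] [IsScalarTower A E L]
  [CommRing SF] [Algebra A SF] [Algebra SF F] [IsScalarTower A SF F] [IsIntegralClosure SF A F]
  [CommRing SL] [Algebra A SL] [Algebra SL L] [IsScalarTower A SL L] [IsIntegralClosure SL A L]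

/-- The contraction to `S_F` of an ideal `P` of `S_L` along an embedding `ψ : F → L`. -/
noncomputable def contract (ψ : F →ₐ[E] L) (P : Ideal SL) : Ideal SF :=
  P.comap (galRestrict' A SF SL ψ)

theorem mem_contract (ψ : F →ₐ[E] L) (P : Ideal SL) (s : SF) :
    s ∈ contract A SF SL ψ P ↔ galRestrict' A SF SL ψ s ∈ P := Iff.rfl

instance contract_isPrime (ψ : F →ₐ[E] L) (P : Ideal SL) [P.IsPrime] :
    (contract A SF SL ψ P).IsPrime :=
  Ideal.comap_isPrime _ P

theorem contract_liesOver (ψ : F →ₐ[E] L) (P : Ideal SL) (p : Ideal A) [P.LiesOver p] :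
    (contract A SF SL ψ P).LiesOver p := by
  constructor
  ext a
  rw [Ideal.under_def, contract, Ideal.mem_comap, Ideal.mem_comap, AlgHom.commutes,
    (Ideal.over_def P p), Ideal.under_def, Ideal.mem_comap]

theorem galRestrict'_injective (ψ : F →ₐ[E] L) :
    Function.Injective (galRestrict' A SF SL ψ) := by
  intro s t hst
  apply IsIntegralClosure.algebraMap_injective SF A F
  apply ψ.injective
  change ψ (algebraMap SF F s) = ψ (algebraMap SF F t)
  rw [← algebraMap_galRestrict'_apply A SF SL ψ s, ← algebraMap_galRestrict'_apply A SF SL ψ t, hst]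

/-- `galRestrict'` of a composite with an automorphism. -/
theorem galRestrict'_algEquiv_comp [FiniteDimensional E L] (σ : L ≃ₐ[E] L) (ψ : F →ₐ[E] L) (s : SF) :
    galRestrict' A SF SL ((σ : L →ₐ[E] L).comp ψ) s =
      galRestrict A E L SL σ (galRestrict' A SF SL ψ s) := by
  apply IsIntegralClosure.algebraMap_injective SL A L
  rw [algebraMap_galRestrict'_apply, algebraMap_galRestrict_apply, algebraMap_galRestrict'_apply]
  rfl

theorem contract_algEquiv_comp [FiniteDimensional E L] (σ : L ≃ₐ[E] L) (ψ : F →ₐ[E] L)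
    (P : Ideal SL) :
    contract A SF SL ((σ : L →ₐ[E] L).comp ψ) P =
      contract A SF SL ψ (P.comap (galRestrict A E L SL σ)) := by
  ext s
  rw [mem_contract, mem_contract, galRestrict'_algEquiv_comp, Ideal.mem_comap]

/-- Every prime of `S_F` over `p` is the contraction of `P` along some embedding. -/
theorem exists_contract_eq [FiniteDimensional E L] [IsGalois E L] (φ : F →ₐ[E] L)
    (p : Ideal A) (P : Ideal SL) [P.IsPrime] [P.LiesOver p]
    (Q : Ideal SF) [Q.IsPrime] [Q.LiesOver p] :
    ∃ ψ : F →ₐ[E] L, contract A SF SL ψ P = Q := by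
  letI : Algebra SF SL := (galRestrict' A SF SL φ).toRingHom.toAlgebra
  have halg : ∀ s : SF, algebraMap SF SL s = galRestrict' A SF SL φ s := fun _ => rfl
  have : IsScalarTower A SF SL := IsScalarTower.of_algebraMap_eq fun a => by
    rw [halg, AlgHom.commutes]
  have : Algebra.IsIntegral A SL := IsIntegralClosure.isIntegral_algebra A L
  have : Algebra.IsIntegral SF SL := Algebra.IsIntegral.tower_top A
  have : IsDomain SL :=
    (IsIntegralClosure.equiv A SL L (integralClosure A L)).toMulEquiv.isDomain (integralClosure A L)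
  have hker : RingHom.ker (algebraMap SF SL) ≤ Q := by
    intro s hs
    rw [RingHom.mem_ker, halg] at hs
    have : s = 0 := galRestrict'_injective A SF SL φ (by rw [hs, map_zero])
    rw [this]
    exact Q.zero_mem
  obtain ⟨P'', hP''prime, hP''⟩ :=
    Ideal.exists_ideal_over_prime_of_isIntegral_of_isDomain (S := SL) Q hker
  have hP''p : P''.LiesOver p := by
    constructor
    ext a
    rw [Ideal.under_def, Ideal.mem_comap, IsScalarTower.algebraMap_apply A SF SL,
      ← Ideal.mem_comap (f := algebraMap SF SL), hP'', (Ideal.over_def Q p), Ideal.under_def,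
      Ideal.mem_comap]
  obtain ⟨σ, hσ⟩ := Ideal.exists_comap_galRestrict_eq A E L SL (p := p)
    (P₁ := P) (P₂ := P'') ⟨inferInstance, inferInstance⟩ ⟨hP''prime, hP''p⟩
  refine ⟨(σ : L →ₐ[E] L).comp φ, ?_⟩
  rw [contract_algEquiv_comp, hσ]
  exact hP''

/-- Two embeddings into a normal extension differ by an automorphism. -/
theorem exists_algEquiv_comp_eq [Normal E L] (ψ ψ' : F →ₐ[E] L) :
    ∃ g : L ≃ₐ[E] L, ψ' = (g : L →ₐ[E] L).comp ψ := by
  let χ : ψ.fieldRange ≃ₐ[E] ψ'.fieldRange :=
    (AlgEquiv.ofInjectiveField ψ).symm.trans (AlgEquiv.ofInjectiveField ψ')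
  refine ⟨χ.liftNormal L, ?_⟩
  ext y
  have h := χ.liftNormal_commutes L (AlgEquiv.ofInjectiveField ψ y)
  have h1 : algebraMap ψ.fieldRange L (AlgEquiv.ofInjectiveField ψ y) = ψ y := rfl
  have h2 : χ (AlgEquiv.ofInjectiveField ψ y) = AlgEquiv.ofInjectiveField ψ' y := by
    change (AlgEquiv.ofInjectiveField ψ') ((AlgEquiv.ofInjectiveField ψ).symm
      ((AlgEquiv.ofInjectiveField ψ) y)) = _
    rw [AlgEquiv.symm_apply_apply]
  rw [h1, h2] at h
  change ψ' y = χ.liftNormal L (ψ y)
  rw [h]
  rfl

/-- Transitivity of the Galois group of `L` over `ψ(F)` on the primes of `S_L` with a given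
contraction to `S_F`. -/
theorem exists_fixing_algEquiv_comap_eq [FiniteDimensional E F] [FiniteDimensional E L]
    [IsGalois E L] (ψ : F →ₐ[E] L) (P₁ P₂ : Ideal SL) [P₁.IsPrime] [P₂.IsPrime]
    (h : contract A SF SL ψ P₁ = contract A SF SL ψ P₂) :
    ∃ τ : L ≃ₐ[E] L, (τ : L →ₐ[E] L).comp ψ = ψ ∧ P₁.comap (galRestrict A E L SL τ) = P₂ := by
  letI : Algebra F L := ψ.toRingHom.toAlgebra
  letI : Algebra SF SL := (galRestrict' A SF SL ψ).toRingHom.toAlgebra
  letI : Algebra SF L := ((algebraMap F L).comp (algebraMap SF F)).toAlgebra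
  have hFL : ∀ y : F, algebraMap F L y = ψ y := fun _ => rfl
  have hSS : ∀ s : SF, algebraMap SF SL s = galRestrict' A SF SL ψ s := fun _ => rfl
  have hSL : ∀ s : SF, algebraMap SF L s = ψ (algebraMap SF F s) := fun _ => rfl
  have : IsScalarTower E F L := IsScalarTower.of_algebraMap_eq fun a => by
    rw [hFL, AlgHom.commutes]
  have : IsScalarTower SF F L := IsScalarTower.of_algebraMap_eq fun s => rfl
  have : IsScalarTower SF SL L := IsScalarTower.of_algebraMap_eq fun s => by
    rw [hSL, hSS, algebraMap_galRestrict'_apply]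
  have : IsScalarTower A SF L := IsScalarTower.of_algebraMap_eq fun a => by
    rw [hSL, ← IsScalarTower.algebraMap_apply A SF F, IsScalarTower.algebraMap_apply A E F,
      AlgHom.commutes, ← IsScalarTower.algebraMap_apply A E L]
  have : Algebra.IsSeparable E F := Algebra.IsSeparable.of_algHom E L ψ
  have : IsDomain SF :=
    (IsIntegralClosure.equiv A SF F (integralClosure A F)).toMulEquiv.isDomain (integralClosure A F)
  have : IsDedekindDomain SF := IsIntegralClosure.isDedekindDomain A E F SF
  have : IsFractionRing SF F := IsIntegralClosure.isFractionRing_of_finite_extension A E F SF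
  have : Algebra.IsIntegral A SF := IsIntegralClosure.isIntegral_algebra A F
  have : IsIntegralClosure SL SF L := IsIntegralClosure.tower_top (R := A)
  have : FiniteDimensional F L := Module.Finite.of_restrictScalars_finite E F L
  have : IsGalois F L := IsGalois.tower_top_of_isGalois E F L
  have h1 : P₁ ∈ (contract A SF SL ψ P₁).primesOver SL := by
    refine ⟨inferInstance, ⟨?_⟩⟩
    rfl
  have h2 : P₂ ∈ (contract A SF SL ψ P₁).primesOver SL := by
    refine ⟨inferInstance, ⟨?_⟩⟩
    rw [h]
    rfl
  obtain ⟨τ, hτ⟩ := Ideal.exists_comap_galRestrict_eq SF F L SL h1 h2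
  refine ⟨τ.restrictScalars E, ?_, ?_⟩
  · ext y
    change τ (ψ y) = ψ y
    rw [← hFL, τ.commutes]
  · rw [← hτ]
    ext s
    rw [Ideal.mem_comap, Ideal.mem_comap]
    have : galRestrict A E L SL (τ.restrictScalars E) s = galRestrict SF F L SL τ s := by
      apply IsIntegralClosure.algebraMap_injective SL A L
      rw [algebraMap_galRestrict_apply, algebraMap_galRestrict_apply]
      rfl
    rw [this]

variable (E L) in
/-- The decomposition group of an ideal `P` of `S_L`: the automorphisms `σ` with `σ⁻¹(P) = P`. -/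
noncomputable def decompositionGroup [FiniteDimensional E L] (P : Ideal SL) :
    Subgroup (L ≃ₐ[E] L) where
  carrier := {σ | P.comap (galRestrict A E L SL σ) = P}
  one_mem' := by
    change P.comap (galRestrict A E L SL 1) = P
    rw [map_one]
    ext s
    rw [Ideal.mem_comap]
    rfl
  mul_mem' := by
    intro σ τ hσ hτ
    change P.comap (galRestrict A E L SL σ) = P at hσ
    change P.comap (galRestrict A E L SL τ) = P at hτ
    change P.comap (galRestrict A E L SL (σ * τ)) = P
    ext s
    rw [Ideal.mem_comap, map_mul]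
    change galRestrict A E L SL σ (galRestrict A E L SL τ s) ∈ P ↔ _
    rw [← Ideal.mem_comap, hσ, ← Ideal.mem_comap, hτ]
  inv_mem' := by
    intro σ hσ
    change P.comap (galRestrict A E L SL σ) = P at hσ
    change P.comap (galRestrict A E L SL σ⁻¹) = P
    ext s
    rw [Ideal.mem_comap]
    conv_lhs => rw [← hσ]
    rw [Ideal.mem_comap, map_inv]
    change galRestrict A E L SL σ ((galRestrict A E L SL σ).symm s) ∈ P ↔ _
    rw [AlgEquiv.apply_symm_apply]

theorem mem_decompositionGroup [FiniteDimensional E L] (P : Ideal SL) (σ : L ≃ₐ[E] L) :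
    σ ∈ decompositionGroup A E L SL P ↔ P.comap (galRestrict A E L SL σ) = P := Iff.rfl

/-- The orbit relation on the embeddings `F → L` for the action `σ • ψ = σ ∘ ψ` of a subgroup of
the Galois group. -/
def orbitSetoid (D : Subgroup (L ≃ₐ[E] L)) : Setoid (F →ₐ[E] L) where
  r ψ ψ' := ∃ σ ∈ D, ψ' = (σ : L →ₐ[E] L).comp ψ
  iseqv := by
    refine ⟨fun ψ => ⟨1, D.one_mem, ?_⟩, ?_, ?_⟩
    · ext y
      rfl
    · rintro ψ ψ' ⟨σ, hσ, rfl⟩
      refine ⟨σ⁻¹, D.inv_mem hσ, ?_⟩
      ext y
      change ψ y = σ⁻¹ (σ (ψ y))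
      exact (σ.symm_apply_apply (ψ y)).symm
    · rintro ψ ψ' ψ'' ⟨σ, hσ, rfl⟩ ⟨τ, hτ, rfl⟩
      refine ⟨τ * σ, D.mul_mem hτ hσ, ?_⟩
      ext y
      rfl

theorem orbitSetoid_r (D : Subgroup (L ≃ₐ[E] L)) (ψ ψ' : F →ₐ[E] L) :
    (orbitSetoid D).r ψ ψ' ↔ ∃ σ ∈ D, ψ' = (σ : L →ₐ[E] L).comp ψ := Iff.rfl

/-- The fibres of `ψ ↦ ψ⁻¹(P)` are the orbits of the decomposition group of `P`. -/
theorem contract_eq_contract_iff [FiniteDimensional E F] [FiniteDimensional E L] [IsGalois E L]
    (P : Ideal SL) [P.IsPrime] (ψ ψ' : F →ₐ[E] L) :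
    contract A SF SL ψ P = contract A SF SL ψ' P ↔
      (orbitSetoid (decompositionGroup A E L SL P)).r ψ ψ' := by
  constructor
  · intro h
    obtain ⟨g, rfl⟩ := exists_algEquiv_comp_eq ψ ψ'
    rw [contract_algEquiv_comp] at h
    have : (P.comap (galRestrict A E L SL g)).IsPrime := Ideal.comap_isPrime _ P
    obtain ⟨τ, hτψ, hτ⟩ := exists_fixing_algEquiv_comap_eq A SF SL ψ P _ h
    refine ⟨g * τ⁻¹, ?_, ?_⟩
    · rw [mem_decompositionGroup]
      ext s
      rw [Ideal.mem_comap, map_mul]
      change galRestrict A E L SL g (galRestrict A E L SL τ⁻¹ s) ∈ P ↔ _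
      rw [← Ideal.mem_comap, ← hτ, Ideal.mem_comap, map_inv]
      change galRestrict A E L SL τ ((galRestrict A E L SL τ).symm s) ∈ P ↔ _
      rw [AlgEquiv.apply_symm_apply]
    · ext y
      change g (ψ y) = g (τ⁻¹ (ψ y))
      congr 1
      have : τ (ψ y) = ψ y := by
        conv_rhs => rw [← hτψ]
        rfl
      have h2 : τ⁻¹ (ψ y) = ψ y := by
        conv_lhs => rw [← this]
        exact τ.symm_apply_apply (ψ y)
      exact h2.symm
  · rintro ⟨σ, hσ, rfl⟩
    rw [contract_algEquiv_comp, (mem_decompositionGroup A SL P σ).mp hσ]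

/-- The map from orbits of the decomposition group to primes of `S_F` over `p`. -/
noncomputable def orbitToPrimesOver [FiniteDimensional E F] [FiniteDimensional E L] [IsGalois E L]
    (p : Ideal A) (P : Ideal SL) [P.IsPrime] [P.LiesOver p] :
    Quotient (orbitSetoid (F := F) (decompositionGroup A E L SL P)) → p.primesOver SF :=
  Quotient.lift (fun ψ => (⟨contract A SF SL ψ P,
      ⟨contract_isPrime A SF SL ψ P, contract_liesOver A SF SL ψ P p⟩⟩ : p.primesOver SF))
    (fun ψ ψ' h => Subtype.ext ((contract_eq_contract_iff A SF SL P ψ ψ').mpr h))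

theorem orbitToPrimesOver_bijective [FiniteDimensional E F] [FiniteDimensional E L] [IsGalois E L]
    (φ : F →ₐ[E] L) (p : Ideal A) (P : Ideal SL) [P.IsPrime] [P.LiesOver p] :
    Function.Bijective (orbitToPrimesOver A (E := E) (F := F) (L := L) SF SL p P) := by
  constructor
  · intro a b
    induction a using Quotient.inductionOn with
    | _ ψ =>
    induction b using Quotient.inductionOn with
    | _ ψ' =>
    intro h
    apply Quotient.sound
    have h' : contract A SF SL ψ P = contract A SF SL ψ' P := congrArg Subtype.val h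
    exact (contract_eq_contract_iff A SF SL P ψ ψ').mp h'
  · rintro ⟨Q, hQ1, hQ2⟩
    obtain ⟨ψ, hψ⟩ := exists_contract_eq A SF SL φ p P Q
    exact ⟨Quotient.mk _ ψ, Subtype.ext hψ⟩

/-- The number of primes of `S_F` over `p` is the number of orbits of the decomposition group of a
prime `P` of `S_L` over `p` on the set of embeddings `F → L`. -/
theorem card_primesOver_eq_card_orbits [FiniteDimensional E F] [FiniteDimensional E L]
    [IsGalois E L] (φ : F →ₐ[E] L) (p : Ideal A) (P : Ideal SL) [P.IsPrime] [P.LiesOver p] :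
    Nat.card (p.primesOver SF) =
      Nat.card (Quotient (orbitSetoid (F := F) (decompositionGroup A E L SL P))) :=
  (Nat.card_congr (Equiv.ofBijective _ (orbitToPrimesOver_bijective A SF SL φ p P))).symm

end Setup

section Valuation

open WithZero
open scoped Pointwise

variable (A : Type*) {E L : Type*} (SL : Type*)
  [CommRing A] [IsDedekindDomain A]
  [Field E] [Algebra A E] [IsFractionRing A E]
  [Field L] [Algebra E L] [Algebra A L] [IsScalarTower A E L]
  [CommRing SL] [Algebra A SL] [Algebra SL L] [IsScalarTower A SL L] [IsIntegralClosure SL A L]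

/-- A valuation that is `≤ 1` on `A` is `≤ 1` on the integral closure of `A`. -/
theorem valuation_le_one_of_integral (w : Valuation L ℤᵐ⁰)
    (hwA : ∀ a : A, w (algebraMap A L a) ≤ 1) (s : SL) : w (algebraMap SL L s) ≤ 1 := by
  have hint : IsIntegral A (algebraMap SL L s) :=
    (IsIntegralClosure.isIntegral A L s).map (IsScalarTower.toAlgHom A SL L)
  obtain ⟨f, hm, hf⟩ := hint
  let φ : A →+* w.integer := (algebraMap A L).codRestrict w.integer hwA
  have hφ : ∀ a, algebraMap w.integer L (φ a) = algebraMap A L a := fun _ => rfl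
  have hint' : IsIntegral w.integer (algebraMap SL L s) := by
    refine ⟨f.map φ, hm.map φ, ?_⟩
    rw [Polynomial.eval₂_map]
    have : (algebraMap w.integer L).comp φ = algebraMap A L := RingHom.ext hφ
    rw [this]
    exact hf
  exact (Valuation.integer.integers w).isIntegral_iff_v_le_one.mp hint'

/-- The centre on `S_L` of a valuation of `L` that is `≤ 1` on `A`. -/
def centre (w : Valuation L ℤᵐ⁰) (hwA : ∀ a : A, w (algebraMap A L a) ≤ 1) : Ideal SL where
  carrier := {s | w (algebraMap SL L s) < 1}
  add_mem' := by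
    intro a b ha hb
    change w (algebraMap SL L (a + b)) < 1
    rw [map_add]
    exact w.map_add_lt ha hb
  zero_mem' := by
    change w (algebraMap SL L 0) < 1
    rw [map_zero, map_zero]
    exact zero_lt_one
  smul_mem' := by
    intro c x hx
    change w (algebraMap SL L (c * x)) < 1
    rw [map_mul, map_mul]
    exact mul_lt_one_of_nonneg_of_lt_one_right (valuation_le_one_of_integral A SL w hwA c)
      zero_le' hx

theorem mem_centre (w : Valuation L ℤᵐ⁰) (hwA : ∀ a : A, w (algebraMap A L a) ≤ 1) (s : SL) :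
    s ∈ centre A SL w hwA ↔ w (algebraMap SL L s) < 1 := Iff.rfl

theorem centre_isPrime (w : Valuation L ℤᵐ⁰) (hwA : ∀ a : A, w (algebraMap A L a) ≤ 1) :
    (centre A SL w hwA).IsPrime := by
  refine ⟨?_, ?_⟩
  · intro h
    have : (1 : SL) ∈ centre A SL w hwA := h ▸ Submodule.mem_top
    rw [mem_centre, map_one, map_one] at this
    exact lt_irrefl _ this
  · intro x y hxy
    rw [mem_centre, map_mul, map_mul] at hxy
    by_contra hcon
    push_neg at hcon
    have hx : w (algebraMap SL L x) = 1 :=
      le_antisymm (valuation_le_one_of_integral A SL w hwA x) (not_lt.mp hcon.1)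
    have hy : w (algebraMap SL L y) = 1 :=
      le_antisymm (valuation_le_one_of_integral A SL w hwA y) (not_lt.mp hcon.2)
    rw [hx, hy, one_mul] at hxy
    exact lt_irrefl _ hxy

theorem centre_liesOver (w : Valuation L ℤᵐ⁰) (hwA : ∀ a : A, w (algebraMap A L a) ≤ 1)
    (p : Ideal A) [hp : p.IsMaximal] (hwp : ∀ a ∈ p, w (algebraMap A L a) < 1) :
    (centre A SL w hwA).LiesOver p := by
  constructor
  have hle : p ≤ (centre A SL w hwA).under A := by
    intro a ha
    rw [Ideal.under_def, Ideal.mem_comap, mem_centre, ← IsScalarTower.algebraMap_apply]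
    exact hwp a ha
  have hne : (centre A SL w hwA).under A ≠ ⊤ := by
    have := centre_isPrime A SL w hwA
    exact (Ideal.IsPrime.under A (centre A SL w hwA)).ne_top
  exact (hp.eq_of_le hne hle)

/-- The ideal of `S_L` of elements of valuation at most `exp (-n)`. -/
def valuationIdeal (w : Valuation L ℤᵐ⁰) (hwA : ∀ a : A, w (algebraMap A L a) ≤ 1) (n : ℕ) :
    Ideal SL where
  carrier := {s | w (algebraMap SL L s) ≤ exp (-(n : ℤ))}
  add_mem' := by
    intro a b ha hb
    change w (algebraMap SL L (a + b)) ≤ _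
    rw [map_add]
    exact w.map_add_le ha hb
  zero_mem' := by
    change w (algebraMap SL L 0) ≤ _
    rw [map_zero, map_zero]
    exact zero_le'
  smul_mem' := by
    intro c x hx
    change w (algebraMap SL L (c * x)) ≤ _
    rw [map_mul, map_mul]
    calc w (algebraMap SL L c) * w (algebraMap SL L x)
        ≤ 1 * exp (-(n : ℤ)) :=
          mul_le_mul' (valuation_le_one_of_integral A SL w hwA c) hx
      _ = exp (-(n : ℤ)) := one_mul _

theorem mem_valuationIdeal (w : Valuation L ℤᵐ⁰) (hwA : ∀ a : A, w (algebraMap A L a) ≤ 1)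
    (n : ℕ) (s : SL) :
    s ∈ valuationIdeal A SL w hwA n ↔ w (algebraMap SL L s) ≤ exp (-(n : ℤ)) := Iff.rfl

theorem centre_le_valuationIdeal_one (w : Valuation L ℤᵐ⁰)
    (hwA : ∀ a : A, w (algebraMap A L a) ≤ 1) :
    centre A SL w hwA ≤ valuationIdeal A SL w hwA 1 := by
  intro s hs
  rw [mem_centre] at hs
  rw [mem_valuationIdeal]
  rcases eq_or_ne (w (algebraMap SL L s)) 0 with h0 | h0
  · rw [h0]
    exact zero_le'
  · rw [← log_le_iff_le_exp h0]
    have : log (w (algebraMap SL L s)) < 0 := by
      rw [log_lt_iff_lt_exp h0, exp_zero]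
      exact hs
    push_cast
    omega

theorem valuationIdeal_mul_le (w : Valuation L ℤᵐ⁰)
    (hwA : ∀ a : A, w (algebraMap A L a) ≤ 1) (m n : ℕ) :
    valuationIdeal A SL w hwA m * valuationIdeal A SL w hwA n ≤
      valuationIdeal A SL w hwA (m + n) := by
  rw [Ideal.mul_le]
  intro r hr s hs
  rw [mem_valuationIdeal] at hr hs ⊢
  rw [map_mul, map_mul]
  calc w (algebraMap SL L r) * w (algebraMap SL L s)
      ≤ exp (-(m : ℤ)) * exp (-(n : ℤ)) := mul_le_mul' hr hs
    _ = exp (-((m + n : ℕ) : ℤ)) := by
        rw [← exp_add]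
        congr 1
        push_cast
        ring

theorem centre_pow_le_valuationIdeal (w : Valuation L ℤᵐ⁰)
    (hwA : ∀ a : A, w (algebraMap A L a) ≤ 1) (n : ℕ) :
    centre A SL w hwA ^ n ≤ valuationIdeal A SL w hwA n := by
  induction n with
  | zero =>
    intro s _
    rw [mem_valuationIdeal]
    simpa using valuation_le_one_of_integral A SL w hwA s
  | succ n ih =>
    rw [pow_succ]
    exact (Ideal.mul_mono ih (centre_le_valuationIdeal_one A SL w hwA)).trans
      (valuationIdeal_mul_le A SL w hwA n 1)

/-- The order of the decomposition group is `e * f`. -/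
theorem card_decompositionGroup [FiniteDimensional E L] [IsGalois E L]
    (p : Ideal A) [p.IsMaximal] (P : Ideal SL) [P.IsPrime] [P.LiesOver p]
    [PerfectField p.ResidueField] :
    Nat.card (decompositionGroup A E L SL P) = P.ramificationIdx A * P.inertiaDeg A := by
  have : IsDomain SL :=
    (IsIntegralClosure.equiv A SL L (integralClosure A L)).toMulEquiv.isDomain (integralClosure A L)
  have : IsDedekindDomain SL := IsIntegralClosure.isDedekindDomain A E L SL
  have : Module.Finite A SL := IsIntegralClosure.finite A E L SL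
  have : IsFractionRing SL L := IsIntegralClosure.isFractionRing_of_finite_extension A E L SL
  have : FaithfulSMul A SL := by
    rw [faithfulSMul_iff_algebraMap_injective]
    have h1 : Function.Injective (algebraMap A L) := by
      rw [IsScalarTower.algebraMap_eq A E L]
      exact (algebraMap E L).injective.comp (IsFractionRing.injective A E)
    rw [IsScalarTower.algebraMap_eq A SL L] at h1
    exact Function.Injective.of_comp h1
  have : Module.IsTorsionFree A SL := inferInstance
  have : Module.Flat A SL := inferInstance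
  letI : MulSemiringAction Gal(L/E) SL := IsIntegralClosure.MulSemiringAction A E L SL
  have : IsGaloisGroup Gal(L/E) A SL := IsGaloisGroup.of_isFractionRing _ _ _ E L
  have h := Ideal.card_stabilizer_eq (G := Gal(L/E)) p P
  rw [Ideal.ramificationIdxIn_eq_ramificationIdx p P Gal(L/E),
    Ideal.inertiaDegIn_eq_inertiaDeg p P Gal(L/E)] at h
  rw [← h]
  have heq : decompositionGroup A E L SL P = MulAction.stabilizer Gal(L/E) P := by
    ext σ
    rw [MulAction.mem_stabilizer_iff, mem_decompositionGroup]
    constructor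
    · intro hσ
      ext s
      rw [Ideal.mem_pointwise_smul_iff_inv_smul_mem]
      conv_rhs => rw [← hσ]
      rw [Ideal.mem_comap]
      change galRestrict A E L SL σ⁻¹ s ∈ P ↔ galRestrict A E L SL σ s ∈ P
      constructor
      · intro h1
        have : galRestrict A E L SL σ⁻¹ s ∈ P.comap (galRestrict A E L SL σ) := by rwa [hσ]
        rw [Ideal.mem_comap, map_inv] at this
        change galRestrict A E L SL σ ((galRestrict A E L SL σ).symm s) ∈ P at this
        rw [AlgEquiv.apply_symm_apply] at this
        rw [← hσ, Ideal.mem_comap] at this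
        exact this
      · intro h1
        have h2 : s ∈ P.comap (galRestrict A E L SL σ) := h1
        rw [hσ] at h2
        have h3 : galRestrict A E L SL σ (galRestrict A E L SL σ⁻¹ s) ∈ P := by
          rw [map_inv]
          change galRestrict A E L SL σ ((galRestrict A E L SL σ).symm s) ∈ P
          rwa [AlgEquiv.apply_symm_apply]
        have h4 : galRestrict A E L SL σ⁻¹ s ∈ P.comap (galRestrict A E L SL σ) := h3
        rwa [hσ] at h4
    · intro hσ
      ext s
      rw [Ideal.mem_comap]
      conv_rhs => rw [← hσ]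
      change σ • s ∈ P ↔ _
      rw [hσ]
      constructor
      · intro h1
        have : s ∈ σ⁻¹ • P := by rwa [Ideal.mem_inv_pointwise_smul_iff]
        have h2 : σ⁻¹ • P = P := by
          conv_lhs => rw [← hσ]
          rw [inv_smul_smul]
        rwa [h2] at this
      · intro h1
        have h2 : σ • s ∈ σ • P := Ideal.smul_mem_pointwise_smul_iff.mpr h1
        rwa [hσ] at h2
  rw [heq]

/-- Automorphisms preserving `w` lie in the decomposition group of the centre of `w`. -/
theorem mem_decompositionGroup_centre_of_valuation_eq [FiniteDimensional E L]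
    (w : Valuation L ℤᵐ⁰) (hwA : ∀ a : A, w (algebraMap A L a) ≤ 1) (σ : L ≃ₐ[E] L)
    (hσ : ∀ y : L, w (σ y) = w y) :
    σ ∈ decompositionGroup A E L SL (centre A SL w hwA) := by
  rw [mem_decompositionGroup]
  ext s
  rw [Ideal.mem_comap, mem_centre, mem_centre, algebraMap_galRestrict_apply, hσ]

/-- **Valuation criterion for the decomposition group.** Let `w` be a `ℤᵐ⁰`-valued valuation on
`L`, `≤ 1` on `A` and `< 1` on the maximal ideal `p`, all of whose primes above in `S_L` have
inertia degree one.  If a finite subgroup `D₀` of `Gal(L/E)` preserves `w` and some `ϖ ∈ p` has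
`w ϖ = exp (-|D₀|)`, then `D₀` is the full decomposition group of the centre of `w` on `S_L`. -/
theorem decompositionGroup_centre_eq [FiniteDimensional E L] [IsGalois E L]
    (p : Ideal A) [p.IsMaximal] (hp0 : p ≠ ⊥) [PerfectField p.ResidueField]
    (hf : ∀ (P : Ideal SL) [P.IsPrime] [P.LiesOver p], P.inertiaDeg A = 1)
    (w : Valuation L ℤᵐ⁰) (hwA : ∀ a : A, w (algebraMap A L a) ≤ 1)
    (hwp : ∀ a ∈ p, w (algebraMap A L a) < 1)
    (D₀ : Subgroup (L ≃ₐ[E] L)) (hD₀ : ∀ σ ∈ D₀, ∀ y : L, w (σ y) = w y)
    (ϖ : A) (hϖ : ϖ ∈ p) (hwϖ : w (algebraMap A L ϖ) = exp (-(Nat.card D₀ : ℤ))) :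
    decompositionGroup A E L SL (centre A SL w hwA) = D₀ := by
  set P := centre A SL w hwA with hP
  have : P.IsPrime := centre_isPrime A SL w hwA
  have : P.LiesOver p := centre_liesOver A SL w hwA p hwp
  have hle : D₀ ≤ decompositionGroup A E L SL P := fun σ hσ =>
    mem_decompositionGroup_centre_of_valuation_eq A SL w hwA σ (hD₀ σ hσ)
  have hcard := card_decompositionGroup A (E := E) (L := L) SL p P
  rw [hf P, mul_one] at hcard
  have : IsDomain SL :=
    (IsIntegralClosure.equiv A SL L (integralClosure A L)).toMulEquiv.isDomain (integralClosure A L)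
  have : IsDedekindDomain SL := IsIntegralClosure.isDedekindDomain A E L SL
  have : FaithfulSMul A SL := by
    rw [faithfulSMul_iff_algebraMap_injective]
    have h1 : Function.Injective (algebraMap A L) := by
      rw [IsScalarTower.algebraMap_eq A E L]
      exact (algebraMap E L).injective.comp (IsFractionRing.injective A E)
    rw [IsScalarTower.algebraMap_eq A SL L] at h1
    exact Function.Injective.of_comp h1
  have : Module.IsTorsionFree A SL := inferInstance
  -- `ϖ ∈ P ^ e`
  have he : Ideal.ramificationIdx' p P = P.ramificationIdx A :=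
    Ideal.ramificationIdx'_eq_ramificationIdx p P hp0
  have hmem : algebraMap A SL ϖ ∈ P ^ (P.ramificationIdx A) := by
    rw [← he]
    exact Ideal.le_pow_ramificationIdx' (Ideal.mem_map_of_mem _ hϖ)
  have hval := centre_pow_le_valuationIdeal A SL w hwA (P.ramificationIdx A) hmem
  rw [mem_valuationIdeal, ← IsScalarTower.algebraMap_apply, hwϖ, exp_le_exp] at hval
  have hfin : Finite (decompositionGroup A E L SL P) := inferInstance
  have hcard' : Nat.card (decompositionGroup A E L SL P) ≤ Nat.card D₀ := by
    rw [hcard]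
    omega
  exact (Subgroup.eq_of_le_of_card_ge hle hcard').symm

end Valuation

section Main

open WithZero

variable (A : Type*) {E F L : Type*} (SF SL : Type*)
  [CommRing A] [IsDedekindDomain A]
  [Field E] [Algebra A E] [IsFractionRing A E]
  [Field F] [Algebra E F] [Algebra A F] [IsScalarTower A E F]
  [Field L] [Algebra E L] [Algebra A L] [IsScalarTower A E L]
  [CommRing SF] [Algebra A SF] [Algebra SF F] [IsScalarTower A SF F] [IsIntegralClosure SF A F]
  [CommRing SL] [Algebra A SL] [Algebra SL L] [IsScalarTower A SL L] [IsIntegralClosure SL A L]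

/-- If the residue field `A ⧸ p` is (the image of) an algebraically closed field `K`, then every
prime above `p` in an integral extension has inertia degree one. -/
theorem inertiaDeg_eq_one_of_isAlgClosed {A : Type u} [CommRing A] {B : Type*} [CommRing B]
    [Algebra A B] [Algebra.IsIntegral A B] (K : Type u) [Field K] [IsAlgClosed K] [Algebra K A]
    (p : Ideal A) [p.IsMaximal]
    (hK : Function.Surjective ((Ideal.Quotient.mk p).comp (algebraMap K A)))
    (P : Ideal B) [P.IsPrime] [P.LiesOver p] : P.inertiaDeg A = 1 := by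
  have : P.IsMaximal := Ideal.IsMaximal.of_liesOver_isMaximal P p
  rw [Ideal.inertiaDeg_eq_of_isMaximal p P]
  letI : Field (A ⧸ p) := Ideal.Quotient.field p
  letI : Field (B ⧸ P) := Ideal.Quotient.field P
  let e : K ≃+* (A ⧸ p) := RingEquiv.ofBijective ((Ideal.Quotient.mk p).comp (algebraMap K A))
    ⟨RingHom.injective _, hK⟩
  have : IsAlgClosed (A ⧸ p) := IsAlgClosed.of_ringEquiv K (A ⧸ p) e
  have hbij : Function.Bijective (algebraMap (A ⧸ p) (B ⧸ P)) :=
    IsAlgClosed.algebraMap_bijective_of_isIntegral
  rw [← Module.finrank_self (A ⧸ p)]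
  exact ((AlgEquiv.ofBijective (Algebra.ofId (A ⧸ p) (B ⧸ P)) hbij).toLinearEquiv.finrank_eq).symm

/-- **Main counting statement.**  With the notation of the file: if a valuation `w` on the Galois
closure `L` is centred over `p`, is preserved by a subgroup `D₀` of `Gal(L/E)` and
`w ϖ = exp (-|D₀|)` for some `ϖ ∈ p` (all residue degrees over `p` being one), then the number of
primes of `S_F` over `p` is the number of `D₀`-orbits on the embeddings `F → L`. -/
theorem card_primesOver_eq_card_orbits_of_valuation [FiniteDimensional E F]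
    [FiniteDimensional E L] [IsGalois E L] (φ : F →ₐ[E] L)
    (p : Ideal A) [p.IsMaximal] (hp0 : p ≠ ⊥) [PerfectField p.ResidueField]
    (hf : ∀ (P : Ideal SL) [P.IsPrime] [P.LiesOver p], P.inertiaDeg A = 1)
    (w : Valuation L ℤᵐ⁰) (hwA : ∀ a : A, w (algebraMap A L a) ≤ 1)
    (hwp : ∀ a ∈ p, w (algebraMap A L a) < 1)
    (D₀ : Subgroup (L ≃ₐ[E] L)) (hD₀ : ∀ σ ∈ D₀, ∀ y : L, w (σ y) = w y)
    (ϖ : A) (hϖ : ϖ ∈ p) (hwϖ : w (algebraMap A L ϖ) = exp (-(Nat.card D₀ : ℤ))) :
    Nat.card (p.primesOver SF) = Nat.card (Quotient (orbitSetoid (F := F) D₀)) := by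
  have : (centre A SL w hwA).IsPrime := centre_isPrime A SL w hwA
  have : (centre A SL w hwA).LiesOver p := centre_liesOver A SL w hwA p hwp
  rw [card_primesOver_eq_card_orbits A SF SL φ p (centre A SL w hwA),
    decompositionGroup_centre_eq A SL p hp0 hf w hwA hwp D₀ hD₀ ϖ hϖ hwϖ]

end Main

end Fermat.Agent.X0
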