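import Mathlib
import Fermat.Agent.X0.FF.GaloisOrbits
import Fermat.Agent.X0.FF.FunctionField

/-!
# FF4, concrete form over the polynomial ring

Specialisation of `Fermat.Agent.X0.card_primesOver_eq_card_orbits_of_valuation` to `A = K[X]`,
`E = RatFunc K` and the prime `(X - c)`, for an algebraically closed field `K` of characteristic `0`.
-/

set_option autoImplicit false
set_option linter.style.haveILetI false

universe u

namespace Fermat.Agent.X0

open Polynomial WithZero

section RatFuncForm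

variable (K : Type u) [Field K] [IsAlgClosed K] [CharZero K]
variable {F L : Type*} [Field F] [Field L]
  [Algebra K[X] F] [Algebra (RatFunc K) F] [IsScalarTower K[X] (RatFunc K) F]
  [Algebra K[X] L] [Algebra (RatFunc K) L] [IsScalarTower K[X] (RatFunc K) L]

theorem span_X_sub_C_isMaximal (c : K) : (Ideal.span {(X - C c : K[X])}).IsMaximal :=
  PrincipalIdealRing.isMaximal_of_irreducible (irreducible_X_sub_C c)

theorem span_X_sub_C_ne_bot (c : K) : Ideal.span {(X - C c : K[X])} ≠ ⊥ := by
  rw [Ne, Ideal.span_singleton_eq_bot]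
  exact X_sub_C_ne_zero c

theorem surjective_mk_comp_algebraMap (c : K) :
    Function.Surjective ((Ideal.Quotient.mk (Ideal.span {(X - C c : K[X])})).comp
      (algebraMap K K[X])) := by
  intro q
  obtain ⟨q, rfl⟩ := Ideal.Quotient.mk_surjective q
  refine ⟨q.eval c, ?_⟩
  rw [RingHom.comp_apply, eq_comm, Ideal.Quotient.eq, Ideal.mem_span_singleton]
  exact X_sub_C_dvd_sub_C_eval

/-- A valuation that is `≤ 1` on the constants and on `X` is `≤ 1` on all polynomials. -/
theorem valuation_polynomial_le_one (w : Valuation L ℤᵐ⁰)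
    (hwK : ∀ a : K, w (algebraMap K[X] L (C a)) ≤ 1) (hwX : w (algebraMap K[X] L X) ≤ 1)
    (a : K[X]) : w (algebraMap K[X] L a) ≤ 1 := by
  induction a using Polynomial.induction_on with
  | C a => exact hwK a
  | add p q hp hq =>
    rw [map_add]
    exact w.map_add_le hp hq
  | monomial n a h =>
    rw [pow_succ, ← mul_assoc, map_mul, map_mul]
    calc w (algebraMap K[X] L (C a * X ^ n)) * w (algebraMap K[X] L X) ≤ 1 * 1 :=
          mul_le_mul' h hwX
      _ = 1 := one_mul 1

/-- **FF4, `RatFunc` form.**  `F` and `L` are finite extensions of `RatFunc K`, `L` Galois,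
`φ : F → L` an embedding.  If a valuation `w` on `L` is `≤ 1` on the constants, is preserved by a
subgroup `D` of the Galois group and `w (X - c) = exp (-|D|)`, then the number of primes of the
integral closure of `K[X]` in `F` over `(X - c)` is the number of `D`-orbits on the embeddings
`F → L`. -/
theorem card_primesOver_X_sub_C_eq_card_orbits [FiniteDimensional (RatFunc K) F]
    [FiniteDimensional (RatFunc K) L] [IsGalois (RatFunc K) L] (φ : F →ₐ[RatFunc K] L) (c : K)
    (w : Valuation L ℤᵐ⁰) (hwK : ∀ a : K, w (algebraMap K[X] L (C a)) ≤ 1)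
    (D : Subgroup (L ≃ₐ[RatFunc K] L)) (hD : ∀ σ ∈ D, ∀ y : L, w (σ y) = w y)
    (hw : w (algebraMap K[X] L (X - C c)) = exp (-(Nat.card D : ℤ))) :
    Nat.card ((Ideal.span {(X - C c : K[X])}).primesOver (integralClosure K[X] F)) =
      Nat.card (Quotient (orbitSetoid (F := F) D)) := by
  haveI := span_X_sub_C_isMaximal K c
  have hp0 := span_X_sub_C_ne_bot K c
  set p : Ideal K[X] := Ideal.span {(X - C c : K[X])} with hp
  -- the residue field has characteristic zero
  haveI : CharZero p.ResidueField :=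
    charZero_of_injective_ringHom
      (((algebraMap K[X] p.ResidueField).comp (C : K →+* K[X])).injective)
  have hcard : 1 ≤ Nat.card D := Nat.one_le_iff_ne_zero.mpr Nat.card_pos.ne'
  have hlt : w (algebraMap K[X] L (X - C c)) < 1 := by
    rw [hw, ← exp_zero, exp_lt_exp]
    omega
  have hwX : w (algebraMap K[X] L X) ≤ 1 := by
    have : (X : K[X]) = (X - C c) + C c := by ring
    rw [this, map_add]
    exact w.map_add_le hlt.le (hwK c)
  have hwA := valuation_polynomial_le_one K w hwK hwX
  have hwp : ∀ a ∈ p, w (algebraMap K[X] L a) < 1 := by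
    intro a ha
    rw [hp, Ideal.mem_span_singleton] at ha
    obtain ⟨b, rfl⟩ := ha
    rw [map_mul, map_mul]
    exact mul_lt_one_of_nonneg_of_lt_one_left zero_le' hlt (hwA b)
  exact card_primesOver_eq_card_orbits_of_valuation K[X] (integralClosure K[X] F)
    (integralClosure K[X] L) φ p hp0
    (fun P _ _ => inertiaDeg_eq_one_of_isAlgClosed K p (surjective_mk_comp_algebraMap K c) P)
    w hwA hwp D hD (X - C c) (Ideal.mem_span_singleton_self _) hw

end RatFuncForm

section Transport

/-!
### From `K`-algebra data to `E`-algebra data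

`E` is a field between `K` and `F`, `L` (think `E = K(x)`), generated over `K` by an element `t` in the
sense that `K`-algebra homomorphisms out of `E` into `L` are determined by their value at `t`.
-/

variable {K E F L : Type*} [Field K] [Field E] [Field F] [Field L]
  [Algebra K E] [Algebra K F] [Algebra K L] [Algebra E F] [Algebra E L]
  [IsScalarTower K E F] [IsScalarTower K E L]

/-- The embeddings `F → L` over `K` with a prescribed value at `x`. -/
abbrev EmbOver (K : Type*) {F L : Type*} [Field K] [Field F] [Field L] [Algebra K F]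
    [Algebra K L] (x : F) (y : L) : Type _ :=
  {ψ : F →ₐ[K] L // ψ x = y}

/-- The orbit relation of a subgroup of `Aut_K(L)` on `EmbOver K x y`. -/
def orbitSetoidK (K : Type*) {F L : Type*} [Field K] [Field F] [Field L] [Algebra K F]
    [Algebra K L] (x : F) (y : L) (D : Subgroup (L ≃ₐ[K] L)) : Setoid (EmbOver K x y) where
  r ψ ψ' := ∃ σ ∈ D, ψ'.1 = (σ : L →ₐ[K] L).comp ψ.1
  iseqv := by
    refine ⟨fun ψ => ⟨1, D.one_mem, ?_⟩, ?_, ?_⟩
    · ext z
      rfl
    · rintro ψ ψ' ⟨σ, hσ, h⟩
      refine ⟨σ⁻¹, D.inv_mem hσ, ?_⟩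
      ext z
      rw [h]
      change ψ.1 z = σ⁻¹ (σ (ψ.1 z))
      exact (σ.symm_apply_apply (ψ.1 z)).symm
    · rintro ψ ψ' ψ'' ⟨σ, hσ, h⟩ ⟨τ, hτ, h'⟩
      refine ⟨τ * σ, D.mul_mem hτ hσ, ?_⟩
      ext z
      rw [h', h]
      rfl

variable (t : E)
  (hgen : ∀ ψ₁ ψ₂ : E →ₐ[K] L, ψ₁ t = ψ₂ t → ψ₁ = ψ₂)

include hgen in
/-- A `K`-embedding with the right value at `x = t` is `E`-linear. -/
theorem algHom_commutes_of_apply_eq (ψ : F →ₐ[K] L)
    (hψ : ψ (algebraMap E F t) = algebraMap E L t) (e : E) :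
    ψ (algebraMap E F e) = algebraMap E L e := by
  have := hgen (ψ.comp (IsScalarTower.toAlgHom K E F)) (IsScalarTower.toAlgHom K E L) hψ
  exact DFunLike.congr_fun this e

/-- `E`-embeddings are the `K`-embeddings with the right value at `x`. -/
noncomputable def embEquiv :
    (F →ₐ[E] L) ≃ EmbOver K (algebraMap E F t) (algebraMap E L t) where
  toFun ψ := ⟨ψ.restrictScalars K, ψ.commutes t⟩
  invFun ψ := { ψ.1 with commutes' := algHom_commutes_of_apply_eq t hgen ψ.1 ψ.2 }
  left_inv ψ := by
    ext z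
    rfl
  right_inv ψ := by
    apply Subtype.ext
    ext z
    rfl

/-- The subgroup of `Gal(L/E)` corresponding to a subgroup of `Aut_K(L)`. -/
def subgroupOver (D : Subgroup (L ≃ₐ[K] L)) : Subgroup (L ≃ₐ[E] L) where
  carrier := {σ | σ.restrictScalars K ∈ D}
  one_mem' := D.one_mem
  mul_mem' := fun {σ τ} hσ hτ => D.mul_mem hσ hτ
  inv_mem' := fun {σ} hσ => D.inv_mem hσ

theorem mem_subgroupOver (D : Subgroup (L ≃ₐ[K] L)) (σ : L ≃ₐ[E] L) :
    σ ∈ subgroupOver (E := E) D ↔ σ.restrictScalars K ∈ D := Iff.rfl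

include hgen in
/-- Every element of `D` fixing `y = t` comes from `Gal(L/E)`. -/
theorem exists_restrictScalars_eq (σ : L ≃ₐ[K] L)
    (hσ : σ (algebraMap E L t) = algebraMap E L t) :
    ∃ τ : L ≃ₐ[E] L, τ.restrictScalars K = σ := by
  have hcomm : ∀ e : E, σ (algebraMap E L e) = algebraMap E L e := by
    intro e
    have := hgen ((σ : L →ₐ[K] L).comp (IsScalarTower.toAlgHom K E L))
      (IsScalarTower.toAlgHom K E L) hσ
    exact DFunLike.congr_fun this e
  exact ⟨{ σ with commutes' := hcomm }, by ext z; rfl⟩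

include hgen in
theorem card_subgroupOver (D : Subgroup (L ≃ₐ[K] L))
    (hD : ∀ σ ∈ D, σ (algebraMap E L t) = algebraMap E L t) :
    Nat.card (subgroupOver (E := E) D) = Nat.card D := by
  refine Nat.card_congr (Equiv.ofBijective
    (fun σ : subgroupOver (E := E) D => (⟨σ.1.restrictScalars K, σ.2⟩ : D)) ⟨?_, ?_⟩)
  · intro σ τ h
    apply Subtype.ext
    ext z
    have := congrArg (fun ρ : D => (ρ.1 : L ≃ₐ[K] L) z) h
    exact this
  · rintro ⟨σ, hσ⟩
    obtain ⟨τ, hτ⟩ := exists_restrictScalars_eq t hgen σ (hD σ hσ)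
    exact ⟨⟨τ, by rw [mem_subgroupOver, hτ]; exact hσ⟩, Subtype.ext hτ⟩

include hgen in
/-- The orbit spaces over `E` and over `K` have the same cardinality. -/
theorem card_quotient_orbitSetoid_subgroupOver (D : Subgroup (L ≃ₐ[K] L))
    (hD : ∀ σ ∈ D, σ (algebraMap E L t) = algebraMap E L t) :
    Nat.card (Quotient (orbitSetoid (F := F) (subgroupOver (E := E) D))) =
      Nat.card (Quotient (orbitSetoidK K (algebraMap E F t) (algebraMap E L t) D)) := by
  refine Nat.card_congr (Quotient.congr (embEquiv t hgen) ?_)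
  intro ψ ψ'
  constructor
  · rintro ⟨σ, hσ, rfl⟩
    exact ⟨σ.restrictScalars K, hσ, by ext z; rfl⟩
  · rintro ⟨σ, hσ, h⟩
    obtain ⟨τ, rfl⟩ := exists_restrictScalars_eq t hgen σ (hD σ hσ)
    refine ⟨τ, hσ, ?_⟩
    ext z
    exact DFunLike.congr_fun h z

end Transport

section KForm

/-!
### The `K`-form

`F / K` a function field with generator `x` (`IsFFGen K x`), `φ : F → L` a `K`-embedding into a field
which is finite Galois over `K(φ x)`.  We use helper structure `polyAlgebra K x` (`X ↦ x`) on `F`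
and `polyAlgebra K (φ x)` on `L`.
-/

open IntermediateField AlgebraicCurve

open scoped RatFunc

variable (K : Type u) [Field K]
variable {F L : Type*} [Field F] [Field L] [Algebra K F] [Algebra K L]

/-- `K`-algebra homomorphisms out of `RatFunc K` are determined by their value at `X`. -/
theorem ratFunc_algHom_ext {ψ₁ ψ₂ : RatFunc K →ₐ[K] L} (h : ψ₁ RatFunc.X = ψ₂ RatFunc.X) :
    ψ₁ = ψ₂ := by
  have h1 : (ψ₁ : RatFunc K →+* L) = ψ₂ := by
    refine IsLocalization.ringHom_ext (nonZeroDivisors K[X]) ?_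
    refine Polynomial.ringHom_ext (fun a => ?_) ?_
    · simp only [RingHom.comp_apply, RingHom.coe_coe]
      rw [RatFunc.algebraMap_C, ← RatFunc.algebraMap_eq_C, AlgHom.commutes, AlgHom.commutes]
    · simp only [RingHom.comp_apply, RingHom.coe_coe]
      rw [RatFunc.algebraMap_X]
      exact h
  exact AlgHom.coe_ringHom_injective h1

theorem polyAlgebra_algebraMap_ratFunc_X {x : F} (hx : Transcendental K x) :
    letI := polyAlgebra K x
    haveI := polyAlgebra_faithfulSMul hx
    algebraMap (RatFunc K) F RatFunc.X = x := by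
  letI := polyAlgebra K x
  haveI := polyAlgebra_faithfulSMul hx
  rw [← RatFunc.algebraMap_X, ← IsScalarTower.algebraMap_apply K[X] (RatFunc K) F,
    polyAlgebra_algebraMap, aeval_X]

theorem polyAlgebra_isScalarTower_ratFunc {x : F} (hx : Transcendental K x) :
    letI := polyAlgebra K x
    haveI := polyAlgebra_faithfulSMul hx
    IsScalarTower K (RatFunc K) F := by
  letI := polyAlgebra K x
  haveI := polyAlgebra_faithfulSMul hx
  haveI := polyAlgebra_isScalarTower (K := K) x
  refine IsScalarTower.of_algebraMap_eq fun a => ?_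
  rw [RatFunc.algebraMap_eq_C, ← RatFunc.algebraMap_C,
    ← IsScalarTower.algebraMap_apply K[X] (RatFunc K) F, polyAlgebra_algebraMap, aeval_C]

theorem transcendental_algHom_apply {x : F} (hx : Transcendental K x) (φ : F →ₐ[K] L) :
    Transcendental K (φ x) := by
  intro h
  exact hx ((isAlgebraic_algHom_iff φ φ.injective).mp h)

theorem finiteDimensional_of_eq {E₁ E₂ : IntermediateField K L} (h : E₁ = E₂)
    [FiniteDimensional E₁ L] : FiniteDimensional E₂ L := by
  subst h
  infer_instance

theorem isGalois_of_eq {E₁ E₂ : IntermediateField K L} (h : E₁ = E₂)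
    [IsGalois E₁ L] : IsGalois E₂ L := by
  subst h
  infer_instance

/-- Orbits on the embeddings with prescribed value at `x⁻¹` and at `x` are the same. -/
theorem card_quotient_orbitSetoidK_inv (x : F) (φ : F →ₐ[K] L) (D : Subgroup (L ≃ₐ[K] L)) :
    Nat.card (Quotient (orbitSetoidK K x⁻¹ (φ x⁻¹) D)) =
      Nat.card (Quotient (orbitSetoidK K x (φ x) D)) := by
  refine Nat.card_congr (Quotient.congr (Equiv.subtypeEquivRight fun ψ => ?_) ?_)
  · rw [map_inv₀, map_inv₀, inv_inj]
  · intro ψ ψ'
    exact Iff.rfl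

variable [IsAlgClosed K] [CharZero K]

theorem card_primesOver_eq_card_orbitsK {x : F} (h : IsFFGen K x) (φ : F →ₐ[K] L)
    [FiniteDimensional K⟮φ x⟯ L] [IsGalois K⟮φ x⟯ L] (c : K) (w : Valuation L ℤᵐ⁰)
    (hwK : ∀ a : K, w (algebraMap K L a) ≤ 1) (D : Subgroup (L ≃ₐ[K] L))
    (hDx : ∀ σ ∈ D, σ (φ x) = φ x) (hDw : ∀ σ ∈ D, ∀ y : L, w (σ y) = w y)
    (hw : w (φ x - algebraMap K L c) = exp (-(Nat.card D : ℤ))) :
    letI := polyAlgebra K x
    Nat.card ((Ideal.span {(X - C c : K[X])}).primesOver (integralClosure K[X] F)) =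
      Nat.card (Quotient (orbitSetoidK K x (φ x) D)) := by
  have hx := h.transcendental
  have hφx : Transcendental K (φ x) := transcendental_algHom_apply K hx φ
  letI algF := polyAlgebra K x
  haveI := polyAlgebra_isScalarTower (K := K) x
  haveI := polyAlgebra_faithfulSMul hx
  haveI := h.finite
  haveI := polyAlgebra_finiteDimensional hx
  haveI := polyAlgebra_isScalarTower_ratFunc K hx
  letI algL := polyAlgebra K (φ x)
  haveI := polyAlgebra_isScalarTower (K := K) (φ x)
  haveI := polyAlgebra_faithfulSMul hφx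
  haveI := polyAlgebra_finiteDimensional hφx
  haveI := polyAlgebra_isScalarTower_ratFunc K hφx
  haveI : IsGalois (RatFunc K) L :=
    IsGalois.of_equiv_equiv (F := K⟮φ x⟯) (E := L)
      (f := ((RatFunc.algEquivOfTranscendental (φ x) hφx).symm : K⟮φ x⟯ ≃+* RatFunc K))
      (g := RingEquiv.refl L) (polyAlgebra_comp_eq hφx)
  have hXF : algebraMap (RatFunc K) F RatFunc.X = x := polyAlgebra_algebraMap_ratFunc_X K hx
  have hXL : algebraMap (RatFunc K) L RatFunc.X = φ x := polyAlgebra_algebraMap_ratFunc_X K hφx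
  have hgen : ∀ ψ₁ ψ₂ : RatFunc K →ₐ[K] L, ψ₁ RatFunc.X = ψ₂ RatFunc.X → ψ₁ = ψ₂ :=
    fun ψ₁ ψ₂ h => ratFunc_algHom_ext K h
  -- `φ` is `RatFunc K`-linear
  have hcomm : ∀ r : RatFunc K, φ (algebraMap (RatFunc K) F r) = algebraMap (RatFunc K) L r :=
    algHom_commutes_of_apply_eq (RatFunc.X : RatFunc K) hgen φ (by rw [hXF, hXL])
  let φ' : F →ₐ[RatFunc K] L := { φ with commutes' := hcomm }
  have hD' : ∀ σ ∈ D, σ (algebraMap (RatFunc K) L RatFunc.X) = algebraMap (RatFunc K) L RatFunc.X := by
    intro σ hσ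
    rw [hXL]
    exact hDx σ hσ
  have hcard := card_subgroupOver (E := RatFunc K) (RatFunc.X : RatFunc K) hgen D hD'
  have key := card_primesOver_X_sub_C_eq_card_orbits K φ' c w
    (fun a => by
      have : algebraMap K[X] L (C a) = algebraMap K L a := by
        rw [polyAlgebra_algebraMap, aeval_C]
      rw [this]
      exact hwK a)
    (subgroupOver (E := RatFunc K) D)
    (fun σ hσ y => hDw (σ.restrictScalars K) hσ y)
    (by
      rw [hcard, polyAlgebra_algebraMap, map_sub, aeval_X, aeval_C]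
      exact hw)
  rw [key, card_quotient_orbitSetoid_subgroupOver (F := F) (RatFunc.X : RatFunc K) hgen D hD']
  rw [hXF, hXL]


/-- **FF4, `K`-form at infinity**: the same with `x⁻¹` in place of `x` and the centre `0`. -/
theorem card_primesOver_eq_card_orbitsK_infty {x : F} (h : IsFFGen K x) (φ : F →ₐ[K] L)
    [FiniteDimensional K⟮φ x⟯ L] [IsGalois K⟮φ x⟯ L] (w : Valuation L ℤᵐ⁰)
    (hwK : ∀ a : K, w (algebraMap K L a) ≤ 1) (D : Subgroup (L ≃ₐ[K] L))
    (hDx : ∀ σ ∈ D, σ (φ x) = φ x) (hDw : ∀ σ ∈ D, ∀ y : L, w (σ y) = w y)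
    (hw : w (φ x)⁻¹ = exp (-(Nat.card D : ℤ))) :
    letI := polyAlgebra K x⁻¹
    Nat.card ((Ideal.span {(X - C 0 : K[X])}).primesOver (integralClosure K[X] F)) =
      Nat.card (Quotient (orbitSetoidK K x (φ x) D)) := by
  have hE : K⟮φ x⟯ = K⟮φ x⁻¹⟯ := by rw [map_inv₀, adjoin_simple_inv]
  haveI := finiteDimensional_of_eq K hE
  haveI := isGalois_of_eq K hE
  have key := card_primesOver_eq_card_orbitsK K h.inv φ 0 w hwK D
    (fun σ hσ => by rw [map_inv₀, map_inv₀, hDx σ hσ]) hDw
    (by rw [map_zero, sub_zero, map_inv₀]; exact hw)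
  rw [← card_quotient_orbitSetoidK_inv K x φ D]
  exact key

end KForm

end Fermat.Agent.X0
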