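import Mathlib

/-!
# Kähler differentials of a function field in one variable (characteristic zero)

Let `K` be a field of characteristic zero and `F` a field extension of `K` which is algebraic
over `K⟮t⟯` for some `t : F` transcendental over `K`.  Then `Ω[F⁄K]` is a one-dimensional
`F`-vector space with basis `D t`.
-/

set_option autoImplicit false

namespace Fermat.Agent.X0

open KaehlerDifferential IntermediateField TensorProduct

set_option linter.unusedSectionVars false

section span

variable {K F : Type*} [Field K] [Field F] [Algebra K F] [CharZero K]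

/-- For `a` in the field generated by `t` over `K`, `D a` is a multiple of `D t`. -/
theorem D_mem_span_of_mem_adjoin (t : F) {a : F} (ha : a ∈ K⟮t⟯) :
    D K F a ∈ Submodule.span F {D K F t} := by
  induction ha using IntermediateField.adjoin_induction with
  | mem x hx =>
    rw [Set.mem_singleton_iff] at hx
    rw [hx]; exact Submodule.mem_span_singleton_self _
  | algebraMap x => simp
  | add x y _ _ hx hy => rw [map_add]; exact add_mem hx hy
  | inv x _ hx =>
    rw [Derivation.leibniz_inv]
    exact Submodule.smul_mem _ _ hx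
  | mul x y _ _ hx hy =>
    rw [Derivation.leibniz]
    exact add_mem (Submodule.smul_mem _ _ hy) (Submodule.smul_mem _ _ hx)

/-- If `F` is algebraic over `K⟮t⟯` (characteristic zero), then `D t` spans `Ω[F⁄K]`. -/
theorem span_D_eq_top (t : F) [Algebra.IsAlgebraic K⟮t⟯ F] :
    Submodule.span F {D K F t} = ⊤ := by
  have hsep : Algebra.IsSeparable K⟮t⟯ F := Algebra.IsAlgebraic.isSeparable_of_perfectField
  have hunr : Algebra.FormallyUnramified K⟮t⟯ F := Algebra.FormallyUnramified.of_isSeparable _ _
  have hsub : Subsingleton Ω[F⁄K⟮t⟯] := inferInstance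
  rw [eq_top_iff]
  intro ω hω'
  clear hω'
  have hω : ω ∈ LinearMap.range (mapBaseChange K K⟮t⟯ F) := by
    rw [range_mapBaseChange, LinearMap.mem_ker]
    exact Subsingleton.elim _ _
  obtain ⟨z, rfl⟩ := hω
  induction z using TensorProduct.induction_on with
  | zero => simp
  | tmul f η =>
    rw [mapBaseChange_tmul]
    apply Submodule.smul_mem
    have hη : η ∈ (⊤ : Submodule K⟮t⟯ Ω[K⟮t⟯⁄K]) := Submodule.mem_top
    rw [← span_range_derivation] at hη
    induction hη using Submodule.span_induction with
    | mem x hx =>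
      obtain ⟨a, rfl⟩ := hx
      rw [map_D]
      exact D_mem_span_of_mem_adjoin t a.2
    | zero => simp
    | add x y _ _ hx hy => rw [map_add]; exact add_mem hx hy
    | smul a x _ hx =>
      rw [map_smul]
      exact Submodule.smul_mem _ _ hx
  | add x y hx hy => rw [map_add]; exact add_mem hx hy

end span

section nonzero

variable {K F : Type*} [Field K] [Field F] [Algebra K F] [CharZero K]

open scoped IntermediateField.algebraAdjoinAdjoin
open Polynomial

/-- The `K`-derivation `d/dt` of `K[t]` for `t` transcendental over `K`. -/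
noncomputable def adjoinDerivation (t : F) (ht : Transcendental K t) :
    Derivation K (Algebra.adjoin K {t}) (Algebra.adjoin K {t}) :=
  Derivation.mk'
    ((algEquivOfTranscendental K t ht).toLinearMap ∘ₗ Polynomial.derivative ∘ₗ
      (algEquivOfTranscendental K t ht).symm.toLinearMap)
    (by
      intro a b
      simp only [LinearMap.coe_comp, Function.comp_apply, AlgEquiv.toLinearMap_apply, map_mul,
        Polynomial.derivative_mul, map_add, AlgEquiv.apply_symm_apply, smul_eq_mul]
      ring)

theorem adjoinDerivation_gen (t : F) (ht : Transcendental K t) :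
    adjoinDerivation t ht ⟨t, Algebra.self_mem_adjoin_singleton K t⟩ = 1 := by
  simp [adjoinDerivation]

/-- `D t ≠ 0` in `Ω[K⟮t⟯⁄K]` for `t` transcendental. -/
theorem D_gen_ne_zero (t : F) (ht : Transcendental K t) :
    D K K⟮t⟯ (AdjoinSimple.gen K t) ≠ 0 := by
  intro h0
  have hloc : IsLocalizedModule (nonZeroDivisors (Algebra.adjoin K {t}))
      (KaehlerDifferential.map K K (Algebra.adjoin K {t}) K⟮t⟯) :=
    KaehlerDifferential.isLocalizedModule_map K (Algebra.adjoin K {t}) K⟮t⟯ _
  have h1 : KaehlerDifferential.map K K (Algebra.adjoin K {t}) K⟮t⟯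
      (D K (Algebra.adjoin K {t}) ⟨t, Algebra.self_mem_adjoin_singleton K t⟩) = 0 := by
    rw [KaehlerDifferential.map_D]; exact h0
  rw [IsLocalizedModule.eq_zero_iff (nonZeroDivisors (Algebra.adjoin K {t}))] at h1
  obtain ⟨c, hc⟩ := h1
  have h2 := congrArg (adjoinDerivation t ht).liftKaehlerDifferential hc
  rw [Submonoid.smul_def, map_smul, Derivation.liftKaehlerDifferential_comp_D,
    adjoinDerivation_gen, map_zero, smul_eq_mul, mul_one] at h2
  exact nonZeroDivisors.coe_ne_zero c h2

/-- If `t` is transcendental over `K` and `F` is algebraic over `K⟮t⟯` (characteristic zero),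
then `D t ≠ 0` in `Ω[F⁄K]`. -/
theorem D_ne_zero (t : F) (ht : Transcendental K t) [Algebra.IsAlgebraic K⟮t⟯ F] :
    D K F t ≠ 0 := by
  have hsep : Algebra.IsSeparable K⟮t⟯ F := Algebra.IsAlgebraic.isSeparable_of_perfectField
  have het : Algebra.FormallyEtale K⟮t⟯ F := Algebra.FormallyEtale.of_isSeparable _ _
  intro h0
  have h1 := tensorKaehlerEquivOfFormallyEtale_symm_D_algebraMap K K⟮t⟯ F (AdjoinSimple.gen K t)
  rw [AdjoinSimple.algebraMap_gen, h0, map_zero] at h1
  have hinj := Module.FaithfullyFlat.tensorProduct_mk_injective (A := K⟮t⟯) (B := F) Ω[K⟮t⟯⁄K]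
  have h2 : TensorProduct.mk K⟮t⟯ F Ω[K⟮t⟯⁄K] 1 (D K K⟮t⟯ (AdjoinSimple.gen K t)) = 0 := h1.symm
  rw [← map_zero (TensorProduct.mk K⟮t⟯ F Ω[K⟮t⟯⁄K] 1)] at h2
  exact D_gen_ne_zero t ht (hinj h2)

end nonzero

section exchange

universe u v

variable {K : Type u} {F : Type v} [Field K] [Field F] [Algebra K F]

open scoped IntermediateField.algebraAdjoinAdjoin

/-- `F` is algebraic over `K⟮t⟯` iff it is algebraic over `K[t]`. -/
theorem isAlgebraic_adjoin_iff (t : F) :
    Algebra.IsAlgebraic K⟮t⟯ F ↔ Algebra.IsAlgebraic (Algebra.adjoin K {t}) F := by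
  constructor
  · intro h
    exact Algebra.IsAlgebraic.trans (Algebra.adjoin K {t}) K⟮t⟯ F
  · intro h
    exact Algebra.IsAlgebraic.extendScalars (R := Algebra.adjoin K {t}) (S := K⟮t⟯)
      (FaithfulSMul.algebraMap_injective _ _)

/-- Exchange lemma: if `F` is algebraic over `K⟮x⟯` and `t : F` is transcendental over `K`, then
`F` is algebraic over `K⟮t⟯`. -/
theorem isAlgebraic_adjoin_of_transcendental (x t : F) [Algebra.IsAlgebraic K⟮x⟯ F]
    (ht : Transcendental K t) : Algebra.IsAlgebraic K⟮t⟯ F := by
  rw [isAlgebraic_adjoin_iff]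
  have hx : Algebra.IsAlgebraic (Algebra.adjoin K {x}) F :=
    (isAlgebraic_adjoin_iff x).mp inferInstance
  have htr : Algebra.trdeg K F ≤ 1 := by
    have := Algebra.IsAlgebraic.trdeg_le_cardinalMk K ({x} : Set F)
    simpa using this
  have hind : AlgebraicIndependent K (fun _ : PUnit.{v + 1} => t) :=
    algebraicIndependent_unique_type_iff.mpr ht
  have hbasis : IsTranscendenceBasis K (fun _ : PUnit.{v + 1} => t) :=
    hind.isTranscendenceBasis_of_trdeg_le_of_finite (by simpa using htr)
  have := hbasis.isAlgebraic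
  have hr : Set.range (fun _ : PUnit.{v + 1} => t) = {t} := by
    ext y; simp [eq_comm]
  rwa [hr] at this

/-- In a function field of one variable over `K` (characteristic zero), `D t` is a basis of
`Ω[F⁄K]` for every `t` transcendental over `K`. -/
theorem D_ne_zero_and_span_of_transcendental [CharZero K] (x t : F)
    [Algebra.IsAlgebraic K⟮x⟯ F] (ht : Transcendental K t) :
    D K F t ≠ 0 ∧ Submodule.span F {D K F t} = ⊤ := by
  have := isAlgebraic_adjoin_of_transcendental x t ht
  exact ⟨D_ne_zero t ht, span_D_eq_top t⟩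

end exchange

end Fermat.Agent.X0
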