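import Mathlib
import Fermat.Prelude.Def_AlgebraicCurve_CanonicalDivisor

/-!
# The key local lemma on differentials at a place (part of package FF3 of the X0(N) blueprint)

`K` a field, `F` a field extension, `v : Place K F` with residue field `K` whose valuation ring is
essentially of finite type over `K`, `t` a uniformizer at `v`.
* `exists_D_eq_smul_D_uniformizer`: `D (O_v) ⊆ O_v • D t`  (Nakayama on the finite `O_v`-module
  `Ω[O_v⁄K]`).
* `exists_D_eq_smul_ord_eq` (characteristic zero): if `v.ord y = e ≠ 0` then `D y = g • D t` with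
  `v.ord g = e - 1`.
Also small lemmas on `Place.ord` and `derivation_zpow`.
-/

set_option autoImplicit false
set_option linter.unusedSectionVars false

open KaehlerDifferential AlgebraicCurve

namespace Fermat.Agent.X0.KeyLemma

variable {K F : Type*} [Field K] [Field F] [Algebra K F]


section Ord

variable (v : Place K F)

theorem adicValuation_eq_exp_neg_ord {f : F} (hf : f ≠ 0) :
    v.adicValuation f = WithZero.exp (-(v.ord f)) := by
  rw [Place.ord, neg_neg, WithZero.exp_log (v.adicValuation_ne_zero hf)]

theorem ord_lt_ord_iff {f g : F} (hf : f ≠ 0) (hg : g ≠ 0) :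
    v.ord f < v.ord g ↔ v.adicValuation g < v.adicValuation f := by
  rw [adicValuation_eq_exp_neg_ord v hf, adicValuation_eq_exp_neg_ord v hg, WithZero.exp_lt_exp]
  omega

theorem ord_le_ord_iff {f g : F} (hf : f ≠ 0) (hg : g ≠ 0) :
    v.ord f ≤ v.ord g ↔ v.adicValuation g ≤ v.adicValuation f := by
  rw [adicValuation_eq_exp_neg_ord v hf, adicValuation_eq_exp_neg_ord v hg, WithZero.exp_le_exp]
  omega

theorem ord_add_eq_of_lt {f g : F} (hf : f ≠ 0) (hg : g ≠ 0) (h : v.ord f < v.ord g) :
    v.ord (f + g) = v.ord f := by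
  have h' := (ord_lt_ord_iff v hf hg).1 h
  have : v.adicValuation (f + g) = v.adicValuation f :=
    Valuation.map_add_eq_of_lt_left _ h'
  rw [Place.ord, this, Place.ord]

theorem ord_nonneg_of_mem {y : F} (hy : y ∈ v.toValuationSubring) : 0 ≤ v.ord y := by
  rcases eq_or_ne y 0 with rfl | h0
  · simp
  have h1 : v.adicValuation y ≤ 1 := by
    have := v.adicValuation_coe ⟨y, hy⟩
    simp only at this
    rw [this]
    exact IsDedekindDomain.HeightOneSpectrum.intValuation_le_one _ _
  rw [adicValuation_eq_exp_neg_ord v h0, ← WithZero.exp_zero, WithZero.exp_le_exp] at h1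
  omega

theorem ord_algebraMap {c : K} (hc : c ≠ 0) : v.ord (algebraMap K F c) = 0 := by
  have hu : IsUnit (algebraMap K v.toValuationSubring c) :=
    (IsUnit.mk0 c hc).map _
  have := v.ord_coe_unit hu.unit
  rwa [IsUnit.unit_spec, v.coe_algebraMap] at this

theorem ord_neg (f : F) : v.ord (-f) = v.ord f := by
  rw [Place.ord, Place.ord, Valuation.map_neg]

end Ord

section Zpow

variable {M : Type*} [AddCommGroup M] [Module K M] [Module F M] [IsScalarTower K F M]

theorem derivation_zpow (d : Derivation K F M) {a : F} (ha : a ≠ 0) (n : ℤ) :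
    d (a ^ n) = ((n : F) * a ^ (n - 1)) • d a := by
  rcases n with n | n
  · simp only [Int.ofNat_eq_natCast, zpow_natCast, Int.cast_natCast]
    rw [Derivation.leibniz_pow]
    rcases n with _ | n
    · simp
    · have : ((n + 1 : ℕ) : ℤ) - 1 = (n : ℤ) := by push_cast; ring
      rw [this, zpow_natCast, Nat.add_sub_cancel, mul_smul, Nat.cast_smul_eq_nsmul]
  · rw [zpow_negSucc, Derivation.leibniz_inv, Derivation.leibniz_pow, Nat.add_sub_cancel]
    have h1 : Int.negSucc n - 1 = -((n : ℤ) + 2) := by
      rw [Int.negSucc_eq]; ring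
    rw [h1, zpow_neg, ← Nat.cast_smul_eq_nsmul F, smul_smul, smul_smul, Int.negSucc_eq]
    congr 1
    have h2 : a ^ ((n : ℤ) + 2) = a ^ (n + 2) := by exact_mod_cast zpow_natCast a (n + 2)
    rw [h2]
    push_cast
    field_simp
    ring

end Zpow


/-- Key lemma: differentials of elements of the valuation ring of a place `v` with residue field `K`
are `O_v`-multiples of `D t`, for `t` a uniformizer. -/
theorem exists_D_eq_smul_D_uniformizer (v : Place K F)
    [Algebra.EssFiniteType K v.toValuationSubring]
    (hres : ∀ y : v.toValuationSubring, ∃ c : K,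
      y - algebraMap K v.toValuationSubring c ∈ IsLocalRing.maximalIdeal v.toValuationSubring)
    (t : v.toValuationSubring) (ht : Irreducible t) (y : v.toValuationSubring) :
    ∃ a : v.toValuationSubring, D K F (y : F) = (a : F) • D K F (t : F) := by
  have hfin : Module.Finite v.toValuationSubring Ω[v.toValuationSubring⁄K] := inferInstance
  -- Nakayama
  have hspan : (⊤ : Submodule v.toValuationSubring Ω[v.toValuationSubring⁄K]) ≤
      Submodule.span v.toValuationSubring {D K v.toValuationSubring t} := by
    apply Submodule.le_of_le_smul_of_le_jacobson_bot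
      (I := IsLocalRing.maximalIdeal v.toValuationSubring)
      (Module.finite_def.mp hfin) (IsLocalRing.maximalIdeal_le_jacobson _)
    rw [← KaehlerDifferential.span_range_derivation, Submodule.span_le]
    rintro _ ⟨z, rfl⟩
    obtain ⟨c, hc⟩ := hres z
    rw [ht.maximalIdeal_eq, Ideal.mem_span_singleton] at hc
    obtain ⟨w, hw⟩ := hc
    have hz : z = algebraMap K v.toValuationSubring c + t * w := by rw [← hw]; ring
    have hD : D K v.toValuationSubring z = w • D K v.toValuationSubring t
        + t • D K v.toValuationSubring w := by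
      rw [hz, map_add, Derivation.map_algebraMap, zero_add, Derivation.leibniz]
      abel
    rw [hD, KaehlerDifferential.span_range_derivation]
    refine Submodule.add_mem_sup (Submodule.smul_mem _ _ (Submodule.subset_span rfl)) ?_
    exact Submodule.smul_mem_smul
      (by rw [ht.maximalIdeal_eq]; exact Ideal.mem_span_singleton_self t) Submodule.mem_top
  have hy : D K v.toValuationSubring y ∈
      Submodule.span v.toValuationSubring {D K v.toValuationSubring t} := hspan Submodule.mem_top
  obtain ⟨a, ha⟩ := Submodule.mem_span_singleton.mp hy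
  refine ⟨a, ?_⟩
  have := congrArg (KaehlerDifferential.map K K v.toValuationSubring F) ha
  rw [map_smul, KaehlerDifferential.map_D, KaehlerDifferential.map_D] at this
  exact this.symm

/-- If `v.ord y = e ≠ 0` then `D y = g • D t` with `v.ord g = e - 1` (`t` a uniformizer at `v`,
characteristic zero). -/
theorem exists_D_eq_smul_ord_eq (v : Place K F) [CharZero K]
    [Algebra.EssFiniteType K v.toValuationSubring]
    (hres : ∀ y : v.toValuationSubring, ∃ c : K,
      y - algebraMap K v.toValuationSubring c ∈ IsLocalRing.maximalIdeal v.toValuationSubring)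
    (t : v.toValuationSubring) (ht : Irreducible t) (y : F) (hy : y ≠ 0) (he : v.ord y ≠ 0) :
    ∃ g : F, D K F y = g • D K F (t : F) ∧ v.ord g = v.ord y - 1 := by
  obtain ⟨u, hu⟩ := v.exists_unit_mul_zpow hy ht
  obtain ⟨a, ha⟩ := exists_D_eq_smul_D_uniformizer v hres t ht (u : v.toValuationSubring)
  set e := v.ord y with he_def
  have ht0 : (t : F) ≠ 0 := by
    simpa [ne_eq, ZeroMemClass.coe_eq_zero] using ht.ne_zero
  have hu0 : ((u : v.toValuationSubring) : F) ≠ 0 := by
    simp [ne_eq, ZeroMemClass.coe_eq_zero]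
  have heF : ((e : ℤ) : F) ≠ 0 := by
    have : ((e : ℤ) : F) = algebraMap K F ((e : ℤ) : K) := by simp
    rw [this]
    exact (map_ne_zero_iff _ (algebraMap K F).injective).mpr (Int.cast_ne_zero.mpr he)
  have hordE : v.ord ((e : ℤ) : F) = 0 := by
    have : ((e : ℤ) : F) = algebraMap K F ((e : ℤ) : K) := by simp
    rw [this]
    exact ord_algebraMap v (Int.cast_ne_zero.mpr he)
  set g₁ : F := ((u : v.toValuationSubring) : F) * ((e : F) * (t : F) ^ (e - 1)) with hg₁
  set g₂ : F := (t : F) ^ e * (a : F) with hg₂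
  have hD : D K F y = (g₁ + g₂) • D K F (t : F) := by
    conv_lhs => rw [hu]
    rw [Derivation.leibniz, derivation_zpow (D K F) ht0, ha, add_smul, hg₁, hg₂, smul_smul,
      smul_smul]
  have hg₁0 : g₁ ≠ 0 := mul_ne_zero hu0 (mul_ne_zero heF (zpow_ne_zero _ ht0))
  have hordg₁ : v.ord g₁ = e - 1 := by
    rw [hg₁, v.ord_mul hu0 (mul_ne_zero heF (zpow_ne_zero _ ht0)), v.ord_coe_unit,
      v.ord_mul heF (zpow_ne_zero _ ht0), hordE, v.ord_zpow, v.ord_coe_irreducible ht]
    ring
  refine ⟨g₁ + g₂, hD, ?_⟩
  rcases eq_or_ne (a : F) 0 with ha0 | ha0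
  · rw [hg₂, ha0, mul_zero, add_zero, hordg₁]
  · have hg₂0 : g₂ ≠ 0 := mul_ne_zero (zpow_ne_zero _ ht0) ha0
    have hordg₂ : e ≤ v.ord g₂ := by
      rw [hg₂, v.ord_mul (zpow_ne_zero _ ht0) ha0, v.ord_zpow, v.ord_coe_irreducible ht]
      have := ord_nonneg_of_mem v a.2
      linarith
    rw [ord_add_eq_of_lt v hg₁0 hg₂0 (by rw [hordg₁]; omega), hordg₁]

end Fermat.Agent.X0.KeyLemma
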