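import Mathlib
import Fermat.Prelude.Def_AlgebraicCurve_CanonicalDivisor
import Fermat.Agent.X0.FF.Kaehler
import Fermat.Agent.X0.FF.KeyLemma

/-!
# X0 / FF3: local Hurwitz formula and the genus of a function field of one variable

`PlaceInputs K F` collects what is needed from the structure theory of places (FF1).
Main local results: `dCoordGenerates`, `nontrivial_kaehler`, `ordDifferential_D`
(`v.ord z = n ≠ 0 ⇒ v.ordDifferential (D z) = n - 1`), `ordDifferential_smul_D`.
-/

set_option autoImplicit false
set_option linter.style.haveILetI false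

namespace Fermat.Agent.X0

open KaehlerDifferential IntermediateField AlgebraicCurve

section Glue

variable (K F : Type*) [Field K] [Field F] [Algebra K F]

/-- The inputs that FF3 needs from FF1 (structure of the places of a function field in one
variable over an algebraically closed field). -/
structure PlaceInputs : Prop where
  /-- the residue field at every place is `K` -/
  res : ∀ v : Place K F, ∀ y : v.toValuationSubring, ∃ c : K,
    y - algebraMap K v.toValuationSubring c ∈ IsLocalRing.maximalIdeal v.toValuationSubring
  /-- every valuation ring is essentially of finite type over `K` -/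
  ess : ∀ v : Place K F, Algebra.EssFiniteType K v.toValuationSubring
  /-- `F` has transcendence degree (at most) one over `K` -/
  alg : ∃ x : F, Algebra.IsAlgebraic K⟮x⟯ F

variable {K F}

/-- The Prelude's private uniformizer, exposed. -/
theorem exists_dCoord (v : Place K F) :
    ∃ t : v.toValuationSubring, Irreducible t ∧ v.ord (t : F) = 1 ∧ v.dCoord = D K F (t : F) :=
  ⟨(IsDiscreteValuationRing.exists_irreducible v.toValuationSubring).choose,
    (IsDiscreteValuationRing.exists_irreducible v.toValuationSubring).choose_spec,
    v.ord_coe_irreducible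
      (IsDiscreteValuationRing.exists_irreducible v.toValuationSubring).choose_spec, rfl⟩

/-- An element of nonzero order at some place is transcendental over `K`. -/
theorem transcendental_of_ord_ne_zero (v : Place K F) {t : F} (ht : v.ord t ≠ 0) :
    Transcendental K t := by
  intro halg
  have key : ∀ s : F, IsAlgebraic K s → 0 ≤ v.ord s := by
    intro s hs
    have h1 : IsIntegral v.toValuationSubring s := hs.isIntegral.tower_top
    obtain ⟨y, hy⟩ := IsIntegrallyClosed.algebraMap_eq_of_integral h1
    rw [← hy]
    exact KeyLemma.ord_nonneg_of_mem v y.2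
  have h1 := key t halg
  have h2 := key t⁻¹ halg.inv
  rw [v.ord_inv] at h2
  omega

variable [CharZero K]

theorem D_ne_zero_and_span_of_ord_ne_zero (h : PlaceInputs K F) (v : Place K F) {t : F}
    (ht : v.ord t ≠ 0) : D K F t ≠ 0 ∧ Submodule.span F {D K F t} = ⊤ := by
  obtain ⟨x, hx⟩ := h.alg
  exact D_ne_zero_and_span_of_transcendental x t (transcendental_of_ord_ne_zero v ht)

/-- (d1) every place satisfies the Prelude's `DCoordGenerates`. -/
theorem dCoordGenerates (h : PlaceInputs K F) (v : Place K F) : v.DCoordGenerates := by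
  obtain ⟨t, -, ht, e⟩ := exists_dCoord v
  exact ⟨by rw [e]; exact (D_ne_zero_and_span_of_ord_ne_zero h v (by rw [ht]; exact one_ne_zero)).2⟩

/-- (d2) `Ω[F⁄K]` is nontrivial as soon as there is a place. -/
theorem nontrivial_kaehler (h : PlaceInputs K F) (v : Place K F) : Nontrivial Ω[F⁄K] := by
  obtain ⟨t, -, ht, -⟩ := exists_dCoord v
  exact ⟨⟨D K F (t : F), 0,
    (D_ne_zero_and_span_of_ord_ne_zero h v (by rw [ht]; exact one_ne_zero)).1⟩⟩

/-- (d3) **local Hurwitz formula**: if `z` has order `n ≠ 0` at `v`, then `D z` has order `n - 1`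
at `v`. -/
theorem ordDifferential_D (h : PlaceInputs K F) (v : Place K F) {z : F} (hz : v.ord z ≠ 0) :
    v.ordDifferential (D K F z) = v.ord z - 1 := by
  haveI := dCoordGenerates h v
  haveI := nontrivial_kaehler h v
  haveI := h.ess v
  obtain ⟨t, htirr, -, e⟩ := exists_dCoord v
  have hz0 : z ≠ 0 := by rintro rfl; exact hz v.ord_zero
  obtain ⟨g, hg, hord⟩ := KeyLemma.exists_D_eq_smul_ord_eq v (h.res v) t htirr z hz0 hz
  rw [← e] at hg
  rw [Place.ordDifferential, v.differentialCoeff_unique hg, hord]

/-- (d4) the coefficient of `D z` at `v` is nonzero when `z` is transcendental over `K`. -/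
theorem differentialCoeff_D_ne_zero (h : PlaceInputs K F) (v : Place K F) {z : F}
    (hz : Transcendental K z) : v.differentialCoeff (D K F z) ≠ 0 := by
  haveI := dCoordGenerates h v
  haveI := nontrivial_kaehler h v
  intro h0
  have := v.differentialCoeff_smul_dCoord (D K F z)
  rw [h0, zero_smul] at this
  obtain ⟨x, hx⟩ := h.alg
  exact (D_ne_zero_and_span_of_transcendental x z hz).1 this.symm

/-- (d5) `ordDifferential (g • D z) = ord g + ordDifferential (D z)` for transcendental `z`. -/
theorem ordDifferential_smul_D (h : PlaceInputs K F) (v : Place K F) {z : F}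
    (hz : Transcendental K z) {g : F} (hg : g ≠ 0) :
    v.ordDifferential (g • D K F z) = v.ord g + v.ordDifferential (D K F z) := by
  haveI := dCoordGenerates h v
  haveI := nontrivial_kaehler h v
  exact v.ordDifferential_smul hg (differentialCoeff_D_ne_zero h v hz)

end Glue

section Global

variable {K F : Type*} [Field K] [Field F] [Algebra K F]

/-- Residue fields are `K`, so all places have degree one. -/
theorem deg_eq_one (h : PlaceInputs K F) (v : Place K F) : v.deg = 1 := by
  rw [Place.deg, finrank_eq_one_iff_of_nonzero' (1 : v.ResidueField) one_ne_zero]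
  intro w
  obtain ⟨y, rfl⟩ := IsLocalRing.residue_surjective w
  obtain ⟨c, hc⟩ := h.res v y
  refine ⟨c, ?_⟩
  rw [Algebra.smul_def, mul_one]
  have : IsLocalRing.residue v.toValuationSubring (y - algebraMap K v.toValuationSubring c) = 0 :=
    (IsLocalRing.residue_eq_zero_iff _).mpr hc
  rw [map_sub, sub_eq_zero] at this
  rw [this]
  rfl

/-- The degree of a divisor is the sum of its coefficients (all places have degree one). -/
theorem degree_eq_finsum (h : PlaceInputs K F) (D : Divisor K F) :
    Divisor.degree D = ∑ᶠ v : Place K F, D v := by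
  rw [finsum_eq_sum_of_support_subset (s := D.support) _ (by
    intro v hv
    simpa using hv)]
  have : Divisor.degree D = D.sum fun v n => n * (v.deg : ℤ) := by
    simp [Divisor.degree, Finsupp.liftAddHom_apply]
  rw [this, Finsupp.sum]
  refine Finset.sum_congr rfl fun v _ => ?_
  rw [deg_eq_one h v]
  simp

variable [CharZero K]

/-- All nonzero differentials have canonical divisors of the same degree. -/
theorem degree_canonicalDivisorOf_eq (h : PlaceInputs K F)
    [HasCanonicalDivisor (K := K) (F := F)] [HasPrincipalDivisors K F]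
    {x : F} (hx : Transcendental K x) {ω : Ω[F⁄K]} (hω : ω ≠ 0) (hDx : D K F x ≠ 0) :
    Divisor.degree (canonicalDivisorOf hω) = Divisor.degree (canonicalDivisorOf hDx) := by
  obtain ⟨x₀, hx₀⟩ := h.alg
  have hspan := (D_ne_zero_and_span_of_transcendental x₀ x hx).2
  have hmem : ω ∈ Submodule.span F {D K F x} := hspan ▸ Submodule.mem_top
  obtain ⟨g, rfl⟩ := Submodule.mem_span_singleton.mp hmem
  have hg : g ≠ 0 := by
    rintro rfl
    exact hω (zero_smul _ _)
  obtain ⟨E, hE, hdeg⟩ := HasPrincipalDivisors.exists_divisor (K := K) g hg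
  have : canonicalDivisorOf hω = E + canonicalDivisorOf hDx := by
    ext v
    rw [Finsupp.add_apply, canonicalDivisorOf_apply, canonicalDivisorOf_apply, hE v,
      ordDifferential_smul_D h v hx hg]
  rw [this, map_add, hdeg, zero_add]

omit [CharZero K] in
/-- Elements of nonnegative order are in the valuation ring. -/
theorem mem_of_ord_nonneg (v : Place K F) {f : F} (hf : 0 ≤ v.ord f) :
    f ∈ v.toValuationSubring := by
  rcases eq_or_ne f 0 with rfl | hf0
  · exact zero_mem _
  obtain ⟨π, hπ⟩ := IsDiscreteValuationRing.exists_irreducible v.toValuationSubring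
  obtain ⟨u, hu⟩ := v.exists_unit_mul_zpow hf0 hπ
  rw [hu]
  obtain ⟨n, hn⟩ := Int.eq_ofNat_of_zero_le hf
  rw [hn, zpow_natCast]
  exact mul_mem (u : v.toValuationSubring).2 (pow_mem π.2 n)

omit [CharZero K] in
/-- Nonzero elements of the maximal ideal have positive order. -/
theorem ord_pos_of_mem_maximalIdeal (v : Place K F) {y : v.toValuationSubring}
    (hy : y ∈ IsLocalRing.maximalIdeal v.toValuationSubring) (hy0 : y ≠ 0) : 0 < v.ord (y : F) := by
  obtain ⟨π, hπ⟩ := IsDiscreteValuationRing.exists_irreducible v.toValuationSubring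
  rw [hπ.maximalIdeal_eq, Ideal.mem_span_singleton] at hy
  obtain ⟨w, rfl⟩ := hy
  have hw0 : w ≠ 0 := by
    rintro rfl
    exact hy0 (mul_zero _)
  have hπF : (π : F) ≠ 0 := by
    simpa [ne_eq, ZeroMemClass.coe_eq_zero] using hπ.ne_zero
  have hwF : (w : F) ≠ 0 := by
    simpa [ne_eq, ZeroMemClass.coe_eq_zero] using hw0
  have : ((π * w : v.toValuationSubring) : F) = (π : F) * (w : F) := rfl
  rw [this, v.ord_mul hπF hwF, v.ord_coe_irreducible hπ]
  have := KeyLemma.ord_nonneg_of_mem v w.2
  omega

omit [CharZero K] in
/-- Every place is a pole of `x` or has a centre `c ∈ K` on the `x`-line. -/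
theorem pole_or_centre (h : PlaceInputs K F) (v : Place K F) {x : F} (hx : Transcendental K x) :
    v.ord x < 0 ∨ ∃ c : K, 0 < v.ord (x - algebraMap K F c) := by
  by_cases hneg : v.ord x < 0
  · exact Or.inl hneg
  right
  have hxO : x ∈ v.toValuationSubring := mem_of_ord_nonneg v (not_lt.mp hneg)
  obtain ⟨c, hc⟩ := h.res v ⟨x, hxO⟩
  refine ⟨c, ?_⟩
  have hne : (⟨x, hxO⟩ - algebraMap K v.toValuationSubring c : v.toValuationSubring) ≠ 0 := by
    intro h0
    have h1 := congrArg (Subtype.val) h0
    have h2 : x - algebraMap K F c = 0 := by simpa using h1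
    exact hx (by rw [sub_eq_zero.mp h2]; exact isAlgebraic_algebraMap c)
  exact ord_pos_of_mem_maximalIdeal v hc hne

/-- `D x` has order `ord x - 1` at a pole of `x`. -/
theorem ordDifferential_D_of_pole (h : PlaceInputs K F) (v : Place K F) {x : F}
    (hv : v.ord x < 0) : v.ordDifferential (D K F x) = v.ord x - 1 :=
  ordDifferential_D h v hv.ne

/-- `D x` has order `e - 1` at a place centred at `c` with ramification index
`e = ord (x - c)`. -/
theorem ordDifferential_D_of_centre (h : PlaceInputs K F) (v : Place K F) {x : F} (c : K)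
    (hc : 0 < v.ord (x - algebraMap K F c)) :
    v.ordDifferential (D K F x) = v.ord (x - algebraMap K F c) - 1 := by
  have : D K F x = D K F (x - algebraMap K F c) := by simp
  rw [this]
  exact ordDifferential_D h v hc.ne'

omit [CharZero K] in
theorem ord_nonneg_of_centre (v : Place K F) {x : F} (c : K)
    (hc : 0 < v.ord (x - algebraMap K F c)) : 0 ≤ v.ord x := by
  have h1 : x - algebraMap K F c ∈ v.toValuationSubring := mem_of_ord_nonneg v hc.le
  have h2 : x = (x - algebraMap K F c) + algebraMap K F c := by ring
  rw [h2]
  exact KeyLemma.ord_nonneg_of_mem v (add_mem h1 (v.algebraMap_mem' c))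

/-- **Hurwitz formula**: the degree of `div (dx)` in terms of the ramification of `x`.
`e` is any function giving the ramification index of `x` at each place
(`- ord x` at the poles, `ord (x - c)` at the places centred at `c`). -/
theorem degree_canonicalDivisorOf_D (h : PlaceInputs K F)
    [HasCanonicalDivisor (K := K) (F := F)] {x : F} (hx : Transcendental K x)
    (hDx : D K F x ≠ 0) (e : Place K F → ℤ) (he_pole : ∀ v, v.ord x < 0 → e v = - v.ord x)
    (he_fin : ∀ v (c : K), 0 < v.ord (x - algebraMap K F c) →
      e v = v.ord (x - algebraMap K F c)) :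
    (Function.support fun v => e v - 1).Finite ∧
    (Function.support fun v : Place K F => max (- v.ord x) 0).Finite ∧
    Divisor.degree (canonicalDivisorOf hDx) =
      (∑ᶠ v, (e v - 1)) - 2 * ∑ᶠ v : Place K F, max (- v.ord x) 0 := by
  set Dx := canonicalDivisorOf hDx with hDxdef
  have hval : ∀ v, Dx v = (e v - 1) - 2 * max (- v.ord x) 0 := by
    intro v
    rw [hDxdef, canonicalDivisorOf_apply]
    rcases pole_or_centre h v hx with hp | ⟨c, hc⟩
    · rw [ordDifferential_D_of_pole h v hp, he_pole v hp, max_eq_left (by omega)]
      ring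
    · rw [ordDifferential_D_of_centre h v c hc, he_fin v c hc,
        max_eq_right (by have := ord_nonneg_of_centre v c hc; omega)]
      ring
  have hfin2 : (Function.support fun v : Place K F => max (- v.ord x) 0).Finite := by
    apply Dx.hasFiniteSupport.subset
    intro v hv
    simp only [Function.mem_support] at hv
    have hp : v.ord x < 0 := by
      by_contra hcon
      exact hv (max_eq_right (by omega))
    have := hval v
    rw [he_pole v hp, max_eq_left (by omega)] at this
    show Dx v ≠ 0
    omega
  have hfin1 : (Function.support fun v => e v - 1).Finite := by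
    apply (Set.Finite.union Dx.hasFiniteSupport hfin2).subset
    intro v hv
    simp only [Function.mem_support] at hv
    by_cases hp : max (- v.ord x) 0 = 0
    · left
      have := hval v
      rw [hp] at this
      show Dx v ≠ 0
      omega
    · right
      exact hp
  refine ⟨hfin1, hfin2, ?_⟩
  rw [degree_eq_finsum h, mul_finsum' _ _ hfin2, ← finsum_sub_distrib hfin1 (by
    apply hfin2.subset
    intro v hv
    simp only [Function.mem_support] at hv ⊢
    intro h0
    exact hv (by rw [h0, mul_zero]))]
  exact finsum_congr hval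

/-- **Genus formula** (FF3 final): `genus K F = (R + 2 - 2n).toNat / 2`, where
`R = ∑ (e_v - 1)` and `n = ∑_{poles} e_v` is the degree of the polar divisor of `x`. -/
theorem genus_eq (h : PlaceInputs K F)
    [HasCanonicalDivisor (K := K) (F := F)] [HasPrincipalDivisors K F]
    {x : F} (hx : Transcendental K x) (e : Place K F → ℤ)
    (he_pole : ∀ v, v.ord x < 0 → e v = - v.ord x)
    (he_fin : ∀ v (c : K), 0 < v.ord (x - algebraMap K F c) →
      e v = v.ord (x - algebraMap K F c)) :
    genus K F =
      ((∑ᶠ v, (e v - 1)) + 2 - 2 * ∑ᶠ v : Place K F, max (- v.ord x) 0).toNat / 2 := by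
  obtain ⟨x₀, hx₀⟩ := h.alg
  have hDx := (D_ne_zero_and_span_of_transcendental x₀ x hx).1
  have hex : ∃ ω : Ω[F⁄K], ω ≠ 0 := ⟨_, hDx⟩
  rw [genus, dif_pos hex, degree_canonicalDivisorOf_eq h hx hex.choose_spec hDx,
    (degree_canonicalDivisorOf_D h hx hDx e he_pole he_fin).2.2]
  congr 2
  ring

end Global

end Fermat.Agent.X0
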