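import Mathlib
import Fermat.Agent.X0.FF.FunctionField
import Fermat.Agent.X0.FF.Hurwitz

/-!
# X0 / FF1 (part 4): inputs for the Hurwitz formula

* `essFiniteType_ofHeightOneSpectrum`: the valuation ring of the place attached to a height one
  prime of a Dedekind domain of finite type over `K` is essentially of finite type over `K`;
* `IsFFGen.residue_eq`, `IsFFGen.essFiniteType`, `IsFFGen.placeInputs`: the `PlaceInputs` structure
  of `FF/Hurwitz.lean` for a function field with a generator.
-/

set_option autoImplicit false
set_option linter.unusedSectionVars false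
set_option linter.style.haveILetI false

namespace Fermat.Agent.X0

open AlgebraicCurve IsDedekindDomain WithZero Polynomial IntermediateField

open scoped RatFunc

section General

variable {K F : Type*} [Field K] [Field F] [Algebra K F]
variable {R : Type*} [CommRing R] [IsDedekindDomain R] [Algebra R F] [IsFractionRing R F]
  [Algebra K R] [IsScalarTower K R F]

/-- The valuation ring of the place attached to a height one prime of a Dedekind domain of finite
type over `K` is essentially of finite type over `K`. -/
theorem essFiniteType_ofHeightOneSpectrum [Algebra.FiniteType K R] (w : HeightOneSpectrum R) :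
    Algebra.EssFiniteType K (Place.ofHeightOneSpectrum (K := K) (F := F) w).toValuationSubring := by
  set v := Place.ofHeightOneSpectrum (K := K) (F := F) w with hv
  let φ₀ : R →+* v.toValuationSubring :=
    (algebraMap R F).codRestrict v.toValuationSubring.toSubring
      (algebraMap_mem_ofHeightOneSpectrum w)
  let φ : R →ₐ[K] v.toValuationSubring :=
    { φ₀ with
      commutes' := fun a => by
        apply Subtype.ext
        show algebraMap R F (algebraMap K R a) = algebraMap K F a
        rw [← IsScalarTower.algebraMap_apply] }
  have hφ : ∀ r, ((φ r : v.toValuationSubring) : F) = algebraMap R F r := fun _ => rfl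
  obtain ⟨σ₀, hσ₀⟩ := (Algebra.FiniteType.out : (⊤ : Subalgebra K R).FG)
  classical
  rw [Algebra.essFiniteType_iff]
  refine ⟨σ₀.image φ, ?_⟩
  have hadj : Algebra.adjoin K ((σ₀.image φ : Finset v.toValuationSubring) : Set _) = φ.range := by
    rw [Finset.coe_image, ← AlgHom.map_adjoin, hσ₀, Algebra.map_top]
  rw [hadj]
  intro s
  have hs1 : w.valuation F (s : F) ≤ 1 := (Valuation.mem_valuationSubring_iff _ _).mp s.2
  obtain ⟨n, d, hd⟩ := w.exists_primeCompl_mul_eq_of_integer (s : F) hs1
  refine ⟨φ d, ⟨d, rfl⟩, ?_, ⟨n, ?_⟩⟩
  · have hnot : φ d ∉ IsLocalRing.maximalIdeal v.toValuationSubring := by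
      rw [mem_maximalIdeal_ofHeightOneSpectrum_iff, hφ,
        HeightOneSpectrum.valuation_lt_one_iff_mem]
      exact d.2
    exact (IsLocalRing.notMem_maximalIdeal).mp hnot
  · apply Subtype.ext
    show algebraMap R F n = (s : F) * algebraMap R F d
    exact hd.symm

end General

section Gen

variable {K F : Type*} [Field K] [Field F] [Algebra K F]

/-- The integral closure of `K[X]` in `F` is of finite type over `K`. -/
theorem finiteType_integralClosure [Algebra K[X] F] [IsScalarTower K K[X] F]
    [FaithfulSMul K[X] F] [FiniteDimensional (RatFunc K) F] [CharZero K] :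
    Algebra.FiniteType K (integralClosure K[X] F) := by
  haveI : Module.Finite K[X] (integralClosure K[X] F) := finite_integralClosure K F
  haveI : Algebra.FiniteType K[X] (integralClosure K[X] F) := inferInstance
  exact Algebra.FiniteType.trans (R := K) (S := K[X]) (A := integralClosure K[X] F)
    inferInstance inferInstance

end Gen

section Dictionary

attribute [local instance] isDedekindDomain_integralClosure isFractionRing_integralClosure
  finite_integralClosure

variable {K F : Type*} [Field K] [Field F] [Algebra K F] [Algebra K[X] F] [IsScalarTower K K[X] F]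
  [FaithfulSMul K[X] F] [FiniteDimensional (RatFunc K) F] [CharZero K]

/-- The height one prime attached to a prime over `(X - c)`. -/
noncomputable def heightOneOfPrimesOver (c : K)
    (P : (Ideal.span {X - C c} : Ideal K[X]).primesOver (integralClosure K[X] F)) :
    HeightOneSpectrum (integralClosure K[X] F) :=
  ⟨P.1, P.2.1, Ideal.ne_bot_of_mem_primesOver (primeXSubC c).ne_bot P.2⟩

theorem gen_sub_mem_of_primesOver (c : K)
    (P : (Ideal.span {X - C c} : Ideal K[X]).primesOver (integralClosure K[X] F)) :
    algebraMap K[X] (integralClosure K[X] F) (X - C c) ∈ P.1 := by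
  have h1 := P.2.2.over
  have h2 : X - C c ∈ (Ideal.span {X - C c} : Ideal K[X]) := Ideal.subset_span rfl
  rw [h1] at h2
  exact h2

/-- The place attached to a prime over `(X - c)`; it is centred at `c`. -/
noncomputable def placeOfPrimesOver (c : K)
    (P : (Ideal.span {X - C c} : Ideal K[X]).primesOver (integralClosure K[X] F)) :
    {v : Place K F // 0 < v.ord (algebraMap K[X] F X - algebraMap K F c)} :=
  ⟨Place.ofHeightOneSpectrum (K := K) (F := F) (heightOneOfPrimesOver c P),
    (ord_gen_sub_pos_iff _ c).mpr (gen_sub_mem_of_primesOver c P)⟩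

theorem placeOfPrimesOver_bijective (c : K) :
    Function.Bijective (placeOfPrimesOver (K := K) (F := F) c) := by
  constructor
  · intro P Q h
    have h1 : Place.ofHeightOneSpectrum (K := K) (F := F) (heightOneOfPrimesOver c P) =
        Place.ofHeightOneSpectrum (K := K) (F := F) (heightOneOfPrimesOver c Q) :=
      congrArg Subtype.val h
    have := ofHeightOneSpectrum_injective (K := K) (F := F) h1
    exact Subtype.ext (congrArg HeightOneSpectrum.asIdeal this)
  · rintro ⟨v, hpos⟩
    have hx : algebraMap K[X] F X ∈ v.toValuationSubring := by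
      have h1 : algebraMap K[X] F X - algebraMap K F c ∈ v.toValuationSubring :=
        (mem_iff_ord_nonneg v (gen_sub_ne_zero c)).mpr hpos.le
      have := v.toValuationSubring.add_mem _ _ h1 (v.algebraMap_mem' c)
      simpa using this
    obtain ⟨w, rfl⟩ := exists_heightOneSpectrum_of_gen_mem v hx
    have hcw := (ord_gen_sub_pos_iff w c).mp hpos
    have hlo := liesOver_primeXSubC w c hcw
    exact ⟨⟨w.asIdeal, w.isPrime, hlo⟩, Subtype.ext rfl⟩

/-- **Dictionary**: primes of the integral closure over `(X - c)` ↔ places centred at `c`. -/
noncomputable def primesOverEquivPlaces (c : K) :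
    (Ideal.span {X - C c} : Ideal K[X]).primesOver (integralClosure K[X] F) ≃
      {v : Place K F // 0 < v.ord (algebraMap K[X] F X - algebraMap K F c)} :=
  Equiv.ofBijective _ (placeOfPrimesOver_bijective c)

theorem primesOverEquivPlaces_apply (c : K)
    (P : (Ideal.span {X - C c} : Ideal K[X]).primesOver (integralClosure K[X] F)) :
    (primesOverEquivPlaces c P).1 =
      Place.ofHeightOneSpectrum (K := K) (F := F) (heightOneOfPrimesOver c P) := rfl

/-- Under the dictionary, `ord (𝔵 - c)` is the ramification index. -/
theorem ord_primesOverEquivPlaces (c : K)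
    (P : (Ideal.span {X - C c} : Ideal K[X]).primesOver (integralClosure K[X] F)) :
    (primesOverEquivPlaces c P).1.ord
        (algebraMap K[X] F X - algebraMap K F c) =
      ((Ideal.span {X - C c} : Ideal K[X]).ramificationIdx' P.1 : ℤ) :=
  ord_gen_sub_eq_ramificationIdx (heightOneOfPrimesOver c P) c (gen_sub_mem_of_primesOver c P)

theorem card_places_centre (c : K) :
    Nat.card {v : Place K F // 0 < v.ord (algebraMap K[X] F X - algebraMap K F c)} =
      Nat.card ((Ideal.span {X - C c} : Ideal K[X]).primesOver (integralClosure K[X] F)) :=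
  (Nat.card_congr (primesOverEquivPlaces c)).symm

end Dictionary

section Wrapper

attribute [local instance] isDedekindDomain_integralClosure isFractionRing_integralClosure
  finite_integralClosure

variable {K F : Type*} [Field K] [Field F] [Algebra K F] [IsAlgClosed K] [CharZero K]

/-- Reduction of statements about all places to the places attached to the primes of the integral
closure of `K[X]` in `F`, for `X ↦ x` and `X ↦ x⁻¹`. -/
theorem IsFFGen.place_induction {x : F} (h : IsFFGen K x) (P : Place K F → Prop)
    (hP : ∀ (z : F) (hz : IsFFGen K z),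
      letI := polyAlgebra K z
      haveI := polyAlgebra_isScalarTower (K := K) z
      haveI := polyAlgebra_faithfulSMul hz.transcendental
      haveI := hz.finite
      haveI := polyAlgebra_finiteDimensional hz.transcendental
      ∀ w : HeightOneSpectrum (integralClosure K[X] F),
        P (Place.ofHeightOneSpectrum (K := K) (F := F) w)) (v : Place K F) : P v := by
  by_cases hx : x ∈ v.toValuationSubring
  · letI := polyAlgebra K x
    haveI := polyAlgebra_isScalarTower (K := K) x
    haveI := polyAlgebra_faithfulSMul h.transcendental
    haveI := h.finite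
    haveI := polyAlgebra_finiteDimensional h.transcendental
    obtain ⟨w, rfl⟩ := exists_heightOneSpectrum_of_gen_mem v (by simpa [polyAlgebra_algebraMap])
    exact hP x h w
  · have hx' : x⁻¹ ∈ v.toValuationSubring := (v.toValuationSubring.mem_or_inv_mem x).resolve_left hx
    have h' := h.inv
    letI := polyAlgebra K x⁻¹
    haveI := polyAlgebra_isScalarTower (K := K) x⁻¹
    haveI := polyAlgebra_faithfulSMul h'.transcendental
    haveI := h'.finite
    haveI := polyAlgebra_finiteDimensional h'.transcendental
    obtain ⟨w, rfl⟩ := exists_heightOneSpectrum_of_gen_mem v (by simpa [polyAlgebra_algebraMap])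
    exact hP x⁻¹ h' w

/-- The residue field at every place is `K`. -/
theorem IsFFGen.residue_eq {x : F} (h : IsFFGen K x) (v : Place K F) (y : v.toValuationSubring) :
    ∃ c : K, y - algebraMap K v.toValuationSubring c ∈
      IsLocalRing.maximalIdeal v.toValuationSubring := by
  revert y
  refine h.place_induction (fun v => ∀ y : v.toValuationSubring, ∃ c : K,
    y - algebraMap K v.toValuationSubring c ∈ IsLocalRing.maximalIdeal v.toValuationSubring)
    ?_ v
  intro z hz
  letI := polyAlgebra K z
  haveI := polyAlgebra_isScalarTower (K := K) z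
  haveI := polyAlgebra_faithfulSMul hz.transcendental
  haveI := hz.finite
  haveI := polyAlgebra_finiteDimensional hz.transcendental
  intro w y
  obtain ⟨k, hk⟩ := residue_surjective_ofHeightOneSpectrum w y
  refine ⟨k, ?_⟩
  rw [← IsLocalRing.residue_eq_zero_iff, map_sub, hk, sub_eq_zero,
    IsScalarTower.algebraMap_apply K
      (Place.ofHeightOneSpectrum (K := K) (F := F) w).toValuationSubring
      (Place.ofHeightOneSpectrum (K := K) (F := F) w).ResidueField,
    IsLocalRing.ResidueField.algebraMap_eq]

/-- Every valuation ring is essentially of finite type over `K`. -/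
theorem IsFFGen.essFiniteType {x : F} (h : IsFFGen K x) (v : Place K F) :
    Algebra.EssFiniteType K v.toValuationSubring := by
  refine h.place_induction (fun v => Algebra.EssFiniteType K v.toValuationSubring) ?_ v
  intro z hz
  letI := polyAlgebra K z
  haveI := polyAlgebra_isScalarTower (K := K) z
  haveI := polyAlgebra_faithfulSMul hz.transcendental
  haveI := hz.finite
  haveI := polyAlgebra_finiteDimensional hz.transcendental
  intro w
  haveI : Algebra.FiniteType K (integralClosure K[X] F) := finiteType_integralClosure
  exact essFiniteType_ofHeightOneSpectrum w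

/-- The `PlaceInputs` of `FF/Hurwitz.lean`. -/
theorem IsFFGen.placeInputs {x : F} (h : IsFFGen K x) : PlaceInputs K F where
  res := h.residue_eq
  ess := h.essFiniteType
  alg := ⟨x, by haveI := h.finite; exact Algebra.IsAlgebraic.of_finite K⟮x⟯ F⟩

/-- Number of places centred at `c` = number of primes of the integral closure of `K[x]` over
`(X - c)`. -/
theorem IsFFGen.card_centre {x : F} (h : IsFFGen K x) (c : K) :
    letI := polyAlgebra K x
    Nat.card {v : Place K F // 0 < v.ord (x - algebraMap K F c)} =
      Nat.card ((Ideal.span {X - C c} : Ideal K[X]).primesOver (integralClosure K[X] F)) := by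
  letI := polyAlgebra K x
  haveI := polyAlgebra_isScalarTower (K := K) x
  haveI := polyAlgebra_faithfulSMul h.transcendental
  haveI := h.finite
  haveI := polyAlgebra_finiteDimensional h.transcendental
  have := card_places_centre (K := K) (F := F) c
  simpa [polyAlgebra_algebraMap] using this

/-- Number of poles of `x` = number of primes of the integral closure of `K[x⁻¹]` over `(X)`. -/
theorem IsFFGen.card_infty {x : F} (h : IsFFGen K x) :
    letI := polyAlgebra K x⁻¹
    Nat.card {v : Place K F // v.ord x < 0} =
      Nat.card ((Ideal.span {X} : Ideal K[X]).primesOver (integralClosure K[X] F)) := by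
  have h1 := h.inv.card_centre 0
  simp only [map_zero, sub_zero, Place.ord_inv] at h1
  rw [← h1]
  refine Nat.card_congr (Equiv.subtypeEquivRight fun v => ?_)
  omega

theorem IsFFGen.finite_centre {x : F} (h : IsFFGen K x) (c : K) :
    {v : Place K F | 0 < v.ord (x - algebraMap K F c)}.Finite := by
  obtain ⟨s, hs, -⟩ := h.sum_ord_centre c
  exact s.finite_toSet.subset fun v hv => (hs v).mpr hv

theorem IsFFGen.finite_poles {x : F} (h : IsFFGen K x) :
    {v : Place K F | v.ord x < 0}.Finite := by
  obtain ⟨s, hs, -⟩ := h.sum_ord_infty
  exact s.finite_toSet.subset fun v hv => (hs v).mpr hv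

/-- The zero divisor of `x - c` has degree `[F : K(x)]`. -/
theorem IsFFGen.finsum_max_ord_centre {x : F} (h : IsFFGen K x) (c : K) :
    ∑ᶠ v : Place K F, max (v.ord (x - algebraMap K F c)) 0 = (Module.finrank K⟮x⟯ F : ℤ) := by
  obtain ⟨s, hs, hsum⟩ := h.sum_ord_centre c
  rw [← hsum, finsum_eq_sum_of_support_subset]
  · refine Finset.sum_congr rfl fun v hv => ?_
    exact max_eq_left ((hs v).mp hv).le
  · intro v hv
    rw [Function.mem_support] at hv
    rw [Finset.mem_coe, hs]
    by_contra hcon
    exact hv (max_eq_right (not_lt.mp hcon))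

/-- The polar divisor of `x` has degree `[F : K(x)]`. -/
theorem IsFFGen.finsum_max_neg_ord {x : F} (h : IsFFGen K x) :
    ∑ᶠ v : Place K F, max (-v.ord x) 0 = (Module.finrank K⟮x⟯ F : ℤ) := by
  obtain ⟨s, hs, hsum⟩ := h.sum_ord_infty
  rw [← hsum, finsum_eq_sum_of_support_subset]
  · refine Finset.sum_congr rfl fun v hv => ?_
    have := (hs v).mp hv
    exact max_eq_left (by omega)
  · intro v hv
    rw [Function.mem_support] at hv
    rw [Finset.mem_coe, hs]
    by_contra hcon
    exact hv (max_eq_right (by omega))

/-- Ramification above a finite centre: `∑ (e_v - 1) = n - #{places centred at c}`. -/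
theorem IsFFGen.finsum_ord_sub_one_centre {x : F} (h : IsFFGen K x) (c : K) :
    ∑ᶠ v : {v : Place K F // 0 < v.ord (x - algebraMap K F c)},
        (v.1.ord (x - algebraMap K F c) - 1) =
      (Module.finrank K⟮x⟯ F : ℤ) -
        Nat.card {v : Place K F // 0 < v.ord (x - algebraMap K F c)} := by
  obtain ⟨s, hs, hsum⟩ := h.sum_ord_centre c
  have hfin : Fintype {v : Place K F // 0 < v.ord (x - algebraMap K F c)} :=
    Fintype.ofFinset s fun v => hs v
  rw [finsum_eq_sum_of_fintype, Finset.sum_sub_distrib, Nat.card_eq_fintype_card]
  simp only [Finset.sum_const, Finset.card_univ, nsmul_eq_mul, mul_one]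
  congr 1
  rw [← hsum]
  rw [← Finset.sum_subtype s (fun v => hs v) (fun v => v.ord (x - algebraMap K F c))]

/-- Ramification above infinity: `∑ (e_v - 1) = n - #{poles of x}`. -/
theorem IsFFGen.finsum_ord_sub_one_infty {x : F} (h : IsFFGen K x) :
    ∑ᶠ v : {v : Place K F // v.ord x < 0}, (-v.1.ord x - 1) =
      (Module.finrank K⟮x⟯ F : ℤ) - Nat.card {v : Place K F // v.ord x < 0} := by
  obtain ⟨s, hs, hsum⟩ := h.sum_ord_infty
  have hfin : Fintype {v : Place K F // v.ord x < 0} :=
    Fintype.ofFinset s fun v => hs v
  rw [finsum_eq_sum_of_fintype, Finset.sum_sub_distrib, Nat.card_eq_fintype_card]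
  simp only [Finset.sum_const, Finset.card_univ, nsmul_eq_mul, mul_one]
  congr 1
  rw [← hsum]
  rw [← Finset.sum_subtype s (fun v => hs v) (fun v => -v.ord x)]

/-- Variant of `IsFFGen.card_infty` with the prime written as `(X - C 0)`. -/
theorem IsFFGen.card_infty' {x : F} (h : IsFFGen K x) :
    letI := polyAlgebra K x⁻¹
    Nat.card {v : Place K F // v.ord x < 0} =
      Nat.card ((Ideal.span {(X - C 0 : K[X])}).primesOver (integralClosure K[X] F)) := by
  have := h.card_infty
  simpa only [map_zero, sub_zero] using this

/-- Alias of `IsFFGen.finsum_max_neg_ord`. -/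
theorem IsFFGen.finsum_poles {x : F} (h : IsFFGen K x) :
    ∑ᶠ v : Place K F, max (-v.ord x) 0 = (Module.finrank K⟮x⟯ F : ℤ) :=
  h.finsum_max_neg_ord

end Wrapper

end Fermat.Agent.X0
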