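import Mathlib
import Fermat.Agent.X0.FF.Bridge
import Fermat.Agent.X0.FF.PlacesMore

/-!
# FF-main: the genus of a function field from the orbit data of a Galois closure

`F / K` is a function field with generator `x` (`IsFFGen K x`), `K` algebraically closed of
characteristic zero, `φ : F → L` a `K`-embedding into a field which is finite Galois over `K(φ x)`.
For every centre `c : K` (and for `∞`) we are given a valuation `w` on `L` and a subgroup `D` of
`Aut_K(L)` fixing `φ x` and preserving `w`, with `w (φ x - c) = exp (-|D|)`.  Then the number of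
places of `F` over `c` is the number of `D`-orbits on `X = {ψ : F →ₐ[K] L // ψ x = φ x}`, and the
Hurwitz formula (`genus_eq`) computes the genus.
-/

set_option autoImplicit false
set_option linter.style.haveILetI false

universe u

namespace Fermat.Agent.X0

open AlgebraicCurve Polynomial WithZero IntermediateField

open scoped RatFunc

section RamIdx

variable {K F : Type*} [Field K] [Field F] [Algebra K F]

open Classical in
/-- The ramification index of `x` at a place: `-ord x` at a pole, `ord (x - c)` at a place centred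
at `c`. -/
noncomputable def ramIdx (x : F) (v : Place K F) : ℤ :=
  if v.ord x < 0 then - v.ord x
  else if hc : ∃ c : K, 0 < v.ord (x - algebraMap K F c) then
    v.ord (x - algebraMap K F hc.choose)
  else 1

theorem ramIdx_of_pole {x : F} {v : Place K F} (hv : v.ord x < 0) : ramIdx x v = - v.ord x := by
  rw [ramIdx, if_pos hv]

theorem ramIdx_of_centre {x : F} {v : Place K F} {c : K}
    (hv : 0 < v.ord (x - algebraMap K F c)) : ramIdx x v = v.ord (x - algebraMap K F c) := by
  have hnp : ¬ v.ord x < 0 := by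
    intro hp
    rw [ord_sub_const_of_ord_neg v hp c] at hv
    omega
  have hc : ∃ c : K, 0 < v.ord (x - algebraMap K F c) := ⟨c, hv⟩
  rw [ramIdx, if_neg hnp, dif_pos hc, centre_unique v hc.choose_spec hv]

end RamIdx

section Bot

variable {K F L : Type*} [Field K] [Field F] [Field L] [Algebra K F] [Algebra K L]

/-- The orbits of the trivial group are the points. -/
theorem card_quotient_orbitSetoidK_bot (x : F) (y : L) :
    Nat.card (Quotient (orbitSetoidK K x y ⊥)) = Nat.card (EmbOver K x y) := by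
  refine (Nat.card_congr (Equiv.ofBijective (Quotient.mk (orbitSetoidK K x y ⊥))
    ⟨?_, Quotient.mk_surjective⟩)).symm
  intro ψ ψ' hψ
  obtain ⟨σ, hσ, h⟩ : (orbitSetoidK K x y ⊥).r ψ ψ' := Quotient.exact hψ
  rw [Subgroup.mem_bot] at hσ
  subst hσ
  apply Subtype.ext
  rw [h]
  ext z
  rfl

end Bot

section CardEmb

variable (K : Type u) [Field K] [CharZero K]
variable {F L : Type*} [Field F] [Field L] [Algebra K F] [Algebra K L]

/-- The number of `K`-embeddings `ψ : F → L` with `ψ x = φ x` is `[F : K(x)]`. -/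
theorem card_embOver {x : F} (h : IsFFGen K x) (φ : F →ₐ[K] L)
    [FiniteDimensional K⟮φ x⟯ L] [IsGalois K⟮φ x⟯ L] :
    Nat.card (EmbOver K x (φ x)) = Module.finrank K⟮x⟯ F := by
  have hx := h.transcendental
  have hφx : Transcendental K (φ x) := transcendental_algHom_apply K hx φ
  letI algF := polyAlgebra K x
  haveI := polyAlgebra_isScalarTower (K := K) x
  haveI := polyAlgebra_faithfulSMul hx
  haveI := h.finite
  haveI := polyAlgebra_finiteDimensional hx
  haveI := polyAlgebra_isScalarTower_ratFunc K hx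
  letI algL := polyAlgebra K (φ x)
  haveI := polyAlgebra_isScalarTower (K := K) (φ x)
  haveI := polyAlgebra_faithfulSMul hφx
  haveI := polyAlgebra_finiteDimensional hφx
  haveI := polyAlgebra_isScalarTower_ratFunc K hφx
  haveI : IsGalois (RatFunc K) L :=
    IsGalois.of_equiv_equiv (F := K⟮φ x⟯) (E := L)
      (f := ((RatFunc.algEquivOfTranscendental (φ x) hφx).symm : K⟮φ x⟯ ≃+* RatFunc K))
      (g := RingEquiv.refl L) (polyAlgebra_comp_eq hφx)
  have hXF : algebraMap (RatFunc K) F RatFunc.X = x := polyAlgebra_algebraMap_ratFunc_X K hx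
  have hXL : algebraMap (RatFunc K) L RatFunc.X = φ x := polyAlgebra_algebraMap_ratFunc_X K hφx
  have hgen : ∀ ψ₁ ψ₂ : RatFunc K →ₐ[K] L, ψ₁ RatFunc.X = ψ₂ RatFunc.X → ψ₁ = ψ₂ :=
    fun ψ₁ ψ₂ h => ratFunc_algHom_ext K h
  have hcomm : ∀ r : RatFunc K, φ (algebraMap (RatFunc K) F r) = algebraMap (RatFunc K) L r :=
    algHom_commutes_of_apply_eq (RatFunc.X : RatFunc K) hgen φ (by rw [hXF, hXL])
  let φ' : F →ₐ[RatFunc K] L := { φ with commutes' := hcomm }
  haveI : CharZero (RatFunc K) := charZero_of_injective_algebraMap (algebraMap K (RatFunc K)).injective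
  have hsplit : ∀ z : F, ((minpoly (RatFunc K) z).map (algebraMap (RatFunc K) L)).Splits := by
    intro z
    rw [← minpoly.algHom_eq φ' φ'.injective z]
    exact Normal.splits inferInstance _
  have h1 := AlgHom.natCard_of_splits (RatFunc K) F L hsplit
  rw [← polyAlgebra_finrank hx, ← h1]
  have e := embEquiv (K := K) (F := F) (L := L) (RatFunc.X : RatFunc K) hgen
  rw [hXF, hXL] at e
  exact (Nat.card_congr e).symm

end CardEmb

section Decomp

variable {K F : Type*} [Field K] [Field F] [Algebra K F] [IsAlgClosed K] [CharZero K]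

/-- If there are `n = [F : K(x)]` places over `c`, then `x` is unramified over `c`. -/
theorem IsFFGen.ord_eq_one_of_card_eq {x : F} (h : IsFFGen K x) (c : K)
    (hcard : Nat.card {v : Place K F // 0 < v.ord (x - algebraMap K F c)} =
      Module.finrank K⟮x⟯ F)
    (v : Place K F) (hv : 0 < v.ord (x - algebraMap K F c)) :
    v.ord (x - algebraMap K F c) = 1 := by
  obtain ⟨s, hs, hsum⟩ := h.sum_ord_centre c
  have hc : s.card = Module.finrank K⟮x⟯ F := by rw [← hcard, Nat.subtype_card s hs]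
  have h0 : ∑ v ∈ s, (v.ord (x - algebraMap K F c) - 1) = 0 := by
    rw [Finset.sum_sub_distrib, hsum, Finset.sum_const, hc]
    simp
  have h1 := (Finset.sum_eq_zero_iff_of_nonneg (fun v hv => by
    have := (hs v).mp hv
    omega)).mp h0 v ((hs v).mpr hv)
  omega

/-- Global decomposition of the ramification sum according to the centres. -/
theorem IsFFGen.finsum_ramIdx_sub_one {x : F} (h : IsFFGen K x) (S : Finset K)
    (hS : ∀ c ∉ S, ∀ v : Place K F, 0 < v.ord (x - algebraMap K F c) →
      v.ord (x - algebraMap K F c) = 1) :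
    ∑ᶠ v : Place K F, (ramIdx x v - 1) =
      ((Module.finrank K⟮x⟯ F : ℤ) - Nat.card {v : Place K F // v.ord x < 0}) +
      ∑ c ∈ S, ((Module.finrank K⟮x⟯ F : ℤ) -
        Nat.card {v : Place K F // 0 < v.ord (x - algebraMap K F c)}) := by
  classical
  obtain ⟨sInf, hsInf, hsumInf⟩ := h.sum_ord_infty
  choose s hs hsum using fun c => h.sum_ord_centre c
  have hdisj : Disjoint sInf (S.biUnion s) := by
    rw [Finset.disjoint_left]
    intro v hv hv'
    rw [Finset.mem_biUnion] at hv'
    obtain ⟨c, -, hc⟩ := hv'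
    have h1 := (hsInf v).mp hv
    have h2 := (hs c v).mp hc
    rw [ord_sub_const_of_ord_neg v h1 c] at h2
    omega
  have hpair : (S : Set K).PairwiseDisjoint s := by
    intro c _ c' _ hne
    rw [Function.onFun, Finset.disjoint_left]
    intro v hv hv'
    exact hne (centre_unique v ((hs c v).mp hv) ((hs c' v).mp hv'))
  have hsupp : (Function.support fun v : Place K F => ramIdx x v - 1) ⊆
      ↑(sInf ∪ S.biUnion s) := by
    intro v hv
    rw [Function.mem_support] at hv
    by_contra hnot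
    rw [Finset.mem_coe, Finset.mem_union, not_or, Finset.mem_biUnion] at hnot
    apply hv
    have hnp : ¬ v.ord x < 0 := fun hp => hnot.1 ((hsInf v).mpr hp)
    obtain ⟨c, hc⟩ := h.exists_centre v (not_lt.mp hnp)
    have hcS : c ∉ S := fun hcS => hnot.2 ⟨c, hcS, (hs c v).mpr hc⟩
    rw [ramIdx_of_centre hc, hS c hcS v hc, sub_self]
  rw [finsum_eq_sum_of_support_subset _ hsupp, Finset.sum_union hdisj,
    Finset.sum_biUnion hpair]
  congr 1
  · rw [Nat.subtype_card sInf hsInf, ← hsumInf, Finset.sum_sub_distrib, Finset.sum_const,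
      nsmul_eq_mul, mul_one]
    congr 1
    exact Finset.sum_congr rfl fun v hv => ramIdx_of_pole ((hsInf v).mp hv)
  · refine Finset.sum_congr rfl fun c _ => ?_
    rw [Nat.subtype_card (s c) (hs c), ← hsum c, Finset.sum_sub_distrib, Finset.sum_const,
      nsmul_eq_mul, mul_one]
    congr 1
    exact Finset.sum_congr rfl fun v hv => ramIdx_of_centre ((hs c v).mp hv)

end Decomp

section Final

variable (K : Type u) [Field K] [IsAlgClosed K] [CharZero K]
variable {F L : Type*} [Field F] [Field L] [Algebra K F] [Algebra K L]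

/-- Number of places over `c` = number of `D`-orbits on the embeddings. -/
theorem card_places_centre_eq_card_orbits {x : F} (h : IsFFGen K x) (φ : F →ₐ[K] L)
    [FiniteDimensional K⟮φ x⟯ L] [IsGalois K⟮φ x⟯ L] (c : K) (w : Valuation L ℤᵐ⁰)
    (hwK : ∀ a : K, w (algebraMap K L a) ≤ 1) (D : Subgroup (L ≃ₐ[K] L))
    (hDx : ∀ σ ∈ D, σ (φ x) = φ x) (hDw : ∀ σ ∈ D, ∀ y : L, w (σ y) = w y)
    (hw : w (φ x - algebraMap K L c) = exp (-(Nat.card D : ℤ))) :
    Nat.card {v : Place K F // 0 < v.ord (x - algebraMap K F c)} =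
      Nat.card (Quotient (orbitSetoidK K x (φ x) D)) := by
  rw [h.card_centre c]
  exact card_primesOver_eq_card_orbitsK K h φ c w hwK D hDx hDw hw

/-- Number of poles of `x` = number of `D`-orbits on the embeddings. -/
theorem card_poles_eq_card_orbits {x : F} (h : IsFFGen K x) (φ : F →ₐ[K] L)
    [FiniteDimensional K⟮φ x⟯ L] [IsGalois K⟮φ x⟯ L] (w : Valuation L ℤᵐ⁰)
    (hwK : ∀ a : K, w (algebraMap K L a) ≤ 1) (D : Subgroup (L ≃ₐ[K] L))
    (hDx : ∀ σ ∈ D, σ (φ x) = φ x) (hDw : ∀ σ ∈ D, ∀ y : L, w (σ y) = w y)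
    (hw : w (φ x)⁻¹ = exp (-(Nat.card D : ℤ))) :
    Nat.card {v : Place K F // v.ord x < 0} =
      Nat.card (Quotient (orbitSetoidK K x (φ x) D)) := by
  rw [h.card_infty]
  have := card_primesOver_eq_card_orbitsK_infty K h φ w hwK D hDx hDw hw
  rw [map_zero, sub_zero] at this
  exact this

/-- **FF-main, numerical core** (no genus, no canonical divisor): the total ramification
`∑ (e_v - 1)` of `x` from the orbit data of a Galois closure. -/
theorem finsum_ramIdx_sub_one_of_orbit_data {x : F} (h : IsFFGen K x)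
    (φ : F →ₐ[K] L) [FiniteDimensional K⟮φ x⟯ L] [IsGalois K⟮φ x⟯ L]
    (w : K → Valuation L ℤᵐ⁰) (D : K → Subgroup (L ≃ₐ[K] L))
    (hwK : ∀ c a, w c (algebraMap K L a) ≤ 1)
    (hDx : ∀ c, ∀ σ ∈ D c, σ (φ x) = φ x)
    (hDw : ∀ c, ∀ σ ∈ D c, ∀ y : L, w c (σ y) = w c y)
    (hw : ∀ c, w c (φ x - algebraMap K L c) = exp (-(Nat.card (D c) : ℤ)))
    (wInf : Valuation L ℤᵐ⁰) (DInf : Subgroup (L ≃ₐ[K] L))
    (hwKInf : ∀ a, wInf (algebraMap K L a) ≤ 1)
    (hDxInf : ∀ σ ∈ DInf, σ (φ x) = φ x)
    (hDwInf : ∀ σ ∈ DInf, ∀ y : L, wInf (σ y) = wInf y)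
    (hwInf : wInf (φ x)⁻¹ = exp (-(Nat.card DInf : ℤ)))
    (S : Finset K) (hS : ∀ c ∉ S, D c = ⊥) :
    ∑ᶠ v : Place K F, (ramIdx x v - 1) =
      ((Module.finrank K⟮x⟯ F : ℤ) - Nat.card (Quotient (orbitSetoidK K x (φ x) DInf))) +
        ∑ c ∈ S, ((Module.finrank K⟮x⟯ F : ℤ) -
          Nat.card (Quotient (orbitSetoidK K x (φ x) (D c)))) := by
  have hcentre : ∀ c, Nat.card {v : Place K F // 0 < v.ord (x - algebraMap K F c)} =
      Nat.card (Quotient (orbitSetoidK K x (φ x) (D c))) := fun c =>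
    card_places_centre_eq_card_orbits K h φ c (w c) (hwK c) (D c) (hDx c) (hDw c) (hw c)
  have hinf := card_poles_eq_card_orbits K h φ wInf hwKInf DInf hDxInf hDwInf hwInf
  have hunr : ∀ c ∉ S, ∀ v : Place K F, 0 < v.ord (x - algebraMap K F c) →
      v.ord (x - algebraMap K F c) = 1 := by
    intro c hc
    apply h.ord_eq_one_of_card_eq c
    rw [hcentre c, hS c hc, card_quotient_orbitSetoidK_bot, card_embOver K h φ]
  rw [h.finsum_ramIdx_sub_one S hunr, hinf]
  simp_rw [hcentre]

/-- **FF-main.**  The genus of `F` from the orbit data of a Galois closure. -/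
theorem genus_eq_of_orbit_data {x : F} (h : IsFFGen K x)
    [HasCanonicalDivisor (K := K) (F := F)] [HasPrincipalDivisors K F]
    (φ : F →ₐ[K] L) [FiniteDimensional K⟮φ x⟯ L] [IsGalois K⟮φ x⟯ L]
    (w : K → Valuation L ℤᵐ⁰) (D : K → Subgroup (L ≃ₐ[K] L))
    (hwK : ∀ c a, w c (algebraMap K L a) ≤ 1)
    (hDx : ∀ c, ∀ σ ∈ D c, σ (φ x) = φ x)
    (hDw : ∀ c, ∀ σ ∈ D c, ∀ y : L, w c (σ y) = w c y)
    (hw : ∀ c, w c (φ x - algebraMap K L c) = exp (-(Nat.card (D c) : ℤ)))
    (wInf : Valuation L ℤᵐ⁰) (DInf : Subgroup (L ≃ₐ[K] L))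
    (hwKInf : ∀ a, wInf (algebraMap K L a) ≤ 1)
    (hDxInf : ∀ σ ∈ DInf, σ (φ x) = φ x)
    (hDwInf : ∀ σ ∈ DInf, ∀ y : L, wInf (σ y) = wInf y)
    (hwInf : wInf (φ x)⁻¹ = exp (-(Nat.card DInf : ℤ)))
    (S : Finset K) (hS : ∀ c ∉ S, D c = ⊥) :
    genus K F =
      (((Module.finrank K⟮x⟯ F : ℤ) - Nat.card (Quotient (orbitSetoidK K x (φ x) DInf))) +
        ∑ c ∈ S, ((Module.finrank K⟮x⟯ F : ℤ) -
          Nat.card (Quotient (orbitSetoidK K x (φ x) (D c)))) + 2 -
        2 * (Module.finrank K⟮x⟯ F : ℤ)).toNat / 2 := by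
  rw [genus_eq h.placeInputs h.transcendental (ramIdx x) (fun v hv => ramIdx_of_pole hv)
    (fun v c hv => ramIdx_of_centre hv), h.finsum_max_neg_ord,
    finsum_ramIdx_sub_one_of_orbit_data K h φ w D hwK hDx hDw hw wInf DInf hwKInf hDxInf hDwInf
      hwInf S hS]

end Final

section One

variable {K F : Type*} [Field K] [Field F] [Algebra K F] [IsAlgClosed K] [CharZero K]

/-- A rational function field `F = K(x)` has genus zero. -/
theorem genus_eq_zero_of_finrank_eq_one {x : F} (hx : Transcendental K x)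
    (hn : Module.finrank K⟮x⟯ F = 1)
    [HasCanonicalDivisor (K := K) (F := F)] [HasPrincipalDivisors K F] : genus K F = 0 := by
  haveI : FiniteDimensional K⟮x⟯ F := Module.finite_of_finrank_pos (by omega)
  have h : IsFFGen K x := ⟨hx, inferInstance⟩
  have hunr : ∀ c ∉ (∅ : Finset K), ∀ v : Place K F, 0 < v.ord (x - algebraMap K F c) →
      v.ord (x - algebraMap K F c) = 1 := by
    intro c _ v hv
    obtain ⟨s, hs, hsum⟩ := h.sum_ord_centre c
    have hle : v.ord (x - algebraMap K F c) ≤ ∑ v ∈ s, v.ord (x - algebraMap K F c) :=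
      Finset.single_le_sum (f := fun v : Place K F => v.ord (x - algebraMap K F c))
        (fun v hv => ((hs v).mp hv).le) ((hs v).mpr hv)
    rw [hsum, hn] at hle
    push_cast at hle
    omega
  rw [genus_eq h.placeInputs hx (ramIdx x) (fun v hv => ramIdx_of_pole hv)
    (fun v c hv => ramIdx_of_centre hv), h.finsum_max_neg_ord, h.finsum_ramIdx_sub_one ∅ hunr, hn]
  simp only [Finset.sum_empty, add_zero, Nat.cast_one]
  omega

end One

end Fermat.Agent.X0
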