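/-
Dedekind–Weber reduction (lattice reduction over `K[X]` with respect to a degree norm).
Package FF5a of the X0(N) blueprint (NOTES.md).  Pure linear algebra.
-/
import Mathlib

set_option autoImplicit false

open Polynomial
open scoped Classical

namespace Fermat.Agent.X0.DW

variable {K : Type*} [Field K]
variable {V : Type*} [AddCommGroup V] [Module (RatFunc K) V]

/-- A degree norm on a vector space over `RatFunc K`: ultrametric, `⊥` exactly at `0`,
and homogeneous with respect to `RatFunc.intDegree`. -/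
structure IsDegNorm (ν : V → WithBot ℤ) : Prop where
  eq_bot_iff : ∀ y, ν y = ⊥ ↔ y = 0
  add_le : ∀ y z, ν (y + z) ≤ max (ν y) (ν z)
  smul : ∀ (a : RatFunc K) (y : V), a ≠ 0 → ν (a • y) = ((a.intDegree : ℤ) : WithBot ℤ) + ν y

namespace IsDegNorm

variable {ν : V → WithBot ℤ} (hν : IsDegNorm (K := K) ν)
include hν

theorem map_zero : ν 0 = ⊥ := (hν.eq_bot_iff 0).2 rfl

theorem map_neg (y : V) : ν (-y) = ν y := by
  have h := hν.smul (-1 : RatFunc K) y (by simp)
  rw [RatFunc.intDegree_neg, RatFunc.intDegree_one] at h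
  simpa using h

theorem sub_le (y z : V) : ν (y - z) ≤ max (ν y) (ν z) := by
  rw [sub_eq_add_neg]
  exact (hν.add_le y (-z)).trans (by rw [hν.map_neg])

/-- the value of a single term, with the convention `⊥` for a zero coefficient -/
theorem smul_eq (a : RatFunc K) (y : V) :
    ν (a • y) = if a = 0 then ⊥ else ((a.intDegree : ℤ) : WithBot ℤ) + ν y := by
  split_ifs with h
  · rw [h, zero_smul, hν.map_zero]
  · exact hν.smul a y h

theorem sum_le {ι : Type*} (s : Finset ι) (f : ι → V) : ν (∑ i ∈ s, f i) ≤ s.sup (fun i => ν (f i)) := by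
  classical
  induction s using Finset.induction_on with
  | empty => simp [hν.map_zero]
  | insert i s hi ih =>
    rw [Finset.sum_insert hi, Finset.sup_insert]
    exact (hν.add_le _ _).trans (max_le_max le_rfl ih)

theorem sum_lt {ι : Type*} (s : Finset ι) (f : ι → V) (m : WithBot ℤ) (hm : ⊥ < m)
    (h : ∀ i ∈ s, ν (f i) < m) : ν (∑ i ∈ s, f i) < m := by
  refine (hν.sum_le s f).trans_lt ?_
  rw [Finset.sup_lt_iff hm]
  exact h

end IsDegNorm


variable {n : ℕ}

/-- the expected norm of the combination `∑ a i • ω i` for a reduced family -/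
noncomputable def expNorm (ν : V → WithBot ℤ) (ω : Fin n → V) (a : Fin n → RatFunc K) : WithBot ℤ :=
  Finset.univ.sup (fun i => if a i = 0 then ⊥ else ((a i).intDegree : WithBot ℤ) + ν (ω i))

theorem IsDegNorm.comb_le {ν : V → WithBot ℤ} (hν : IsDegNorm (K := K) ν) (ω : Fin n → V)
    (a : Fin n → RatFunc K) : ν (∑ i, a i • ω i) ≤ expNorm ν ω a := by
  refine (hν.sum_le _ _).trans ?_
  unfold expNorm
  refine Finset.sup_mono_fun fun i _ => ?_
  rw [hν.smul_eq]

/-- admissible families: linearly independent families of elements of `M` -/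
def Admissible (M : AddSubgroup V) (ω : Fin n → V) : Prop :=
  LinearIndependent (RatFunc K) ω ∧ ∀ i, ω i ∈ M

/-- weight of a family (sum of norms, shifted by the lower bound `B`) -/
noncomputable def weight (ν : V → WithBot ℤ) (B : ℤ) (ω : Fin n → V) : ℕ :=
  ∑ i, ((ν (ω i)).unbotD B - B).toNat

section Minimal

variable {ν : V → WithBot ℤ} (hν : IsDegNorm (K := K) ν)
variable {M : AddSubgroup V} {B : ℤ}
variable (hB : ∀ y ∈ M, y ≠ 0 → (B : WithBot ℤ) ≤ ν y)
variable {ω : Fin n → V} (hω : Admissible (K := K) M ω)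
variable (hmin : ∀ ω' : Fin n → V, Admissible (K := K) M ω' → weight ν B ω ≤ weight ν B ω')

include hν hB hω hmin in
/-- Key replacement step: in a weight-minimal admissible family, no element of `M` with a nonzero
`k`-th coordinate has norm smaller than `ω k`. -/
theorem not_lt_of_minimal (k : Fin n) (c : Fin n → RatFunc K) (hck : c k ≠ 0)
    (hz : ∑ i, c i • ω i ∈ M) : ¬ ν (∑ i, c i • ω i) < ν (ω k) := by
  intro hlt
  set z := ∑ i, c i • ω i with hzdef
  have hLI : LinearIndependent (RatFunc K) (Function.update ω k z) := by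
    refine hω.1.update k z ⟨1, one_mem _, Finsupp.equivFunOnFinite.symm c, ?_, ?_⟩
    · simpa [mem_nonZeroDivisors_iff_ne_zero] using hck
    · rw [one_smul, Finsupp.linearCombination_apply, Finsupp.sum_fintype _ _ (by simp)]
      simp [hzdef]
  have hadm : Admissible (K := K) M (Function.update ω k z) := by
    refine ⟨hLI, fun i => ?_⟩
    by_cases hik : i = k
    · subst hik; simpa using hz
    · simpa [Function.update_of_ne hik] using hω.2 i
  have hz0 : z ≠ 0 := by
    have := hLI.ne_zero k
    simpa using this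
  have hk0 : ω k ≠ 0 := hω.1.ne_zero k
  have h1 := hmin _ hadm
  -- compare weights
  have hzB : (B : WithBot ℤ) ≤ ν z := hB z hz hz0
  have hkB : (B : WithBot ℤ) ≤ ν (ω k) := hB _ (hω.2 k) hk0
  obtain ⟨dz, hdz⟩ : ∃ dz : ℤ, ν z = dz := by
    rcases h : ν z with _ | dz
    · exact absurd ((hν.eq_bot_iff z).1 h) hz0
    · exact ⟨dz, rfl⟩
  obtain ⟨dk, hdk⟩ : ∃ dk : ℤ, ν (ω k) = dk := by
    rcases h : ν (ω k) with _ | dk
    · exact absurd ((hν.eq_bot_iff _).1 h) hk0
    · exact ⟨dk, rfl⟩
  rw [hdz, hdk, WithBot.coe_lt_coe] at hlt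
  rw [hdz, WithBot.coe_le_coe] at hzB
  rw [hdk, WithBot.coe_le_coe] at hkB
  have hlt' : weight ν B (Function.update ω k z) < weight ν B ω := by
    unfold weight
    apply Finset.sum_lt_sum
    · intro i _
      by_cases hik : i = k
      · subst hik
        simp only [Function.update_self, hdz, hdk, WithBot.unbotD_coe]
        omega
      · simp [Function.update_of_ne hik]
    · refine ⟨k, Finset.mem_univ _, ?_⟩
      simp only [Function.update_self, hdz, hdk, WithBot.unbotD_coe]
      omega
  omega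


variable (hM : ∀ (p : K[X]) (y : V), y ∈ M → (algebraMap K[X] (RatFunc K) p) • y ∈ M)

omit [Module (RatFunc K) V] in
theorem exists_int_of_ne_bot {x : WithBot ℤ} (h : x ≠ ⊥) : ∃ d : ℤ, x = d := by
  rcases x with _ | d
  · exact absurd rfl h
  · exact ⟨d, rfl⟩

theorem intDegree_algebraMap_X_pow (j : ℕ) :
    (algebraMap K[X] (RatFunc K) (X ^ j)).intDegree = j := by
  rw [RatFunc.intDegree_polynomial, natDegree_X_pow]

/-- expected norm of a polynomial multiple of a vector of norm `d` -/
noncomputable def tm (d : ℤ) (q : K[X]) : WithBot ℤ :=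
  if q = 0 then ⊥ else (((q.natDegree : ℤ) + d : ℤ) : WithBot ℤ)

include hν hB hω hmin hM in
/-- Reducedness for polynomial coefficients. -/
theorem reduced_poly (p : Fin n → K[X]) :
    ν (∑ i, algebraMap K[X] (RatFunc K) (p i) • ω i)
      = expNorm ν ω (fun i => algebraMap K[X] (RatFunc K) (p i)) := by
  refine le_antisymm (hν.comb_le ω _) ?_
  by_contra hlt
  rw [not_le] at hlt
  set y := ∑ i, algebraMap K[X] (RatFunc K) (p i) • ω i with hy
  -- norms of the basis vectors
  have hω0 : ∀ i, ω i ≠ 0 := fun i => hω.1.ne_zero i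
  have hd : ∀ i, ∃ d : ℤ, ν (ω i) = d := fun i =>
    exists_int_of_ne_bot (fun h => hω0 i ((hν.eq_bot_iff _).1 h))
  choose d hd using hd
  have halg0 : ∀ q : K[X], algebraMap K[X] (RatFunc K) q = 0 ↔ q = 0 := fun q =>
    FaithfulSMul.algebraMap_eq_zero_iff K[X] (RatFunc K)
  -- the term function
  have hterm : ∀ q : Fin n → K[X], ∀ i,
      (if algebraMap K[X] (RatFunc K) (q i) = 0 then (⊥ : WithBot ℤ)
        else ((algebraMap K[X] (RatFunc K) (q i)).intDegree : WithBot ℤ) + ν (ω i))
      = tm (d i) (q i) := by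
    intro q i
    unfold tm
    by_cases h : q i = 0
    · simp [h]
    · rw [if_neg ((halg0 _).not.2 h), if_neg h, RatFunc.intDegree_polynomial, hd i]
      push_cast
      rfl
  have hE : expNorm ν ω (fun i => algebraMap K[X] (RatFunc K) (p i))
      = Finset.univ.sup (fun i => tm (d i) (p i)) := by
    unfold expNorm
    exact Finset.sup_congr rfl fun i _ => hterm p i
  rw [hE] at hlt
  -- the sup is attained
  have hne : (Finset.univ : Finset (Fin n)).Nonempty := by
    by_contra h
    rw [Finset.not_nonempty_iff_eq_empty] at h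
    rw [h, Finset.sup_empty] at hlt
    exact not_lt_bot hlt
  obtain ⟨i₀, -, hi₀⟩ := Finset.exists_mem_eq_sup _ hne
    (fun i => tm (d i) (p i))
  have hpi₀ : p i₀ ≠ 0 := by
    intro h
    rw [hi₀] at hlt; unfold tm at hlt; rw [if_pos h] at hlt
    exact not_lt_bot hlt
  set m₀ : ℤ := ((p i₀).natDegree : ℤ) + d i₀ with hm₀
  have hsup : Finset.univ.sup
      (fun i => tm (d i) (p i)) = (m₀ : WithBot ℤ) := by
    rw [hi₀]; unfold tm; rw [if_neg hpi₀]
  rw [hsup] at hlt
  have hle : ∀ i, p i ≠ 0 → ((p i).natDegree : ℤ) + d i ≤ m₀ := by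
    intro i hi
    have := Finset.le_sup (f := fun i => tm (d i) (p i)) (Finset.mem_univ i)
    rw [hsup] at this
    simp only [tm, if_neg hi] at this
    exact_mod_cast this
  -- the index set of maximal terms
  set I : Finset (Fin n) := Finset.univ.filter (fun i => p i ≠ 0 ∧ ((p i).natDegree : ℤ) + d i = m₀) with hI
  have hi₀I : i₀ ∈ I := by simp [hI, hpi₀, hm₀]
  obtain ⟨k, hkI, hkmax⟩ := Finset.exists_max_image I d ⟨i₀, hi₀I⟩
  have hkI' : p k ≠ 0 ∧ ((p k).natDegree : ℤ) + d k = m₀ := by simpa [hI] using hkI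
  have hmemI : ∀ i, i ∈ I ↔ (p i ≠ 0 ∧ ((p i).natDegree : ℤ) + d i = m₀) := by
    intro i; simp [hI]
  -- exponents
  set e : Fin n → ℕ := fun i => (d k - d i).toNat with he
  have hei : ∀ i ∈ I, (p k).natDegree + e i = (p i).natDegree := by
    intro i hi
    have h1 := (hmemI i).1 hi
    have h2 := hkmax i hi
    simp only [he]
    omega
  -- the new vector z and the remainder
  set c : Fin n → RatFunc K := fun i =>
    if i ∈ I then algebraMap K[X] (RatFunc K) (C (p i).leadingCoeff * X ^ (e i)) else 0 with hc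
  set q : Fin n → K[X] := fun i => if i ∈ I then (p i).eraseLead else p i with hq
  set z := ∑ i, c i • ω i with hz
  set rest := ∑ i, algebraMap K[X] (RatFunc K) (q i) • ω i with hrest
  have hzM : z ∈ M := by
    refine AddSubgroup.sum_mem _ fun i _ => ?_
    simp only [hc]
    split_ifs
    · exact hM _ _ (hω.2 i)
    · rw [zero_smul]; exact M.zero_mem
  have hck : c k ≠ 0 := by
    simp only [hc, if_pos hkI, he, sub_self, Int.toNat_zero, pow_zero, mul_one]
    rw [Ne, halg0, C_eq_zero, leadingCoeff_eq_zero]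
    exact hkI'.1
  have hdecomp : y = algebraMap K[X] (RatFunc K) (X ^ (p k).natDegree) • z + rest := by
    rw [hy, hz, hrest, Finset.smul_sum, ← Finset.sum_add_distrib]
    refine Finset.sum_congr rfl fun i _ => ?_
    rw [smul_smul, ← add_smul]
    congr 1
    simp only [hc, hq]
    by_cases hi : i ∈ I
    · rw [if_pos hi, if_pos hi, ← map_mul, ← map_add]
      congr 1
      have h1 := hei i hi
      conv_lhs => rw [← eraseLead_add_C_mul_X_pow (p i)]
      rw [← h1, pow_add]
      ring
    · rw [if_neg hi, if_neg hi, mul_zero, zero_add]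
  -- the remainder has smaller norm
  have hrest_lt : ν rest < (m₀ : WithBot ℤ) := by
    refine hν.sum_lt _ _ _ (WithBot.bot_lt_coe _) fun i _ => ?_
    rw [hν.smul_eq, hterm q i]; unfold tm
    by_cases hqi : q i = 0
    · rw [if_pos hqi]; exact WithBot.bot_lt_coe _
    · rw [if_neg hqi, WithBot.coe_lt_coe]
      by_cases hi : i ∈ I
      · have hqe : q i = (p i).eraseLead := by simp [hq, hi]
        rcases eraseLead_natDegree_lt_or_eraseLead_eq_zero (p i) with h | h
        · have := ((hmemI i).1 hi).2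
          rw [hqe]
          omega
        · exact absurd (hqe.trans h) hqi
      · have hqe : q i = p i := by simp [hq, hi]
        rw [hqe] at hqi ⊢
        have h1 := hle i hqi
        have h2 : ¬ (((p i).natDegree : ℤ) + d i = m₀) := fun h => hi ((hmemI i).2 ⟨hqi, h⟩)
        omega
  -- hence z has small norm
  have hXz : algebraMap K[X] (RatFunc K) (X ^ (p k).natDegree) • z = y - rest := by
    rw [hdecomp]; abel
  have hXne : algebraMap K[X] (RatFunc K) (X ^ (p k).natDegree) ≠ 0 := by
    rw [Ne, halg0]; exact pow_ne_zero _ X_ne_zero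
  have h3 : ν (algebraMap K[X] (RatFunc K) (X ^ (p k).natDegree) • z) < (m₀ : WithBot ℤ) := by
    rw [hXz]
    exact (hν.sub_le _ _).trans_lt (max_lt hlt hrest_lt)
  rw [hν.smul _ _ hXne, intDegree_algebraMap_X_pow] at h3
  have hzlt : ν z < ν (ω k) := by
    rw [hd k]
    rcases hνz : ν z with _ | dz
    · exact WithBot.bot_lt_coe _
    · rw [hνz] at h3
      have h4 : (((p k).natDegree : ℤ) + dz : ℤ) < m₀ := by
        have : ((((p k).natDegree : ℤ) + dz : ℤ) : WithBot ℤ) < (m₀ : WithBot ℤ) := by
          push_cast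
          exact h3
        exact_mod_cast this
      have h5 := hkI'.2
      show ((dz : ℤ) : WithBot ℤ) < _
      rw [WithBot.coe_lt_coe]
      omega
  exact not_lt_of_minimal hν hB hω hmin k c hck hzM hzlt


omit [Module (RatFunc K) V] in
theorem withBot_coe_add_cancel {c : ℤ} {x x' : WithBot ℤ}
    (h : (c : WithBot ℤ) + x = (c : WithBot ℤ) + x') : x = x' := by
  induction x using WithBot.recBotCoe with
  | bot =>
    induction x' using WithBot.recBotCoe with
    | bot => rfl
    | coe x' =>
      rw [WithBot.add_bot, ← WithBot.coe_add] at h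
      exact absurd h.symm (WithBot.coe_ne_bot)
  | coe x =>
    induction x' using WithBot.recBotCoe with
    | bot =>
      rw [WithBot.add_bot, ← WithBot.coe_add] at h
      exact absurd h (WithBot.coe_ne_bot)
    | coe x' =>
      rw [← WithBot.coe_add, ← WithBot.coe_add] at h
      have := WithBot.coe_injective h
      have hx : x = x' := by omega
      rw [hx]

omit [Module (RatFunc K) V] in
theorem sup_const_add {ι : Type*} (s : Finset ι) (c : ℤ) (f : ι → WithBot ℤ) :
    s.sup (fun i => (c : WithBot ℤ) + f i) = (c : WithBot ℤ) + s.sup f := by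
  apply le_antisymm
  · exact Finset.sup_le fun i hi => by gcongr; exact Finset.le_sup (f := f) hi
  · rcases s.eq_empty_or_nonempty with rfl | hs
    · simp
    · obtain ⟨i, hi, hsup⟩ := Finset.exists_mem_eq_sup s hs f
      rw [hsup]
      exact Finset.le_sup (f := fun i => (c : WithBot ℤ) + f i) hi

include hν hB hω hmin hM in
/-- Reducedness for arbitrary rational coefficients. -/
theorem reduced (a : Fin n → RatFunc K) :
    ν (∑ i, a i • ω i) = expNorm ν ω a := by
  set D : K[X] := ∏ i, (a i).denom with hD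
  have hD0 : D ≠ 0 := Finset.prod_ne_zero_iff.2 fun i _ => (a i).denom_ne_zero
  have halg0 : ∀ q : K[X], algebraMap K[X] (RatFunc K) q = 0 ↔ q = 0 := fun q =>
    FaithfulSMul.algebraMap_eq_zero_iff K[X] (RatFunc K)
  have hDa0 : algebraMap K[X] (RatFunc K) D ≠ 0 := (halg0 D).not.2 hD0
  set p : Fin n → K[X] := fun i => (a i).num * ∏ j ∈ Finset.univ.erase i, (a j).denom with hp
  have hpa : ∀ i, algebraMap K[X] (RatFunc K) (p i) = algebraMap K[X] (RatFunc K) D * a i := by
    intro i
    have h1 : D = (a i).denom * ∏ j ∈ Finset.univ.erase i, (a j).denom := by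
      rw [hD]
      exact (Finset.mul_prod_erase Finset.univ (fun j => (a j).denom) (Finset.mem_univ i)).symm
    have h2 : algebraMap K[X] (RatFunc K) (a i).denom ≠ 0 := (halg0 _).not.2 (a i).denom_ne_zero
    have key : algebraMap K[X] (RatFunc K) (a i).num
        = a i * algebraMap K[X] (RatFunc K) (a i).denom :=
      (div_eq_iff h2).1 (RatFunc.num_div_denom (a i))
    rw [h1]
    simp only [hp, map_mul]
    rw [key]
    ring
  have h1 := reduced_poly hν hB hω hmin hM p
  have h2 : ∑ i, algebraMap K[X] (RatFunc K) (p i) • ω i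
      = algebraMap K[X] (RatFunc K) D • ∑ i, a i • ω i := by
    rw [Finset.smul_sum]
    exact Finset.sum_congr rfl fun i _ => by rw [hpa, mul_smul]
  rw [h2, hν.smul _ _ hDa0] at h1
  have h3 : expNorm ν ω (fun i => algebraMap K[X] (RatFunc K) (p i))
      = (((algebraMap K[X] (RatFunc K) D).intDegree : ℤ) : WithBot ℤ) + expNorm ν ω a := by
    unfold expNorm
    rw [← sup_const_add]
    refine Finset.sup_congr rfl fun i _ => ?_
    by_cases hai : a i = 0
    · beta_reduce
      rw [hpa, hai, mul_zero, if_pos rfl, WithBot.add_bot]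
    · have : algebraMap K[X] (RatFunc K) D * a i ≠ 0 := mul_ne_zero hDa0 hai
      beta_reduce
      rw [if_neg hai, hpa, if_neg this, RatFunc.intDegree_mul hDa0 hai]
      push_cast
      rw [add_assoc]
  rw [h3] at h1
  exact withBot_coe_add_cancel h1


end Minimal

/-- polynomial part / fractional part of a rational function -/
theorem exists_poly_add_frac (a : RatFunc K) :
    ∃ (P : K[X]) (f : RatFunc K), a = algebraMap K[X] (RatFunc K) P + f ∧ (f = 0 ∨ f.intDegree < 0) := by
  have halg0 : ∀ q : K[X], algebraMap K[X] (RatFunc K) q = 0 ↔ q = 0 := fun q =>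
    FaithfulSMul.algebraMap_eq_zero_iff K[X] (RatFunc K)
  have hden : algebraMap K[X] (RatFunc K) a.denom ≠ 0 := (halg0 _).not.2 a.denom_ne_zero
  refine ⟨a.num / a.denom,
    algebraMap K[X] (RatFunc K) (a.num % a.denom) / algebraMap K[X] (RatFunc K) a.denom, ?_, ?_⟩
  · have h := EuclideanDomain.div_add_mod a.num a.denom
    have h2 : algebraMap K[X] (RatFunc K) a.num
        = algebraMap K[X] (RatFunc K) a.denom * algebraMap K[X] (RatFunc K) (a.num / a.denom)
          + algebraMap K[X] (RatFunc K) (a.num % a.denom) := by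
      rw [← map_mul, ← map_add, h]
    conv_lhs => rw [← RatFunc.num_div_denom a, h2]
    field_simp
  · by_cases hr : a.num % a.denom = 0
    · left; rw [hr, map_zero, zero_div]
    · right
      have hr' : algebraMap K[X] (RatFunc K) (a.num % a.denom) ≠ 0 := (halg0 _).not.2 hr
      rw [RatFunc.intDegree_div hr' hden, RatFunc.intDegree_polynomial, RatFunc.intDegree_polynomial]
      have hdeg : (a.num % a.denom).degree < a.denom.degree :=
        Polynomial.degree_mod_lt _ a.denom_ne_zero
      have := Polynomial.natDegree_lt_natDegree hr hdeg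
      omega

section Minimal2

variable {ν : V → WithBot ℤ} (hν : IsDegNorm (K := K) ν)
variable {M : AddSubgroup V} {B : ℤ}
variable (hB : ∀ y ∈ M, y ≠ 0 → (B : WithBot ℤ) ≤ ν y)
variable {ω : Fin n → V} (hω : Admissible (K := K) M ω)
variable (hmin : ∀ ω' : Fin n → V, Admissible (K := K) M ω' → weight ν B ω ≤ weight ν B ω')
variable (hM : ∀ (p : K[X]) (y : V), y ∈ M → (algebraMap K[X] (RatFunc K) p) • y ∈ M)

include hν hB hω hmin hM in
/-- A weight-minimal admissible family generates `M` over `K[X]` (coefficientwise statement). -/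
theorem coeff_poly_of_mem (a : Fin n → RatFunc K) (hy : ∑ i, a i • ω i ∈ M) :
    ∃ p : Fin n → K[X], ∀ i, a i = algebraMap K[X] (RatFunc K) (p i) := by
  choose P f hPf hf using fun i => exists_poly_add_frac (a i)
  have hω0 : ∀ i, ω i ≠ 0 := fun i => hω.1.ne_zero i
  have hd : ∀ i, ∃ d : ℤ, ν (ω i) = d := fun i =>
    exists_int_of_ne_bot (fun h => hω0 i ((hν.eq_bot_iff _).1 h))
  choose d hd using hd
  by_cases hall : ∀ i, f i = 0
  · exact ⟨P, fun i => by rw [hPf i, hall i, add_zero]⟩
  · exfalso
    push Not at hall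
    obtain ⟨i₁, hi₁⟩ := hall
    set J : Finset (Fin n) := Finset.univ.filter (fun i => f i ≠ 0) with hJ
    have hi₁J : i₁ ∈ J := by simp [hJ, hi₁]
    obtain ⟨k, hkJ, hkmax⟩ := Finset.exists_max_image J d ⟨i₁, hi₁J⟩
    have hfk : f k ≠ 0 := by simpa [hJ] using hkJ
    -- y' = ∑ f i • ω i ∈ M
    have hy' : ∑ i, f i • ω i ∈ M := by
      have h1 : ∑ i, f i • ω i
          = ∑ i, a i • ω i - ∑ i, algebraMap K[X] (RatFunc K) (P i) • ω i := by
        rw [← Finset.sum_sub_distrib]
        refine Finset.sum_congr rfl fun i _ => ?_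
        rw [← sub_smul]
        congr 1
        rw [hPf i]; ring
      rw [h1]
      refine M.sub_mem hy (AddSubgroup.sum_mem _ fun i _ => hM _ _ (hω.2 i))
    refine not_lt_of_minimal hν hB hω hmin k f hfk hy' ?_
    refine (hν.comb_le ω f).trans_lt ?_
    unfold expNorm
    rw [Finset.sup_lt_iff (by rw [hd k]; exact WithBot.bot_lt_coe _)]
    intro i _
    by_cases hfi : f i = 0
    · rw [if_pos hfi, hd k]; exact WithBot.bot_lt_coe _
    · rw [if_neg hfi, hd i, hd k, ← WithBot.coe_add, WithBot.coe_lt_coe]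
      have h1 : (f i).intDegree < 0 := (hf i).resolve_left hfi
      have h2 : d i ≤ d k := hkmax i (by simp [hJ, hfi])
      omega

end Minimal2

/-- **Dedekind–Weber reduction.**  Let `V` be an `n`-dimensional vector space over `RatFunc K`
with a degree norm `ν`, and `M ⊆ V` an additive subgroup stable under multiplication by
polynomials, spanning `V`, on which `ν` is bounded below (away from `0`).  Then `V` has a basis
`ω` consisting of elements of `M` which is *reduced* (`ν (∑ aᵢ ωᵢ) = maxᵢ (deg aᵢ + ν ωᵢ)` for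
all rational coefficients) and which generates `M` over `K[X]`. -/
theorem exists_reduced_basis [FiniteDimensional (RatFunc K) V]
    (hn : Module.finrank (RatFunc K) V = n)
    {ν : V → WithBot ℤ} (hν : IsDegNorm (K := K) ν)
    (M : AddSubgroup V)
    (hM : ∀ (p : K[X]) (y : V), y ∈ M → (algebraMap K[X] (RatFunc K) p) • y ∈ M)
    (hspan : Submodule.span (RatFunc K) (M : Set V) = ⊤)
    (B : ℤ) (hB : ∀ y ∈ M, y ≠ 0 → (B : WithBot ℤ) ≤ ν y) :
    ∃ ω : Module.Basis (Fin n) (RatFunc K) V,
      (∀ i, ω i ∈ M) ∧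
      (∀ a : Fin n → RatFunc K, ν (∑ i, a i • ω i) = expNorm ν ω a) ∧
      (∀ y, y ∈ M ↔ ∃ p : Fin n → K[X], y = ∑ i, algebraMap K[X] (RatFunc K) (p i) • ω i) := by
  -- existence of an admissible family
  have hex : ∃ ω : Fin n → V, Admissible (K := K) M ω := by
    obtain ⟨f, hfM, -, hfLI⟩ := Submodule.exists_fun_fin_finrank_span_eq (RatFunc K) (M : Set V)
    have hfin : Module.finrank (RatFunc K) (Submodule.span (RatFunc K) (M : Set V)) = n := by
      rw [hspan, finrank_top, hn]
    refine ⟨f ∘ Fin.cast hfin.symm, hfLI.comp _ (Fin.cast_injective _), fun i => hfM _⟩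
  -- a weight-minimal one
  have hex' : ∃ w : ℕ, ∃ ω : Fin n → V, Admissible (K := K) M ω ∧ weight ν B ω = w := by
    obtain ⟨ω, hω⟩ := hex
    exact ⟨_, ω, hω, rfl⟩
  obtain ⟨ω, hω, hwt⟩ := Nat.find_spec hex'
  have hmin : ∀ ω' : Fin n → V, Admissible (K := K) M ω' → weight ν B ω ≤ weight ν B ω' := by
    intro ω' hω'
    rw [hwt]
    exact Nat.find_min' hex' ⟨ω', hω', rfl⟩
  -- the basis
  set b : Module.Basis (Fin n) (RatFunc K) V :=
    basisOfLinearIndependentOfCardEqFinrank' ω hω.1 (by simp [hn]) with hb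
  have hbω : ⇑b = ω := by simp [hb]
  refine ⟨b, fun i => by rw [hbω]; exact hω.2 i, fun a => ?_, fun y => ⟨fun hy => ?_, ?_⟩⟩
  · rw [hbω]; exact reduced hν hB hω hmin hM a
  · have hrepr : y = ∑ i, (b.repr y i) • ω i := by
      conv_lhs => rw [← b.sum_repr y]
      rw [hbω]
    rw [hrepr] at hy
    obtain ⟨p, hp⟩ := coeff_poly_of_mem hν hB hω hmin hM (fun i => b.repr y i) hy
    refine ⟨p, ?_⟩
    rw [hbω]
    conv_lhs => rw [hrepr]
    exact Finset.sum_congr rfl fun i _ => by rw [hp i]
  · rintro ⟨p, rfl⟩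
    refine AddSubgroup.sum_mem _ fun i _ => hM _ _ ?_
    rw [hbω]; exact hω.2 i


theorem expNorm_le_iff (ν : V → WithBot ℤ) (ω : Fin n → V) (a : Fin n → RatFunc K) (m : WithBot ℤ) :
    expNorm ν ω a ≤ m ↔ ∀ i, a i = 0 ∨ ((a i).intDegree : WithBot ℤ) + ν (ω i) ≤ m := by
  unfold expNorm
  rw [Finset.sup_le_iff]
  refine forall_congr' fun i => ?_
  by_cases h : a i = 0
  · simp [h]
  · simp [h]

end Fermat.Agent.X0.DW
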