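import Mathlib
import Fermat.Agent.X0.FF.FunctionField
import Fermat.Agent.X0.FF.Kaehler

/-!
# X0 / FF1 (part 5): principal divisors have degree zero

* `IsFFGen.of_transcendental`: every transcendental element of a function field of one variable
  is a generator (`F` is finite over `K⟮f⟯`);
* `IsFFGen.finsum_ord_eq_zero`, `IsFFGen.hasPrincipalDivisors`: for `f ≠ 0` the set of places with
  `v.ord f ≠ 0` is finite and `∑ v, v.ord f = 0`.
-/

set_option autoImplicit false
set_option linter.unusedSectionVars false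
set_option linter.style.haveILetI false

namespace Fermat.Agent.X0

open AlgebraicCurve IsDedekindDomain WithZero Polynomial IntermediateField

section Principal

variable {K F : Type*} [Field K] [Field F] [Algebra K F]

/-- Every transcendental element of a function field of one variable is a generator. -/
theorem IsFFGen.of_transcendental {x : F} (h : IsFFGen K x) {f : F} (hf : Transcendental K f) :
    IsFFGen K f := by
  refine ⟨hf, ?_⟩
  haveI := h.finite
  haveI : Algebra.IsAlgebraic K⟮x⟯ F := Algebra.IsAlgebraic.of_finite K⟮x⟯ F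
  haveI : Algebra.IsAlgebraic K⟮f⟯ F := isAlgebraic_adjoin_of_transcendental x f hf
  haveI : Algebra.EssFiniteType K K⟮x⟯ :=
    IntermediateField.essFiniteType_iff.mpr (IntermediateField.fg_adjoin_of_finite (Set.finite_singleton x))
  haveI : Algebra.EssFiniteType K⟮x⟯ F := inferInstance
  haveI : Algebra.EssFiniteType K F := Algebra.EssFiniteType.comp K K⟮x⟯ F
  haveI : Algebra.EssFiniteType K⟮f⟯ F := Algebra.EssFiniteType.of_comp K K⟮f⟯ F
  exact Algebra.finite_of_essFiniteType_of_isAlgebraic

variable [IsAlgClosed K] [CharZero K]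

/-- For `f ≠ 0` the places where `f` has nonzero order form a finite set and the orders sum up
to zero. -/
theorem IsFFGen.exists_finset_ord {x : F} (h : IsFFGen K x) {f : F} (_hf : f ≠ 0) :
    ∃ s : Finset (Place K F), (∀ v, v ∈ s ↔ v.ord f ≠ 0) ∧ ∑ v ∈ s, v.ord f = 0 := by
  classical
  by_cases halg : IsAlgebraic K f
  · obtain ⟨a, rfl⟩ := exists_algebraMap_eq_of_isIntegral halg.isIntegral
    refine ⟨∅, fun v => ?_, Finset.sum_empty⟩
    simp [ord_algebraMap]
  · have hgen : IsFFGen K f := h.of_transcendental halg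
    obtain ⟨s0, hs0, hsum0⟩ := hgen.sum_ord_centre 0
    obtain ⟨s1, hs1, hsum1⟩ := hgen.sum_ord_infty
    simp only [map_zero, sub_zero] at hs0 hsum0
    have hdisj : Disjoint s0 s1 := by
      rw [Finset.disjoint_left]
      intro v hv0 hv1
      have h0 := (hs0 v).mp hv0
      have h1 := (hs1 v).mp hv1
      omega
    refine ⟨s0 ∪ s1, fun v => ?_, ?_⟩
    · rw [Finset.mem_union, hs0, hs1]
      omega
    · rw [Finset.sum_union hdisj, hsum0]
      have : ∑ v ∈ s1, v.ord f = -∑ v ∈ s1, (-v.ord f) := by
        rw [Finset.sum_neg_distrib, neg_neg]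
      rw [this, hsum1]
      ring

theorem IsFFGen.finite_ord_ne_zero {x : F} (h : IsFFGen K x) {f : F} (hf : f ≠ 0) :
    {v : Place K F | v.ord f ≠ 0}.Finite := by
  obtain ⟨s, hs, -⟩ := h.exists_finset_ord hf
  exact s.finite_toSet.subset fun v hv => (hs v).mpr hv

theorem IsFFGen.finsum_ord_eq_zero {x : F} (h : IsFFGen K x) {f : F} (hf : f ≠ 0) :
    ∑ᶠ v : Place K F, v.ord f = 0 := by
  obtain ⟨s, hs, hsum⟩ := h.exists_finset_ord hf
  rw [← hsum]
  refine finsum_eq_sum_of_support_subset _ fun v hv => ?_
  rw [Finset.mem_coe, hs]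
  exact hv

/-- The divisor of a nonzero function. -/
theorem IsFFGen.exists_divisor {x : F} (h : IsFFGen K x) {f : F} (hf : f ≠ 0) :
    ∃ D : Divisor K F, (∀ v : Place K F, D v = v.ord f) ∧ Divisor.degree D = 0 := by
  classical
  obtain ⟨s, hs, hsum⟩ := h.exists_finset_ord hf
  refine ⟨Finsupp.onFinset s (fun v => v.ord f) (fun v hv => (hs v).mpr hv), fun v => rfl, ?_⟩
  rw [Divisor.degree, Finsupp.liftAddHom_apply, Finsupp.sum]
  have hdeg : ∀ v : Place K F, (v.deg : ℤ) = 1 := fun v => by rw [h.deg_eq_one v]; rfl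
  simp only [AddMonoidHom.coe_mulRight, hdeg, mul_one, Finsupp.onFinset_apply]
  refine Eq.trans (Finset.sum_subset (Finsupp.support_onFinset_subset) fun v _ hv => ?_) hsum
  simpa using hv

/-- Principal divisors exist and have degree zero. -/
theorem IsFFGen.hasPrincipalDivisors {x : F} (h : IsFFGen K x) : HasPrincipalDivisors K F :=
  ⟨fun _ hf => h.exists_divisor hf⟩

/-- The degree of the divisor of a function vanishes. -/
theorem IsFFGen.degree_principal {x : F} (h : IsFFGen K x) (D : Divisor K F) {f : F} (hf : f ≠ 0)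
    (hD : ∀ v, D v = v.ord f) : Divisor.degree D = 0 := by
  obtain ⟨D', hD', hdeg⟩ := h.exists_divisor hf
  have : D = D' := Finsupp.ext fun v => by rw [hD, hD']
  rw [this, hdeg]

end Principal

end Fermat.Agent.X0
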