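import Mathlib
import Fermat.Agent.X0.FF.PlacesMore
import Fermat.Agent.X0.FF.Principal
import Fermat.Agent.X0.FF.Different

/-!
# X0 / FF5e: bridge lemmas for the Riemann–Roch-lite assembly

* `IsFFGen.mem_integralClosure_iff` (P1): `y ∈ integralClosure K[x] F ↔ ∀ v` with finite centre,
  `0 ≤ v.ord y`;
* `IsFFGen.exists_algebraMap_eq_of_ord_nonneg` (P6): functions without poles are constant;
* `ord_aeval_eq_zero_of_ord_pos`: `s(t)` is a unit at `v` if `t ∈ m_v` and `s(0) ≠ 0`;
* `IsFFGen.regular_at_infty_iff` (L1).
-/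

set_option autoImplicit false
set_option linter.unusedSectionVars false
set_option linter.style.haveILetI false

namespace Fermat.Agent.X0

open AlgebraicCurve IsDedekindDomain WithZero Polynomial IntermediateField

open scoped RatFunc

section Generic

attribute [local instance] isDedekindDomain_integralClosure isFractionRing_integralClosure
  finite_integralClosure

variable {K F : Type*} [Field K] [Field F] [Algebra K F] [Algebra K[X] F] [IsScalarTower K K[X] F]
  [FaithfulSMul K[X] F] [FiniteDimensional (RatFunc K) F] [CharZero K]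

/-- (P1), generic form: the integral closure of `K[𝔵]` consists of the functions that are regular
at all places where `𝔵` is regular. -/
theorem mem_integralClosure_iff_forall_ord (y : F) :
    y ∈ integralClosure K[X] F ↔
      ∀ v : Place K F, algebraMap K[X] F X ∈ v.toValuationSubring → 0 ≤ v.ord y := by
  constructor
  · intro hy v hx
    rcases eq_or_ne y 0 with rfl | hy0
    · simp
    · exact (mem_iff_ord_nonneg v hy0).mp (integralClosure_mem v hx ⟨y, hy⟩)
  · intro h
    have hval : ∀ w : HeightOneSpectrum (integralClosure K[X] F), w.valuation F y ≤ 1 := by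
      intro w
      rcases eq_or_ne y 0 with rfl | hy0
      · simp
      have hx : algebraMap K[X] F X ∈
          (Place.ofHeightOneSpectrum (K := K) (F := F) w).toValuationSubring := by
        rw [IsScalarTower.algebraMap_apply K[X] (integralClosure K[X] F) F]
        exact algebraMap_mem_ofHeightOneSpectrum w _
      have h0 := h _ hx
      rw [valuation_eq_exp_neg_ord (K := K) w hy0, ← exp_zero, exp_le_exp]
      omega
    obtain ⟨s, hs⟩ := HeightOneSpectrum.mem_integers_of_valuation_le_one F y hval
    rw [← hs]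
    exact s.2

end Generic

section Local

variable {K F : Type*} [Field K] [Field F] [Algebra K F]

/-- Polynomials in an element of `O_v` lie in `O_v`. -/
theorem aeval_mem_of_mem (v : Place K F) {t : F} (ht : t ∈ v.toValuationSubring) (s : K[X]) :
    aeval t s ∈ v.toValuationSubring := by
  rw [aeval_eq_sum_range]
  refine Subring.sum_mem v.toValuationSubring.toSubring fun i _ => ?_
  rw [Algebra.smul_def]
  exact v.toValuationSubring.mul_mem _ _ (v.algebraMap_mem' _) (pow_mem ht i)

theorem ord_aeval_nonneg (v : Place K F) {t : F} (ht : 0 ≤ v.ord t) (s : K[X]) :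
    0 ≤ v.ord (aeval t s) := by
  rcases eq_or_ne (aeval t s) 0 with h0 | h0
  · rw [h0, v.ord_zero]
  rcases eq_or_ne t 0 with rfl | ht0
  · exact (mem_iff_ord_nonneg v h0).mp (aeval_mem_of_mem v (zero_mem _) s)
  · exact (mem_iff_ord_nonneg v h0).mp (aeval_mem_of_mem v ((mem_iff_ord_nonneg v ht0).mpr ht) s)

/-- `s(t)` is a unit at `v` when `t ∈ m_v` and `s(0) ≠ 0`. -/
theorem ord_aeval_eq_zero_of_ord_pos (v : Place K F) {t : F} (ht : 0 < v.ord t) (s : K[X])
    (hs : s.eval 0 ≠ 0) : v.ord (aeval t s) = 0 := by
  have ht0 : t ≠ 0 := by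
    rintro rfl
    rw [v.ord_zero] at ht
    exact lt_irrefl _ ht
  have htmem : t ∈ v.toValuationSubring := (mem_iff_ord_nonneg v ht0).mpr ht.le
  have htmax : (⟨t, htmem⟩ : v.toValuationSubring) ∈ IsLocalRing.maximalIdeal _ :=
    (ord_pos_iff_mem_maximalIdeal v ⟨t, htmem⟩ ht0).mp ht
  have hgmem : aeval t s.divX ∈ v.toValuationSubring := aeval_mem_of_mem v htmem _
  have hcmem : algebraMap K F (s.coeff 0) ∈ v.toValuationSubring := v.algebraMap_mem' _
  have hc0 : s.coeff 0 ≠ 0 := by rwa [Polynomial.coeff_zero_eq_eval_zero]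
  have hdecomp : aeval t s = aeval t s.divX * t + algebraMap K F (s.coeff 0) := by
    conv_lhs => rw [← Polynomial.divX_mul_X_add s]
    simp
  set u : v.toValuationSubring :=
    ⟨aeval t s.divX, hgmem⟩ * ⟨t, htmem⟩ + ⟨algebraMap K F (s.coeff 0), hcmem⟩ with hu
  have hunit : IsUnit u := by
    by_contra hnu
    have hum : u ∈ IsLocalRing.maximalIdeal v.toValuationSubring :=
      (IsLocalRing.mem_maximalIdeal _).mpr hnu
    have h1 : (⟨algebraMap K F (s.coeff 0), hcmem⟩ : v.toValuationSubring) ∈
        IsLocalRing.maximalIdeal v.toValuationSubring := by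
      have := Ideal.sub_mem _ hum (Ideal.mul_mem_left _ ⟨aeval t s.divX, hgmem⟩ htmax)
      rwa [hu, add_sub_cancel_left] at this
    have hpos := (ord_pos_iff_mem_maximalIdeal v _ (by
      show algebraMap K F (s.coeff 0) ≠ 0
      rwa [Ne, map_eq_zero])).mpr h1
    rw [show ((⟨algebraMap K F (s.coeff 0), hcmem⟩ : v.toValuationSubring) : F) =
      algebraMap K F (s.coeff 0) from rfl, ord_algebraMap] at hpos
    exact lt_irrefl _ hpos
  obtain ⟨u', hu'⟩ := hunit
  have : (u : F) = aeval t s := by rw [hdecomp, hu]; rfl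
  rw [← this, ← hu']
  exact v.ord_coe_unit u'

end Local

section PoleOrd

variable {K F : Type*} [Field K] [Field F] [Algebra K F]

/-- At a pole of `x`, a polynomial in `x` has order `deg · ord x`. -/
theorem ord_aeval_of_ord_neg (v : Place K F) {x : F} (hx : v.ord x < 0) (p : K[X]) (hp : p ≠ 0) :
    v.ord (aeval x p) = p.natDegree * v.ord x := by
  have hx0 : x ≠ 0 := by
    rintro rfl
    rw [v.ord_zero] at hx
    exact lt_irrefl _ hx
  letI : Invertible x := invertibleOfNonzero hx0
  have hrev := Polynomial.eval₂_reverse_mul_pow (algebraMap K F) x p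
  have hinv : ⅟x = x⁻¹ := invOf_eq_inv x
  rw [hinv] at hrev
  have hpos : 0 < v.ord x⁻¹ := by rw [v.ord_inv]; omega
  have hunit : v.ord (aeval x⁻¹ p.reverse) = 0 := by
    apply ord_aeval_eq_zero_of_ord_pos v hpos
    rw [← Polynomial.coeff_zero_eq_eval_zero, Polynomial.coeff_zero_reverse]
    exact leadingCoeff_ne_zero.mpr hp
  have hne : aeval x⁻¹ p.reverse ≠ 0 := by
    intro h0
    have h1 : eval₂ (algebraMap K F) x⁻¹ p.reverse = 0 := h0
    rw [← hinv, Polynomial.eval₂_reverse_eq_zero_iff] at h1
    -- then `aeval x p = 0`, but its reverse evaluation is a unit...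
    have h2 : aeval x⁻¹ p.reverse = 0 := h0
    have hmem : x⁻¹ ∈ v.toValuationSubring := (mem_iff_ord_nonneg v (inv_ne_zero hx0)).mpr hpos.le
    -- contradiction through the maximal ideal: constant term is a nonzero constant
    have hc0 : p.reverse.coeff 0 ≠ 0 := by
      rw [Polynomial.coeff_zero_reverse]; exact leadingCoeff_ne_zero.mpr hp
    have hdecomp : aeval x⁻¹ p.reverse =
        aeval x⁻¹ p.reverse.divX * x⁻¹ + algebraMap K F (p.reverse.coeff 0) := by
      conv_lhs => rw [← Polynomial.divX_mul_X_add p.reverse]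
      simp
    rw [hdecomp, add_eq_zero_iff_eq_neg] at h2
    have hg := aeval_mem_of_mem v hmem p.reverse.divX
    have hmax := (ord_pos_iff_mem_maximalIdeal v ⟨x⁻¹, hmem⟩ (inv_ne_zero hx0)).mp hpos
    have hprod := Ideal.mul_mem_left _ (⟨_, hg⟩ : v.toValuationSubring) hmax
    have hcmem : -algebraMap K F (p.reverse.coeff 0) ∈ v.toValuationSubring :=
      neg_mem (v.algebraMap_mem' _)
    have heq : (⟨_, hg⟩ * ⟨x⁻¹, hmem⟩ : v.toValuationSubring) =
        ⟨-algebraMap K F (p.reverse.coeff 0), hcmem⟩ := Subtype.ext h2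
    rw [heq] at hprod
    have hne' : -algebraMap K F (p.reverse.coeff 0) ≠ 0 := by
      rw [neg_ne_zero, Ne, map_eq_zero]; exact hc0
    have hpos' := (ord_pos_iff_mem_maximalIdeal v ⟨_, hcmem⟩ hne').mpr hprod
    rw [show ((⟨-algebraMap K F (p.reverse.coeff 0), hcmem⟩ : v.toValuationSubring) : F) =
      algebraMap K F (-(p.reverse.coeff 0)) by simp, ord_algebraMap] at hpos'
    exact lt_irrefl _ hpos'
  have hrev' : aeval x p = aeval x⁻¹ p.reverse * x ^ p.natDegree := hrev.symm
  rw [hrev', v.ord_mul hne (pow_ne_zero _ hx0), hunit, zero_add]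
  have := v.ord_zpow x (p.natDegree : ℤ)
  simpa using this

end PoleOrd

section PoleOrdRat

variable {K F : Type*} [Field K] [Field F] [Algebra K F] [Algebra K[X] F] [IsScalarTower K K[X] F]
  [FaithfulSMul K[X] F]

/-- At a pole of `𝔵`, a rational function in `𝔵` has order `intDegree · ord 𝔵`. -/
theorem ord_algebraMap_ratFunc_of_ord_neg (v : Place K F)
    (hx : v.ord (algebraMap K[X] F X) < 0) (r : RatFunc K) :
    v.ord (algebraMap (RatFunc K) F r) = r.intDegree * v.ord (algebraMap K[X] F X) := by
  rcases eq_or_ne r 0 with rfl | hr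
  · simp
  have hnum : r.num ≠ 0 := RatFunc.num_ne_zero hr
  have hden : r.denom ≠ 0 := RatFunc.denom_ne_zero r
  have hr' : algebraMap (RatFunc K) F r =
      algebraMap K[X] F r.num / algebraMap K[X] F r.denom := by
    conv_lhs => rw [← RatFunc.num_div_denom r]
    rw [map_div₀, ← IsScalarTower.algebraMap_apply, ← IsScalarTower.algebraMap_apply]
  have hinj := FaithfulSMul.algebraMap_injective K[X] F
  have h1 : algebraMap K[X] F r.num ≠ 0 := fun h => hnum (hinj (h.trans (map_zero _).symm))
  have h2 : algebraMap K[X] F r.denom ≠ 0 := fun h => hden (hinj (h.trans (map_zero _).symm))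
  rw [hr', div_eq_mul_inv, v.ord_mul h1 (inv_ne_zero h2), v.ord_inv,
    algebraMap_poly_eq_aeval r.num, algebraMap_poly_eq_aeval r.denom,
    ord_aeval_of_ord_neg v hx _ hnum, ord_aeval_of_ord_neg v hx _ hden, RatFunc.intDegree]
  ring

end PoleOrdRat

section Dual

attribute [local instance] isDedekindDomain_integralClosure isFractionRing_integralClosure
  finite_integralClosure

variable {K F : Type*} [Field K] [Field F] [Algebra K F] [Algebra K[X] F] [IsScalarTower K K[X] F]
  [FaithfulSMul K[X] F] [FiniteDimensional (RatFunc K) F] [CharZero K]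

theorem charZero_quotient_poly (p : Ideal K[X]) (hp : p.IsMaximal) : CharZero (K[X] ⧸ p) := by
  have : Nontrivial (K[X] ⧸ p) := Ideal.Quotient.nontrivial_iff.mpr hp.ne_top
  exact charZero_of_injective_algebraMap (algebraMap K (K[X] ⧸ p)).injective

/-- The new-style ramification index of a prime of the integral closure centred at `c` is
`ord (𝔵 - c)`. -/
theorem ord_gen_sub_eq_ramificationIdx_new (w : HeightOneSpectrum (integralClosure K[X] F)) (c : K)
    (hc : algebraMap K[X] (integralClosure K[X] F) (X - C c) ∈ w.asIdeal) :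
    (Place.ofHeightOneSpectrum (K := K) (F := F) w).ord
        (algebraMap K[X] F X - algebraMap K F c) =
      (w.asIdeal.ramificationIdx K[X] : ℤ) := by
  rw [ord_gen_sub_eq_ramificationIdx w c hc]
  haveI := liesOver_primeXSubC w c hc
  have h := Ideal.ramificationIdx'_eq_ramificationIdx (primeXSubC c).asIdeal w.asIdeal
    (primeXSubC c).ne_bot
  exact_mod_cast h

variable [IsAlgClosed K]

/-- (FINITE SIDE) The trace dual of the integral closure of `K[𝔵]` in place language:
`y ∈ S^∨ ↔ ord_v y ≥ -(e_v - 1)` at all places with finite centre. -/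
theorem trace_dual_iff_forall_ord (y : F) :
    (∀ b : integralClosure K[X] F,
      Algebra.trace (RatFunc K) F (y * algebraMap (integralClosure K[X] F) F b) ∈
        (algebraMap K[X] (RatFunc K)).range) ↔
      ∀ (v : Place K F) (c : K), 0 < v.ord (algebraMap K[X] F X - algebraMap K F c) →
        -(v.ord (algebraMap K[X] F X - algebraMap K F c) - 1) ≤ v.ord y := by
  rw [Different.trace_mul_mem_range_iff_valuation_le K[X] (RatFunc K) F charZero_quotient_poly y]
  constructor
  · intro h v c hv
    have hx : algebraMap K[X] F X ∈ v.toValuationSubring := by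
      have h1 : algebraMap K[X] F X - algebraMap K F c ∈ v.toValuationSubring :=
        (mem_iff_ord_nonneg v (gen_sub_ne_zero c)).mpr hv.le
      have := v.toValuationSubring.add_mem _ _ h1 (v.algebraMap_mem' c)
      simpa using this
    obtain ⟨w, rfl⟩ := exists_heightOneSpectrum_of_gen_mem v hx
    have hcw := (ord_gen_sub_pos_iff w c).mp hv
    rw [ord_gen_sub_eq_ramificationIdx_new w c hcw]
    rcases eq_or_ne y 0 with rfl | hy0
    · rw [Place.ord_zero]
      have := Ideal.ramificationIdx_pos w.asIdeal K[X]
      omega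
    · have hw := h w
      rw [valuation_eq_exp_neg_ord (K := K) w hy0, exp_le_exp] at hw
      omega
  · intro h w
    obtain ⟨c, hc⟩ := exists_centre w
    have hv := (ord_gen_sub_pos_iff w c).mpr hc
    have h1 := h _ c hv
    rw [ord_gen_sub_eq_ramificationIdx_new w c hc] at h1
    rcases eq_or_ne y 0 with rfl | hy0
    · simp
    · rw [valuation_eq_exp_neg_ord (K := K) w hy0, exp_le_exp]
      omega

end Dual

section Ramified

attribute [local instance] isDedekindDomain_integralClosure isFractionRing_integralClosure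
  finite_integralClosure

variable {K F : Type*} [Field K] [Field F] [Algebra K F] [Algebra K[X] F] [IsScalarTower K K[X] F]
  [FaithfulSMul K[X] F] [FiniteDimensional (RatFunc K) F] [CharZero K]

/-- Only finitely many primes of the integral closure are ramified over `K[X]`. -/
theorem finite_ramified_heightOneSpectrum :
    {w : HeightOneSpectrum (integralClosure K[X] F) |
      w.asIdeal.ramificationIdx K[X] ≠ 1}.Finite := by
  have h := FractionalIdeal.finite_factors
    (((differentIdeal K[X] (integralClosure K[X] F) : Ideal (integralClosure K[X] F)) :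
      FractionalIdeal (nonZeroDivisors (integralClosure K[X] F)) F))
  rw [Filter.eventually_cofinite] at h
  refine h.subset fun w hw => ?_
  simp only [Set.mem_ofPred_eq] at hw ⊢
  rw [Different.count_differentIdeal_eq K[X] (RatFunc K) F charZero_quotient_poly w]
  omega

variable [IsAlgClosed K]

/-- Only finitely many places with finite centre are ramified. -/
theorem finite_ramified_places :
    {v : Place K F | ∃ c : K, 1 < v.ord (algebraMap K[X] F X - algebraMap K F c)}.Finite := by
  refine (finite_ramified_heightOneSpectrum (K := K) (F := F)).image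
    (Place.ofHeightOneSpectrum (K := K) (F := F)) |>.subset ?_
  rintro v ⟨c, hc⟩
  have hpos : 0 < v.ord (algebraMap K[X] F X - algebraMap K F c) := by omega
  have hx : algebraMap K[X] F X ∈ v.toValuationSubring := by
    have h1 : algebraMap K[X] F X - algebraMap K F c ∈ v.toValuationSubring :=
      (mem_iff_ord_nonneg v (gen_sub_ne_zero c)).mpr hpos.le
    have := v.toValuationSubring.add_mem _ _ h1 (v.algebraMap_mem' c)
    simpa using this
  obtain ⟨w, rfl⟩ := exists_heightOneSpectrum_of_gen_mem v hx
  refine ⟨w, ?_, rfl⟩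
  have hcw := (ord_gen_sub_pos_iff w c).mp hpos
  rw [ord_gen_sub_eq_ramificationIdx_new w c hcw] at hc
  simp only [Set.mem_ofPred_eq]
  omega

end Ramified

section Moebius

variable {K F : Type*} [Field K] [Field F] [Algebra K F]

theorem adjoin_simple_sub_const (x : F) (c : K) : K⟮x - algebraMap K F c⟯ = K⟮x⟯ := by
  apply le_antisymm
  · rw [adjoin_simple_le_iff]
    exact sub_mem (mem_adjoin_simple_self K x) (IntermediateField.algebraMap_mem _ c)
  · rw [adjoin_simple_le_iff]
    have := add_mem (mem_adjoin_simple_self K (x - algebraMap K F c))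
      (IntermediateField.algebraMap_mem K⟮x - algebraMap K F c⟯ c)
    rwa [sub_add_cancel] at this

theorem IsFFGen.sub_const {x : F} (h : IsFFGen K x) (c : K) :
    IsFFGen K (x - algebraMap K F c) where
  transcendental := fun halg => h.transcendental (by
    have := halg.add (isAlgebraic_algebraMap (R := K) (A := F) c)
    rwa [sub_add_cancel] at this)
  finite := by
    have := h.finite
    rw [adjoin_simple_sub_const]
    exact this

theorem adjoin_simple_moebius (x : F) (c : K) : K⟮(x - algebraMap K F c)⁻¹⟯ = K⟮x⟯ := by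
  rw [adjoin_simple_inv, adjoin_simple_sub_const]

/-- Moebius change of generator `x ↦ (x - c)⁻¹`. -/
theorem IsFFGen.moebius {x : F} (h : IsFFGen K x) (c : K) :
    IsFFGen K (x - algebraMap K F c)⁻¹ := (h.sub_const c).inv

theorem IsFFGen.finrank_moebius {x : F} (_h : IsFFGen K x) (c : K) :
    Module.finrank K⟮(x - algebraMap K F c)⁻¹⟯ F = Module.finrank K⟮x⟯ F := by
  rw [adjoin_simple_moebius]

/-- At a place centred at `c`, `x - c'` is a unit for `c' ≠ c`. -/
theorem ord_sub_const_of_centre_ne (v : Place K F) {x : F} {c c' : K} (hne : c ≠ c')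
    (hv : 0 < v.ord (x - algebraMap K F c)) : v.ord (x - algebraMap K F c') = 0 := by
  have hx1 : x - algebraMap K F c ≠ 0 := by
    intro h0; rw [h0, v.ord_zero] at hv; exact lt_irrefl _ hv
  have hd : algebraMap K F (c - c') ≠ 0 := by
    rw [Ne, map_eq_zero, sub_eq_zero]; exact hne
  have heq : x - algebraMap K F c' = algebraMap K F (c - c') + (x - algebraMap K F c) := by
    rw [map_sub]; ring
  rw [heq, KeyLemma.ord_add_eq_of_lt v hd hx1 (by rw [ord_algebraMap]; exact hv), ord_algebraMap]

/-- The pole/centre dictionary for `x' = (x - c₀)⁻¹`, finite centres `c' ≠ 0` of `x'`. -/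
theorem moebius_sub_const_eq {x : F} {c₀ c' : K} (hc' : c' ≠ 0)
    (hx : x - algebraMap K F c₀ ≠ 0) :
    (x - algebraMap K F c₀)⁻¹ - algebraMap K F c' =
      algebraMap K F (-c') * (x - algebraMap K F (c₀ + c'⁻¹)) * (x - algebraMap K F c₀)⁻¹ := by
  have hc'F : algebraMap K F c' ≠ 0 := by rwa [Ne, map_eq_zero]
  rw [map_neg, map_add, map_inv₀]
  field_simp
  ring

/-- `ord_v (x' - c') = ord_v (x - (c₀ + c'⁻¹)) - ord_v (x - c₀)` for `c' ≠ 0`. -/
theorem ord_moebius_sub_const (v : Place K F) {x : F} {c₀ c' : K} (hc' : c' ≠ 0)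
    (hx : x - algebraMap K F c₀ ≠ 0) (hx' : x - algebraMap K F (c₀ + c'⁻¹) ≠ 0) :
    v.ord ((x - algebraMap K F c₀)⁻¹ - algebraMap K F c') =
      v.ord (x - algebraMap K F (c₀ + c'⁻¹)) - v.ord (x - algebraMap K F c₀) := by
  have hc'F : algebraMap K F (-c') ≠ 0 := by
    rw [Ne, map_eq_zero, neg_eq_zero]; exact hc'
  rw [moebius_sub_const_eq hc' hx, v.ord_mul (mul_ne_zero hc'F hx') (inv_ne_zero hx),
    v.ord_mul hc'F hx', ord_algebraMap, v.ord_inv]
  ring

end Moebius

section Wrapper

variable {K F : Type*} [Field K] [Field F] [Algebra K F] [IsAlgClosed K] [CharZero K]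

/-- (P1) The integral closure of `K[x]` in `F` consists of the functions that are regular at all
places where `x` is regular. -/
theorem IsFFGen.mem_integralClosure_iff {x : F} (h : IsFFGen K x) (y : F) :
    letI := polyAlgebra K x
    y ∈ integralClosure K[X] F ↔ ∀ v : Place K F, 0 ≤ v.ord x → 0 ≤ v.ord y := by
  letI := polyAlgebra K x
  haveI := polyAlgebra_isScalarTower (K := K) x
  haveI := polyAlgebra_faithfulSMul h.transcendental
  haveI := h.finite
  haveI := polyAlgebra_finiteDimensional h.transcendental
  rw [mem_integralClosure_iff_forall_ord]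
  refine forall_congr' fun v => ?_
  have : algebraMap K[X] F X = x := by simp [polyAlgebra_algebraMap]
  rw [this, mem_iff_ord_nonneg v h.ne_zero]

/-- (P6) A function without poles is constant. -/
theorem IsFFGen.exists_algebraMap_eq_of_ord_nonneg {x : F} (h : IsFFGen K x) {y : F}
    (hy : ∀ v : Place K F, 0 ≤ v.ord y) : ∃ a : K, algebraMap K F a = y := by
  by_cases halg : IsAlgebraic K y
  · exact exists_algebraMap_eq_of_isIntegral halg.isIntegral
  · exfalso
    have hgen : IsFFGen K y := h.of_transcendental halg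
    obtain ⟨s, hs, hsum⟩ := hgen.sum_ord_infty
    haveI := hgen.finite
    have hpos : 0 < Module.finrank K⟮y⟯ F := Module.finrank_pos
    have hne : s.Nonempty := by
      by_contra hemp
      rw [Finset.not_nonempty_iff_eq_empty] at hemp
      rw [hemp, Finset.sum_empty] at hsum
      have : (Module.finrank K⟮y⟯ F : ℤ) = 0 := hsum.symm
      omega
    obtain ⟨v, hv⟩ := hne
    have := (hs v).mp hv
    have := hy v
    omega

/-- (P6'), as an equality of sets. -/
theorem IsFFGen.forall_ord_nonneg_iff {x : F} (h : IsFFGen K x) (y : F) :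
    (∀ v : Place K F, 0 ≤ v.ord y) ↔ y ∈ (algebraMap K F).range := by
  constructor
  · intro hy
    obtain ⟨a, ha⟩ := h.exists_algebraMap_eq_of_ord_nonneg hy
    exact ⟨a, ha⟩
  · rintro ⟨a, rfl⟩ v
    rw [ord_algebraMap]

/-- A polynomial that clears the poles of `y` at the places with finite nonzero `t`-centre:
`∃ s, s(0) ≠ 0` and `s(t) * y` is regular wherever `t` is regular and `y` is regular at the
places where `0 < ord t`.  Here `hreg` says that `y` is regular at the zeros of `t`. -/
theorem IsFFGen.exists_clear_poles {t : F} (h : IsFFGen K t) (y : F)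
    (hreg : ∀ v : Place K F, 0 < v.ord t → 0 ≤ v.ord y) :
    ∃ s : K[X], s.eval 0 ≠ 0 ∧ ∀ v : Place K F, 0 ≤ v.ord t → 0 ≤ v.ord (aeval t s * y) := by
  classical
  rcases eq_or_ne y 0 with rfl | hy0
  · exact ⟨1, by simp, fun v _ => by simp⟩
  -- the finitely many bad places
  have hfin : {v : Place K F | v.ord y ≠ 0}.Finite := h.finite_ord_ne_zero hy0
  set P : Finset (Place K F) := hfin.toFinset.filter (fun v : Place K F => v.ord y < 0 ∧ 0 ≤ v.ord t) with hP
  have hPmem : ∀ v, v ∈ P ↔ v.ord y < 0 ∧ 0 ≤ v.ord t := by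
    intro v
    rw [hP, Finset.mem_filter, Set.Finite.mem_toFinset]
    show (v.ord y ≠ 0 ∧ _) ↔ _
    constructor
    · exact fun hv => hv.2
    · exact fun hv => ⟨by omega, hv⟩
  -- centres
  let cen : Place K F → K := fun v =>
    if hv : 0 ≤ v.ord t then (h.exists_centre v hv).choose else 0
  have hcen : ∀ v : Place K F, 0 ≤ v.ord t → 0 < v.ord (t - algebraMap K F (cen v)) := by
    intro v hv
    simp only [cen, dif_pos hv]
    exact (h.exists_centre v hv).choose_spec
  have hcen0 : ∀ v ∈ P, cen v ≠ 0 := by
    intro v hv h0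
    obtain ⟨hy, ht⟩ := (hPmem v).mp hv
    have h1 := hcen v ht
    rw [h0, map_zero, sub_zero] at h1
    have := hreg v h1
    omega
  let m : Place K F → ℕ := fun v => (-v.ord y).toNat
  refine ⟨∏ v ∈ P, (X - C (cen v)) ^ m v, ?_, ?_⟩
  · rw [eval_prod, Finset.prod_ne_zero_iff]
    intro v hv
    rw [eval_pow, eval_sub, eval_X, eval_C, zero_sub]
    exact pow_ne_zero _ (neg_ne_zero.mpr (hcen0 v hv))
  · intro v hv
    have hsne : aeval t (∏ v ∈ P, (X - C (cen v)) ^ m v) ≠ 0 := by
      intro h0
      have := (transcendental_iff_injective.mp h.transcendental) (h0.trans (map_zero _).symm)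
      rw [Finset.prod_eq_zero_iff] at this
      obtain ⟨w, -, hw⟩ := this
      exact X_sub_C_ne_zero _ (eq_zero_of_pow_eq_zero hw)
    rw [v.ord_mul hsne hy0]
    by_cases hvy : 0 ≤ v.ord y
    · have := ord_aeval_nonneg v hv (∏ v ∈ P, (X - C (cen v)) ^ m v)
      omega
    · have hvP : v ∈ P := (hPmem v).mpr ⟨by omega, hv⟩
      rw [← Finset.mul_prod_erase P _ hvP, map_mul, map_pow]
      have hne1 : (aeval t (X - C (cen v)) : F) ≠ 0 := by
        intro h0
        have := (transcendental_iff_injective.mp h.transcendental) (h0.trans (map_zero _).symm)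
        exact X_sub_C_ne_zero _ this
      have hne2 : aeval t (∏ w ∈ P.erase v, (X - C (cen w)) ^ m w) ≠ 0 := by
        intro h0
        apply hsne
        rw [← Finset.mul_prod_erase P _ hvP, map_mul, h0, mul_zero]
      rw [v.ord_mul (pow_ne_zero _ hne1) hne2]
      have h1 : v.ord ((aeval t (X - C (cen v)) : F) ^ m v) = m v * v.ord (aeval t (X - C (cen v))) := by
        have := v.ord_zpow (aeval t (X - C (cen v)) : F) (m v)
        simpa using this
      have h2 : (aeval t (X - C (cen v)) : F) = t - algebraMap K F (cen v) := by simp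
      have h3 := hcen v hv
      have h4 := ord_aeval_nonneg v hv (∏ w ∈ P.erase v, (X - C (cen w)) ^ m w)
      rw [h1, h2]
      have hm : (m v : ℤ) = -v.ord y := by
        simp only [m]
        rw [Int.toNat_of_nonneg (by omega)]
      have : (m v : ℤ) ≤ (m v : ℤ) * v.ord (t - algebraMap K F (cen v)) := by
        nlinarith [Int.natCast_nonneg (m v)]
      omega

/-- (L1) `y` is regular at the poles of `x` iff `s(x⁻¹) * y` lies in the integral closure of
`K[x⁻¹]` for some polynomial `s` with `s(0) ≠ 0`. -/
theorem IsFFGen.regular_at_poles_iff {x : F} (h : IsFFGen K x) (y : F) :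
    letI := polyAlgebra K x⁻¹
    (∀ v : Place K F, v.ord x < 0 → 0 ≤ v.ord y) ↔
      ∃ s : K[X], s.eval 0 ≠ 0 ∧ aeval x⁻¹ s * y ∈ integralClosure K[X] F := by
  have h' := h.inv
  constructor
  · intro hy
    obtain ⟨s, hs0, hs⟩ := h'.exists_clear_poles y (fun v hv => hy v (by
      rw [v.ord_inv] at hv; omega))
    exact ⟨s, hs0, (h'.mem_integralClosure_iff _).mpr hs⟩
  · rintro ⟨s, hs0, hs⟩ v hv
    have hvt : 0 < v.ord x⁻¹ := by rw [v.ord_inv]; omega
    have h1 := (h'.mem_integralClosure_iff _).mp hs v hvt.le
    rcases eq_or_ne y 0 with rfl | hy0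
    · simp
    have hsne : aeval x⁻¹ s ≠ 0 := by
      intro h0
      have := (transcendental_iff_injective.mp h'.transcendental) (h0.trans (map_zero _).symm)
      rw [this] at hs0
      simp at hs0
    rw [v.ord_mul hsne hy0, ord_aeval_eq_zero_of_ord_pos v hvt s hs0, zero_add] at h1
    exact h1

/-- At a pole of `x`, a rational function of `x` has order `intDegree · ord x`. -/
theorem IsFFGen.ord_algebraMap_ratFunc {x : F} (h : IsFFGen K x) (v : Place K F)
    (hx : v.ord x < 0) (r : RatFunc K) :
    letI := polyAlgebra K x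
    haveI := polyAlgebra_faithfulSMul h.transcendental
    v.ord (algebraMap (RatFunc K) F r) = r.intDegree * v.ord x := by
  letI := polyAlgebra K x
  haveI := polyAlgebra_isScalarTower (K := K) x
  haveI := polyAlgebra_faithfulSMul h.transcendental
  have hX : algebraMap K[X] F X = x := by simp [polyAlgebra_algebraMap]
  have := ord_algebraMap_ratFunc_of_ord_neg v (by rw [hX]; exact hx) r
  rwa [hX] at this

/-- (FINITE SIDE) `y` lies in the trace dual of the integral closure of `K[x]` iff
`ord_v y ≥ -(e_v - 1)` at every place with finite centre. -/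
theorem IsFFGen.trace_dual_iff {x : F} (h : IsFFGen K x) (y : F) :
    letI := polyAlgebra K x
    haveI := polyAlgebra_faithfulSMul h.transcendental
    (∀ b ∈ integralClosure K[X] F,
      Algebra.trace (RatFunc K) F (y * b) ∈ (algebraMap K[X] (RatFunc K)).range) ↔
      ∀ (v : Place K F) (c : K), 0 < v.ord (x - algebraMap K F c) →
        -(v.ord (x - algebraMap K F c) - 1) ≤ v.ord y := by
  letI := polyAlgebra K x
  haveI := polyAlgebra_isScalarTower (K := K) x
  haveI := polyAlgebra_faithfulSMul h.transcendental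
  haveI := h.finite
  haveI := polyAlgebra_finiteDimensional h.transcendental
  have hX : algebraMap K[X] F X = x := by simp [polyAlgebra_algebraMap]
  have := trace_dual_iff_forall_ord (K := K) (F := F) y
  rw [hX] at this
  rw [← this]
  constructor
  · intro hb b
    exact hb _ b.2
  · intro hb b hbmem
    exact hb ⟨b, hbmem⟩

/-- Only finitely many places with finite centre are ramified. -/
theorem IsFFGen.finite_ramified {x : F} (h : IsFFGen K x) :
    {v : Place K F | ∃ c : K, 1 < v.ord (x - algebraMap K F c)}.Finite := by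
  letI := polyAlgebra K x
  haveI := polyAlgebra_isScalarTower (K := K) x
  haveI := polyAlgebra_faithfulSMul h.transcendental
  haveI := h.finite
  haveI := polyAlgebra_finiteDimensional h.transcendental
  have hX : algebraMap K[X] F X = x := by simp [polyAlgebra_algebraMap]
  have := finite_ramified_places (K := K) (F := F)
  rwa [hX] at this

/-- The ramification function `e` has `e v = 1` for all but finitely many places. -/
theorem IsFFGen.finite_support_sub_one {x : F} (h : IsFFGen K x) (e : Place K F → ℤ)
    (_he_pole : ∀ v, v.ord x < 0 → e v = -v.ord x)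
    (he_fin : ∀ v (c : K), 0 < v.ord (x - algebraMap K F c) →
      e v = v.ord (x - algebraMap K F c)) :
    (Function.support fun v => e v - 1).Finite := by
  refine (h.finite_ramified.union h.finite_poles).subset fun v hv => ?_
  rw [Function.mem_support] at hv
  by_cases hp : v.ord x < 0
  · exact Or.inr hp
  · left
    obtain ⟨c, hc⟩ := h.exists_centre v (not_lt.mp hp)
    refine ⟨c, ?_⟩
    have := he_fin v c hc
    omega

/-- There is a centre `c₀` over which `x` is unramified. -/
theorem IsFFGen.exists_unramified_centre {x : F} (h : IsFFGen K x) :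
    ∃ c₀ : K, ∀ v : Place K F, 0 < v.ord (x - algebraMap K F c₀) →
      v.ord (x - algebraMap K F c₀) = 1 := by
  classical
  let g : Place K F → K := fun v =>
    if hv : ∃ c : K, 1 < v.ord (x - algebraMap K F c) then hv.choose else 0
  have hC : {c : K | ∃ v : Place K F, 1 < v.ord (x - algebraMap K F c)}.Finite := by
    refine (h.finite_ramified.image g).subset ?_
    rintro c ⟨v, hv⟩
    have hex : ∃ c : K, 1 < v.ord (x - algebraMap K F c) := ⟨c, hv⟩
    refine ⟨v, hex, ?_⟩
    simp only [g, dif_pos hex]
    have h1 : 0 < v.ord (x - algebraMap K F hex.choose) := by have := hex.choose_spec; omega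
    have h2 : 0 < v.ord (x - algebraMap K F c) := by omega
    exact centre_unique v h1 h2
  haveI : Infinite K := Infinite.of_injective (fun n : ℕ => (n : K)) Nat.cast_injective
  obtain ⟨c₀, hc₀⟩ := hC.infinite_compl.nonempty
  refine ⟨c₀, fun v hv => ?_⟩
  by_contra hne
  exact hc₀ ⟨v, by omega⟩

/-- A place is a pole of `x` as soon as `ord (x - c₀) < 0`. -/
theorem IsFFGen.ord_neg_of_ord_sub_const_neg {x : F} (h : IsFFGen K x) (v : Place K F) (c₀ : K)
    (hv : v.ord (x - algebraMap K F c₀) < 0) : v.ord x < 0 := by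
  by_contra hx
  obtain ⟨c₁, hc₁⟩ := h.exists_centre v (not_lt.mp hx)
  by_cases hc : c₁ = c₀
  · subst hc; omega
  · rw [ord_sub_const_of_centre_ne v hc hc₁] at hv
    exact lt_irrefl _ hv

/-- Moebius transfer of the ramification function: poles of `x' = (x - c₀)⁻¹`. -/
theorem IsFFGen.moebius_he_pole {x : F} (_h : IsFFGen K x) (c₀ : K) (e : Place K F → ℤ)
    (he_fin : ∀ v (c : K), 0 < v.ord (x - algebraMap K F c) →
      e v = v.ord (x - algebraMap K F c)) :
    ∀ v : Place K F, v.ord (x - algebraMap K F c₀)⁻¹ < 0 →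
      e v = -v.ord (x - algebraMap K F c₀)⁻¹ := by
  intro v hv
  rw [v.ord_inv] at hv ⊢
  rw [neg_neg]
  exact he_fin v c₀ (by omega)

/-- Moebius transfer of the ramification function: finite centres of `x' = (x - c₀)⁻¹`. -/
theorem IsFFGen.moebius_he_fin {x : F} (h : IsFFGen K x) (c₀ : K) (e : Place K F → ℤ)
    (he_pole : ∀ v, v.ord x < 0 → e v = -v.ord x)
    (he_fin : ∀ v (c : K), 0 < v.ord (x - algebraMap K F c) →
      e v = v.ord (x - algebraMap K F c)) :
    ∀ v (c' : K), 0 < v.ord ((x - algebraMap K F c₀)⁻¹ - algebraMap K F c') →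
      e v = v.ord ((x - algebraMap K F c₀)⁻¹ - algebraMap K F c') := by
  intro v c' hv
  by_cases hc' : c' = 0
  · subst hc'
    rw [map_zero, sub_zero, v.ord_inv] at hv ⊢
    have hx : v.ord x < 0 := h.ord_neg_of_ord_sub_const_neg v c₀ (by omega)
    rw [ord_sub_const_of_ord_neg v hx c₀]
    exact he_pole v hx
  · have hx0 : x - algebraMap K F c₀ ≠ 0 := (h.sub_const c₀).ne_zero
    have hx1 : x - algebraMap K F (c₀ + c'⁻¹) ≠ 0 := (h.sub_const _).ne_zero
    rw [ord_moebius_sub_const v hc' hx0 hx1] at hv ⊢
    by_cases hx : v.ord x < 0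
    · rw [ord_sub_const_of_ord_neg v hx, ord_sub_const_of_ord_neg v hx] at hv
      omega
    · obtain ⟨c₁, hc₁⟩ := h.exists_centre v (not_lt.mp hx)
      by_cases hc : c₁ = c₀
      · subst hc
        have hne : c₁ ≠ c₁ + c'⁻¹ := by
          intro heq
          have : c'⁻¹ = 0 := by
            have := heq.symm
            rwa [add_eq_left] at this
          exact hc' (inv_eq_zero.mp this)
        rw [ord_sub_const_of_centre_ne v hne hc₁] at hv
        omega
      · have h0 := ord_sub_const_of_centre_ne v hc hc₁
        rw [h0] at hv ⊢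
        rw [sub_zero] at hv ⊢
        exact he_fin v _ hv

end Wrapper

end Fermat.Agent.X0
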