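import Mathlib
import Fermat.Agent.X0.FF.InftyBridge
import Fermat.Agent.X0.FF.DedekindWeber

/-!
# X0 / FF5e: the degree norm at infinity

For a generator `x` of a function field `F / K`, `nuInf K x y` is the least integer `d` such that
`d * ord_v x ≤ ord_v y` at all poles `v` of `x` (and `⊥` for `y = 0`); equivalently the least `d`
such that `x^(-d) y` is regular at all poles of `x`.  It is a degree norm in the sense of
`FF/DedekindWeber.lean`, and it is nonnegative on nonzero elements integral over `K[x]`.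
-/

set_option autoImplicit false
set_option linter.unusedSectionVars false
set_option linter.style.haveILetI false

namespace Fermat.Agent.X0

open AlgebraicCurve Polynomial IntermediateField

section Def

variable (K : Type*) {F : Type*} [Field K] [Field F] [Algebra K F]

/-- The set of admissible exponents at infinity. -/
def nuInfSet (x y : F) : Set ℤ :=
  {d : ℤ | ∀ v : Place K F, v.ord x < 0 → d * v.ord x ≤ v.ord y}

open Classical in
/-- The degree norm at infinity attached to a generator `x`. -/
noncomputable def nuInf (x y : F) : WithBot ℤ :=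
  if y = 0 then ⊥ else ((sInf (nuInfSet K x y) : ℤ) : WithBot ℤ)

variable {K}

@[simp]
theorem nuInf_zero (x : F) : nuInf K x 0 = ⊥ := by simp [nuInf]

theorem nuInf_of_ne_zero (x : F) {y : F} (hy : y ≠ 0) :
    nuInf K x y = ((sInf (nuInfSet K x y) : ℤ) : WithBot ℤ) := by simp [nuInf, hy]

theorem nuInf_ne_bot (x : F) {y : F} (hy : y ≠ 0) : nuInf K x y ≠ ⊥ := by
  rw [nuInf_of_ne_zero x hy]
  exact WithBot.coe_ne_bot

theorem nuInf_eq_bot_iff (x y : F) : nuInf K x y = ⊥ ↔ y = 0 := by
  constructor
  · intro h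
    by_contra hy
    exact nuInf_ne_bot x hy h
  · rintro rfl
    exact nuInf_zero x

theorem nuInfSet_upward (x y : F) {d d' : ℤ} (hd : d ∈ nuInfSet K x y) (hdd : d ≤ d') :
    d' ∈ nuInfSet K x y := by
  intro v hv
  have := hd v hv
  nlinarith

end Def

section Ultra

variable {K F : Type*} [Field K] [Field F] [Algebra K F]

/-- The ultrametric inequality for `ord`. -/
theorem min_ord_le_ord_add (v : Place K F) {y z : F} (hy : y ≠ 0) (hz : z ≠ 0)
    (hyz : y + z ≠ 0) : min (v.ord y) (v.ord z) ≤ v.ord (y + z) := by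
  have h := Valuation.map_add v.adicValuation y z
  rcases le_max_iff.mp h with h1 | h1
  · exact (min_le_left _ _).trans ((KeyLemma.ord_le_ord_iff v hy hyz).mpr h1)
  · exact (min_le_right _ _).trans ((KeyLemma.ord_le_ord_iff v hz hyz).mpr h1)

end Ultra

section Main

variable {K F : Type*} [Field K] [Field F] [Algebra K F] [IsAlgClosed K] [CharZero K]

/-- `x` has at least one pole. -/
theorem IsFFGen.exists_pole {x : F} (h : IsFFGen K x) : ∃ v : Place K F, v.ord x < 0 := by
  obtain ⟨s, hs, hsum⟩ := h.sum_ord_infty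
  haveI := h.finite
  have hpos : 0 < Module.finrank K⟮x⟯ F := Module.finrank_pos
  have hne : s.Nonempty := by
    by_contra hemp
    rw [Finset.not_nonempty_iff_eq_empty] at hemp
    rw [hemp, Finset.sum_empty] at hsum
    have : (Module.finrank K⟮x⟯ F : ℤ) = 0 := hsum.symm
    omega
  obtain ⟨v, hv⟩ := hne
  exact ⟨v, (hs v).mp hv⟩

theorem IsFFGen.nuInfSet_nonempty {x : F} (h : IsFFGen K x) (y : F) :
    (nuInfSet K x y).Nonempty := by
  classical
  obtain ⟨s, hs, -⟩ := h.sum_ord_infty
  refine ⟨((s.sup fun v : Place K F => (v.ord y).natAbs : ℕ) : ℤ), fun v hv => ?_⟩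
  have hvs : v ∈ s := (hs v).mpr hv
  have h1 : (v.ord y).natAbs ≤ s.sup fun v : Place K F => (v.ord y).natAbs :=
    Finset.le_sup (f := fun v : Place K F => (v.ord y).natAbs) hvs
  have h2 : ((v.ord y).natAbs : ℤ) ≤ ((s.sup fun v : Place K F => (v.ord y).natAbs : ℕ) : ℤ) := by
    exact_mod_cast h1
  have h3 : -((v.ord y).natAbs : ℤ) ≤ v.ord y := by omega
  nlinarith [Int.natCast_nonneg (s.sup fun v : Place K F => (v.ord y).natAbs)]

theorem IsFFGen.nuInfSet_bddBelow {x : F} (h : IsFFGen K x) (y : F) :
    BddBelow (nuInfSet K x y) := by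
  obtain ⟨v, hv⟩ := h.exists_pole
  refine ⟨-((v.ord y).natAbs : ℤ), fun d hd => ?_⟩
  have h1 := hd v hv
  have h2 : v.ord y ≤ ((v.ord y).natAbs : ℤ) := Int.le_natAbs
  by_contra hlt
  rw [not_le] at hlt
  nlinarith [Int.natCast_nonneg (v.ord y).natAbs]

theorem IsFFGen.sInf_mem_nuInfSet {x : F} (h : IsFFGen K x) (y : F) :
    sInf (nuInfSet K x y) ∈ nuInfSet K x y :=
  Int.csInf_mem (h.nuInfSet_nonempty y) (h.nuInfSet_bddBelow y)

/-- (N4) The defining property of `nuInf`. -/
theorem IsFFGen.nuInf_le_iff {x : F} (h : IsFFGen K x) {y : F} (hy : y ≠ 0) (d : ℤ) :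
    nuInf K x y ≤ (d : WithBot ℤ) ↔ ∀ v : Place K F, v.ord x < 0 → d * v.ord x ≤ v.ord y := by
  rw [nuInf_of_ne_zero x hy, WithBot.coe_le_coe]
  constructor
  · intro hle
    exact nuInfSet_upward x y (h.sInf_mem_nuInfSet y) hle
  · intro hd
    exact csInf_le (h.nuInfSet_bddBelow y) hd

/-- (N5) A nonzero element integral over `K[x]` has nonnegative norm at infinity. -/
theorem IsFFGen.nuInf_nonneg_of_forall_ord {x : F} (h : IsFFGen K x) {y : F} (hy : y ≠ 0)
    (hint : ∀ v : Place K F, 0 ≤ v.ord x → 0 ≤ v.ord y) : (0 : WithBot ℤ) ≤ nuInf K x y := by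
  by_contra hlt
  rw [not_le] at hlt
  have hle : nuInf K x y ≤ ((-1 : ℤ) : WithBot ℤ) := by
    rw [nuInf_of_ne_zero x hy] at hlt ⊢
    have : (sInf (nuInfSet K x y) : ℤ) < 0 := by exact_mod_cast hlt
    exact_mod_cast (by omega : sInf (nuInfSet K x y) ≤ -1)
  have hpoles := (h.nuInf_le_iff hy (-1)).mp hle
  -- `y` has no poles
  have hall : ∀ v : Place K F, 0 ≤ v.ord y := by
    intro v
    by_cases hv : v.ord x < 0
    · have := hpoles v hv
      omega
    · exact hint v (not_lt.mp hv)
  obtain ⟨a, rfl⟩ := h.exists_algebraMap_eq_of_ord_nonneg hall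
  obtain ⟨v, hv⟩ := h.exists_pole
  have := hpoles v hv
  rw [ord_algebraMap] at this
  omega

end Main

section DegNorm

variable {K F : Type*} [Field K] [Field F] [Algebra K F] [Algebra K[X] F] [IsScalarTower K K[X] F]
  [FaithfulSMul K[X] F] [Algebra (RatFunc K) F] [IsScalarTower K[X] (RatFunc K) F]

/-- At a pole of `𝔵`, a rational function in `𝔵` has order `intDegree · ord 𝔵` (for an arbitrary
compatible `RatFunc K`-algebra structure on `F`). -/
theorem ord_algebraMap_ratFunc_of_ord_neg' (v : Place K F)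
    (hx : v.ord (algebraMap K[X] F X) < 0) (r : RatFunc K) :
    v.ord (algebraMap (RatFunc K) F r) = r.intDegree * v.ord (algebraMap K[X] F X) := by
  rcases eq_or_ne r 0 with rfl | hr
  · simp
  have hnum : r.num ≠ 0 := RatFunc.num_ne_zero hr
  have hden : r.denom ≠ 0 := RatFunc.denom_ne_zero r
  have hr' : algebraMap (RatFunc K) F r =
      algebraMap K[X] F r.num / algebraMap K[X] F r.denom := by
    conv_lhs => rw [← RatFunc.num_div_denom r]
    rw [map_div₀, ← IsScalarTower.algebraMap_apply K[X] (RatFunc K) F,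
      ← IsScalarTower.algebraMap_apply K[X] (RatFunc K) F]
  have hinj := FaithfulSMul.algebraMap_injective K[X] F
  have h1 : algebraMap K[X] F r.num ≠ 0 := fun h => hnum (hinj (h.trans (map_zero _).symm))
  have h2 : algebraMap K[X] F r.denom ≠ 0 := fun h => hden (hinj (h.trans (map_zero _).symm))
  rw [hr', div_eq_mul_inv, v.ord_mul h1 (inv_ne_zero h2), v.ord_inv,
    algebraMap_poly_eq_aeval r.num, algebraMap_poly_eq_aeval r.denom,
    ord_aeval_of_ord_neg v hx _ hnum, ord_aeval_of_ord_neg v hx _ hden, RatFunc.intDegree]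
  ring

variable [IsAlgClosed K] [CharZero K]

/-- (N1–N3) `nuInf` is a degree norm on the `RatFunc K`-vector space `F`. -/
theorem isDegNorm_nuInf (h : IsFFGen K (algebraMap K[X] F X)) :
    DW.IsDegNorm (K := K) (V := F) (nuInf K (algebraMap K[X] F X)) where
  eq_bot_iff := nuInf_eq_bot_iff _
  add_le := by
    intro y z
    rcases eq_or_ne y 0 with rfl | hy
    · rw [zero_add]; exact le_max_right _ _
    rcases eq_or_ne z 0 with rfl | hz
    · rw [add_zero]; exact le_max_left _ _
    rcases eq_or_ne (y + z) 0 with hyz | hyz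
    · rw [hyz, nuInf_zero]; exact bot_le
    rw [nuInf_of_ne_zero _ hy, nuInf_of_ne_zero _ hz, ← WithBot.coe_max, h.nuInf_le_iff hyz]
    intro v hv
    have h1 := nuInfSet_upward _ _ (h.sInf_mem_nuInfSet y)
      (le_max_left (sInf (nuInfSet K (algebraMap K[X] F X) y))
        (sInf (nuInfSet K (algebraMap K[X] F X) z))) v hv
    have h2 := nuInfSet_upward _ _ (h.sInf_mem_nuInfSet z)
      (le_max_right (sInf (nuInfSet K (algebraMap K[X] F X) y))
        (sInf (nuInfSet K (algebraMap K[X] F X) z))) v hv
    exact (le_min h1 h2).trans (min_ord_le_ord_add v hy hz hyz)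
  smul := by
    intro a y ha
    rcases eq_or_ne y 0 with rfl | hy
    · simp
    have ha' : algebraMap (RatFunc K) F a ≠ 0 := by
      rw [Ne, map_eq_zero]; exact ha
    have hay : a • y ≠ 0 := by
      rw [Algebra.smul_def]; exact mul_ne_zero ha' hy
    have hord : ∀ v : Place K F, v.ord (algebraMap K[X] F X) < 0 →
        v.ord (a • y) = a.intDegree * v.ord (algebraMap K[X] F X) + v.ord y := by
      intro v hv
      rw [Algebra.smul_def, v.ord_mul ha' hy, ord_algebraMap_ratFunc_of_ord_neg' v hv a]
    apply le_antisymm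
    · rw [nuInf_of_ne_zero _ hy, ← WithBot.coe_add, h.nuInf_le_iff hay]
      intro v hv
      have := h.sInf_mem_nuInfSet y v hv
      rw [hord v hv]
      nlinarith
    · have key : nuInf K (algebraMap K[X] F X) y ≤
          ((sInf (nuInfSet K (algebraMap K[X] F X) (a • y)) - a.intDegree : ℤ) : WithBot ℤ) := by
        rw [h.nuInf_le_iff hy]
        intro v hv
        have := h.sInf_mem_nuInfSet (a • y) v hv
        rw [hord v hv] at this
        nlinarith
      rw [nuInf_of_ne_zero _ hay]
      calc ((a.intDegree : ℤ) : WithBot ℤ) + nuInf K (algebraMap K[X] F X) y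
          ≤ ((a.intDegree : ℤ) : WithBot ℤ) +
            ((sInf (nuInfSet K (algebraMap K[X] F X) (a • y)) - a.intDegree : ℤ) : WithBot ℤ) := by
            gcongr
        _ = ((sInf (nuInfSet K (algebraMap K[X] F X) (a • y)) : ℤ) : WithBot ℤ) := by
            rw [← WithBot.coe_add]
            congr 1
            ring

/-- (N5) in the generic-instance setting. -/
theorem nuInf_nonneg_of_isIntegral (h : IsFFGen K (algebraMap K[X] F X)) {y : F} (hy : y ≠ 0)
    (hint : IsIntegral K[X] y) : (0 : WithBot ℤ) ≤ nuInf K (algebraMap K[X] F X) y := by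
  refine h.nuInf_nonneg_of_forall_ord hy fun v hv => ?_
  have hx : algebraMap K[X] F X ∈ v.toValuationSubring := (mem_iff_ord_nonneg v h.ne_zero).mpr hv
  exact (mem_iff_ord_nonneg v hy).mp (integralClosure_mem v hx ⟨y, hint⟩)

end DegNorm

section PolyAlgebra

open scoped RatFunc

variable {K F : Type*} [Field K] [Field F] [Algebra K F] [IsAlgClosed K] [CharZero K]

/-- (N1–N3) in the `polyAlgebra` setting (with the `RatFunc.liftAlgebra` structure). -/
theorem IsFFGen.isDegNorm_nuInf {x : F} (h : IsFFGen K x) :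
    letI := polyAlgebra K x
    haveI := polyAlgebra_faithfulSMul h.transcendental
    DW.IsDegNorm (K := K) (V := F) (nuInf K x) := by
  letI := polyAlgebra K x
  haveI := polyAlgebra_isScalarTower (K := K) x
  haveI := polyAlgebra_faithfulSMul h.transcendental
  have hX : algebraMap K[X] F X = x := by simp [polyAlgebra_algebraMap]
  have := Fermat.Agent.X0.isDegNorm_nuInf (K := K) (F := F) (by rw [hX]; exact h)
  rwa [hX] at this

/-- (N5) in the `polyAlgebra` setting. -/
theorem IsFFGen.nuInf_nonneg_of_isIntegral {x : F} (h : IsFFGen K x) {y : F} (hy : y ≠ 0)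
    (hint : letI := polyAlgebra K x; IsIntegral K[X] y) : (0 : WithBot ℤ) ≤ nuInf K x y := by
  letI := polyAlgebra K x
  haveI := polyAlgebra_isScalarTower (K := K) x
  haveI := polyAlgebra_faithfulSMul h.transcendental
  have hX : algebraMap K[X] F X = x := by simp [polyAlgebra_algebraMap]
  have := Fermat.Agent.X0.nuInf_nonneg_of_isIntegral (K := K) (F := F) (by rw [hX]; exact h) hy hint
  rwa [hX] at this

end PolyAlgebra

end Fermat.Agent.X0
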