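import Mathlib
import Fermat.Agent.X0.FF.DedekindWeber
import Fermat.Agent.X0.FF.Infinity

/-!
# X0 / FF5d (part 5): the linear-algebra core of "Riemann–Roch lite"

`F` is a finite separable extension of `E = RatFunc K`.  Given a degree norm `ν` on `F` (the norm
at infinity) such that the elements of `F` integral over `Oinf K` are those of norm `≤ 0`, the
Dedekind–Weber reduced basis `ω` of the integral closure of `K[X]` computes

* the space `{y | y ∈ S^∨, 𝔵² y ∈ Sinf^∨}` ("holomorphic differentials `y d𝔵`"): it is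
  `{∑ bᵢ ωᵢ^* | deg bᵢ ≤ dᵢ - 2}` of dimension `∑ max (dᵢ - 1, 0)`;
* `S ∩ Sinf = {∑ aᵢ ωᵢ | deg aᵢ ≤ - dᵢ}` of dimension `∑ max (1 - dᵢ, 0)`;
* the discriminants: `deg det (Tr ωᵢ ωⱼ)` and `ord_∞ det (Tr ηᵢ ηⱼ)`, `ηᵢ = 𝔵^(-dᵢ) ωᵢ`, add up to
  `2 ∑ dᵢ`.
-/

set_option autoImplicit false
set_option linter.unusedSectionVars false
set_option linter.style.haveILetI false

namespace Fermat.Agent.X0.RRCore

open Polynomial Module Infinity

section Psi

variable {K : Type*} [Field K] {F : Type*} [Field F] [Algebra K F] [Algebra (RatFunc K) F]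
  [IsScalarTower K (RatFunc K) F] {n : ℕ}

/-- the `K`-linear map `(pᵢ) ↦ ∑ pᵢ βᵢ` on tuples of polynomials of bounded degree -/
noncomputable def psi (β : Fin n → F) (m : Fin n → ℕ) :
    ((i : Fin n) → degreeLT K (m i)) →ₗ[K] F where
  toFun p := ∑ i, algebraMap K[X] (RatFunc K) (p i : K[X]) • β i
  map_add' p q := by
    simp only [Pi.add_apply, Submodule.coe_add, map_add, add_smul, Finset.sum_add_distrib]
  map_smul' c p := by
    simp only [Pi.smul_apply, Submodule.coe_smul, RingHom.id_apply, Finset.smul_sum]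
    refine Finset.sum_congr rfl fun i _ => ?_
    rw [Algebra.smul_def c (p i : K[X]), map_mul, mul_smul, ← IsScalarTower.algebraMap_apply,
      algebraMap_smul]

theorem psi_apply (β : Fin n → F) (m : Fin n → ℕ) (p : (i : Fin n) → degreeLT K (m i)) :
    psi β m p = ∑ i, algebraMap K[X] (RatFunc K) (p i : K[X]) • β i := rfl

theorem psi_injective (β : Basis (Fin n) (RatFunc K) F) (m : Fin n → ℕ) :
    Function.Injective (psi (K := K) β m) := by
  rw [← LinearMap.ker_eq_bot, LinearMap.ker_eq_bot']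
  intro p hp
  rw [psi_apply] at hp
  have h0 := Fintype.linearIndependent_iff.mp β.linearIndependent _ hp
  funext i
  apply Subtype.ext
  exact (map_eq_zero_iff _ (IsFractionRing.injective K[X] (RatFunc K))).mp (h0 i)

theorem mem_range_psi_iff (β : Basis (Fin n) (RatFunc K) F) (m : Fin n → ℕ) (y : F) :
    y ∈ LinearMap.range (psi (K := K) β m) ↔
      ∀ i, ∃ p : K[X], β.repr y i = algebraMap K[X] (RatFunc K) p ∧ p.degree < m i := by
  constructor
  · rintro ⟨p, rfl⟩ i
    refine ⟨p i, ?_, mem_degreeLT.mp (p i).2⟩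
    rw [psi_apply, β.repr_sum_self]
  · intro h
    choose p hp hdeg using h
    refine ⟨fun i => ⟨p i, mem_degreeLT.mpr (hdeg i)⟩, ?_⟩
    rw [psi_apply]
    conv_rhs => rw [← β.sum_repr y]
    exact Finset.sum_congr rfl fun i _ => by rw [hp i]

theorem finrank_domain_psi (m : Fin n → ℕ) :
    Module.finrank K ((i : Fin n) → degreeLT K (m i)) = ∑ i, m i := by
  rw [Module.finrank_pi_fintype]
  refine Finset.sum_congr rfl fun i _ => ?_
  rw [(degreeLTEquiv K (m i)).finrank_eq, Module.finrank_fin_fun]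

theorem finrank_range_psi (β : Basis (Fin n) (RatFunc K) F) (m : Fin n → ℕ) :
    Module.finrank K (LinearMap.range (psi (K := K) β m)) = ∑ i, m i := by
  rw [LinearMap.finrank_range_of_inj (psi_injective β m), finrank_domain_psi]

instance (β : Fin n → F) (m : Fin n → ℕ) :
    Module.Finite K (LinearMap.range (psi (K := K) β m)) := inferInstance

end Psi

section Core

variable {K : Type*} [Field K] {F : Type*} [Field F] [Algebra K F] [Algebra K[X] F]
  [IsScalarTower K K[X] F] [Algebra (RatFunc K) F] [IsScalarTower K[X] (RatFunc K) F]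
  [IsScalarTower K (RatFunc K) F] [FiniteDimensional (RatFunc K) F]
  [Algebra.IsSeparable (RatFunc K) F] [Algebra (Oinf K) F] [IsScalarTower (Oinf K) (RatFunc K) F]
  {n : ℕ}

/-- the data produced by the Dedekind–Weber reduction -/
structure Reduced (ν : F → WithBot ℤ) (ω : Basis (Fin n) (RatFunc K) F) (d : Fin n → ℤ) : Prop where
  nu_omega : ∀ i, ν (ω i) = ((d i : ℤ) : WithBot ℤ)
  reduced : ∀ a : Fin n → RatFunc K, ν (∑ i, a i • ω i) = DW.expNorm ν ω a
  integral_iff : ∀ y : F, IsIntegral K[X] y ↔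
    ∀ i, ω.repr y i ∈ (algebraMap K[X] (RatFunc K)).range

omit [Algebra K F] [IsScalarTower K K[X] F] [IsScalarTower K (RatFunc K) F]
  [Algebra.IsSeparable (RatFunc K) F] [Algebra (Oinf K) F]
  [IsScalarTower (Oinf K) (RatFunc K) F] in
/-- **Existence of a reduced basis** of the integral closure of `K[X]` in `F`. -/
theorem exists_reduced (hn : Module.finrank (RatFunc K) F = n) {ν : F → WithBot ℤ}
    (hν : DW.IsDegNorm (K := K) ν)
    (hB : ∀ y : F, IsIntegral K[X] y → y ≠ 0 → (0 : WithBot ℤ) ≤ ν y) :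
    ∃ (ω : Basis (Fin n) (RatFunc K) F) (d : Fin n → ℤ), Reduced ν ω d := by
  let M : AddSubgroup F := (integralClosure K[X] F).toSubring.toAddSubgroup
  have hMmem : ∀ y : F, y ∈ M ↔ IsIntegral K[X] y := fun y => Iff.rfl
  have hM : ∀ (p : K[X]) (y : F), y ∈ M → (algebraMap K[X] (RatFunc K) p) • y ∈ M := by
    intro p y hy
    rw [hMmem] at hy ⊢
    rw [algebraMap_smul]
    exact IsIntegral.smul p hy
  have hspan : Submodule.span (RatFunc K) (M : Set F) = ⊤ := by
    rw [eq_top_iff]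
    intro y _
    have halg : IsAlgebraic K[X] y :=
      (IsFractionRing.isAlgebraic_iff K[X] (RatFunc K) F).mpr (Algebra.IsAlgebraic.isAlgebraic y)
    obtain ⟨a, ha0, hay⟩ := halg.exists_integral_multiple
    have ha0' : algebraMap K[X] (RatFunc K) a ≠ 0 := by
      rwa [Ne, map_eq_zero_iff _ (IsFractionRing.injective K[X] (RatFunc K))]
    have : y = (algebraMap K[X] (RatFunc K) a)⁻¹ • (a • y) := by
      rw [← algebraMap_smul (RatFunc K) a y, smul_smul, inv_mul_cancel₀ ha0', one_smul]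
    rw [this]
    exact Submodule.smul_mem _ _ (Submodule.subset_span ((hMmem _).mpr hay))
  obtain ⟨ω, hωM, hred, hmem⟩ := DW.exists_reduced_basis hn hν M hM hspan 0
    (fun y hy hy0 => hB y ((hMmem y).mp hy) hy0)
  have hd : ∀ i, ∃ d : ℤ, ν (ω i) = (d : WithBot ℤ) := fun i =>
    DW.exists_int_of_ne_bot (fun h => ω.ne_zero i ((hν.eq_bot_iff _).mp h))
  choose d hd using hd
  refine ⟨ω, d, hd, hred, fun y => ?_⟩
  rw [← hMmem, hmem]
  constructor
  · rintro ⟨p, rfl⟩ i
    rw [ω.repr_sum_self]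
    exact ⟨p i, rfl⟩
  · intro h
    choose p hp using h
    refine ⟨p, ?_⟩
    conv_lhs => rw [← ω.sum_repr y]
    exact Finset.sum_congr rfl fun i _ => by rw [← hp i]

omit [Algebra K F] [IsScalarTower K K[X] F] [IsScalarTower K (RatFunc K) F]
  [Algebra.IsSeparable (RatFunc K) F] [FiniteDimensional (RatFunc K) F] in
/-- the elements integral over `Oinf K` in terms of the coordinates in a reduced basis -/
theorem isIntegral_Oinf_iff_repr {ν : F → WithBot ℤ} {ω : Basis (Fin n) (RatFunc K) F}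
    {d : Fin n → ℤ} (hR : Reduced ν ω d)
    (hinf : ∀ y : F, IsIntegral (Oinf K) y ↔ ν y ≤ 0) (y : F) :
    IsIntegral (Oinf K) y ↔
      ∀ i, ω.repr y i = 0 ∨ (ω.repr y i).intDegree + d i ≤ 0 := by
  rw [hinf]
  conv_lhs => rw [← ω.sum_repr y]
  rw [hR.reduced (fun i => ω.repr y i), DW.expNorm_le_iff]
  refine forall_congr' fun i => or_congr Iff.rfl ?_
  rw [hR.nu_omega i, ← WithBot.coe_add, ← WithBot.coe_zero, WithBot.coe_le_coe]

omit [Algebra K F] [IsScalarTower K K[X] F] [IsScalarTower K (RatFunc K) F]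
  [Algebra.IsSeparable (RatFunc K) F] [FiniteDimensional (RatFunc K) F] [Algebra K[X] F]
  [IsScalarTower K[X] (RatFunc K) F] [Algebra (Oinf K) F] [IsScalarTower (Oinf K) (RatFunc K) F]
  [Algebra (RatFunc K) F] in
theorem mem_range_Oinf_iff (a : RatFunc K) :
    a ∈ (algebraMap (Oinf K) (RatFunc K)).range ↔ a = 0 ∨ a.intDegree ≤ 0 := by
  rw [← mem_Oinf_iff]
  constructor
  · rintro ⟨b, rfl⟩
    exact b.2
  · intro h
    exact ⟨⟨a, h⟩, rfl⟩

omit [Algebra K F] [IsScalarTower K K[X] F] [IsScalarTower K (RatFunc K) F]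
  [Algebra.IsSeparable (RatFunc K) F] [Algebra K[X] F]
  [IsScalarTower K[X] (RatFunc K) F] [Algebra (Oinf K) F] [IsScalarTower (Oinf K) (RatFunc K) F] in
/-- expansion of a trace along a basis -/
theorem trace_mul_eq_sum (ω : Basis (Fin n) (RatFunc K) F) (y b : F) :
    Algebra.trace (RatFunc K) F (y * b) =
      ∑ j, ω.repr b j * Algebra.trace (RatFunc K) F (y * ω j) := by
  conv_lhs => rw [← ω.sum_repr b]
  rw [Finset.mul_sum, map_sum]
  refine Finset.sum_congr rfl fun j _ => ?_
  rw [mul_smul_comm, map_smul, smul_eq_mul]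

omit [Algebra K F] [IsScalarTower K K[X] F] [IsScalarTower K (RatFunc K) F]
  [Algebra.IsSeparable (RatFunc K) F] [Algebra (Oinf K) F]
  [IsScalarTower (Oinf K) (RatFunc K) F] in
/-- the trace dual of the integral closure of `K[X]`, tested on a reduced basis -/
theorem dual_fin_iff {ν : F → WithBot ℤ} {ω : Basis (Fin n) (RatFunc K) F}
    {d : Fin n → ℤ} (hR : Reduced ν ω d) (y : F) :
    (∀ b : F, IsIntegral K[X] b →
        Algebra.trace (RatFunc K) F (y * b) ∈ (algebraMap K[X] (RatFunc K)).range) ↔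
      ∀ i, Algebra.trace (RatFunc K) F (y * ω i) ∈ (algebraMap K[X] (RatFunc K)).range := by
  constructor
  · intro h i
    refine h (ω i) ((hR.integral_iff _).mpr fun j => ?_)
    rw [ω.repr_self, Finsupp.single_apply]
    split_ifs
    · exact Subring.one_mem _
    · exact Subring.zero_mem _
  · intro h b hb
    rw [trace_mul_eq_sum ω]
    exact Subring.sum_mem _ fun j _ => Subring.mul_mem _ ((hR.integral_iff b).mp hb j) (h j)

omit [Algebra K F] [IsScalarTower K K[X] F] [IsScalarTower K (RatFunc K) F]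
  [Algebra.IsSeparable (RatFunc K) F] in
/-- the trace dual of the integral closure of `Oinf K`, tested on a reduced basis -/
theorem dual_inf_iff {ν : F → WithBot ℤ} {ω : Basis (Fin n) (RatFunc K) F}
    {d : Fin n → ℤ} (hR : Reduced ν ω d)
    (hinf : ∀ y : F, IsIntegral (Oinf K) y ↔ ν y ≤ 0) (y : F) :
    (∀ b : F, IsIntegral (Oinf K) b →
        Algebra.trace (RatFunc K) F (y * b) ∈ (algebraMap (Oinf K) (RatFunc K)).range) ↔
      ∀ i, Algebra.trace (RatFunc K) F (y * ω i) = 0 ∨
        (Algebra.trace (RatFunc K) F (y * ω i)).intDegree ≤ d i := by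
  constructor
  · intro h i
    have hb : IsIntegral (Oinf K) (((RatFunc.X : RatFunc K) ^ (-d i)) • ω i) := by
      rw [isIntegral_Oinf_iff_repr hR hinf]
      intro j
      rw [map_smul, ω.repr_self, Finsupp.smul_apply, Finsupp.single_apply, smul_eq_mul]
      split_ifs with hij
      · right
        subst hij
        rw [mul_one, intDegree_zpow, RatFunc.intDegree_X]
        omega
      · left
        rw [mul_zero]
    have := h _ hb
    rw [mul_smul_comm, map_smul, smul_eq_mul, mem_range_Oinf_iff] at this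
    by_cases ht : Algebra.trace (RatFunc K) F (y * ω i) = 0
    · exact Or.inl ht
    right
    have hX : (RatFunc.X : RatFunc K) ^ (-d i) ≠ 0 := zpow_ne_zero _ RatFunc.X_ne_zero
    rcases this with h0 | h0
    · exact absurd h0 (mul_ne_zero hX ht)
    · rw [RatFunc.intDegree_mul hX ht, intDegree_zpow, RatFunc.intDegree_X] at h0
      omega
  · intro h b hb
    rw [trace_mul_eq_sum ω]
    have hb' := (isIntegral_Oinf_iff_repr hR hinf b).mp hb
    have hmem : ∀ j, ω.repr b j * Algebra.trace (RatFunc K) F (y * ω j) ∈ vsInfty K := by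
      intro j
      rw [mem_vsInfty_iff]
      rcases hb' j with h1 | h1
      · left; rw [h1, zero_mul]
      rcases h j with h2 | h2
      · left; rw [h2, mul_zero]
      by_cases h3 : ω.repr b j = 0
      · left; rw [h3, zero_mul]
      by_cases h4 : Algebra.trace (RatFunc K) F (y * ω j) = 0
      · left; rw [h4, mul_zero]
      right
      rw [RatFunc.intDegree_mul h3 h4]
      omega
    have hsum : ∑ j, ω.repr b j * Algebra.trace (RatFunc K) F (y * ω j) ∈ vsInfty K :=
      Subring.sum_mem (vsInfty K).toSubring fun j _ => hmem j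
    exact (mem_range_Oinf_iff _).mpr ((mem_vsInfty_iff K _).mp hsum)

/-- the dual basis of `ω` for the trace form -/
noncomputable def dualB (ω : Basis (Fin n) (RatFunc K) F) : Basis (Fin n) (RatFunc K) F :=
  (Algebra.traceForm (RatFunc K) F).dualBasis (traceForm_nondegenerate (RatFunc K) F) ω

omit [Algebra K F] [IsScalarTower K K[X] F] [IsScalarTower K (RatFunc K) F] [Algebra K[X] F]
  [IsScalarTower K[X] (RatFunc K) F] [Algebra (Oinf K) F]
  [IsScalarTower (Oinf K) (RatFunc K) F] in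
theorem dualB_repr (ω : Basis (Fin n) (RatFunc K) F) (y : F) (i : Fin n) :
    (dualB ω).repr y i = Algebra.trace (RatFunc K) F (y * ω i) := by
  rw [dualB, LinearMap.BilinForm.dualBasis_repr_apply, Algebra.traceForm_apply]

omit [Algebra K F] [IsScalarTower K K[X] F] [IsScalarTower K (RatFunc K) F]
  [Algebra.IsSeparable (RatFunc K) F] [FiniteDimensional (RatFunc K) F] [Algebra K[X] F]
  [IsScalarTower K[X] (RatFunc K) F] [Algebra (Oinf K) F] [IsScalarTower (Oinf K) (RatFunc K) F]
  [Algebra (RatFunc K) F] in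
theorem intDegree_X_sq_mul {t : RatFunc K} (ht : t ≠ 0) :
    ((RatFunc.X : RatFunc K) ^ 2 * t).intDegree = 2 + t.intDegree := by
  rw [RatFunc.intDegree_mul (pow_ne_zero 2 RatFunc.X_ne_zero) ht, pow_two,
    RatFunc.intDegree_mul RatFunc.X_ne_zero RatFunc.X_ne_zero, RatFunc.intDegree_X]
  ring

/-- **The space of "holomorphic differentials"** `{y | y ∈ S^∨, 𝔵² y ∈ Sinf^∨}` is the image of
`psi ω^* (dᵢ - 1)`. -/
theorem holo_iff {ν : F → WithBot ℤ} {ω : Basis (Fin n) (RatFunc K) F}
    {d : Fin n → ℤ} (hR : Reduced ν ω d)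
    (hinf : ∀ y : F, IsIntegral (Oinf K) y ↔ ν y ≤ 0) (y : F) :
    ((∀ b : F, IsIntegral K[X] b →
        Algebra.trace (RatFunc K) F (y * b) ∈ (algebraMap K[X] (RatFunc K)).range) ∧
      (∀ b : F, IsIntegral (Oinf K) b →
        Algebra.trace (RatFunc K) F
          (algebraMap (RatFunc K) F RatFunc.X ^ 2 * y * b) ∈
            (algebraMap (Oinf K) (RatFunc K)).range)) ↔
      y ∈ LinearMap.range (psi (K := K) (dualB ω) (fun i => (d i - 1).toNat)) := by
  rw [dual_fin_iff hR, dual_inf_iff hR hinf, mem_range_psi_iff]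
  have htr : ∀ i, Algebra.trace (RatFunc K) F
      (algebraMap (RatFunc K) F RatFunc.X ^ 2 * y * ω i) =
        (RatFunc.X : RatFunc K) ^ 2 * Algebra.trace (RatFunc K) F (y * ω i) := by
    intro i
    rw [← map_pow, mul_assoc, ← Algebra.smul_def, map_smul, smul_eq_mul]
  simp only [htr, dualB_repr]
  constructor
  · rintro ⟨h1, h2⟩ i
    obtain ⟨p, hp⟩ := h1 i
    refine ⟨p, hp.symm, ?_⟩
    rcases eq_or_ne p 0 with rfl | hp0
    · rw [degree_zero]; exact WithBot.bot_lt_coe _
    have ht0 : Algebra.trace (RatFunc K) F (y * ω i) ≠ 0 := by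
      rw [← hp, Ne, map_eq_zero_iff _ (IsFractionRing.injective K[X] (RatFunc K))]
      exact hp0
    rcases h2 i with h0 | h0
    · exact absurd h0 (mul_ne_zero (pow_ne_zero 2 RatFunc.X_ne_zero) ht0)
    rw [intDegree_X_sq_mul ht0, ← hp, RatFunc.intDegree_polynomial] at h0
    rw [degree_eq_natDegree hp0, Nat.cast_lt]
    omega
  · intro h
    refine ⟨fun i => ?_, fun i => ?_⟩
    · obtain ⟨p, hp, -⟩ := h i
      exact ⟨p, hp.symm⟩
    · obtain ⟨p, hp, hdeg⟩ := h i
      rcases eq_or_ne p 0 with rfl | hp0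
      · left; rw [hp, map_zero, mul_zero]
      right
      have ht0 : Algebra.trace (RatFunc K) F (y * ω i) ≠ 0 := by
        rw [hp, Ne, map_eq_zero_iff _ (IsFractionRing.injective K[X] (RatFunc K))]
        exact hp0
      rw [intDegree_X_sq_mul ht0, hp, RatFunc.intDegree_polynomial]
      rw [degree_eq_natDegree hp0, Nat.cast_lt] at hdeg
      omega

omit [Algebra.IsSeparable (RatFunc K) F] [FiniteDimensional (RatFunc K) F] in
/-- `S ∩ Sinf` is the image of `psi ω (1 - dᵢ)`. -/
theorem integral_both_iff {ν : F → WithBot ℤ} {ω : Basis (Fin n) (RatFunc K) F}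
    {d : Fin n → ℤ} (hR : Reduced ν ω d)
    (hinf : ∀ y : F, IsIntegral (Oinf K) y ↔ ν y ≤ 0) (y : F) :
    (IsIntegral K[X] y ∧ IsIntegral (Oinf K) y) ↔
      y ∈ LinearMap.range (psi (K := K) ω (fun i => (1 - d i).toNat)) := by
  rw [hR.integral_iff, isIntegral_Oinf_iff_repr hR hinf, mem_range_psi_iff]
  constructor
  · rintro ⟨h1, h2⟩ i
    obtain ⟨p, hp⟩ := h1 i
    refine ⟨p, hp.symm, ?_⟩
    rcases eq_or_ne p 0 with rfl | hp0
    · rw [degree_zero]; exact WithBot.bot_lt_coe _
    have ht0 : ω.repr y i ≠ 0 := by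
      rw [← hp, Ne, map_eq_zero_iff _ (IsFractionRing.injective K[X] (RatFunc K))]
      exact hp0
    rcases h2 i with h0 | h0
    · exact absurd h0 ht0
    rw [← hp, RatFunc.intDegree_polynomial] at h0
    rw [degree_eq_natDegree hp0, Nat.cast_lt]
    omega
  · intro h
    refine ⟨fun i => ?_, fun i => ?_⟩
    · obtain ⟨p, hp, -⟩ := h i
      exact ⟨p, hp.symm⟩
    · obtain ⟨p, hp, hdeg⟩ := h i
      rcases eq_or_ne p 0 with rfl | hp0
      · left; rw [hp, map_zero]
      right
      rw [hp, RatFunc.intDegree_polynomial]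
      rw [degree_eq_natDegree hp0, Nat.cast_lt] at hdeg
      omega

omit [Algebra.IsSeparable (RatFunc K) F] [FiniteDimensional (RatFunc K) F] in
/-- If `S ∩ Sinf = K` then exactly one `dᵢ` is `≤ 0`, and it is `0`. -/
theorem sum_toNat_eq_one {ν : F → WithBot ℤ} {ω : Basis (Fin n) (RatFunc K) F}
    {d : Fin n → ℤ} (hR : Reduced ν ω d)
    (hinf : ∀ y : F, IsIntegral (Oinf K) y ↔ ν y ≤ 0)
    (hconst : ∀ y : F, IsIntegral K[X] y → IsIntegral (Oinf K) y →
      ∃ c : K, algebraMap K F c = y) :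
    ∑ i, (1 - d i).toNat = 1 := by
  have hrange : LinearMap.range (psi (K := K) ω (fun i => (1 - d i).toNat)) =
      Submodule.span K {(1 : F)} := by
    ext y
    rw [← integral_both_iff hR hinf, Submodule.mem_span_singleton]
    constructor
    · rintro ⟨h1, h2⟩
      obtain ⟨c, rfl⟩ := hconst y h1 h2
      exact ⟨c, by rw [Algebra.smul_def, mul_one]⟩
    · rintro ⟨c, rfl⟩
      rw [Algebra.smul_def, mul_one]
      constructor
      · rw [IsScalarTower.algebraMap_apply K K[X] F]
        exact isIntegral_algebraMap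
      · rw [IsScalarTower.algebraMap_apply K (RatFunc K) F]
        have : algebraMap K (RatFunc K) c =
            algebraMap (Oinf K) (RatFunc K) (algebraMap K (Oinf K) c) := rfl
        rw [this, ← IsScalarTower.algebraMap_apply (Oinf K) (RatFunc K) F]
        exact isIntegral_algebraMap
  rw [← finrank_range_psi (K := K) ω, hrange, finrank_span_singleton one_ne_zero]

/-- the basis `ηᵢ = X^(-dᵢ) ωᵢ` -/
noncomputable def etaB (ω : Basis (Fin n) (RatFunc K) F) (d : Fin n → ℤ) :
    Basis (Fin n) (RatFunc K) F :=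
  ω.unitsSMul (fun i => Units.mk0 ((RatFunc.X : RatFunc K) ^ (-d i))
    (zpow_ne_zero _ RatFunc.X_ne_zero))

omit [Algebra K F] [IsScalarTower K K[X] F] [IsScalarTower K (RatFunc K) F] [Algebra K[X] F]
  [IsScalarTower K[X] (RatFunc K) F] [Algebra (Oinf K) F] [IsScalarTower (Oinf K) (RatFunc K) F]
  [Algebra.IsSeparable (RatFunc K) F] [FiniteDimensional (RatFunc K) F] in
theorem etaB_apply (ω : Basis (Fin n) (RatFunc K) F) (d : Fin n → ℤ) (i : Fin n) :
    etaB ω d i = ((RatFunc.X : RatFunc K) ^ (-d i)) • ω i := by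
  rw [etaB, Basis.unitsSMul_apply]
  rfl

omit [Algebra K F] [IsScalarTower K K[X] F] [IsScalarTower K (RatFunc K) F] [Algebra K[X] F]
  [IsScalarTower K[X] (RatFunc K) F] [Algebra (Oinf K) F] [IsScalarTower (Oinf K) (RatFunc K) F]
  [Algebra.IsSeparable (RatFunc K) F] [FiniteDimensional (RatFunc K) F] in
theorem etaB_repr (ω : Basis (Fin n) (RatFunc K) F) (d : Fin n → ℤ) (y : F) (i : Fin n) :
    (etaB ω d).repr y i = (RatFunc.X : RatFunc K) ^ (d i) * ω.repr y i := by
  rw [etaB, Basis.repr_unitsSMul, Units.smul_def, smul_eq_mul]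
  congr 1
  rw [Units.val_inv_eq_inv_val, Units.val_mk0, zpow_neg, inv_inv]

omit [Algebra K F] [IsScalarTower K K[X] F] [IsScalarTower K (RatFunc K) F]
  [Algebra.IsSeparable (RatFunc K) F] [FiniteDimensional (RatFunc K) F] in
/-- `η` is an `Oinf K`-basis of the integral closure of `Oinf K`. -/
theorem isIntegral_Oinf_iff_etaB {ν : F → WithBot ℤ} {ω : Basis (Fin n) (RatFunc K) F}
    {d : Fin n → ℤ} (hR : Reduced ν ω d)
    (hinf : ∀ y : F, IsIntegral (Oinf K) y ↔ ν y ≤ 0) (y : F) :
    IsIntegral (Oinf K) y ↔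
      ∀ i, (etaB ω d).repr y i ∈ (algebraMap (Oinf K) (RatFunc K)).range := by
  rw [isIntegral_Oinf_iff_repr hR hinf]
  refine forall_congr' fun i => ?_
  rw [etaB_repr, mem_range_Oinf_iff]
  have hX : (RatFunc.X : RatFunc K) ^ (d i) ≠ 0 := zpow_ne_zero _ RatFunc.X_ne_zero
  by_cases h0 : ω.repr y i = 0
  · simp [h0]
  · rw [RatFunc.intDegree_mul hX h0, intDegree_zpow, RatFunc.intDegree_X]
    constructor
    · rintro (h | h)
      · exact absurd h h0
      · right; omega
    · rintro (h | h)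
      · exact absurd h (mul_ne_zero hX h0)
      · right; omega

omit [Algebra K F] [IsScalarTower K K[X] F] [IsScalarTower K (RatFunc K) F] [Algebra K[X] F]
  [IsScalarTower K[X] (RatFunc K) F] [Algebra (Oinf K) F] [IsScalarTower (Oinf K) (RatFunc K) F]
  [Algebra.IsSeparable (RatFunc K) F] [FiniteDimensional (RatFunc K) F] in
/-- the discriminant of `η` -/
theorem det_traceMatrix_etaB (ω : Basis (Fin n) (RatFunc K) F) (d : Fin n → ℤ) :
    (Algebra.traceMatrix (RatFunc K) (etaB ω d)).det =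
      ((RatFunc.X : RatFunc K) ^ (-∑ i, d i)) ^ 2 * (Algebra.traceMatrix (RatFunc K) ω).det := by
  have h1 : Algebra.traceMatrix (RatFunc K) (etaB ω d) =
      Matrix.of fun i j => (RatFunc.X : RatFunc K) ^ (-d i) *
        (Matrix.of fun i j => (RatFunc.X : RatFunc K) ^ (-d j) *
          Algebra.traceMatrix (RatFunc K) ω i j) i j := by
    ext i j
    rw [Algebra.traceMatrix_apply, Algebra.traceForm_apply, etaB_apply, etaB_apply,
      smul_mul_smul_comm, map_smul, smul_eq_mul, Matrix.of_apply, Matrix.of_apply,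
      Algebra.traceMatrix_apply, Algebra.traceForm_apply]
    ring
  rw [h1, Matrix.det_mul_column, Matrix.det_mul_row]
  have h2 : ∏ i, (RatFunc.X : RatFunc K) ^ (-d i) = (RatFunc.X : RatFunc K) ^ (-∑ i, d i) := by
    rw [← Finset.sum_neg_distrib]
    generalize (Finset.univ : Finset (Fin n)) = s
    induction s using Finset.induction_on with
    | empty => simp
    | insert i s hi ih =>
      rw [Finset.prod_insert hi, Finset.sum_insert hi, zpow_add₀ RatFunc.X_ne_zero, ih]
  rw [h2]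
  ring

omit [Algebra K F] [IsScalarTower K K[X] F] [IsScalarTower K (RatFunc K) F] in
/-- **The discriminant identity** `2 ∑ dᵢ = Rfin + Rinf`. -/
theorem two_mul_sum_d {ν : F → WithBot ℤ} {ω : Basis (Fin n) (RatFunc K) F}
    {d : Fin n → ℤ} (hR : Reduced ν ω d)
    (hinf : ∀ y : F, IsIntegral (Oinf K) y ↔ ν y ≤ 0) (Rfin Rinf : ℕ)
    (hDfin : ∀ ω' : Basis (Fin n) (RatFunc K) F,
      (∀ y : F, IsIntegral K[X] y ↔ ∀ i, ω'.repr y i ∈ (algebraMap K[X] (RatFunc K)).range) →
      ∃ D : K[X], algebraMap K[X] (RatFunc K) D = (Algebra.traceMatrix (RatFunc K) ω').det ∧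
        D.natDegree = Rfin)
    (hDinf : ∀ η' : Basis (Fin n) (RatFunc K) F,
      (∀ y : F, IsIntegral (Oinf K) y ↔
        ∀ i, η'.repr y i ∈ (algebraMap (Oinf K) (RatFunc K)).range) →
      ∃ δ : Oinf K, algebraMap (Oinf K) (RatFunc K) δ =
          (Algebra.traceMatrix (RatFunc K) η').det ∧ Associated δ (uInf K ^ Rinf)) :
    2 * ∑ i, d i = (Rfin : ℤ) + Rinf := by
  classical
  obtain ⟨D, hD, hDdeg⟩ := hDfin ω hR.integral_iff
  obtain ⟨δ, hδ, hδa⟩ := hDinf (etaB ω d) (isIntegral_Oinf_iff_etaB hR hinf)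
  have hdet0 : (Algebra.traceMatrix (RatFunc K) ω).det ≠ 0 := by
    rw [Algebra.traceMatrix_of_basis]
    exact det_traceForm_ne_zero ω
  have hX : ((RatFunc.X : RatFunc K) ^ (-∑ i, d i)) ^ 2 ≠ 0 :=
    pow_ne_zero 2 (zpow_ne_zero _ RatFunc.X_ne_zero)
  -- degree of `δ`
  obtain ⟨u, hu⟩ := hδa
  have hu' : (δ : RatFunc K) * ((u : Oinf K) : RatFunc K) =
      ((RatFunc.X : RatFunc K)⁻¹) ^ Rinf := by
    have := congrArg (fun z : Oinf K => (z : RatFunc K)) hu
    simpa using this
  have hu0 : ((u : Oinf K) : RatFunc K) ≠ 0 := ((isUnit_Oinf_iff _).mp u.isUnit).1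
  have hud : ((u : Oinf K) : RatFunc K).intDegree = 0 := ((isUnit_Oinf_iff _).mp u.isUnit).2
  have hδ0 : (δ : RatFunc K) ≠ 0 := by
    intro h0
    rw [h0, zero_mul] at hu'
    exact pow_ne_zero Rinf (inv_ne_zero RatFunc.X_ne_zero) hu'.symm
  have hδdeg : (δ : RatFunc K).intDegree = -(Rinf : ℤ) := by
    have := congrArg RatFunc.intDegree hu'
    rw [RatFunc.intDegree_mul hδ0 hu0, hud, add_zero, ← zpow_natCast, intDegree_zpow,
      RatFunc.intDegree_inv, RatFunc.intDegree_X] at this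
    omega
  have hkey : (δ : RatFunc K) =
      ((RatFunc.X : RatFunc K) ^ (-∑ i, d i)) ^ 2 * algebraMap K[X] (RatFunc K) D := by
    rw [hD, ← det_traceMatrix_etaB]
    exact hδ
  have hD0 : algebraMap K[X] (RatFunc K) D ≠ 0 := by rw [hD]; exact hdet0
  have := congrArg RatFunc.intDegree hkey
  rw [hδdeg, RatFunc.intDegree_mul hX hD0, RatFunc.intDegree_polynomial, hDdeg, pow_two,
    RatFunc.intDegree_mul (zpow_ne_zero _ RatFunc.X_ne_zero) (zpow_ne_zero _ RatFunc.X_ne_zero),
    intDegree_zpow, RatFunc.intDegree_X] at this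
  omega

/-- **Riemann–Roch lite, linear algebra core.**  The space
`{y | Tr (y S) ⊆ K[X], Tr (𝔵² y Sinf) ⊆ Oinf}` is finite dimensional over `K` of dimension `g` with
`2 g = Rfin + Rinf + 2 - 2 n`. -/
theorem main (hn : Module.finrank (RatFunc K) F = n) {ν : F → WithBot ℤ}
    (hν : DW.IsDegNorm (K := K) ν)
    (hB : ∀ y : F, IsIntegral K[X] y → y ≠ 0 → (0 : WithBot ℤ) ≤ ν y)
    (hinf : ∀ y : F, IsIntegral (Oinf K) y ↔ ν y ≤ 0)
    (hconst : ∀ y : F, IsIntegral K[X] y → IsIntegral (Oinf K) y →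
      ∃ c : K, algebraMap K F c = y)
    (Rfin Rinf : ℕ)
    (hDfin : ∀ ω' : Basis (Fin n) (RatFunc K) F,
      (∀ y : F, IsIntegral K[X] y ↔ ∀ i, ω'.repr y i ∈ (algebraMap K[X] (RatFunc K)).range) →
      ∃ D : K[X], algebraMap K[X] (RatFunc K) D = (Algebra.traceMatrix (RatFunc K) ω').det ∧
        D.natDegree = Rfin)
    (hDinf : ∀ η' : Basis (Fin n) (RatFunc K) F,
      (∀ y : F, IsIntegral (Oinf K) y ↔
        ∀ i, η'.repr y i ∈ (algebraMap (Oinf K) (RatFunc K)).range) →
      ∃ δ : Oinf K, algebraMap (Oinf K) (RatFunc K) δ =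
          (Algebra.traceMatrix (RatFunc K) η').det ∧ Associated δ (uInf K ^ Rinf)) :
    ∃ W : Submodule K F, Module.Finite K W ∧
      (∀ y : F, y ∈ W ↔
        ((∀ b : F, IsIntegral K[X] b →
          Algebra.trace (RatFunc K) F (y * b) ∈ (algebraMap K[X] (RatFunc K)).range) ∧
        (∀ b : F, IsIntegral (Oinf K) b →
          Algebra.trace (RatFunc K) F
            (algebraMap (RatFunc K) F RatFunc.X ^ 2 * y * b) ∈
              (algebraMap (Oinf K) (RatFunc K)).range))) ∧
      2 * (Module.finrank K W : ℤ) = (Rfin : ℤ) + Rinf + 2 - 2 * n := by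
  obtain ⟨ω, d, hR⟩ := exists_reduced hn hν hB
  refine ⟨LinearMap.range (psi (K := K) (dualB ω) (fun i => (d i - 1).toNat)), inferInstance,
    fun y => (holo_iff hR hinf y).symm, ?_⟩
  rw [finrank_range_psi]
  have h1 := sum_toNat_eq_one hR hinf hconst
  have h2 := two_mul_sum_d hR hinf Rfin Rinf hDfin hDinf
  have h3 : (∑ i, ((d i - 1).toNat : ℤ)) - ∑ i, ((1 - d i).toNat : ℤ) = ∑ i, d i - n := by
    rw [← Finset.sum_sub_distrib]
    have : ∀ i, ((d i - 1).toNat : ℤ) - ((1 - d i).toNat : ℤ) = d i - 1 := by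
      intro i
      omega
    rw [Finset.sum_congr rfl fun i _ => this i, Finset.sum_sub_distrib]
    simp
  have h1' : (∑ i, ((1 - d i).toNat : ℤ)) = 1 := by exact_mod_cast h1
  push_cast
  omega

end Core

end Fermat.Agent.X0.RRCore
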