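import Mathlib
import Fermat.Agent.X0.FF.Different

/-!
# Colengths in Dedekind domains with constant residue field, and the colength of the different

* `Colength.count_differentIdeal_add_one`: for a prime `P` of `B` over a maximal ideal `p ≠ ⊥` of
  `A` whose residue field has characteristic zero, the exponent of `P` in the different is
  `e(P | p) - 1` (`e` = exponent of `P` in `p B`).
* `Colength.finrank_quotient_eq_card_normalizedFactors`: if `B` is a Dedekind domain and a
  `K`-algebra all of whose residue fields are `K`, then `dim_K (B / I)` is the number of prime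
  factors of `I` counted with multiplicity.
* `Colength.finrank_quotient_differentIdeal`, `Colength.finrank_traceDual_quotient`:
  `dim_K (B / 𝔇) = dim_K (B^∨ / B) = ∑_P (e_P - 1)`.
-/

set_option autoImplicit false

namespace Fermat.Agent.X0
namespace Colength

open Fermat.Agent.X0.Different

open Module Algebra UniqueFactorizationMonoid nonZeroDivisors

attribute [local instance] FractionRing.liftAlgebra FractionRing.isScalarTower_liftAlgebra
  Ideal.Quotient.field

section tame

variable (A : Type*) {B : Type*} [CommRing A] [CommRing B] [Algebra A B]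
  [IsDedekindDomain A] [IsDedekindDomain B] [IsTorsionFree A B] [Module.Finite A B]

/-- **exact tame different**: if `P` is a prime of `B` over the maximal ideal `p ≠ ⊥` of `A` whose
residue field has characteristic zero, then the exponent of `P` in the different is
`e(P | p) - 1`. -/
theorem count_differentIdeal_add_one
    [Algebra.IsSeparable (FractionRing A) (FractionRing B)]
    {p : Ideal A} [p.IsMaximal] [CharZero (A ⧸ p)] (hp : p ≠ ⊥) (P : Ideal B) [hPprime : P.IsPrime]
    (hPp : p.map (algebraMap A B) ≤ P) :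
    (normalizedFactors (differentIdeal A B)).count P + 1
      = (normalizedFactors (p.map (algebraMap A B))).count P := by
  classical
  have hp' : p.map (algebraMap A B) ≠ ⊥ := (Ideal.map_eq_bot_iff_of_injective
    (FaithfulSMul.algebraMap_injective A B)).not.mpr hp
  have hP0 : P ≠ ⊥ := fun h => hp' (le_bot_iff.mp (h ▸ hPp))
  have hPmax : P.IsMaximal := hPprime.isMaximal hP0
  set e := (normalizedFactors (p.map (algebraMap A B))).count P with he
  obtain ⟨Q, h₁, h₂⟩ := Ideal.eq_prime_pow_mul_coprime hp' P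
  rw [← he] at h₂
  have he0 : e ≠ 0 := by
    rw [he, Ne, Multiset.count_eq_zero, not_not, Ideal.mem_normalizedFactors_iff hp']
    exact ⟨hPprime, hPp⟩
  have hdvd : P ^ (e - 1) ∣ differentIdeal A B :=
    pow_sub_one_dvd_differentIdeal A P e hp ⟨Q, h₂⟩
  have hndvd : ¬ P ^ e ∣ differentIdeal A B := by
    apply not_dvd_differentIdeal_of_isCoprime_of_charZero A (p := p) (P ^ e) Q
    · intro h
      have : P ^ e ≤ P := Ideal.pow_le_self he0
      rw [h] at this
      exact hPmax.ne_top (top_le_iff.mp this)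
    · exact (Ideal.isCoprime_iff_sup_eq.mpr h₁).pow_left
    · exact h₂.symm
  have := Ideal.count_normalizedFactors_eq (p := P) (x := differentIdeal A B) (n := e - 1)
    (Ideal.dvd_iff_le.mp hdvd) (by
      rw [Nat.sub_add_cancel (Nat.one_le_iff_ne_zero.mpr he0)]
      exact fun h => hndvd (Ideal.dvd_iff_le.mpr h))
  omega

end tame

section colength

variable {K B : Type*} [Field K] [CommRing B] [IsDedekindDomain B] [Algebra K B]

/-- in a Dedekind domain, `J / P J` is generated by any element outside `P J`. -/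
lemma span_sup_mul_eq {P J : Ideal B} [hP : P.IsMaximal] (hJ : J ≠ ⊥) {x : B} (hxJ : x ∈ J)
    (hx : x ∉ P * J) : Ideal.span {x} ⊔ P * J = J := by
  set I' : Ideal B := Ideal.span {x} ⊔ P * J with hI'
  have h1 : P * J ≤ I' := le_sup_right
  have h2 : I' ≤ J := sup_le ((Ideal.span_singleton_le_iff_mem _).mpr hxJ) Ideal.mul_le_right
  obtain ⟨C, hC⟩ := Ideal.dvd_iff_le.mpr h2
  have h3 : J * C ∣ J * P := by
    rw [← hC, mul_comm J P]; exact Ideal.dvd_iff_le.mpr h1
  have h4 : C ∣ P := (mul_dvd_mul_iff_left hJ).mp h3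
  have h5 : P ≤ C := Ideal.dvd_iff_le.mp h4
  rcases eq_or_ne C ⊤ with hCtop | hCtop
  · rw [hC, hCtop, Ideal.mul_top]
  · exfalso
    have : P = C := hP.eq_of_le hCtop h5
    apply hx
    rw [mul_comm, this, ← hC]
    exact Ideal.mem_sup_left (Ideal.mem_span_singleton_self x)

lemma exists_mem_not_mem_mul {P J : Ideal B} [hP : P.IsMaximal] (hJ : J ≠ ⊥) :
    ∃ x ∈ J, x ∉ P * J := by
  have hlt : P * J < J := by
    refine lt_of_le_of_ne Ideal.mul_le_right ?_
    intro h
    have : P * J = ⊤ * J := by rw [h, Ideal.top_mul]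
    have := mul_right_cancel₀ hJ this
    exact hP.ne_top this
  exact SetLike.exists_of_lt hlt

/-- step: `dim_K B/(P J) = dim_K B/J + 1` when `B / P = K`. -/
lemma finrank_quotient_mul_step {P J : Ideal B} [hP : P.IsMaximal] (hJ : J ≠ ⊥)
    (hres : ∀ b : B, ∃ c : K, b - algebraMap K B c ∈ P) [Module.Finite K (B ⧸ J)] :
    Module.Finite K (B ⧸ (P * J)) ∧ finrank K (B ⧸ (P * J)) = finrank K (B ⧸ J) + 1 := by
  obtain ⟨x, hxJ, hx⟩ := exists_mem_not_mem_mul (P := P) hJ
  have hspan := span_sup_mul_eq hJ hxJ hx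
  let mk := Ideal.Quotient.mk (P * J)
  let N' : Ideal (B ⧸ (P * J)) := J.map (Ideal.Quotient.mkₐ K (P * J))
  let N : Submodule K (B ⧸ (P * J)) := N'.restrictScalars K
  have hle : P * J ≤ J := Ideal.mul_le_right
  -- the quotient by N is B / J
  let e1 : ((B ⧸ (P * J)) ⧸ N) ≃ₗ[K] ((B ⧸ (P * J)) ⧸ N') :=
    Submodule.Quotient.restrictScalarsEquiv K N'
  let e2 : ((B ⧸ (P * J)) ⧸ N') ≃ₐ[K] B ⧸ J := DoubleQuot.quotQuotEquivQuotOfLEₐ K hle
  let e : ((B ⧸ (P * J)) ⧸ N) ≃ₗ[K] B ⧸ J := e1.trans e2.toLinearEquiv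
  -- N is spanned by the class of x
  have hN : N = Submodule.span K {mk x} := by
    apply le_antisymm
    · intro n hn
      have hn' : n ∈ N' := hn
      rw [Ideal.mem_map_iff_of_surjective _ (Ideal.Quotient.mkₐ_surjective K (P * J))] at hn'
      obtain ⟨y, hyJ, rfl⟩ := hn'
      rw [← hspan, Submodule.mem_sup] at hyJ
      obtain ⟨y1, hy1, z, hz, rfl⟩ := hyJ
      obtain ⟨a, rfl⟩ := Ideal.mem_span_singleton'.mp hy1
      obtain ⟨c, hc⟩ := hres a
      rw [Submodule.mem_span_singleton]
      refine ⟨c, ?_⟩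
      show c • mk x = mk (a * x + z)
      rw [Algebra.smul_def]
      show mk (algebraMap K B c) * mk x = mk (a * x + z)
      rw [← map_mul, eq_comm, Ideal.Quotient.eq]
      have : a * x + z - algebraMap K B c * x = (a - algebraMap K B c) * x + z := by ring
      rw [this]
      exact add_mem (Ideal.mul_mem_mul hc hxJ) hz
    · rw [Submodule.span_singleton_le_iff_mem]
      exact Ideal.mem_map_of_mem _ hxJ
  have hmkx : mk x ≠ 0 := by
    rw [Ne, Ideal.Quotient.eq_zero_iff_mem]; exact hx
  have hNfin : finrank K N = 1 := by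
    rw [hN]; exact finrank_span_singleton hmkx
  have : Module.Finite K N := by
    rw [hN]; infer_instance
  have : Module.Finite K ((B ⧸ (P * J)) ⧸ N) := Module.Finite.equiv e.symm
  have hfin : Module.Finite K (B ⧸ (P * J)) := Module.Finite.of_submodule_quotient N
  refine ⟨hfin, ?_⟩
  have h := Submodule.finrank_quotient_add_finrank N
  rw [hNfin, LinearEquiv.finrank_eq e] at h
  exact h.symm

/-- **colength formula**: if all residue fields of the Dedekind domain `B` are equal to `K`, then
`dim_K B / I` is the number of prime factors of `I` (with multiplicity). -/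
theorem finrank_quotient_eq_card_normalizedFactors
    (hres : ∀ P : Ideal B, P.IsMaximal → ∀ b : B, ∃ c : K, b - algebraMap K B c ∈ P)
    (I : Ideal B) (hI : I ≠ ⊥) :
    Module.Finite K (B ⧸ I) ∧ finrank K (B ⧸ I) = Multiset.card (normalizedFactors I) := by
  induction I using UniqueFactorizationMonoid.induction_on_prime with
  | h₁ => exact absurd rfl hI
  | h₂ I hIu =>
    have htop : I = ⊤ := Ideal.isUnit_iff.mp hIu
    subst htop
    have : Subsingleton (B ⧸ (⊤ : Ideal B)) := Ideal.Quotient.subsingleton_iff.mpr rfl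
    refine ⟨inferInstance, ?_⟩
    rw [finrank_zero_of_subsingleton, ← Ideal.one_eq_top, normalizedFactors_one]
    rfl
  | h₃ J P hJ hP ih =>
    have hJ' : J ≠ ⊥ := hJ
    have hP0 : P ≠ ⊥ := hP.ne_zero
    have hPprime : P.IsPrime := Ideal.isPrime_of_prime hP
    have hPmax : P.IsMaximal := hPprime.isMaximal hP0
    obtain ⟨hfin, hrank⟩ := ih hJ'
    obtain ⟨h1, h2⟩ := finrank_quotient_mul_step (K := K) (P := P) hJ' (hres P hPmax)
    refine ⟨h1, ?_⟩
    rw [h2, hrank, normalizedFactors_mul hP0 hJ', normalizedFactors_irreducible hP.irreducible,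
      normalize_eq, Multiset.card_add, Multiset.card_singleton, add_comm]

/-- for ideals `I ≤ J` of `B`, the dimension of `J / I` (as a subspace of `B / I`). -/
lemma finrank_map_mk_of_le
    (hres : ∀ P : Ideal B, P.IsMaximal → ∀ b : B, ∃ c : K, b - algebraMap K B c ∈ P)
    {I J : Ideal B} (hI : I ≠ ⊥) (hIJ : I ≤ J) :
    finrank K ((J.map (Ideal.Quotient.mkₐ K I)).restrictScalars K)
      + Multiset.card (normalizedFactors J) = Multiset.card (normalizedFactors I) := by
  have hJ : J ≠ ⊥ := fun h => hI (le_bot_iff.mp (h ▸ hIJ))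
  obtain ⟨hfinI, hrI⟩ := finrank_quotient_eq_card_normalizedFactors (K := K) hres I hI
  obtain ⟨hfinJ, hrJ⟩ := finrank_quotient_eq_card_normalizedFactors (K := K) hres J hJ
  let N' : Ideal (B ⧸ I) := J.map (Ideal.Quotient.mkₐ K I)
  let N : Submodule K (B ⧸ I) := N'.restrictScalars K
  let e1 : ((B ⧸ I) ⧸ N) ≃ₗ[K] ((B ⧸ I) ⧸ N') :=
    Submodule.Quotient.restrictScalarsEquiv K N'
  let e2 : ((B ⧸ I) ⧸ N') ≃ₐ[K] B ⧸ J := DoubleQuot.quotQuotEquivQuotOfLEₐ K hIJ
  let e : ((B ⧸ I) ⧸ N) ≃ₗ[K] B ⧸ J := e1.trans e2.toLinearEquiv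
  have h := Submodule.finrank_quotient_add_finrank N
  rw [LinearEquiv.finrank_eq e, hrI, hrJ] at h
  show finrank K N + _ = _
  omega

end colength

section sums

variable (A : Type*) {B : Type*} [CommRing A] [CommRing B] [Algebra A B]
  [IsDedekindDomain A] [IsDedekindDomain B] [IsTorsionFree A B] [Module.Finite A B]

/-- in characteristic zero the separability hypothesis on the fraction fields is automatic. -/
theorem isSeparable_fractionRing_of_charZero [CharZero A] :
    Algebra.IsSeparable (FractionRing A) (FractionRing B) := by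
  have : IsIntegralClosure B A (FractionRing B) :=
    IsIntegralClosure.of_isIntegrallyClosed _ _ _
  have : Algebra.IsAlgebraic (FractionRing A) (FractionRing B) :=
    isAlgebraic_of_isFractionRing A B ..
  infer_instance

/-- the number of prime factors of the different is `∑ (e_P - 1)` over any finite set `T` of
nonzero primes containing all primes dividing the different (`K ⊆ A` a field of char. zero). -/
theorem card_normalizedFactors_differentIdeal (K : Type*) [Field K] [CharZero K] [Algebra K A]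
    [Algebra.IsSeparable (FractionRing A) (FractionRing B)]
    (T : Finset (Ideal B)) (hT : ∀ P ∈ T, P.IsPrime ∧ P ≠ ⊥)
    (hT' : ∀ P : Ideal B, P.IsPrime → differentIdeal A B ≤ P → P ∈ T) :
    Multiset.card (normalizedFactors (differentIdeal A B))
      = ∑ P ∈ T, ((normalizedFactors ((P.under A).map (algebraMap A B))).count P - 1) := by
  have h𝔇 : differentIdeal A B ≠ ⊥ := differentIdeal_ne_bot
  rw [← Multiset.toFinset_sum_count_eq]
  have hsub : (normalizedFactors (differentIdeal A B)).toFinset ⊆ T := by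
    intro P hP
    rw [Multiset.mem_toFinset, Ideal.mem_normalizedFactors_iff h𝔇] at hP
    exact hT' P hP.1 hP.2
  rw [Finset.sum_subset hsub (fun P _ hP => by
    rw [Multiset.mem_toFinset] at hP
    exact Multiset.count_eq_zero.mpr hP)]
  refine Finset.sum_congr rfl fun P hP => ?_
  obtain ⟨hPprime, hP0⟩ := hT P hP
  have hpmax : (P.under A).IsMaximal := by
    have : (P.under A).IsPrime := Ideal.IsPrime.under A P
    exact Ideal.IsPrime.isMaximal this (Ideal.under_ne_bot A hP0)
  have : CharZero (A ⧸ P.under A) := by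
    have : Nontrivial (A ⧸ P.under A) := Ideal.Quotient.nontrivial_iff.mpr hpmax.ne_top
    exact charZero_of_injective_algebraMap (algebraMap K (A ⧸ P.under A)).injective
  have := count_differentIdeal_add_one A (p := P.under A) (Ideal.under_ne_bot A hP0) P
    Ideal.map_comap_le
  omega

variable {K : Type*} [Field K] [CharZero K] [Algebra K A] [Algebra K B]

/-- `dim_K B / 𝔇 = ∑ (e_P - 1)` over any finite set `T` of nonzero primes containing all primes
dividing the different. -/
theorem finrank_quotient_differentIdeal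
    [Algebra.IsSeparable (FractionRing A) (FractionRing B)]
    (hres : ∀ P : Ideal B, P.IsMaximal → ∀ b : B, ∃ c : K, b - algebraMap K B c ∈ P)
    (T : Finset (Ideal B)) (hT : ∀ P ∈ T, P.IsPrime ∧ P ≠ ⊥)
    (hT' : ∀ P : Ideal B, P.IsPrime → differentIdeal A B ≤ P → P ∈ T) :
    finrank K (B ⧸ differentIdeal A B)
      = ∑ P ∈ T, ((normalizedFactors ((P.under A).map (algebraMap A B))).count P - 1) := by
  have h𝔇 : differentIdeal A B ≠ ⊥ := differentIdeal_ne_bot
  rw [(finrank_quotient_eq_card_normalizedFactors hres _ h𝔇).2,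
    card_normalizedFactors_differentIdeal A K T hT hT']

end sums


section dual

variable (A : Type*) {B : Type*} [CommRing A] [CommRing B] [Algebra A B]
  [IsDedekindDomain A] [IsDedekindDomain B] [IsTorsionFree A B] [Module.Finite A B]
  (E F : Type*) [Field E] [Field F] [Algebra A E] [IsFractionRing A E] [Algebra B F]
  [IsFractionRing B F] [Algebra E F] [Algebra A F] [IsScalarTower A E F] [IsScalarTower A B F]
  [FiniteDimensional E F] [Algebra.IsSeparable E F] [IsIntegralClosure B A F]
  {k : Type*} [Field k] [Algebra k B] [Algebra k F] [IsScalarTower k B F]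

/-- **codimension of `B` in its trace dual**: `dim_k (B^∨ / B)` is the number of prime factors of
the different (with multiplicity).  Diagram form: `ι : V → F` is any `k`-linear injection with
image the trace dual, `π : V → Q` any `k`-linear surjection with kernel `ι⁻¹ B`. -/
theorem finrank_traceDual_quotient
    [Algebra.IsSeparable (FractionRing A) (FractionRing B)]
    (hres : ∀ P : Ideal B, P.IsMaximal → ∀ b : B, ∃ c : k, b - algebraMap k B c ∈ P)
    {V Q : Type*} [AddCommGroup V] [Module k V] [AddCommGroup Q] [Module k Q]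
    (ι : V →ₗ[k] F)
    (hrange : ∀ y : F, y ∈ LinearMap.range ι ↔ y ∈ Submodule.traceDual A E (1 : Submodule B F))
    (π : V →ₗ[k] Q) (hπ : Function.Surjective π)
    (hker : ∀ v, π v = 0 ↔ ι v ∈ (1 : Submodule B F)) :
    finrank k Q = Multiset.card (normalizedFactors (differentIdeal A B)) := by
  have h𝔇 : differentIdeal A B ≠ ⊥ := differentIdeal_ne_bot
  obtain ⟨d, hd𝔇, hd0⟩ := Submodule.exists_mem_ne_zero_of_ne_bot h𝔇
  obtain ⟨J₀, hJ₀⟩ := Ideal.dvd_span_singleton.mpr hd𝔇
  have hdspan : Ideal.span {d} ≠ ⊥ := by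
    rwa [Ne, Ideal.span_singleton_eq_bot]
  have hJ₀0 : J₀ ≠ ⊥ := by
    rintro rfl
    rw [Ideal.mul_bot] at hJ₀
    exact hdspan hJ₀
  have hdF : algebraMap B F d ≠ 0 := by
    rwa [Ne, IsFractionRing.to_map_eq_zero_iff]
  -- fractional ideal computation
  set J : FractionalIdeal B⁰ F := FractionalIdeal.dual A E (1 : FractionalIdeal B⁰ F) with hJ
  have hJmem : ∀ y : F, y ∈ J ↔ y ∈ Submodule.traceDual A E (1 : Submodule B F) := by
    intro y
    rw [← FractionalIdeal.mem_coe, hJ, FractionalIdeal.coe_dual_one]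
  have h𝔇J : (↑(differentIdeal A B) : FractionalIdeal B⁰ F) = J⁻¹ :=
    coeIdeal_differentIdeal A E F B
  have hJ0 : J ≠ 0 := FractionalIdeal.dual_ne_zero A E one_ne_zero
  have hJ₀eq : (↑J₀ : FractionalIdeal B⁰ F)
      = FractionalIdeal.spanSingleton B⁰ (algebraMap B F d) * J := by
    rw [← FractionalIdeal.coeIdeal_span_singleton, hJ₀, FractionalIdeal.coeIdeal_mul, h𝔇J,
      mul_comm (J⁻¹), mul_assoc, inv_mul_cancel₀ hJ0, mul_one]
  have key : ∀ y : F, y ∈ Submodule.traceDual A E (1 : Submodule B F) ↔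
      ∃ b ∈ J₀, algebraMap B F b = algebraMap B F d * y := by
    intro y
    rw [← hJmem]
    constructor
    · intro hy
      have : algebraMap B F d * y ∈ (↑J₀ : FractionalIdeal B⁰ F) := by
        rw [hJ₀eq, FractionalIdeal.mem_singleton_mul]
        exact ⟨y, hy, rfl⟩
      rw [FractionalIdeal.mem_coeIdeal] at this
      exact this
    · rintro ⟨b, hb, hby⟩
      have : algebraMap B F d * y ∈ (↑J₀ : FractionalIdeal B⁰ F) := by
        rw [FractionalIdeal.mem_coeIdeal]
        exact ⟨b, hb, hby⟩
      rw [hJ₀eq, FractionalIdeal.mem_singleton_mul] at this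
      obtain ⟨y', hy', hyy'⟩ := this
      rw [mul_right_inj' hdF] at hyy'
      rwa [hyy']
  -- the maps
  let ψ : B →ₗ[k] F := (IsScalarTower.toAlgHom k B F).toLinearMap
  have hψ : Function.Injective ψ := IsFractionRing.injective B F
  have hψapp : ∀ b, ψ b = algebraMap B F b := fun _ => rfl
  let μ : V →ₗ[k] F := (LinearMap.mulLeft k (algebraMap B F d)).comp ι
  have hμapp : ∀ v, μ v = algebraMap B F d * ι v := fun _ => rfl
  have hμ : ∀ v, μ v ∈ LinearMap.range ψ := by
    intro v
    obtain ⟨b, -, hb⟩ := (key (ι v)).mp ((hrange _).mp ⟨v, rfl⟩)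
    exact ⟨b, hb⟩
  let qd : B →ₗ[k] B ⧸ Ideal.span {d} := (Ideal.Quotient.mkₐ k (Ideal.span {d})).toLinearMap
  let θ : V →ₗ[k] B ⧸ Ideal.span {d} :=
    qd.comp (((LinearEquiv.ofInjective ψ hψ).symm : LinearMap.range ψ →ₗ[k] B).comp
      (μ.codRestrict (LinearMap.range ψ) hμ))
  have hθ : ∀ (v : V) (b : B), algebraMap B F b = algebraMap B F d * ι v →
      θ v = Ideal.Quotient.mk (Ideal.span {d}) b := by
    intro v b hb
    show qd ((LinearEquiv.ofInjective ψ hψ).symm (μ.codRestrict (LinearMap.range ψ) hμ v)) = _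
    have : (LinearEquiv.ofInjective ψ hψ).symm (μ.codRestrict (LinearMap.range ψ) hμ v) = b := by
      rw [LinearEquiv.symm_apply_eq]
      apply Subtype.ext
      show μ v = ψ b
      rw [hμapp, hψapp, hb]
    rw [this]
    rfl
  have hkerθ : LinearMap.ker θ = LinearMap.ker π := by
    ext v
    rw [LinearMap.mem_ker, LinearMap.mem_ker, hker]
    obtain ⟨b, hbJ, hb⟩ := (key (ι v)).mp ((hrange _).mp ⟨v, rfl⟩)
    rw [hθ v b hb, Ideal.Quotient.eq_zero_iff_mem, Ideal.mem_span_singleton', Submodule.mem_one]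
    constructor
    · rintro ⟨b', rfl⟩
      refine ⟨b', ?_⟩
      rw [map_mul, mul_comm, mul_right_inj' hdF] at hb
      exact hb
    · rintro ⟨b', hb'⟩
      refine ⟨b', ?_⟩
      apply IsFractionRing.injective B F
      rw [map_mul, hb, ← hb', mul_comm]
  have hdle : Ideal.span {d} ≤ J₀ := by
    rw [hJ₀]; exact Ideal.mul_le_right
  have hrangeθ : LinearMap.range θ
      = (J₀.map (Ideal.Quotient.mkₐ k (Ideal.span {d}))).restrictScalars k := by
    ext z
    constructor
    · rintro ⟨v, rfl⟩
      obtain ⟨b, hbJ, hb⟩ := (key (ι v)).mp ((hrange _).mp ⟨v, rfl⟩)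
      rw [hθ v b hb]
      exact Ideal.mem_map_of_mem _ hbJ
    · intro hz
      have hz' : z ∈ J₀.map (Ideal.Quotient.mkₐ k (Ideal.span {d})) := hz
      rw [Ideal.mem_map_iff_of_surjective _ (Ideal.Quotient.mkₐ_surjective k _)] at hz'
      obtain ⟨b, hbJ, rfl⟩ := hz'
      have hy : (algebraMap B F d)⁻¹ * algebraMap B F b
          ∈ Submodule.traceDual A E (1 : Submodule B F) := by
        rw [key]
        exact ⟨b, hbJ, by rw [mul_inv_cancel_left₀ hdF]⟩
      obtain ⟨v, hv⟩ := (hrange _).mpr hy
      refine ⟨v, ?_⟩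
      rw [hθ v b (by rw [hv, mul_inv_cancel_left₀ hdF])]
      rfl
  have hcount := finrank_map_mk_of_le (K := k) hres hdspan hdle
  have hfac : normalizedFactors (Ideal.span {d})
      = normalizedFactors (differentIdeal A B) + normalizedFactors J₀ := by
    rw [hJ₀, normalizedFactors_mul h𝔇 hJ₀0]
  rw [hfac, Multiset.card_add] at hcount
  have e1 : (V ⧸ LinearMap.ker π) ≃ₗ[k] Q := π.quotKerEquivOfSurjective hπ
  have e2 : (V ⧸ LinearMap.ker θ) ≃ₗ[k] LinearMap.range θ := θ.quotKerEquivRange
  have : finrank k Q = finrank k (LinearMap.range θ) := by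
    rw [← LinearEquiv.finrank_eq e1, ← LinearEquiv.finrank_eq e2, hkerθ]
  rw [this, hrangeθ]
  omega

/-- `dim_k (B^∨ / B) = ∑ (e_P - 1)` (diagram form, see `finrank_traceDual_quotient`). -/
theorem finrank_traceDual_quotient_eq_sum [CharZero k] [Algebra k A]
    [Algebra.IsSeparable (FractionRing A) (FractionRing B)]
    (hres : ∀ P : Ideal B, P.IsMaximal → ∀ b : B, ∃ c : k, b - algebraMap k B c ∈ P)
    {V Q : Type*} [AddCommGroup V] [Module k V] [AddCommGroup Q] [Module k Q]
    (ι : V →ₗ[k] F)
    (hrange : ∀ y : F, y ∈ LinearMap.range ι ↔ y ∈ Submodule.traceDual A E (1 : Submodule B F))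
    (π : V →ₗ[k] Q) (hπ : Function.Surjective π)
    (hker : ∀ v, π v = 0 ↔ ι v ∈ (1 : Submodule B F))
    (T : Finset (Ideal B)) (hT : ∀ P ∈ T, P.IsPrime ∧ P ≠ ⊥)
    (hT' : ∀ P : Ideal B, P.IsPrime → differentIdeal A B ≤ P → P ∈ T) :
    finrank k Q
      = ∑ P ∈ T, ((normalizedFactors ((P.under A).map (algebraMap A B))).count P - 1) := by
  rw [finrank_traceDual_quotient A E F hres ι hrange π hπ hker,
    card_normalizedFactors_differentIdeal A k T hT hT']

end dual

end Colength
end Fermat.Agent.X0
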