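/-
Index of a full-rank sublattice = degree / valuation of the determinant.
Package FF5c(i) of the X0(N) blueprint (NOTES.md).  Pure linear algebra over a PID.
-/
import Mathlib

set_option autoImplicit false

open Polynomial Module

namespace Fermat.Agent.X0.LatticeIndex

section PID

variable {R : Type*} [CommRing R] [IsDomain R] [IsPrincipalIdealRing R]
variable {M : Type*} [AddCommGroup M] [Module R M]
variable {ι : Type*} [Fintype ι]

omit [IsPrincipalIdealRing R] in
/-- An endomorphism with nonzero determinant of a finite free module over a domain is injective. -/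
theorem injective_of_det_ne_zero (b : Basis ι R M) (f : M →ₗ[R] M) (hf : LinearMap.det f ≠ 0) :
    Function.Injective f := by
  classical
  rw [← LinearMap.ker_eq_bot, LinearMap.ker_eq_bot']
  intro m hm
  have hdet : (LinearMap.toMatrix b b f).det ≠ 0 := by rwa [LinearMap.det_toMatrix]
  have h1 : (LinearMap.toMatrix b b f).mulVec (b.repr m) = 0 := by
    have := LinearMap.toMatrix_mulVec_repr b b f m
    rw [this, hm]; simp
  have h2 := Matrix.eq_zero_of_mulVec_eq_zero hdet h1
  have h3 : b.repr m = 0 := by
    ext i; exact congrFun h2 i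
  exact b.repr.map_eq_zero_iff.1 h3

omit [IsPrincipalIdealRing R] in
/-- The range of an endomorphism with nonzero determinant has full rank. -/
theorem finrank_range_eq (b : Basis ι R M) (f : M →ₗ[R] M) (hf : LinearMap.det f ≠ 0) :
    Module.finrank R (LinearMap.range f) = Module.finrank R M :=
  (LinearEquiv.ofInjective f (injective_of_det_ne_zero b f hf)).finrank_eq.symm

/-- The determinant of an injective endomorphism is associated to the product of the Smith
coefficients of its range. -/
theorem associated_det_prod_smith (b : Basis ι R M) (f : M →ₗ[R] M) (hf : LinearMap.det f ≠ 0) :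
    Associated (LinearMap.det f)
      (∏ i, Submodule.smithNormalFormCoeffs b (finrank_range_eq b f hf) i) := by
  classical
  set h := finrank_range_eq b f hf
  set N := LinearMap.range f
  set b' := Submodule.smithNormalFormTopBasis b h
  set ab := Submodule.smithNormalFormBotBasis b h
  set a := Submodule.smithNormalFormCoeffs b h
  have hab : ∀ i, (ab i : M) = a i • b' i := Submodule.smithNormalFormBotBasis_def b h
  let e0 : M ≃ₗ[R] N := LinearEquiv.ofInjective f (injective_of_det_ne_zero b f hf)
  let e1 : M ≃ₗ[R] N := b'.equiv ab (Equiv.refl _)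
  have h0 : f = N.subtype ∘ₗ (e0 : M →ₗ[R] N) := by
    ext x; rfl
  have h1 : Matrix.toLin b' b' (Matrix.diagonal a) = N.subtype ∘ₗ (e1 : M →ₗ[R] N) := by
    refine b'.ext fun i => ?_
    simp only [Matrix.toLin_self, Matrix.diagonal_apply, LinearMap.comp_apply,
      LinearEquiv.coe_coe, Submodule.subtype_apply]
    rw [show e1 (b' i) = ab i from by simp [e1], hab]
    rw [Finset.sum_eq_single i]
    · simp
    · intro j _ hji; simp [hji]
    · intro hi; exact absurd (Finset.mem_univ i) hi
  rw [← Matrix.det_diagonal, ← LinearMap.det_toLin b', h1]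
  conv_lhs => rw [h0]
  exact LinearMap.associated_det_comp_equiv _ e0 e1


omit [IsDomain R] [IsPrincipalIdealRing R] in
/-- The endomorphism sending the basis `b` to the family `v` has determinant `b.det v` and range
`span (range v)`. -/
theorem det_constr_eq [DecidableEq ι] (b : Basis ι R M) (v : ι → M) :
    LinearMap.det (b.constr ℕ v) = b.det v := by
  rw [← LinearMap.det_toMatrix b, Basis.det_apply]
  congr 1
  ext i j
  simp [LinearMap.toMatrix_apply, Basis.toMatrix_apply]

omit [IsDomain R] [IsPrincipalIdealRing R] [Fintype ι] in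
theorem range_constr_eq (b : Basis ι R M) (v : ι → M) :
    LinearMap.range (b.constr ℕ v) = Submodule.span R (Set.range v) :=
  Basis.constr_range b ℕ

end PID

section Poly

variable {K : Type*} [Field K]
variable {M : Type*} [AddCommGroup M] [Module K[X] M] [Module K M] [IsScalarTower K K[X] M]
variable {ι : Type*} [Fintype ι]

/-- **Index = degree of the determinant** for `K[X]`-lattices: if `f` is an endomorphism of a
finite free `K[X]`-module with nonzero determinant, then `M ⧸ range f` has `K`-dimension
`natDegree (det f)`. -/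
theorem finrank_quotient_range_eq_natDegree_det (b : Basis ι K[X] M) (f : M →ₗ[K[X]] M)
    (hf : LinearMap.det f ≠ 0) :
    Module.finrank K (M ⧸ LinearMap.range f) = (LinearMap.det f).natDegree := by
  classical
  set h := finrank_range_eq b f hf
  have hne : ∀ i, Submodule.smithNormalFormCoeffs b h i ≠ 0 :=
    Submodule.smithNormalFormCoeffs_ne_zero b h
  haveI : ∀ i, Module.Finite K (K[X] ⧸ Ideal.span ({Submodule.smithNormalFormCoeffs b h i} : Set K[X])) :=
    fun i => PowerBasis.finite <| AdjoinRoot.powerBasis <| hne i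
  rw [natDegree_eq_of_degree_eq (degree_eq_degree_of_associated (associated_det_prod_smith b f hf)),
    natDegree_prod _ _ fun i _ => hne i, Submodule.finrank_quotient_eq_sum K b h]
  congr with i
  exact (AdjoinRoot.powerBasis <| hne i).finrank


/-- Family form: if `v` is a family in a free `K[X]`-module with basis `b` and `b.det v ≠ 0`, the
quotient by the span of `v` has `K`-dimension `natDegree (b.det v)`. -/
theorem finrank_quotient_span_eq_natDegree_det [DecidableEq ι] (b : Basis ι K[X] M) (v : ι → M)
    (hv : b.det v ≠ 0) :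
    Module.finrank K (M ⧸ Submodule.span K[X] (Set.range v)) = (b.det v).natDegree := by
  rw [← range_constr_eq b v, ← det_constr_eq b v]
  exact finrank_quotient_range_eq_natDegree_det b _ (by rwa [det_constr_eq])

end Poly


section DVR

variable {O : Type*} [CommRing O] [IsDomain O] [IsDiscreteValuationRing O]
variable {K : Type*} [Field K] [Algebra K O]

/-- `ϖ`-adic expansion to order `k` in a DVR with residue field `K`. -/
theorem exists_expansion
    (hres : ∀ y : O, ∃ c : K, y - algebraMap K O c ∈ IsLocalRing.maximalIdeal O)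
    {ϖ : O} (hϖ : Irreducible ϖ) (k : ℕ) (y : O) :
    ∃ c : Fin k → K, y - ∑ i, algebraMap K O (c i) * ϖ ^ (i : ℕ) ∈ Ideal.span ({ϖ ^ k} : Set O) := by
  induction k with
  | zero => exact ⟨Fin.elim0, by simp⟩
  | succ k ih =>
    obtain ⟨c, hc⟩ := ih
    obtain ⟨z, hz⟩ := Ideal.mem_span_singleton'.1 hc
    obtain ⟨ck, hck⟩ := hres z
    rw [hϖ.maximalIdeal_eq, Ideal.mem_span_singleton'] at hck
    obtain ⟨w, hw⟩ := hck
    refine ⟨Fin.snoc c ck, ?_⟩
    rw [Fin.sum_univ_castSucc, Ideal.mem_span_singleton']
    refine ⟨w, ?_⟩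
    simp only [Fin.snoc_castSucc, Fin.snoc_last, Fin.val_castSucc, Fin.val_last]
    have h1 : y - ∑ i : Fin k, algebraMap K O (c i) * ϖ ^ (i : ℕ) = z * ϖ ^ k := hz.symm
    have h2 : z = w * ϖ + algebraMap K O ck := by rw [hw]; ring
    calc w * ϖ ^ (k + 1) = (w * ϖ) * ϖ ^ k := by ring
      _ = (z - algebraMap K O ck) * ϖ ^ k := by rw [h2]; ring
      _ = z * ϖ ^ k - algebraMap K O ck * ϖ ^ k := by ring
      _ = _ := by rw [← h1]; ring

/-- A truncated expansion with some nonzero coefficient is not divisible by `ϖ ^ k`. -/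
theorem expansion_not_mem {ϖ : O} (hϖ : Irreducible ϖ) (k : ℕ) (c : Fin k → K)
    (hc : ∑ i, algebraMap K O (c i) * ϖ ^ (i : ℕ) ∈ Ideal.span ({ϖ ^ k} : Set O)) : c = 0 := by
  classical
  by_contra hne
  have hex : ∃ i, c i ≠ 0 := by
    by_contra h
    push Not at h
    exact hne (funext h)
  -- smallest index with nonzero coefficient
  obtain ⟨i₀, hi₀, hmin⟩ : ∃ i₀, c i₀ ≠ 0 ∧ ∀ i, c i ≠ 0 → i₀ ≤ i := by
    obtain ⟨i₀, hi₀, hmin⟩ := Finset.exists_min_image (Finset.univ.filter fun i => c i ≠ 0)
      (fun i => i) (by obtain ⟨i, hi⟩ := hex; exact ⟨i, by simp [hi]⟩)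
    exact ⟨i₀, by simpa using hi₀, fun i hi => hmin i (by simp [hi])⟩
  -- the sum is ϖ^i₀ * (unit)
  have hsum : ∑ i, algebraMap K O (c i) * ϖ ^ (i : ℕ)
      = ϖ ^ (i₀ : ℕ) * (algebraMap K O (c i₀) +
          ϖ * ∑ i ∈ Finset.univ.filter (fun i => i₀ < i),
            algebraMap K O (c i) * ϖ ^ ((i : ℕ) - (i₀ : ℕ) - 1)) := by
    rw [mul_add, ← mul_assoc, Finset.mul_sum]
    rw [← Finset.sum_filter_add_sum_filter_not Finset.univ (fun i => i₀ < i)]
    rw [add_comm]
    congr 1
    · have : Finset.univ.filter (fun i => ¬ i₀ < i) = (Finset.univ.filter fun i => i < i₀) ∪ {i₀} := by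
        ext i; simp only [Finset.mem_filter, Finset.mem_univ, true_and, not_lt, Finset.mem_union,
          Finset.mem_singleton]
        exact le_iff_lt_or_eq
      rw [this, Finset.sum_union (by simp)]
      rw [Finset.sum_eq_zero, zero_add, Finset.sum_singleton, mul_comm]
      intro i hi
      have hi' : i < i₀ := by simpa using hi
      have : c i = 0 := by
        by_contra h
        exact absurd (hmin i h) (not_le.2 hi')
      rw [this, map_zero, zero_mul]
    · refine Finset.sum_congr rfl fun i hi => ?_
      have hi' : i₀ < i := by simpa using hi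
      have : (i : ℕ) = (i₀ : ℕ) + 1 + ((i : ℕ) - (i₀ : ℕ) - 1) := by
        have : (i₀ : ℕ) < (i : ℕ) := hi'
        omega
      conv_lhs => rw [this, pow_add, pow_succ]
      ring
  have hunit : IsUnit (algebraMap K O (c i₀) +
          ϖ * ∑ i ∈ Finset.univ.filter (fun i => i₀ < i),
            algebraMap K O (c i) * ϖ ^ ((i : ℕ) - (i₀ : ℕ) - 1)) := by
    have h1 : IsUnit (algebraMap K O (c i₀)) := (IsUnit.mk0 _ hi₀).map _
    rw [← IsLocalRing.notMem_maximalIdeal] at h1 ⊢
    intro h2
    apply h1
    have h3 : ϖ * ∑ i ∈ Finset.univ.filter (fun i => i₀ < i),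
        algebraMap K O (c i) * ϖ ^ ((i : ℕ) - (i₀ : ℕ) - 1) ∈ IsLocalRing.maximalIdeal O := by
      rw [hϖ.maximalIdeal_eq]
      exact Ideal.mul_mem_right _ _ (Ideal.mem_span_singleton_self ϖ)
    have := (IsLocalRing.maximalIdeal O).sub_mem h2 h3
    simpa using this
  rw [hsum, Ideal.mem_span_singleton] at hc
  obtain ⟨u, hu⟩ := hunit
  rw [← hu] at hc
  have hdvd : ϖ ^ k ∣ ϖ ^ (i₀ : ℕ) := by
    have := (Units.dvd_mul_right (a := ϖ ^ k) (b := ϖ ^ (i₀ : ℕ)) (u := u)).1 hc
    exact this
  have hlt : (i₀ : ℕ) < k := i₀.2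
  rw [pow_dvd_pow_iff hϖ.ne_zero hϖ.not_isUnit] at hdvd
  omega


/-- The `K`-linear map sending coefficients to the class of the truncated expansion. -/
noncomputable def expansionMap (ϖ : O) (k : ℕ) :
    (Fin k → K) →ₗ[K] (O ⧸ Ideal.span ({ϖ ^ k} : Set O)) where
  toFun c := Ideal.Quotient.mk _ (∑ i, algebraMap K O (c i) * ϖ ^ (i : ℕ))
  map_add' c d := by
    rw [← map_add]
    congr 1
    rw [← Finset.sum_add_distrib]
    refine Finset.sum_congr rfl fun i _ => ?_
    simp only [Pi.add_apply, map_add, add_mul]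
  map_smul' a c := by
    simp only [RingHom.id_apply]
    have h1 : ∀ x : O, a • (Ideal.Quotient.mk (Ideal.span ({ϖ ^ k} : Set O)) x)
        = Ideal.Quotient.mk (Ideal.span ({ϖ ^ k} : Set O)) (algebraMap K O a * x) := by
      intro x
      rw [Algebra.smul_def, map_mul]
      rfl
    rw [h1]
    congr 1
    rw [Finset.mul_sum]
    refine Finset.sum_congr rfl fun i _ => ?_
    simp only [Pi.smul_apply, smul_eq_mul, map_mul, mul_assoc]

theorem expansionMap_bijective
    (hres : ∀ y : O, ∃ c : K, y - algebraMap K O c ∈ IsLocalRing.maximalIdeal O)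
    {ϖ : O} (hϖ : Irreducible ϖ) (k : ℕ) :
    Function.Bijective (expansionMap (K := K) ϖ k) := by
  constructor
  · rw [← LinearMap.ker_eq_bot, LinearMap.ker_eq_bot']
    intro c hc
    apply expansion_not_mem hϖ k c
    exact Ideal.Quotient.eq_zero_iff_mem.1 hc
  · intro y
    obtain ⟨y, rfl⟩ := Ideal.Quotient.mk_surjective y
    obtain ⟨c, hc⟩ := exists_expansion hres hϖ k y
    refine ⟨c, ?_⟩
    symm
    exact Ideal.Quotient.eq.2 hc

/-- In a DVR `O` containing a coefficient field `K` mapping onto the residue field,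
`O ⧸ (ϖ ^ k)` has `K`-dimension `k`. -/
theorem finrank_quotient_span_pow
    (hres : ∀ y : O, ∃ c : K, y - algebraMap K O c ∈ IsLocalRing.maximalIdeal O)
    {ϖ : O} (hϖ : Irreducible ϖ) (k : ℕ) :
    Module.finrank K (O ⧸ Ideal.span ({ϖ ^ k} : Set O)) = k := by
  have e := LinearEquiv.ofBijective (expansionMap (K := K) ϖ k) (expansionMap_bijective hres hϖ k)
  rw [← e.finrank_eq]
  simp

theorem finite_quotient_span_pow
    (hres : ∀ y : O, ∃ c : K, y - algebraMap K O c ∈ IsLocalRing.maximalIdeal O)
    {ϖ : O} (hϖ : Irreducible ϖ) (k : ℕ) :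
    Module.Finite K (O ⧸ Ideal.span ({ϖ ^ k} : Set O)) :=
  Module.Finite.equiv
    (LinearEquiv.ofBijective (expansionMap (K := K) ϖ k) (expansionMap_bijective hres hϖ k))

variable {M : Type*} [AddCommGroup M] [Module O M] [Module K M] [IsScalarTower K O M]
variable {ι : Type*} [Fintype ι]

/-- **Index = valuation of the determinant** for lattices over a DVR `O` with coefficient field
`K`: if `f` is an endomorphism of a finite free `O`-module whose determinant is associated to
`ϖ ^ k`, then `M ⧸ range f` has `K`-dimension `k`. -/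
theorem finrank_quotient_range_eq_of_associated_det
    (hres : ∀ y : O, ∃ c : K, y - algebraMap K O c ∈ IsLocalRing.maximalIdeal O)
    {ϖ : O} (hϖ : Irreducible ϖ) (b : Basis ι O M) (f : M →ₗ[O] M) (k : ℕ)
    (hk : Associated (LinearMap.det f) (ϖ ^ k)) :
    Module.finrank K (M ⧸ LinearMap.range f) = k := by
  classical
  have hf : LinearMap.det f ≠ 0 := by
    intro h0
    rw [h0] at hk
    exact pow_ne_zero k hϖ.ne_zero (hk.symm.eq_zero_iff.2 rfl) |> fun h => h
  set h := finrank_range_eq b f hf
  have hne : ∀ i, Submodule.smithNormalFormCoeffs b h i ≠ 0 :=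
    Submodule.smithNormalFormCoeffs_ne_zero b h
  choose n hn using fun i =>
    IsDiscreteValuationRing.associated_pow_irreducible (hne i) hϖ
  have hspan : ∀ i, Ideal.span ({Submodule.smithNormalFormCoeffs b h i} : Set O)
      = Ideal.span ({ϖ ^ n i} : Set O) := fun i =>
    Ideal.span_singleton_eq_span_singleton.2 (hn i)
  haveI : ∀ i, Module.Finite K
      (O ⧸ Ideal.span ({Submodule.smithNormalFormCoeffs b h i} : Set O)) := fun i => by
    rw [hspan i]; exact finite_quotient_span_pow hres hϖ _
  rw [Submodule.finrank_quotient_eq_sum K b h]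
  have h1 : ∀ i, Module.finrank K
      (O ⧸ Ideal.span ({Submodule.smithNormalFormCoeffs b h i} : Set O)) = n i := fun i => by
    rw [hspan i]; exact finrank_quotient_span_pow hres hϖ _
  simp_rw [h1]
  have h2 : Associated (ϖ ^ k) (ϖ ^ ∑ i, n i) := by
    refine hk.symm.trans ((associated_det_prod_smith b f hf).trans ?_)
    rw [← Finset.prod_pow_eq_pow_sum]
    exact Associated.prod _ _ _ fun i _ => hn i
  have h3 : k = ∑ i, n i := by
    have h4 := h2.dvd
    have h5 := h2.symm.dvd
    rw [pow_dvd_pow_iff hϖ.ne_zero hϖ.not_isUnit] at h4 h5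
    omega
  exact h3.symm


/-- Family form of `finrank_quotient_range_eq_of_associated_det`. -/
theorem finrank_quotient_span_eq_of_associated_det [DecidableEq ι]
    (hres : ∀ y : O, ∃ c : K, y - algebraMap K O c ∈ IsLocalRing.maximalIdeal O)
    {ϖ : O} (hϖ : Irreducible ϖ) (b : Basis ι O M) (v : ι → M) (k : ℕ)
    (hk : Associated (b.det v) (ϖ ^ k)) :
    Module.finrank K (M ⧸ Submodule.span O (Set.range v)) = k := by
  rw [← range_constr_eq b v]
  exact finrank_quotient_range_eq_of_associated_det hres hϖ b _ k (by rwa [det_constr_eq])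

end DVR

end Fermat.Agent.X0.LatticeIndex
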