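import Mathlib
import Fermat.Agent.X0.FF.Colength
import Fermat.Agent.X0.FF.LatticeIndex

/-!
# X0 / FF5d: the discriminant of an integral basis and the different

AKLB setting: `A` a Dedekind domain (in the applications a PID: `K[X]` or a discrete valuation
ring) with fraction field `E`, `F / E` finite separable, `B` the integral closure of `A` in `F`,
all residue fields of `B` equal to the coefficient field `K` (hypothesis `hres`).
`ω : Basis ι E F` is an *integral basis*:
`hω : ∀ y, IsIntegral A y ↔ ∀ i, ω.repr y i ∈ (algebraMap A E).range`.

* `Disc.exists_traceMatrix_eq` : the trace matrix of `ω` has entries in `A`;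
* `Disc.finrank_quotient_range_toLin'` : `dim_K (Aⁿ / T Aⁿ) = #(prime factors of the different)`,
  `T` the trace matrix (the trace dual of `B` is spanned by the dual basis, and `B` sits inside
  with index matrix `T`; combine with `Colength.finrank_traceDual_quotient`);
* `Disc.exists_poly_det_traceMatrix` **(D-poly)** : for `A = K[X]`, the discriminant
  `det (Tr ωᵢωⱼ)` is a polynomial of degree `#(prime factors of the different)`;
* `Disc.exists_dvr_det_traceMatrix` **(D-dvr)** : for `A` a discrete valuation ring with
  uniformiser `ϖ` and coefficient field `K`, the discriminant is associated to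
  `ϖ ^ #(prime factors of the different)`.
-/

set_option autoImplicit false
set_option linter.unusedSectionVars false

namespace Fermat.Agent.X0
namespace Disc

open Module Algebra UniqueFactorizationMonoid nonZeroDivisors

attribute [local instance] FractionRing.liftAlgebra FractionRing.isScalarTower_liftAlgebra

section generic

variable (A : Type*) {B : Type*} [CommRing A] [CommRing B] [Algebra A B]
  [IsDedekindDomain A] [IsDedekindDomain B] [IsTorsionFree A B] [Module.Finite A B]
  (E F : Type*) [Field E] [Field F] [Algebra A E] [IsFractionRing A E] [Algebra B F]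
  [IsFractionRing B F] [Algebra E F] [Algebra A F] [IsScalarTower A E F] [IsScalarTower A B F]
  [FiniteDimensional E F] [Algebra.IsSeparable E F] [IsIntegralClosure B A F]
  {ι : Type*} [Fintype ι] [DecidableEq ι]

/-- the members of an integral basis are integral -/
lemma isIntegral_basis (ω : Basis ι E F)
    (hω : ∀ y : F, IsIntegral A y ↔ ∀ i, ω.repr y i ∈ (algebraMap A E).range) (i : ι) :
    IsIntegral A (ω i) := by
  classical
  rw [hω]
  intro j
  rw [Basis.repr_self, Finsupp.single_apply]
  split_ifs
  · exact ⟨1, map_one _⟩
  · exact ⟨0, map_zero _⟩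

/-- the trace matrix of an integral basis has entries in `A`. -/
theorem exists_traceMatrix_eq (ω : Basis ι E F)
    (hω : ∀ y : F, IsIntegral A y ↔ ∀ i, ω.repr y i ∈ (algebraMap A E).range) :
    ∃ T : Matrix ι ι A, T.map (algebraMap A E) = Algebra.traceMatrix E ω := by
  have h : ∀ i j, ∃ t : A, algebraMap A E t = Algebra.trace E F (ω i * ω j) := by
    intro i j
    have h1 : IsIntegral A (ω i * ω j) :=
      (isIntegral_basis A E F ω hω i).mul (isIntegral_basis A E F ω hω j)
    have h2 : IsIntegral A (Algebra.trace E F (ω i * ω j)) := Algebra.isIntegral_trace h1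
    exact IsIntegrallyClosed.isIntegral_iff.mp h2
  choose t ht using h
  refine ⟨Matrix.of t, ?_⟩
  ext i j
  rw [Matrix.map_apply, Matrix.of_apply, ht, Algebra.traceMatrix_apply, Algebra.traceForm_apply]

/-- coordinates with respect to the trace dual basis of an `A`-combination of the dual basis -/
lemma repr_linearCombination_traceDual (ω : Basis ι E F) (v : ι → A) (j : ι) :
    ω.traceDual.repr (Fintype.linearCombination A (ω.traceDual : ι → F) v) j
      = algebraMap A E (v j) := by
  rw [Fintype.linearCombination_apply]
  have : ∑ i, v i • ω.traceDual i = ∑ i, (algebraMap A E (v i)) • ω.traceDual i :=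
    Finset.sum_congr rfl fun i _ => (algebraMap_smul E (v i) (ω.traceDual i)).symm
  rw [this, Basis.repr_sum_self]

lemma linearCombination_traceDual_injective (ω : Basis ι E F) :
    Function.Injective (Fintype.linearCombination A (ω.traceDual : ι → F)) := by
  intro v w h
  funext j
  have := congrArg (fun y => ω.traceDual.repr y j) h
  simp only [repr_linearCombination_traceDual] at this
  exact IsFractionRing.injective A E this

/-- **key computation**: in terms of the dual basis, `∑ aᵢ ωᵢ` has coordinates `T a`. -/
lemma linearCombination_traceDual_mulVec (ω : Basis ι E F)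
    (T : Matrix ι ι A) (hT : T.map (algebraMap A E) = Algebra.traceMatrix E ω) (a : ι → A) :
    Fintype.linearCombination A (ω.traceDual : ι → F) (T.mulVec a) = ∑ i, a i • ω i := by
  apply ω.traceDual.repr.injective
  ext j
  rw [repr_linearCombination_traceDual, map_sum, Finsupp.coe_finsetSum, Finset.sum_apply,
    Matrix.mulVec, dotProduct, map_sum]
  refine Finset.sum_congr rfl fun i _ => ?_
  have h1 : a i • ω i = algebraMap A E (a i) • ω i := (algebraMap_smul E (a i) (ω i)).symm
  rw [h1, map_smul, Finsupp.smul_apply, Basis.traceDual_repr_apply, map_mul, smul_eq_mul,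
    mul_comm]
  congr 1
  have := congrFun (congrFun hT j) i
  rw [Matrix.map_apply, Algebra.traceMatrix_apply] at this
  rw [this, Algebra.traceForm_apply, Algebra.traceForm_apply, mul_comm]

/-- an integral basis spans the integral closure -/
lemma one_restrictScalars_eq_span (ω : Basis ι E F)
    (hω : ∀ y : F, IsIntegral A y ↔ ∀ i, ω.repr y i ∈ (algebraMap A E).range) :
    (1 : Submodule B F).restrictScalars A = Submodule.span A (Set.range ω) := by
  ext y
  rw [Submodule.restrictScalars_mem, Submodule.mem_one, Basis.mem_span_iff_repr_mem,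
    ← IsIntegralClosure.isIntegral_iff (A := B) (R := A) (B := F), hω]
  rfl

variable {k : Type*} [Field k] [Algebra k A] [Algebra k B] [Algebra k F] [IsScalarTower k B F]
  [IsScalarTower k A F]

/-- **index of `B` in its trace dual, matrix form**: if `ω` is an integral basis with trace
matrix `T` then `dim_k (Aⁿ / T Aⁿ)` is the number of prime factors of the different. -/
theorem finrank_quotient_range_toLin'
    [Algebra.IsSeparable (FractionRing A) (FractionRing B)]
    (hres : ∀ P : Ideal B, P.IsMaximal → ∀ b : B, ∃ c : k, b - algebraMap k B c ∈ P)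
    (ω : Basis ι E F)
    (hω : ∀ y : F, IsIntegral A y ↔ ∀ i, ω.repr y i ∈ (algebraMap A E).range)
    (T : Matrix ι ι A) (hT : T.map (algebraMap A E) = Algebra.traceMatrix E ω) :
    finrank k ((ι → A) ⧸ LinearMap.range (Matrix.toLin' T))
      = Multiset.card (normalizedFactors (differentIdeal A B)) := by
  have hb := one_restrictScalars_eq_span A (B := B) E F ω hω
  refine Colength.finrank_traceDual_quotient A E F hres
    ((Fintype.linearCombination A (ω.traceDual : ι → F)).restrictScalars k) ?_
    ((LinearMap.range (Matrix.toLin' T)).mkQ.restrictScalars k) ?_ ?_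
  · intro y
    have h1 := Submodule.traceDual_span_of_basis A (1 : Submodule B F) ω hb
    have h2 : y ∈ Submodule.traceDual A E (1 : Submodule B F) ↔
        y ∈ (Submodule.traceDual A E (1 : Submodule B F)).restrictScalars A := Iff.rfl
    rw [h2, h1, ← Fintype.range_linearCombination]
    rfl
  · intro q
    obtain ⟨v, rfl⟩ := Submodule.mkQ_surjective _ q
    exact ⟨v, rfl⟩
  · intro v
    have h1 : ((LinearMap.range (Matrix.toLin' T)).mkQ.restrictScalars k) v = 0 ↔
        v ∈ LinearMap.range (Matrix.toLin' T) := by
      rw [LinearMap.restrictScalars_apply, Submodule.mkQ_apply, Submodule.Quotient.mk_eq_zero]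
    have h2 : ((Fintype.linearCombination A (ω.traceDual : ι → F)).restrictScalars k) v
        ∈ (1 : Submodule B F) ↔
        Fintype.linearCombination A (ω.traceDual : ι → F) v
          ∈ (1 : Submodule B F).restrictScalars A := Iff.rfl
    rw [h1, h2, hb]
    constructor
    · rintro ⟨a, rfl⟩
      rw [Matrix.toLin'_apply, linearCombination_traceDual_mulVec A E F ω T hT]
      exact Submodule.sum_mem _ fun i _ =>
        Submodule.smul_mem _ _ (Submodule.subset_span ⟨i, rfl⟩)
    · intro h
      obtain ⟨a, ha⟩ := (Submodule.mem_span_range_iff_exists_fun A).mp h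
      refine ⟨a, ?_⟩
      apply linearCombination_traceDual_injective A E F ω
      rw [Matrix.toLin'_apply, linearCombination_traceDual_mulVec A E F ω T hT, ha]

end generic

section poly

open Polynomial

variable {K : Type*} [Field K] [CharZero K] {B : Type*} [CommRing B] [Algebra K[X] B]
  [IsDedekindDomain B] [IsTorsionFree K[X] B] [Module.Finite K[X] B]
  (E F : Type*) [Field E] [Field F] [Algebra K[X] E] [IsFractionRing K[X] E] [Algebra B F]
  [IsFractionRing B F] [Algebra E F] [Algebra K[X] F] [IsScalarTower K[X] E F]
  [IsScalarTower K[X] B F] [FiniteDimensional E F] [Algebra.IsSeparable E F]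
  [IsIntegralClosure B K[X] F]
  [Algebra K B] [Algebra K F] [IsScalarTower K B F] [IsScalarTower K K[X] F]
  {ι : Type*} [Fintype ι] [DecidableEq ι]

/-- **(D-poly)**: the discriminant of an integral basis over `K[X]` is a polynomial whose degree is
the number of prime factors (with multiplicity) of the different. -/
theorem exists_poly_det_traceMatrix
    (hres : ∀ P : Ideal B, P.IsMaximal → ∀ b : B, ∃ c : K, b - algebraMap K B c ∈ P)
    (ω : Basis ι E F)
    (hω : ∀ y : F, IsIntegral K[X] y ↔ ∀ i, ω.repr y i ∈ (algebraMap K[X] E).range) :
    ∃ D : K[X], algebraMap K[X] E D = (Algebra.traceMatrix E ω).det ∧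
      D.natDegree = Multiset.card (normalizedFactors (differentIdeal K[X] B)) := by
  have : Algebra.IsSeparable (FractionRing K[X]) (FractionRing B) :=
    Colength.isSeparable_fractionRing_of_charZero K[X]
  obtain ⟨T, hT⟩ := exists_traceMatrix_eq K[X] E F ω hω
  have hdet : algebraMap K[X] E T.det = (Algebra.traceMatrix E ω).det := by
    rw [RingHom.map_det, RingHom.mapMatrix_apply, hT]
  have hne : T.det ≠ 0 := by
    intro h0
    have h1 : (Algebra.traceMatrix E ω).det ≠ 0 := by
      rw [Algebra.traceMatrix_of_basis]
      exact det_traceForm_ne_zero ω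
    rw [← hdet, h0, map_zero] at h1
    exact h1 rfl
  refine ⟨T.det, hdet, ?_⟩
  have h1 := finrank_quotient_range_toLin' K[X] (B := B) E F (k := K) hres ω hω T hT
  have h2 := LatticeIndex.finrank_quotient_range_eq_natDegree_det (Pi.basisFun K[X] ι)
    (Matrix.toLin' T) (by rwa [LinearMap.det_toLin'])
  rw [LinearMap.det_toLin'] at h2
  rw [← h2, ← h1]

end poly

section dvr

variable {K : Type*} [Field K] [CharZero K] (A : Type*) {B : Type*} [CommRing A] [IsDomain A]
  [IsDiscreteValuationRing A] [CommRing B] [Algebra A B]
  [IsDedekindDomain B] [IsTorsionFree A B] [Module.Finite A B]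
  (E F : Type*) [Field E] [Field F] [Algebra A E] [IsFractionRing A E] [Algebra B F]
  [IsFractionRing B F] [Algebra E F] [Algebra A F] [IsScalarTower A E F]
  [IsScalarTower A B F] [FiniteDimensional E F] [Algebra.IsSeparable E F]
  [IsIntegralClosure B A F]
  [Algebra K A] [Algebra K B] [Algebra K F] [IsScalarTower K B F] [IsScalarTower K A F]
  {ι : Type*} [Fintype ι] [DecidableEq ι]

/-- **(D-dvr)**: the discriminant of an integral basis over a discrete valuation ring `A` with
coefficient field `K` is associated to `ϖ ^ m`, `m` the number of prime factors (with multiplicity)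
of the different. -/
theorem exists_dvr_det_traceMatrix
    (hresA : ∀ a : A, ∃ c : K, a - algebraMap K A c ∈ IsLocalRing.maximalIdeal A)
    {ϖ : A} (hϖ : Irreducible ϖ)
    (hres : ∀ P : Ideal B, P.IsMaximal → ∀ b : B, ∃ c : K, b - algebraMap K B c ∈ P)
    (ω : Basis ι E F)
    (hω : ∀ y : F, IsIntegral A y ↔ ∀ i, ω.repr y i ∈ (algebraMap A E).range) :
    ∃ d : A, algebraMap A E d = (Algebra.traceMatrix E ω).det ∧
      Associated d (ϖ ^ Multiset.card (normalizedFactors (differentIdeal A B))) := by
  have : CharZero A := charZero_of_injective_algebraMap (algebraMap K A).injective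
  have : Algebra.IsSeparable (FractionRing A) (FractionRing B) :=
    Colength.isSeparable_fractionRing_of_charZero A
  obtain ⟨T, hT⟩ := exists_traceMatrix_eq A E F ω hω
  have hdet : algebraMap A E T.det = (Algebra.traceMatrix E ω).det := by
    rw [RingHom.map_det, RingHom.mapMatrix_apply, hT]
  have hne : T.det ≠ 0 := by
    intro h0
    have h1 : (Algebra.traceMatrix E ω).det ≠ 0 := by
      rw [Algebra.traceMatrix_of_basis]
      exact det_traceForm_ne_zero ω
    rw [← hdet, h0, map_zero] at h1
    exact h1 rfl
  refine ⟨T.det, hdet, ?_⟩
  obtain ⟨m, hm⟩ := IsDiscreteValuationRing.associated_pow_irreducible hne hϖ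
  have h1 := finrank_quotient_range_toLin' A (B := B) E F (k := K) hres ω hω T hT
  have h2 := LatticeIndex.finrank_quotient_range_eq_of_associated_det hresA hϖ
    (Pi.basisFun A ι) (Matrix.toLin' T) m (by rwa [LinearMap.det_toLin'])
  rw [← h1, h2]
  exact hm

end dvr

end Disc
end Fermat.Agent.X0
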