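import Mathlib
import Fermat.Agent.X0.FF.Infinity

/-!
# X0 / FF5d: residue fields are `K`

For an algebraically closed field `K`: if every maximal ideal of the `K`-algebra `A` has residue
field `K`, the same holds for every `K`-algebra `B` integral over `A`.  The hypothesis holds for
`A = K[X]` and for the discrete valuation ring at infinity `Oinf K` of `K(X)`.
-/

set_option autoImplicit false

namespace Fermat.Agent.X0.RRResidue

open Polynomial

/-- (R1) residue fields stay equal to `K` in integral extensions (`K` algebraically closed). -/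
theorem exists_sub_mem_of_isIntegral {K A B : Type*} [Field K] [IsAlgClosed K] [CommRing A]
    [CommRing B] [Algebra K A] [Algebra K B] [Algebra A B] [IsScalarTower K A B]
    [Algebra.IsIntegral A B]
    (hresA : ∀ p : Ideal A, p.IsMaximal → ∀ a : A, ∃ c : K, a - algebraMap K A c ∈ p)
    (P : Ideal B) (hP : P.IsMaximal) (b : B) : ∃ c : K, b - algebraMap K B c ∈ P := by
  have : P.IsMaximal := hP
  set p : Ideal A := P.comap (algebraMap A B) with hp
  have hpmax : p.IsMaximal := Ideal.isMaximal_comap_of_isIntegral_of_isMaximal (R := A) P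
  let g : A ⧸ p →+* B ⧸ P := Ideal.quotientMap P (algebraMap A B) le_rfl
  have hg : g.IsIntegral :=
    RingHom.IsIntegral.quotient (I := P) (algebraMap A B)
      (algebraMap_isIntegral_iff.mpr inferInstance)
  let h : K →+* A ⧸ p := (Ideal.Quotient.mk p).comp (algebraMap K A)
  have hsurj : Function.Surjective h := by
    intro abar
    obtain ⟨a, rfl⟩ := Ideal.Quotient.mk_surjective abar
    obtain ⟨c, hc⟩ := hresA p hpmax a
    refine ⟨c, ?_⟩
    show Ideal.Quotient.mk p (algebraMap K A c) = Ideal.Quotient.mk p a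
    exact ((Ideal.Quotient.mk_eq_mk_iff_sub_mem _ _).mpr hc).symm
  have hgh : (g.comp h).IsIntegral :=
    RingHom.IsIntegral.trans h g (RingHom.isIntegral_of_surjective h hsurj) hg
  let _ : Field (B ⧸ P) := Ideal.Quotient.field P
  obtain ⟨c, hc⟩ := (IsAlgClosed.ringHom_bijective_of_isIntegral (g.comp h) hgh).2
    (Ideal.Quotient.mk P b)
  refine ⟨c, ?_⟩
  rw [← Ideal.Quotient.mk_eq_mk_iff_sub_mem, ← hc]
  show g (Ideal.Quotient.mk p (algebraMap K A c)) = Ideal.Quotient.mk P (algebraMap K B c)
  rw [Ideal.quotientMap_mk, ← IsScalarTower.algebraMap_apply]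

/-- (R2) the residue fields of `K[X]` are `K` (`K` algebraically closed). -/
theorem residue_poly {K : Type*} [Field K] [IsAlgClosed K] (p : Ideal K[X]) (hp : p.IsMaximal)
    (a : K[X]) : ∃ c : K, a - algebraMap K K[X] c ∈ p := by
  have : p.IsMaximal := hp
  have hp0 : p ≠ ⊥ := Ring.ne_bot_of_isMaximal_of_not_isField hp (Polynomial.not_isField K)
  have hprin : p.IsPrincipal := IsPrincipalIdealRing.principal p
  set f := Submodule.IsPrincipal.generator p with hf
  have hfprime : Prime f := Submodule.IsPrincipal.prime_generator_of_isPrime p hp0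
  have hfirr : Irreducible f := hfprime.irreducible
  have hfmem : f ∈ p := Submodule.IsPrincipal.generator_mem p
  obtain ⟨c, hc⟩ := IsAlgClosed.exists_root f (Polynomial.degree_pos_of_irreducible hfirr).ne'
  obtain ⟨g, hg⟩ := Polynomial.dvd_iff_isRoot.mpr hc
  have hgu : IsUnit g := by
    rcases hfirr.isUnit_or_isUnit hg with h | h
    · exact absurd h (Polynomial.not_isUnit_X_sub_C c)
    · exact h
  have hXc : X - C c ∈ p := by
    obtain ⟨u, rfl⟩ := hgu
    have : X - C c = f * ((u⁻¹ : K[X]ˣ) : K[X]) := by
      rw [hg, mul_assoc, Units.mul_inv, mul_one]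
    rw [this]
    exact p.mul_mem_right _ hfmem
  refine ⟨a.eval c, ?_⟩
  have hroot : (a - algebraMap K K[X] (a.eval c)).IsRoot c := by
    simp [Polynomial.IsRoot, Polynomial.algebraMap_eq]
  obtain ⟨q, hq⟩ := Polynomial.dvd_iff_isRoot.mpr hroot
  rw [hq]
  exact p.mul_mem_right _ hXc

/-- (R3) the residue field of the valuation ring at infinity of `K(X)` is `K`. -/
theorem residue_Oinf_of_isMaximal {K : Type*} [Field K] (p : Ideal (Infinity.Oinf K))
    (hp : p.IsMaximal) (a : Infinity.Oinf K) :
    ∃ c : K, a - algebraMap K (Infinity.Oinf K) c ∈ p := by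
  rw [IsLocalRing.eq_maximalIdeal hp]
  exact Infinity.residue_Oinf (K := K) a

/-- (R1 + R2) residue fields of a ring integral over `K[X]`. -/
theorem residue_of_isIntegral_poly {K B : Type*} [Field K] [IsAlgClosed K] [CommRing B]
    [Algebra K B] [Algebra K[X] B] [IsScalarTower K K[X] B] [Algebra.IsIntegral K[X] B]
    (P : Ideal B) (hP : P.IsMaximal) (b : B) : ∃ c : K, b - algebraMap K B c ∈ P :=
  exists_sub_mem_of_isIntegral (A := K[X]) (fun p hp a => residue_poly p hp a) P hP b

/-- (R1 + R3) residue fields of a ring integral over `Oinf K`. -/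
theorem residue_of_isIntegral_Oinf {K B : Type*} [Field K] [IsAlgClosed K] [CommRing B]
    [Algebra K B] [Algebra (Infinity.Oinf K) B] [IsScalarTower K (Infinity.Oinf K) B]
    [Algebra.IsIntegral (Infinity.Oinf K) B]
    (P : Ideal B) (hP : P.IsMaximal) (b : B) : ∃ c : K, b - algebraMap K B c ∈ P :=
  exists_sub_mem_of_isIntegral (A := Infinity.Oinf K)
    (fun p hp a => residue_Oinf_of_isMaximal p hp a) P hP b

end Fermat.Agent.X0.RRResidue
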