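import Mathlib
import Fermat.Agent.X0.FF.Different
import Fermat.Agent.X0.FF.ChartInf
import Fermat.Agent.X0.FF.ChartFin
import Fermat.Agent.X0.FF.Disc
import Fermat.Agent.X0.FF.RR_Residue

/-!
# X0 / FF5d (part 6): degrees of the differents of the two charts as sums over places

* `card_normalizedFactors_differentIdeal`: in residue characteristic zero the number of prime
  factors of the different is `∑ (e_w - 1)`;
* `card_differentIdeal_poly`, `card_differentIdeal_Oinf`: the same sums over places of `F`;
* `exists_disc_poly`, `exists_disc_Oinf`: the discriminants of integral bases of the two charts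
  (inputs `hDfin`, `hDinf` of `RRCore.main`).
-/

set_option autoImplicit false
set_option linter.unusedSectionVars false
set_option linter.style.haveILetI false
set_option linter.overlappingInstances false

namespace Fermat.Agent.X0.RRSum

open Algebra Module IsDedekindDomain HeightOneSpectrum nonZeroDivisors

attribute [local instance] FractionRing.liftAlgebra FractionRing.isScalarTower_liftAlgebra

section Generic

variable (A K L : Type*) {B : Type*} [CommRing A] [Field K] [CommRing B] [Field L] [Algebra A K]
  [Algebra B L] [Algebra A B] [Algebra K L] [Algebra A L] [IsScalarTower A K L]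
  [IsScalarTower A B L] [IsFractionRing A K] [FiniteDimensional K L]
  [Algebra.IsSeparable K L] [IsIntegralClosure B A L] [IsDedekindDomain A] [IsDedekindDomain B]
  [Module.IsTorsionFree A B] [IsFractionRing B L]

theorem finsum_heightOneSpectrum_count {B : Type*} [CommRing B] [IsDedekindDomain B]
    (I : Ideal B) :
    ∑ᶠ w : HeightOneSpectrum B,
      (UniqueFactorizationMonoid.normalizedFactors I).count w.asIdeal =
      Multiset.card (UniqueFactorizationMonoid.normalizedFactors I) := by
  classical
  have hinj : Function.Injective (fun w : HeightOneSpectrum B => w.asIdeal) := by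
    intro v w h
    exact HeightOneSpectrum.ext h
  have h1 : ∑ᶠ w : HeightOneSpectrum B,
      (UniqueFactorizationMonoid.normalizedFactors I).count w.asIdeal =
      ∑ᶠ P ∈ Set.range (fun w : HeightOneSpectrum B => w.asIdeal),
        (UniqueFactorizationMonoid.normalizedFactors I).count P :=
    (finsum_mem_range (f := fun P => (UniqueFactorizationMonoid.normalizedFactors I).count P)
      hinj).symm
  have hsupp : Function.support
      (fun P : Ideal B => (UniqueFactorizationMonoid.normalizedFactors I).count P) ⊆
      ((UniqueFactorizationMonoid.normalizedFactors I).toFinset : Set (Ideal B)) := by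
    intro P hP
    rw [Function.mem_support, Multiset.count_ne_zero] at hP
    exact Finset.mem_coe.mpr (Multiset.mem_toFinset.mpr hP)
  rw [h1, finsum_mem_inter_support_eq' _ _ Set.univ, finsum_mem_univ,
    finsum_eq_sum_of_support_subset _ hsupp, Multiset.toFinset_sum_count_eq]
  intro P hP
  rw [Function.mem_support, Multiset.count_ne_zero] at hP
  have hprime : Prime P := UniqueFactorizationMonoid.prime_of_normalized_factor P hP
  exact ⟨fun _ => trivial, fun _ => ⟨⟨P, Ideal.isPrime_of_prime hprime, hprime.ne_zero⟩, rfl⟩⟩

include K L in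
theorem card_normalizedFactors_differentIdeal
    (hcz : ∀ p : Ideal A, p.IsMaximal → CharZero (A ⧸ p)) :
    (Multiset.card (UniqueFactorizationMonoid.normalizedFactors (differentIdeal A B)) : ℤ) =
      ∑ᶠ w : HeightOneSpectrum B, ((w.asIdeal.ramificationIdx A : ℤ) - 1) := by
  obtain ⟨h1, h2⟩ := Different.isSeparable_fractionRing_and_finite A K L (B := B)
  rw [← finsum_heightOneSpectrum_count]
  have hfin : (Function.support fun w : HeightOneSpectrum B =>
      (UniqueFactorizationMonoid.normalizedFactors (differentIdeal A B)).count w.asIdeal).Finite := by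
    classical
    have hinj : Function.Injective (fun w : HeightOneSpectrum B => w.asIdeal) := by
      intro v w h
      exact HeightOneSpectrum.ext h
    refine Set.Finite.subset
      ((UniqueFactorizationMonoid.normalizedFactors (differentIdeal A B)).toFinset.finite_toSet.preimage
        hinj.injOn) ?_
    intro w hw
    rw [Function.mem_support, Multiset.count_ne_zero] at hw
    exact Finset.mem_coe.mpr (Multiset.mem_toFinset.mpr hw)
  rw [show ∀ m : ℕ, (m : ℤ) = Nat.castAddMonoidHom ℤ m from fun _ => rfl,
    (Nat.castAddMonoidHom ℤ).map_finsum hfin]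
  refine finsum_congr fun w => ?_
  have hpos : 0 < w.asIdeal.ramificationIdx A := Ideal.ramificationIdx_pos w.asIdeal A
  rw [Different.count_normalizedFactors_differentIdeal_eq A hcz w.asIdeal w.ne_bot]
  change ((w.asIdeal.ramificationIdx A - 1 : ℕ) : ℤ) = _
  omega

end Generic

section PlaceSum

open AlgebraicCurve

variable {K F : Type*} [Field K] [Field F] [Algebra K F]
  {R : Type*} [CommRing R] [IsDedekindDomain R] [Algebra R F] [IsFractionRing R F]
  [Algebra K R] [IsScalarTower K R F]

/-- transfer of a sum over the primes of a Dedekind domain to a sum over places -/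
theorem finsum_heightOneSpectrum_eq (s : Set (Place K F)) [DecidablePred (· ∈ s)]
    (hs : ∀ v : Place K F, v ∈ s ↔
      ∃ w : HeightOneSpectrum R, Place.ofHeightOneSpectrum (K := K) (F := F) w = v)
    (g : Place K F → ℤ) :
    ∑ᶠ w : HeightOneSpectrum R, g (Place.ofHeightOneSpectrum (K := K) (F := F) w) =
      ∑ᶠ v : Place K F, if v ∈ s then g v else 0 := by
  have hs' : s = Set.range (Place.ofHeightOneSpectrum (K := K) (F := F) (R := R)) := by
    ext v
    rw [hs v]
    rfl
  rw [← finsum_mem_range (f := g) (ofHeightOneSpectrum_injective (K := K) (F := F) (R := R)),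
    ← hs', finsum_mem_def]
  refine finsum_congr fun v => ?_
  rw [Set.indicator_apply]

/-- splitting a finite sum along a decidable predicate -/
theorem finsum_split {α : Type*} (p : α → Prop) [DecidablePred p] (g : α → ℤ)
    (hg : (Function.support g).Finite) :
    ∑ᶠ a, g a = (∑ᶠ a, if ¬ p a then g a else 0) + ∑ᶠ a, if p a then g a else 0 := by
  rw [← finsum_add_distrib]
  · refine finsum_congr fun a => ?_
    by_cases h : p a <;> simp [h]
  · refine hg.subset fun a ha => ?_
    rw [Function.mem_support] at ha ⊢
    intro h0
    apply ha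
    by_cases h : p a <;> simp_all
  · refine hg.subset fun a ha => ?_
    rw [Function.mem_support] at ha ⊢
    intro h0
    apply ha
    by_cases h : p a <;> simp_all

end PlaceSum

section Inf

open AlgebraicCurve Polynomial Infinity

variable {K F : Type*} [Field K] [Field F] [Algebra K F] [Algebra K[X] F] [IsScalarTower K K[X] F]
  [FaithfulSMul K[X] F] [Algebra (RatFunc K) F] [IsScalarTower K[X] (RatFunc K) F]
  [Algebra (Oinf K) F] [IsScalarTower (Oinf K) (RatFunc K) F]
  [IsAlgClosed K] [FiniteDimensional (RatFunc K) F] [CharZero K]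

attribute [local instance] ChartInf.isScalarTower_ratFunc ChartInf.isScalarTower_K_Oinf
  ChartInf.isDedekindDomain_Sinf ChartInf.isFractionRing_Sinf ChartInf.finite_Sinf

theorem isTorsionFree_Sinf : Module.IsTorsionFree (Oinf K) (integralClosure (Oinf K) F) :=
  Chart.isTorsionFree_B (F := F) (RatFunc K) (Oinf K)

attribute [local instance] isTorsionFree_Sinf

theorem isSeparable_ratFunc : Algebra.IsSeparable (RatFunc K) F :=
  Algebra.IsAlgebraic.isSeparable_of_perfectField

attribute [local instance] isSeparable_ratFunc

/-- the degree of the different at infinity as a sum over the poles of `𝔵` -/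
theorem card_differentIdeal_Oinf (e : Place K F → ℤ)
    (he_pole : ∀ v : Place K F, v.ord (algebraMap K[X] F X) < 0 →
      e v = -v.ord (algebraMap K[X] F X)) :
    (Multiset.card (UniqueFactorizationMonoid.normalizedFactors
      (differentIdeal (Oinf K) (integralClosure (Oinf K) F))) : ℤ) =
      ∑ᶠ v : Place K F, if v.ord (algebraMap K[X] F X) < 0 then e v - 1 else 0 := by
  rw [card_normalizedFactors_differentIdeal (Oinf K) (RatFunc K) F
    (Chart.charZero_quotient (K := K) (Oinf K))]
  refine Eq.trans ?_ (finsum_heightOneSpectrum_eq (R := integralClosure (Oinf K) F)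
    {v : Place K F | v.ord (algebraMap K[X] F X) < 0} (fun v => ?_) (fun v => e v - 1))
  · refine finsum_congr fun w => ?_
    rw [he_pole _ (ChartInf.ord_gen_neg_ofHeightOneSpectrum w),
      ChartInf.ord_gen_ofHeightOneSpectrum, neg_neg]
  · constructor
    · intro hv
      exact ChartInf.exists_heightOneSpectrum_of_pole v hv
    · rintro ⟨w, rfl⟩
      exact ChartInf.ord_gen_neg_ofHeightOneSpectrum w

/-- **the discriminant at infinity** -/
theorem exists_disc_Oinf {n : ℕ} (e : Place K F → ℤ)
    (he_pole : ∀ v : Place K F, v.ord (algebraMap K[X] F X) < 0 →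
      e v = -v.ord (algebraMap K[X] F X)) :
    ∃ Rinf : ℕ,
      (Rinf : ℤ) = ∑ᶠ v : Place K F, (if v.ord (algebraMap K[X] F X) < 0 then e v - 1 else 0) ∧
      ∀ η' : Basis (Fin n) (RatFunc K) F,
        (∀ y : F, IsIntegral (Oinf K) y ↔
          ∀ i, η'.repr y i ∈ (algebraMap (Oinf K) (RatFunc K)).range) →
        ∃ δ : Oinf K, algebraMap (Oinf K) (RatFunc K) δ =
            (Algebra.traceMatrix (RatFunc K) η').det ∧ Associated δ (uInf K ^ Rinf) := by
  refine ⟨_, card_differentIdeal_Oinf e he_pole, fun η' hη' => ?_⟩
  exact Disc.exists_dvr_det_traceMatrix (Oinf K) (RatFunc K) F (residue_Oinf (K := K))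
    (irreducible_uInf K)
    (fun P hP b => RRResidue.residue_of_isIntegral_Oinf P hP b) η' hη'

end Inf

section Fin

open AlgebraicCurve Polynomial

open scoped RatFunc

variable {K F : Type*} [Field K] [Field F] [Algebra K F] [Algebra K[X] F] [IsScalarTower K K[X] F]
  [FaithfulSMul K[X] F] [FiniteDimensional (RatFunc K) F] [CharZero K] [IsAlgClosed K]

attribute [local instance] isDedekindDomain_integralClosure isFractionRing_integralClosure
  finite_integralClosure

theorem isTorsionFree_S : Module.IsTorsionFree K[X] (integralClosure K[X] F) :=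
  Chart.isTorsionFree_B (F := F) (RatFunc K) K[X]

attribute [local instance] isTorsionFree_S

theorem isSeparable_ratFunc' : Algebra.IsSeparable (RatFunc K) F :=
  Algebra.IsAlgebraic.isSeparable_of_perfectField

attribute [local instance] isSeparable_ratFunc'

/-- the degree of the finite part of the different as a sum over the places where `𝔵` is
regular -/
theorem card_differentIdeal_poly (e : Place K F → ℤ)
    (he_fin : ∀ (v : Place K F) (c : K), 0 < v.ord (algebraMap K[X] F X - algebraMap K F c) →
      e v = v.ord (algebraMap K[X] F X - algebraMap K F c)) :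
    (Multiset.card (UniqueFactorizationMonoid.normalizedFactors
      (differentIdeal K[X] (integralClosure K[X] F))) : ℤ) =
      ∑ᶠ v : Place K F, if 0 ≤ v.ord (algebraMap K[X] F X) then e v - 1 else 0 := by
  rw [card_normalizedFactors_differentIdeal K[X] (RatFunc K) F
    (Chart.charZero_quotient (K := K) K[X])]
  refine Eq.trans ?_ (finsum_heightOneSpectrum_eq (R := integralClosure K[X] F)
    {v : Place K F | 0 ≤ v.ord (algebraMap K[X] F X)} (fun v => ?_) (fun v => e v - 1))
  · refine finsum_congr fun w => ?_
    obtain ⟨c, hc⟩ := exists_centre w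
    rw [he_fin _ c ((ord_gen_sub_pos_iff w c).mpr hc), ChartFin.ramificationIdx_eq_ord w c hc]
  · constructor
    · intro hv
      exact exists_heightOneSpectrum_of_gen_mem v
        ((mem_iff_ord_nonneg v ChartFin.gen_ne_zero).mpr hv)
    · rintro ⟨w, rfl⟩
      exact ChartFin.ord_gen_nonneg w

/-- **the finite discriminant** -/
theorem exists_disc_poly {n : ℕ} (e : Place K F → ℤ)
    (he_fin : ∀ (v : Place K F) (c : K), 0 < v.ord (algebraMap K[X] F X - algebraMap K F c) →
      e v = v.ord (algebraMap K[X] F X - algebraMap K F c)) :
    ∃ Rfin : ℕ,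
      (Rfin : ℤ) = ∑ᶠ v : Place K F, (if 0 ≤ v.ord (algebraMap K[X] F X) then e v - 1 else 0) ∧
      ∀ ω' : Basis (Fin n) (RatFunc K) F,
        (∀ y : F, IsIntegral K[X] y ↔ ∀ i, ω'.repr y i ∈ (algebraMap K[X] (RatFunc K)).range) →
        ∃ D : K[X], algebraMap K[X] (RatFunc K) D = (Algebra.traceMatrix (RatFunc K) ω').det ∧
          D.natDegree = Rfin := by
  refine ⟨_, card_differentIdeal_poly e he_fin, fun ω' hω' => ?_⟩
  exact Disc.exists_poly_det_traceMatrix (RatFunc K) F
    (fun P hP b => RRResidue.residue_of_isIntegral_poly P hP b) ω' hω'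

end Fin

end Fermat.Agent.X0.RRSum
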