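import Mathlib
import Fermat.Agent.X0.FF.RRCore
import Fermat.Agent.X0.FF.ChartInf
import Fermat.Agent.X0.FF.ChartFin
import Fermat.Agent.X0.FF.NormInf
import Fermat.Agent.X0.FF.RRSum
import Fermat.Agent.X0.FF.Main

/-!
# X0 / FF5d: "Riemann–Roch lite"

For a generator `x` of a function field `F / K` (`K` algebraically closed of characteristic zero)
with ramification function `e`, the space `holDiff x e` of all `y` such that `y dx` is holomorphic
(`ord_v y ≥ -(e_v - 1)` where `x` is regular, `ord_v y ≥ e_v + 1` at the poles of `x`) is finite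
dimensional of dimension `g` with `2 g - 2 = ∑ (e_v - 1) - 2 [F : K(x)]` (`finrank_holDiff`).
-/

set_option autoImplicit false
set_option linter.unusedSectionVars false
set_option linter.style.haveILetI false

namespace Fermat.Agent.X0.RRLite

open AlgebraicCurve Polynomial IntermediateField Module Infinity

/-! ### The space of functions with prescribed minimal orders -/

section Def

variable {K F : Type*} [Field K] [Field F] [Algebra K F]

/-- the `K`-space of `y : F` with `ord_v y ≥ t v` at all places `v` -/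
def ordSubmodule (t : Place K F → ℤ) : Submodule K F where
  carrier := {y | ∀ v : Place K F, y = 0 ∨ t v ≤ v.ord y}
  zero_mem' := fun _ => Or.inl rfl
  add_mem' := by
    intro y z hy hz v
    rcases eq_or_ne y 0 with rfl | hy0
    · rw [zero_add]; exact hz v
    rcases eq_or_ne z 0 with rfl | hz0
    · rw [add_zero]; exact hy v
    rcases eq_or_ne (y + z) 0 with hyz | hyz
    · exact Or.inl hyz
    right
    have h1 := (hy v).resolve_left hy0
    have h2 := (hz v).resolve_left hz0
    exact (le_min h1 h2).trans (min_ord_le_ord_add v hy0 hz0 hyz)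
  smul_mem' := by
    intro c y hy v
    rcases eq_or_ne c 0 with rfl | hc
    · left; simp
    rcases eq_or_ne y 0 with rfl | hy0
    · left; simp
    right
    have hc' : algebraMap K F c ≠ 0 := by simpa using hc
    rw [Algebra.smul_def, v.ord_mul hc' hy0, ord_algebraMap, zero_add]
    exact (hy v).resolve_left hy0

theorem mem_ordSubmodule_iff (t : Place K F → ℤ) (y : F) :
    y ∈ ordSubmodule t ↔ ∀ v : Place K F, y = 0 ∨ t v ≤ v.ord y := Iff.rfl

/-- **Holomorphic differentials** `y dx` in terms of `y`: `ord_v y ≥ -(e_v - 1)` at the places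
where `x` is regular and `ord_v y ≥ e_v + 1` at the poles of `x`. -/
noncomputable def holDiff (x : F) (e : Place K F → ℤ) : Submodule K F :=
  ordSubmodule fun v => if v.ord x < 0 then e v + 1 else -(e v - 1)

theorem mem_holDiff_iff (x : F) (e : Place K F → ℤ) (y : F) :
    y ∈ holDiff x e ↔
      ∀ v : Place K F, y = 0 ∨ (if v.ord x < 0 then e v + 1 else -(e v - 1)) ≤ v.ord y :=
  Iff.rfl

end Def

/-! ### The chart at infinity -/

section Inf

variable {K F : Type*} [Field K] [Field F] [Algebra K F] [Algebra K[X] F] [IsScalarTower K K[X] F]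
  [FaithfulSMul K[X] F] [Algebra (RatFunc K) F] [IsScalarTower K[X] (RatFunc K) F]
  [Algebra (Oinf K) F] [IsScalarTower (Oinf K) (RatFunc K) F]
  [IsAlgClosed K] [FiniteDimensional (RatFunc K) F] [CharZero K]

theorem gen_ne_zero' : algebraMap K[X] F X ≠ 0 := by
  rw [Ne, map_eq_zero_iff _ (FaithfulSMul.algebraMap_injective K[X] F)]
  exact X_ne_zero

/-- integrality at infinity in terms of the norm at infinity -/
theorem isIntegral_Oinf_iff_nuInf (h : IsFFGen K (algebraMap K[X] F X)) (y : F) :
    IsIntegral (Oinf K) y ↔ nuInf K (algebraMap K[X] F X) y ≤ 0 := by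
  rw [ChartInf.isIntegral_Oinf_iff]
  rcases eq_or_ne y 0 with rfl | hy
  · simp
  · rw [show (0 : WithBot ℤ) = ((0 : ℤ) : WithBot ℤ) from rfl, h.nuInf_le_iff hy 0]
    refine forall_congr' fun v => forall_congr' fun _ => ?_
    rw [zero_mul]
    exact ⟨fun h => h.resolve_left hy, Or.inr⟩

/-- the dual condition at infinity for `𝔵² y` -/
theorem trace_sq_mem_Oinf_iff (y : F) :
    (∀ b : F, IsIntegral (Oinf K) b →
      Algebra.trace (RatFunc K) F (algebraMap (RatFunc K) F RatFunc.X ^ 2 * y * b) ∈
        (algebraMap (Oinf K) (RatFunc K)).range) ↔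
      ∀ v : Place K F, v.ord (algebraMap K[X] F X) < 0 →
        y = 0 ∨ -v.ord (algebraMap K[X] F X) + 1 ≤ v.ord y := by
  have hx0 : algebraMap K[X] F X ≠ 0 := gen_ne_zero'
  have h := ChartInf.trace_mem_Oinf_iff (K := K) (F := F) (algebraMap K[X] F X ^ 2 * y)
  rw [ChartInf.algebraMap_ratFunc_X]
  rw [show (∀ b : F, IsIntegral (Oinf K) b →
      Algebra.trace (RatFunc K) F (algebraMap K[X] F X ^ 2 * y * b) ∈
        (algebraMap (Oinf K) (RatFunc K)).range) ↔
      (∀ b : integralClosure (Oinf K) F,
        Algebra.trace (RatFunc K) F (algebraMap K[X] F X ^ 2 * y * (b : F)) ∈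
          (algebraMap (Oinf K) (RatFunc K)).range) from
    ⟨fun H b => H b b.2, fun H b hb => H ⟨b, hb⟩⟩, h]
  refine forall_congr' fun v => forall_congr' fun hv => ?_
  rcases eq_or_ne y 0 with rfl | hy
  · simp
  · have h2 : algebraMap K[X] F X ^ 2 ≠ 0 := pow_ne_zero 2 hx0
    rw [v.ord_mul h2 hy, show algebraMap K[X] F X ^ 2 = algebraMap K[X] F X ^ (2 : ℤ) from
      (zpow_ofNat _ 2).symm, v.ord_zpow]
    constructor
    · rintro (h | h)
      · exact absurd h (mul_ne_zero (zpow_ne_zero 2 hx0) hy)
      · right; omega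
    · rintro (h | h)
      · exact absurd h hy
      · right; omega

end Inf

/-! ### The finite chart -/

section Fin

open scoped RatFunc

variable {K F : Type*} [Field K] [Field F] [Algebra K F] [Algebra K[X] F] [IsScalarTower K K[X] F]
  [FaithfulSMul K[X] F] [FiniteDimensional (RatFunc K) F] [CharZero K] [IsAlgClosed K]

theorem trace_mem_poly_iff' (y : F) :
    (∀ b : F, IsIntegral K[X] b →
        Algebra.trace (RatFunc K) F (y * b) ∈ (algebraMap K[X] (RatFunc K)).range) ↔
      ∀ (v : Place K F) (c : K), 0 < v.ord (algebraMap K[X] F X - algebraMap K F c) →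
        y = 0 ∨ -(v.ord (algebraMap K[X] F X - algebraMap K F c) - 1) ≤ v.ord y := by
  rw [← ChartFin.trace_mem_poly_iff]
  exact ⟨fun H b => H b b.2, fun H b hb => H ⟨b, hb⟩⟩

end Fin

/-! ### Assembly -/

section Main

variable {K F : Type*} [Field K] [Field F] [Algebra K F] [IsAlgClosed K] [CharZero K]

theorem finrank_holDiff {x : F} (h : IsFFGen K x) (e : Place K F → ℤ)
    (he_pole : ∀ v : Place K F, v.ord x < 0 → e v = -v.ord x)
    (he_fin : ∀ (v : Place K F) (c : K), 0 < v.ord (x - algebraMap K F c) →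
      e v = v.ord (x - algebraMap K F c)) :
    Module.Finite K (holDiff x e) ∧
      2 * (Module.finrank K (holDiff x e) : ℤ) =
        (∑ᶠ v : Place K F, (e v - 1)) + 2 - 2 * (Module.finrank K⟮x⟯ F : ℤ) := by
  letI := polyAlgebra K x
  haveI := polyAlgebra_isScalarTower (K := K) x
  haveI := polyAlgebra_faithfulSMul h.transcendental
  haveI := h.finite
  letI : Algebra (RatFunc K) F := RatFunc.liftAlgebra K F
  haveI : IsScalarTower K[X] (RatFunc K) F := RatFunc.isScalarTower_liftAlgebra K F
  haveI : FiniteDimensional (RatFunc K) F := polyAlgebra_finiteDimensional h.transcendental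
  haveI : IsScalarTower K (RatFunc K) F := ChartInf.isScalarTower_ratFunc
  letI := ChartInf.algOinf K F
  haveI := ChartInf.isScalarTower_algOinf K F
  haveI : Algebra.IsSeparable (RatFunc K) F := Algebra.IsAlgebraic.isSeparable_of_perfectField
  have hX : algebraMap K[X] F X = x := by simp [polyAlgebra_algebraMap]
  have h' : IsFFGen K (algebraMap K[X] F X) := by rw [hX]; exact h
  have hn : Module.finrank (RatFunc K) F = Module.finrank K⟮x⟯ F :=
    polyAlgebra_finrank h.transcendental
  have hν := isDegNorm_nuInf (K := K) (F := F) h'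
  have hB : ∀ y : F, IsIntegral K[X] y → y ≠ 0 →
      (0 : WithBot ℤ) ≤ nuInf K (algebraMap K[X] F X) y :=
    fun y hy hy0 => nuInf_nonneg_of_isIntegral h' hy0 hy
  have hinf := isIntegral_Oinf_iff_nuInf (K := K) (F := F) h'
  have hconst : ∀ y : F, IsIntegral K[X] y → IsIntegral (Oinf K) y →
      ∃ c : K, algebraMap K F c = y := by
    intro y h1 h2
    refine h.exists_algebraMap_eq_of_ord_nonneg fun v => ?_
    rcases eq_or_ne y 0 with rfl | hy
    · simp
    by_cases hv : v.ord (algebraMap K[X] F X) < 0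
    · exact ((ChartInf.isIntegral_Oinf_iff y).mp h2 v hv).resolve_left hy
    · exact ((ChartFin.isIntegral_poly_iff y).mp h1 v (not_lt.mp hv)).resolve_left hy
  obtain ⟨Rfin, hRfin, hDfin⟩ := RRSum.exists_disc_poly (K := K) (F := F)
    (n := Module.finrank K⟮x⟯ F) e (by rw [hX]; exact he_fin)
  obtain ⟨Rinf, hRinf, hDinf⟩ := RRSum.exists_disc_Oinf (K := K) (F := F)
    (n := Module.finrank K⟮x⟯ F) e (by rw [hX]; exact he_pole)
  have hR : (Rfin : ℤ) + Rinf = ∑ᶠ v : Place K F, (e v - 1) := by
    rw [hRfin, hRinf, hX,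
      RRSum.finsum_split (fun v : Place K F => v.ord x < 0) (fun v => e v - 1)
        (h.finite_support_sub_one e he_pole he_fin)]
    simp only [not_lt]
  obtain ⟨W, hWfin, hW, hdim⟩ := RRCore.main hn hν hB hinf hconst Rfin Rinf hDfin hDinf
  have hWeq : W = holDiff x e := by
    ext y
    rw [hW, trace_mem_poly_iff', trace_sq_mem_Oinf_iff, mem_holDiff_iff, hX]
    constructor
    · rintro ⟨h1, h2⟩ v
      by_cases hv : v.ord x < 0
      · rw [if_pos hv, he_pole v hv]
        exact h2 v hv
      · rw [if_neg hv]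
        obtain ⟨c, hc⟩ := h.exists_centre v (not_lt.mp hv)
        rw [he_fin v c hc]
        exact h1 v c hc
    · intro H
      refine ⟨fun v c hc => ?_, fun v hv => ?_⟩
      · have hv : ¬ v.ord x < 0 := by
          intro hv
          rw [ord_sub_const_of_ord_neg v hv c] at hc
          omega
        have := H v
        rwa [if_neg hv, he_fin v c hc] at this
      · have := H v
        rwa [if_pos hv, he_pole v hv] at this
  subst hWeq
  refine ⟨hWfin, ?_⟩
  rw [hdim, ← hR]

/-- the inequality form -/
theorem le_two_mul_finrank_holDiff {x : F} (h : IsFFGen K x) (e : Place K F → ℤ)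
    (he_pole : ∀ v : Place K F, v.ord x < 0 → e v = -v.ord x)
    (he_fin : ∀ (v : Place K F) (c : K), 0 < v.ord (x - algebraMap K F c) →
      e v = v.ord (x - algebraMap K F c)) :
    (∑ᶠ v : Place K F, (e v - 1)) + 2 - 2 * (Module.finrank K⟮x⟯ F : ℤ) ≤
      2 * (Module.finrank K (holDiff x e) : ℤ) :=
  (finrank_holDiff h e he_pole he_fin).2.ge

/-- **RR-lite in the shape consumed by S20** (`e = ramIdx x`). -/
theorem exists_holDiff_ramIdx {x : F} (h : IsFFGen K x) :
    ∃ V : Submodule K F,
      (∀ y ∈ V, ∀ v : Place K F, y = 0 ∨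
        (if v.ord x < 0 then ramIdx x v + 1 else -(ramIdx x v - 1)) ≤ v.ord y) ∧
      Module.Finite K V ∧
      (∑ᶠ v : Place K F, (ramIdx x v - 1)) + 2 - 2 * (Module.finrank K⟮x⟯ F : ℤ) =
        2 * (Module.finrank K V : ℤ) := by
  have H := finrank_holDiff h (ramIdx x) (fun v hv => ramIdx_of_pole hv)
    (fun v c hv => ramIdx_of_centre hv)
  exact ⟨holDiff x (ramIdx x), fun y hy => hy, H.1, H.2.symm⟩

end Main

end Fermat.Agent.X0.RRLite
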