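import Mathlib
import Fermat.Agent.X0.FF.Disc
import Fermat.Agent.X0.FF.ChartFin
import Fermat.Agent.X0.FF.ChartInf

/-!
# X0 / FF5d (W4): the discriminant hypotheses of `RRCore.main`

ChartInf abstract variable block (`F` a `K[X]`-, `RatFunc K`- and `Oinf K`-algebra, finite over
`RatFunc K`, `K` algebraically closed of characteristic zero).

* `DiscCharts.hres_of_isIntegral` : residue fields of an integral extension of a `K`-algebra with
  residue fields `K` are `K` (`K` algebraically closed); `hresA_poly`, `hresA_Oinf`;
* `DiscCharts.hres_Sfin`, `DiscCharts.hres_Sinf` : the residue fields of the integral closures of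
  `K[X]` and of `Oinf K` in `F` are `K`;
* `DiscCharts.hDfin`, `DiscCharts.hDinf` : the hypotheses `hDfin`, `hDinf` of `RRCore.main` and
  `RRCore.two_mul_sum_d` with
  `Rfin = Multiset.card (normalizedFactors (differentIdeal K[X] (integralClosure K[X] F)))`,
  `Rinf = Multiset.card (normalizedFactors (differentIdeal (Oinf K) (integralClosure (Oinf K) F)))`.
-/

set_option autoImplicit false
set_option linter.unusedSectionVars false
set_option linter.style.haveILetI false

namespace Fermat.Agent.X0.DiscCharts

open AlgebraicCurve IsDedekindDomain Polynomial UniqueFactorizationMonoid Module Infinity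

section generic

/-- **residue fields of an integral extension**: if `K` is algebraically closed, every residue
field of the `K`-algebra `A` is `K`, and `B` is integral over `A`, then every residue field of `B`
is `K`. -/
theorem hres_of_isIntegral {K A B : Type*} [Field K] [IsAlgClosed K] [CommRing A] [CommRing B]
    [Algebra K A] [Algebra A B] [Algebra K B] [IsScalarTower K A B] [Algebra.IsIntegral A B]
    (hresA : ∀ p : Ideal A, p.IsMaximal → ∀ a : A, ∃ c : K, a - algebraMap K A c ∈ p)
    (P : Ideal B) (hP : P.IsMaximal) (b : B) : ∃ c : K, b - algebraMap K B c ∈ P := by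
  letI : Field (B ⧸ P) := Ideal.Quotient.field P
  have hp : (P.comap (algebraMap A B)).IsMaximal :=
    Ideal.isMaximal_comap_of_isIntegral_of_isMaximal P
  set φA : A →+* B ⧸ P := (Ideal.Quotient.mk P).comp (algebraMap A B) with hφA
  set φK : K →+* B ⧸ P := (Ideal.Quotient.mk P).comp (algebraMap K B) with hφK
  have hrange : ∀ a : A, ∃ c : K, φK c = φA a := by
    intro a
    obtain ⟨c, hc⟩ := hresA _ hp a
    refine ⟨c, ?_⟩
    rw [Ideal.mem_comap, map_sub, ← IsScalarTower.algebraMap_apply K A B] at hc
    have := Ideal.Quotient.eq.mpr hc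
    rw [hφK, hφA, RingHom.comp_apply, RingHom.comp_apply, this]
  obtain ⟨p, hpm, hpe⟩ := Algebra.IsIntegral.isIntegral (R := A) b
  have h1 : p.eval₂ φA (Ideal.Quotient.mk P b) = 0 := by
    rw [hφA, ← Polynomial.hom_eval₂, hpe, map_zero]
  have hlift : p.map φA ∈ Polynomial.lifts φK := by
    rw [Polynomial.lifts_iff_coeff_lifts]
    intro n
    rw [Polynomial.coeff_map]
    obtain ⟨c, hc⟩ := hrange (p.coeff n)
    exact ⟨c, hc⟩
  obtain ⟨q, hq, -, hqm⟩ := Polynomial.lifts_and_degree_eq_and_monic hlift (hpm.map φA)
  letI : Algebra K (B ⧸ P) := φK.toAlgebra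
  have hint : IsIntegral K (Ideal.Quotient.mk P b) := by
    refine ⟨q, hqm, ?_⟩
    show q.eval₂ φK _ = 0
    rw [← Polynomial.eval_map, hq, Polynomial.eval_map, h1]
  obtain ⟨c, hc⟩ := exists_algebraMap_eq_of_isIntegral hint
  refine ⟨c, ?_⟩
  have hc' : φK c = Ideal.Quotient.mk P b := hc
  rw [← Ideal.Quotient.eq_zero_iff_mem, map_sub, ← hc', hφK, RingHom.comp_apply, sub_self]

/-- the residue fields of `K[X]` are `K` (`K` algebraically closed). -/
theorem hresA_poly {K : Type*} [Field K] [CharZero K] [IsAlgClosed K] (p : Ideal K[X]) (hp : p.IsMaximal)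
    (a : K[X]) : ∃ c : K, a - algebraMap K K[X] c ∈ p := by
  have hp0 : p ≠ ⊥ := Ring.ne_bot_of_isMaximal_of_not_isField hp (Polynomial.not_isField K)
  haveI : p.IsPrime := hp.isPrime
  obtain ⟨c₀, hc₀⟩ := exists_X_sub_C_mem_of_isPrime hp0
  refine ⟨a.eval c₀, ?_⟩
  rw [← Polynomial.C_eq_algebraMap]
  exact Ideal.mem_of_dvd p Polynomial.X_sub_C_dvd_sub_C_eval hc₀

/-- the residue field of `Oinf K` is `K`. -/
theorem hresA_Oinf {K : Type*} [Field K] (p : Ideal (Oinf K)) (hp : p.IsMaximal)
    (a : Oinf K) : ∃ c : K, a - algebraMap K (Oinf K) c ∈ p := by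
  rw [IsLocalRing.eq_maximalIdeal hp]
  exact residue_Oinf K a

end generic

section charts

open ChartInf

variable {K F : Type*} [Field K] [Field F] [Algebra K F] [Algebra K[X] F] [IsScalarTower K K[X] F]
  [FaithfulSMul K[X] F] [Algebra (RatFunc K) F] [IsScalarTower K[X] (RatFunc K) F]
  [Algebra (Oinf K) F] [IsScalarTower (Oinf K) (RatFunc K) F]
  [IsAlgClosed K] [CharZero K] [FiniteDimensional (RatFunc K) F]

attribute [local instance] isScalarTower_ratFunc isScalarTower_K_Oinf
  isDedekindDomain_Sinf isFractionRing_Sinf finite_Sinf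

theorem isDedekindDomain_Sfin : IsDedekindDomain (integralClosure K[X] F) :=
  Chart.isDedekindDomain_B (RatFunc K) K[X]

theorem isFractionRing_Sfin : IsFractionRing (integralClosure K[X] F) F :=
  Chart.isFractionRing_B (RatFunc K) K[X]

theorem finite_Sfin : Module.Finite K[X] (integralClosure K[X] F) :=
  Chart.finite_B (RatFunc K) K[X]

theorem isTorsionFree_Sfin : Module.IsTorsionFree K[X] (integralClosure K[X] F) :=
  Chart.isTorsionFree_B (F := F) (RatFunc K) K[X]

theorem isTorsionFree_Sinf : Module.IsTorsionFree (Oinf K) (integralClosure (Oinf K) F) :=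
  Chart.isTorsionFree_B (F := F) (RatFunc K) (Oinf K)

attribute [local instance] isDedekindDomain_Sfin isFractionRing_Sfin finite_Sfin
  isTorsionFree_Sfin isTorsionFree_Sinf

/-- the residue fields of the integral closure of `K[X]` in `F` are `K`. -/
theorem hres_Sfin (P : Ideal (integralClosure K[X] F)) (hP : P.IsMaximal)
    (b : integralClosure K[X] F) :
    ∃ c : K, b - algebraMap K (integralClosure K[X] F) c ∈ P :=
  hres_of_isIntegral (A := K[X]) hresA_poly P hP b

/-- the residue fields of the integral closure of `Oinf K` in `F` are `K`. -/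
theorem hres_Sinf (P : Ideal (integralClosure (Oinf K) F)) (hP : P.IsMaximal)
    (b : integralClosure (Oinf K) F) :
    ∃ c : K, b - algebraMap K (integralClosure (Oinf K) F) c ∈ P :=
  hres_of_isIntegral (A := Oinf K) hresA_Oinf P hP b

/-- **`hDfin` of `RRCore.main`**: the discriminant of an integral basis of the integral closure of
`K[X]` is a polynomial of degree the number of prime factors of the different. -/
theorem hDfin {n : ℕ} (ω' : Basis (Fin n) (RatFunc K) F)
    (hω' : ∀ y : F, IsIntegral K[X] y ↔
      ∀ i, ω'.repr y i ∈ (algebraMap K[X] (RatFunc K)).range) :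
    ∃ D : K[X], algebraMap K[X] (RatFunc K) D = (Algebra.traceMatrix (RatFunc K) ω').det ∧
      D.natDegree = Multiset.card (normalizedFactors
        (differentIdeal K[X] (integralClosure K[X] F))) :=
  Disc.exists_poly_det_traceMatrix (B := integralClosure K[X] F) (RatFunc K) F
    (hres_Sfin (K := K) (F := F)) ω' hω'

/-- **`hDinf` of `RRCore.main`**: the discriminant of an integral basis of the integral closure of
`Oinf K` is associated to `uInf ^ m`, `m` the number of prime factors of the different. -/
theorem hDinf {n : ℕ} (η' : Basis (Fin n) (RatFunc K) F)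
    (hη' : ∀ y : F, IsIntegral (Oinf K) y ↔
      ∀ i, η'.repr y i ∈ (algebraMap (Oinf K) (RatFunc K)).range) :
    ∃ δ : Oinf K, algebraMap (Oinf K) (RatFunc K) δ =
        (Algebra.traceMatrix (RatFunc K) η').det ∧
      Associated δ (uInf K ^ Multiset.card (normalizedFactors
        (differentIdeal (Oinf K) (integralClosure (Oinf K) F)))) :=
  Disc.exists_dvr_det_traceMatrix (B := integralClosure (Oinf K) F) (Oinf K) (RatFunc K) F
    (residue_Oinf K) (irreducible_uInf K) (hres_Sinf (K := K) (F := F)) η' hη'

variable (K F) in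
/-- the number of prime factors (with multiplicity) of the different of the finite chart -/
noncomputable def Rfin : ℕ :=
  Multiset.card (normalizedFactors (differentIdeal K[X] (integralClosure K[X] F)))

variable (K F) in
/-- the number of prime factors (with multiplicity) of the different of the chart at infinity -/
noncomputable def Rinf : ℕ :=
  Multiset.card (normalizedFactors (differentIdeal (Oinf K) (integralClosure (Oinf K) F)))

theorem Rfin_eq : Rfin K F =
    Multiset.card (normalizedFactors (differentIdeal K[X] (integralClosure K[X] F))) := rfl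

theorem Rinf_eq : Rinf K F =
    Multiset.card (normalizedFactors (differentIdeal (Oinf K) (integralClosure (Oinf K) F))) := rfl

/-- `hDfin` of `RRCore.main` with `Rfin := Rfin K F`. -/
theorem hDfin_Rfin {n : ℕ} (ω' : Basis (Fin n) (RatFunc K) F)
    (hω' : ∀ y : F, IsIntegral K[X] y ↔
      ∀ i, ω'.repr y i ∈ (algebraMap K[X] (RatFunc K)).range) :
    ∃ D : K[X], algebraMap K[X] (RatFunc K) D = (Algebra.traceMatrix (RatFunc K) ω').det ∧
      D.natDegree = Rfin K F :=
  hDfin ω' hω'

/-- `hDinf` of `RRCore.main` with `Rinf := Rinf K F`. -/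
theorem hDinf_Rinf {n : ℕ} (η' : Basis (Fin n) (RatFunc K) F)
    (hη' : ∀ y : F, IsIntegral (Oinf K) y ↔
      ∀ i, η'.repr y i ∈ (algebraMap (Oinf K) (RatFunc K)).range) :
    ∃ δ : Oinf K, algebraMap (Oinf K) (RatFunc K) δ =
        (Algebra.traceMatrix (RatFunc K) η').det ∧
      Associated δ (uInf K ^ Rinf K F) :=
  hDinf η' hη'

end charts

end Fermat.Agent.X0.DiscCharts
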