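import Mathlib
import Fermat.Agent.X0.FF.Main

/-!
# Places of a function field as restrictions of valuations of a Galois closure

`F / K` a function field with generator `x`, `K` algebraically closed of characteristic zero.

* `valuation_eq_exp_of_lt_one_on_prime`: a `ℤᵐ⁰`-valued valuation of the fraction field of a
  Dedekind domain `R` which is `≤ 1` on `R` and `< 1` on a height one prime `Q` is a power of the
  place attached to `Q`;
* `IsFFGen.exists_place_of_valuation'`, `IsFFGen.exists_place_of_valuation_infty`: a valuation `u`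
  of `F`, `≤ 1` on `K` and `< 1` at `x - c` (resp. `x⁻¹`) is `exp (- m · ord_v)` for a place `v`
  over `c` (resp. a pole of `x`) and some `m ≥ 1`;
* `exists_embOver_of_place`, `exists_embOver_of_place_infty`: if `φ : F → L`, `L / K(φ x)` finite
  Galois and `w` is a valuation of `L` centred over `c`, then EVERY place `v` of `F` over `c` is of
  the form `w ∘ ψ = exp (- m · ord_v)` for some `K`-embedding `ψ` with `ψ x = φ x`;
* `exists_place_of_embOver`, `exists_place_of_embOver_infty`: the converse;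
* `mul_ord_eq_of_forall_eq_exp`: `m · e_v = d` if `w (φ x - c) = exp (-d)`.
-/

set_option autoImplicit false
set_option linter.style.haveILetI false

universe u

namespace Fermat.Agent.X0

open AlgebraicCurve Polynomial WithZero IntermediateField IsDedekindDomain

open scoped RatFunc

section Generic

variable {K F : Type*} [Field K] [Field F] [Algebra K F]
variable {R : Type*} [CommRing R] [IsDedekindDomain R] [Algebra R F] [IsFractionRing R F]
  [Algebra K R] [IsScalarTower K R F]

/-- A `ℤᵐ⁰`-valued valuation of `F` which is `≤ 1` on the Dedekind domain `R` and `< 1` on the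
height one prime `Q` is a power of the place attached to `Q`. -/
theorem valuation_eq_exp_of_lt_one_on_prime (Q : HeightOneSpectrum R) (u : Valuation F ℤᵐ⁰)
    (hu1 : ∀ r : R, u (algebraMap R F r) ≤ 1)
    (huQ : ∀ r ∈ Q.asIdeal, u (algebraMap R F r) < 1) :
    ∃ m : ℕ, 0 < m ∧ ∀ f : F, f ≠ 0 →
      u f = exp (-((m : ℤ) * (Place.ofHeightOneSpectrum (K := K) (F := F) Q).ord f)) := by
  -- outside `Q` the valuation is one
  have hnQ : ∀ r : R, r ∉ Q.asIdeal → u (algebraMap R F r) = 1 := by
    intro r hr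
    by_contra hne
    have hlt : u (algebraMap R F r) < 1 := lt_of_le_of_ne (hu1 r) hne
    obtain ⟨y, i, hi, hyi⟩ := Q.isMaximal.exists_inv hr
    have h1 : u (algebraMap R F (y * r + i)) < 1 := by
      rw [map_add, map_mul]
      refine u.map_add_lt ?_ (huQ i hi)
      rw [map_mul]
      exact mul_lt_one_of_nonneg_of_lt_one_right (hu1 y) zero_le hlt
    rw [hyi, map_one, map_one] at h1
    exact lt_irrefl _ h1
  -- comparison with the `Q`-adic valuation
  have hA : ∀ y : F, Q.valuation F y ≤ 1 → u y ≤ 1 := by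
    intro y hy
    obtain ⟨a, d, hd⟩ := Q.exists_primeCompl_mul_eq_of_integer y hy
    have hd1 : u (algebraMap R F d) = 1 := hnQ d d.2
    have : u y = u (algebraMap R F a) := by
      rw [← hd, map_mul, hd1, mul_one]
    rw [this]
    exact hu1 a
  have hB : ∀ y : F, Q.valuation F y < 1 → u y < 1 := by
    intro y hy
    obtain ⟨a, d, hd⟩ := Q.exists_primeCompl_mul_eq_of_integer y hy.le
    have hd1 : u (algebraMap R F d) = 1 := hnQ d d.2
    have hdQ : Q.valuation F (algebraMap R F d) = 1 := by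
      rw [HeightOneSpectrum.valuation_of_algebraMap, HeightOneSpectrum.intValuation_eq_one_iff]
      exact d.2
    have haQ : a ∈ Q.asIdeal := by
      rw [← HeightOneSpectrum.valuation_lt_one_iff_mem (K := F)]
      change Q.valuation F (algebraMap R F a) < 1
      rw [← hd, map_mul, hdQ, mul_one]
      exact hy
    have : u y = u (algebraMap R F a) := by
      rw [← hd, map_mul, hd1, mul_one]
    rw [this]
    exact huQ a haQ
  have hC : ∀ y : F, Q.valuation F y = 1 → u y = 1 := by
    intro y hy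
    have hy0 : y ≠ 0 := by
      rintro rfl
      rw [map_zero] at hy
      exact zero_ne_one hy
    have h1 := hA y hy.le
    have h2 := hA y⁻¹ (by rw [map_inv₀, hy, inv_one])
    rw [map_inv₀] at h2
    have hu0 : u y ≠ 0 := (Valuation.ne_zero_iff _).mpr hy0
    have h3 : 1 ≤ u y := by
      by_contra hcon
      have hlt : u y < 1 := not_le.mp hcon
      have : 1 < (u y)⁻¹ := (one_lt_inv₀ (zero_lt_iff.mpr hu0)).mpr hlt
      exact absurd h2 (not_le.mpr this)
    exact le_antisymm h1 h3
  -- a uniformiser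
  obtain ⟨π, hπ⟩ := Q.valuation_exists_uniformizer F
  have hπ0 : π ≠ 0 := by
    rintro rfl
    rw [map_zero] at hπ
    exact exp_ne_zero hπ.symm
  have hπlt : u π < 1 := hB π (by rw [hπ, ← exp_zero, exp_lt_exp]; norm_num)
  have huπ0 : u π ≠ 0 := (Valuation.ne_zero_iff _).mpr hπ0
  have hlog : log (u π) < 0 := by
    rw [log_lt_iff_lt_exp huπ0, exp_zero]
    exact hπlt
  refine ⟨(-log (u π)).toNat, by omega, ?_⟩
  intro f hf
  have hm : (((-log (u π)).toNat : ℕ) : ℤ) = -log (u π) := Int.toNat_of_nonneg (by omega)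
  rw [hm]
  set v := Place.ofHeightOneSpectrum (K := K) (F := F) Q with hv
  have hfv : Q.valuation F f = exp (-v.ord f) := valuation_eq_exp_neg_ord (K := K) Q hf
  -- `f * π ^ (- ord f)` is a unit
  have hunit : Q.valuation F (f * π ^ (-v.ord f)) = 1 := by
    rw [map_mul, map_zpow₀, hπ, hfv, ← exp_zsmul, ← exp_add]
    simp
  have h1 := hC _ hunit
  rw [map_mul, map_zpow₀] at h1
  have h2 : u f = (u π) ^ (v.ord f) := by
    have hne : (u π) ^ (-v.ord f) ≠ 0 := zpow_ne_zero _ huπ0
    rw [zpow_neg] at h1 hne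
    rw [← div_eq_mul_inv, div_eq_one_iff_eq] at h1
    · exact h1
    · exact zpow_ne_zero _ huπ0
  rw [h2, ← exp_log huπ0, ← exp_zsmul, log_exp]
  congr 1
  simp only [smul_eq_mul]
  ring

end Generic

section FromValuation

attribute [local instance] isDedekindDomain_integralClosure isFractionRing_integralClosure
  finite_integralClosure

variable {K : Type u} {F : Type*} [Field K] [Field F] [Algebra K F] [IsAlgClosed K] [CharZero K]

/-- A valuation of `F` which is `≤ 1` on the constants and `< 1` at `x - c` is a power of a place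
centred at `c`. -/
theorem IsFFGen.exists_place_of_valuation {x : F} (h : IsFFGen K x) (u : Valuation F ℤᵐ⁰)
    (huK : ∀ a : K, u (algebraMap K F a) ≤ 1) (c : K) (hu : u (x - algebraMap K F c) < 1) :
    ∃ v : Place K F, ∃ m : ℕ, 0 < m ∧
      ∀ f : F, f ≠ 0 → u f = exp (-((m : ℤ) * v.ord f)) := by
  have hx := h.transcendental
  letI algF := polyAlgebra K x
  haveI := polyAlgebra_isScalarTower (K := K) x
  haveI := polyAlgebra_faithfulSMul hx
  haveI := h.finite
  haveI := polyAlgebra_finiteDimensional hx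
  have hwK : ∀ a : K, u (algebraMap K[X] F (C a)) ≤ 1 := by
    intro a
    rw [polyAlgebra_algebraMap, aeval_C]
    exact huK a
  have hwX : u (algebraMap K[X] F X) ≤ 1 := by
    rw [polyAlgebra_algebraMap, aeval_X]
    have : x = (x - algebraMap K F c) + algebraMap K F c := by ring
    rw [this]
    exact u.map_add_le hu.le (huK c)
  have hwA := valuation_polynomial_le_one K u hwK hwX
  have hprime := centre_isPrime K[X] (integralClosure K[X] F) u hwA
  have hmem : algebraMap K[X] (integralClosure K[X] F) (X - C c) ∈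
      centre K[X] (integralClosure K[X] F) u hwA := by
    rw [mem_centre, ← IsScalarTower.algebraMap_apply, polyAlgebra_algebraMap, map_sub, aeval_X,
      aeval_C]
    exact hu
  have hne : centre K[X] (integralClosure K[X] F) u hwA ≠ ⊥ := by
    intro hbot
    rw [hbot, Ideal.mem_bot] at hmem
    have hinj : Function.Injective (algebraMap K[X] (integralClosure K[X] F)) :=
      FaithfulSMul.algebraMap_injective K[X] (integralClosure K[X] F)
    exact X_sub_C_ne_zero c (hinj (hmem.trans (map_zero _).symm))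
  let Q : HeightOneSpectrum (integralClosure K[X] F) :=
    ⟨centre K[X] (integralClosure K[X] F) u hwA, hprime, hne⟩
  obtain ⟨m, hm, hform⟩ := valuation_eq_exp_of_lt_one_on_prime (K := K) Q u
    (valuation_le_one_of_integral K[X] (integralClosure K[X] F) u hwA)
    (fun r hr => (mem_centre K[X] (integralClosure K[X] F) u hwA r).mp hr)
  exact ⟨Place.ofHeightOneSpectrum (K := K) (F := F) Q, m, hm, hform⟩

end FromValuation

section FromValuation2

variable {K : Type u} {F : Type*} [Field K] [Field F] [Algebra K F] [IsAlgClosed K] [CharZero K]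

omit [IsAlgClosed K] [CharZero K] in
theorem IsFFGen.sub_const_ne_zero {x : F} (h : IsFFGen K x) (c : K) :
    x - algebraMap K F c ≠ 0 := by
  intro h0
  apply h.transcendental
  rw [sub_eq_zero] at h0
  rw [h0]
  exact isAlgebraic_algebraMap c

/-- Version of `IsFFGen.exists_place_of_valuation` recording the centre. -/
theorem IsFFGen.exists_place_of_valuation' {x : F} (h : IsFFGen K x) (u : Valuation F ℤᵐ⁰)
    (huK : ∀ a : K, u (algebraMap K F a) ≤ 1) (c : K) (hu : u (x - algebraMap K F c) < 1) :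
    ∃ v : Place K F, 0 < v.ord (x - algebraMap K F c) ∧ ∃ m : ℕ, 0 < m ∧
      ∀ f : F, f ≠ 0 → u f = exp (-((m : ℤ) * v.ord f)) := by
  obtain ⟨v, m, hm, hform⟩ := h.exists_place_of_valuation u huK c hu
  refine ⟨v, ?_, m, hm, hform⟩
  rw [hform _ (h.sub_const_ne_zero c), ← exp_zero, exp_lt_exp] at hu
  have hm' : (0 : ℤ) < m := by exact_mod_cast hm
  by_contra hcon
  have : (m : ℤ) * v.ord (x - algebraMap K F c) ≤ 0 :=
    mul_nonpos_of_nonneg_of_nonpos hm'.le (not_lt.mp hcon)
  omega

/-- A valuation of `F` which is `≤ 1` on the constants and `< 1` at `x⁻¹` is a power of a pole of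
`x`. -/
theorem IsFFGen.exists_place_of_valuation_infty {x : F} (h : IsFFGen K x) (u : Valuation F ℤᵐ⁰)
    (huK : ∀ a : K, u (algebraMap K F a) ≤ 1) (hu : u x⁻¹ < 1) :
    ∃ v : Place K F, v.ord x < 0 ∧ ∃ m : ℕ, 0 < m ∧
      ∀ f : F, f ≠ 0 → u f = exp (-((m : ℤ) * v.ord f)) := by
  obtain ⟨v, hv, m, hm, hform⟩ := h.inv.exists_place_of_valuation' u huK 0
    (by rw [map_zero, sub_zero]; exact hu)
  refine ⟨v, ?_, m, hm, hform⟩
  rw [map_zero, sub_zero, Place.ord_inv] at hv
  omega

end FromValuation2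

section FromPlace

attribute [local instance] isDedekindDomain_integralClosure isFractionRing_integralClosure
  finite_integralClosure

variable (K : Type u) [Field K] [IsAlgClosed K] [CharZero K]
variable {F L : Type*} [Field F] [Field L] [Algebra K F] [Algebra K L]

/-- Every place of `F` over `c` is the restriction of `w` along some embedding `ψ` over `K(x)`:
`w ∘ ψ = exp (- m · ord_v)`. -/
theorem exists_embOver_of_place {x : F} (h : IsFFGen K x) (φ : F →ₐ[K] L)
    [FiniteDimensional K⟮φ x⟯ L] [IsGalois K⟮φ x⟯ L] (c : K) (w : Valuation L ℤᵐ⁰)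
    (hwK : ∀ a : K, w (algebraMap K L a) ≤ 1) (hw : w (φ x - algebraMap K L c) < 1)
    (v : Place K F) (hv : 0 < v.ord (x - algebraMap K F c)) :
    ∃ ψ : EmbOver K x (φ x), ∃ m : ℕ, 0 < m ∧
      ∀ f : F, f ≠ 0 → w (ψ.1 f) = exp (-((m : ℤ) * v.ord f)) := by
  have hx := h.transcendental
  have hφx : Transcendental K (φ x) := transcendental_algHom_apply K hx φ
  letI algF := polyAlgebra K x
  haveI := polyAlgebra_isScalarTower (K := K) x
  haveI := polyAlgebra_faithfulSMul hx
  haveI := h.finite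
  haveI := polyAlgebra_finiteDimensional hx
  haveI := polyAlgebra_isScalarTower_ratFunc K hx
  letI algL := polyAlgebra K (φ x)
  haveI := polyAlgebra_isScalarTower (K := K) (φ x)
  haveI := polyAlgebra_faithfulSMul hφx
  haveI := polyAlgebra_finiteDimensional hφx
  haveI := polyAlgebra_isScalarTower_ratFunc K hφx
  haveI : IsGalois (RatFunc K) L :=
    IsGalois.of_equiv_equiv (F := K⟮φ x⟯) (E := L)
      (f := ((RatFunc.algEquivOfTranscendental (φ x) hφx).symm : K⟮φ x⟯ ≃+* RatFunc K))
      (g := RingEquiv.refl L) (polyAlgebra_comp_eq hφx)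
  have hXF : algebraMap (RatFunc K) F RatFunc.X = x := polyAlgebra_algebraMap_ratFunc_X K hx
  have hXL : algebraMap (RatFunc K) L RatFunc.X = φ x := polyAlgebra_algebraMap_ratFunc_X K hφx
  have hgen : ∀ ψ₁ ψ₂ : RatFunc K →ₐ[K] L, ψ₁ RatFunc.X = ψ₂ RatFunc.X → ψ₁ = ψ₂ :=
    fun ψ₁ ψ₂ h => ratFunc_algHom_ext K h
  have hcomm : ∀ r : RatFunc K, φ (algebraMap (RatFunc K) F r) = algebraMap (RatFunc K) L r :=
    algHom_commutes_of_apply_eq (RatFunc.X : RatFunc K) hgen φ (by rw [hXF, hXL])
  let φ' : F →ₐ[RatFunc K] L := { φ with commutes' := hcomm }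
  -- the valuation `w` on `K[X]`
  have hwK' : ∀ a : K, w (algebraMap K[X] L (C a)) ≤ 1 := by
    intro a
    rw [polyAlgebra_algebraMap, aeval_C]
    exact hwK a
  have hwX : w (algebraMap K[X] L X) ≤ 1 := by
    rw [polyAlgebra_algebraMap, aeval_X]
    have : φ x = (φ x - algebraMap K L c) + algebraMap K L c := by ring
    rw [this]
    exact w.map_add_le hw.le (hwK c)
  have hwA := valuation_polynomial_le_one K w hwK' hwX
  haveI := span_X_sub_C_isMaximal K c
  set p : Ideal K[X] := Ideal.span {(X - C c : K[X])} with hp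
  have hwp : ∀ a ∈ p, w (algebraMap K[X] L a) < 1 := by
    intro a ha
    rw [hp, Ideal.mem_span_singleton] at ha
    obtain ⟨b, rfl⟩ := ha
    rw [map_mul, map_mul]
    refine mul_lt_one_of_nonneg_of_lt_one_left zero_le ?_ (hwA b)
    rw [polyAlgebra_algebraMap, map_sub, aeval_X, aeval_C]
    exact hw
  -- the prime of `S_F` attached to `v`
  have hxv : algebraMap K[X] F X ∈ v.toValuationSubring := by
    have h1 : x - algebraMap K F c ∈ v.toValuationSubring :=
      (mem_iff_ord_nonneg v (h.sub_const_ne_zero c)).mpr hv.le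
    have := v.toValuationSubring.add_mem _ _ h1 (v.algebraMap_mem' c)
    rw [sub_add_cancel] at this
    rw [polyAlgebra_algebraMap, aeval_X]
    exact this
  obtain ⟨Q, rfl⟩ := exists_heightOneSpectrum_of_gen_mem v hxv
  have hcQ : algebraMap K[X] (integralClosure K[X] F) (X - C c) ∈ Q.asIdeal := by
    rw [← ord_gen_sub_pos_iff Q c, polyAlgebra_algebraMap, aeval_X]
    exact hv
  haveI hQlo : Q.asIdeal.LiesOver p := liesOver_primeXSubC Q c hcQ
  haveI := Q.isPrime
  -- the centre of `w`
  haveI hPprime := centre_isPrime K[X] (integralClosure K[X] L) w hwA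
  haveI hPlo := centre_liesOver K[X] (integralClosure K[X] L) w hwA p hwp
  obtain ⟨ψ, hψ⟩ := exists_contract_eq K[X] (integralClosure K[X] F) (integralClosure K[X] L) φ' p
    (centre K[X] (integralClosure K[X] L) w hwA) Q.asIdeal
  -- the valuation `w ∘ ψ`
  let u : Valuation F ℤᵐ⁰ := w.comap (ψ : F →+* L)
  have hu : ∀ f : F, u f = w (ψ f) := fun _ => rfl
  have hgal : ∀ r : integralClosure K[X] F,
      ψ (algebraMap (integralClosure K[X] F) F r) =
        algebraMap (integralClosure K[X] L) L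
          (galRestrict' K[X] (integralClosure K[X] F) (integralClosure K[X] L) ψ r) :=
    fun r => (algebraMap_galRestrict'_apply K[X] (integralClosure K[X] F)
      (integralClosure K[X] L) ψ r).symm
  obtain ⟨m, hm, hform⟩ := valuation_eq_exp_of_lt_one_on_prime (K := K) Q u
    (fun r => by
      rw [hu, hgal]
      exact valuation_le_one_of_integral K[X] (integralClosure K[X] L) w hwA _)
    (fun r hr => by
      rw [hu, hgal]
      rw [← hψ, mem_contract] at hr
      exact (mem_centre K[X] (integralClosure K[X] L) w hwA _).mp hr)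
  have hψx : ψ x = φ x := by
    have h1 : ψ (algebraMap (RatFunc K) F RatFunc.X) = algebraMap (RatFunc K) L RatFunc.X :=
      ψ.commutes _
    rwa [hXF, hXL] at h1
  exact ⟨⟨ψ.restrictScalars K, hψx⟩, m, hm, fun f hf => hform f hf⟩

end FromPlace

section FromPlace2

variable (K : Type u) [Field K] [IsAlgClosed K] [CharZero K]
variable {F L : Type*} [Field F] [Field L] [Algebra K F] [Algebra K L]

/-- Every pole of `x` is the restriction of `w` along some embedding `ψ` over `K(x)`. -/
theorem exists_embOver_of_place_infty {x : F} (h : IsFFGen K x) (φ : F →ₐ[K] L)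
    [FiniteDimensional K⟮φ x⟯ L] [IsGalois K⟮φ x⟯ L] (w : Valuation L ℤᵐ⁰)
    (hwK : ∀ a : K, w (algebraMap K L a) ≤ 1) (hw : w (φ x)⁻¹ < 1)
    (v : Place K F) (hv : v.ord x < 0) :
    ∃ ψ : EmbOver K x (φ x), ∃ m : ℕ, 0 < m ∧
      ∀ f : F, f ≠ 0 → w (ψ.1 f) = exp (-((m : ℤ) * v.ord f)) := by
  have hE : K⟮φ x⟯ = K⟮φ x⁻¹⟯ := by rw [map_inv₀, adjoin_simple_inv]
  haveI := finiteDimensional_of_eq K hE
  haveI := isGalois_of_eq K hE
  obtain ⟨⟨ψ, hψ⟩, m, hm, hform⟩ := exists_embOver_of_place K h.inv φ 0 w hwK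
    (by rw [map_zero, sub_zero, map_inv₀]; exact hw) v
    (by rw [map_zero, sub_zero, Place.ord_inv]; omega)
  refine ⟨⟨ψ, ?_⟩, m, hm, hform⟩
  rwa [map_inv₀, map_inv₀, inv_inj] at hψ

omit [IsAlgClosed K] [CharZero K] in
/-- The relation `m · e_v = d` when `w (φ x - c) = exp (-d)`. -/
theorem mul_ord_eq_of_forall_eq_exp {x : F} (h : IsFFGen K x) (φ : F →ₐ[K] L) (c : K)
    (w : Valuation L ℤᵐ⁰) {d : ℤ} (hw : w (φ x - algebraMap K L c) = exp (-d))
    (v : Place K F) (ψ : EmbOver K x (φ x)) (m : ℕ)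
    (hform : ∀ f : F, f ≠ 0 → w (ψ.1 f) = exp (-((m : ℤ) * v.ord f))) :
    (m : ℤ) * v.ord (x - algebraMap K F c) = d := by
  have h1 := hform _ (h.sub_const_ne_zero c)
  rw [map_sub, AlgHom.commutes, ψ.2, hw, exp_inj] at h1
  omega

/-- The relation `m · e_v = d` at infinity when `w (φ x)⁻¹ = exp (-d)`. -/
theorem mul_ord_eq_of_forall_eq_exp_infty {x : F} (h : IsFFGen K x) (φ : F →ₐ[K] L)
    (w : Valuation L ℤᵐ⁰) {d : ℤ} (hw : w (φ x)⁻¹ = exp (-d))
    (v : Place K F) (ψ : EmbOver K x (φ x)) (m : ℕ)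
    (hform : ∀ f : F, f ≠ 0 → w (ψ.1 f) = exp (-((m : ℤ) * v.ord f))) :
    (m : ℤ) * (-v.ord x) = d := by
  have h1 := hform _ (inv_ne_zero h.ne_zero)
  rw [map_inv₀, ψ.2, hw, exp_inj, Place.ord_inv] at h1
  omega

/-- Conversely, every embedding `ψ` over `K(x)` gives a place over `c`. -/
theorem exists_place_of_embOver {x : F} (h : IsFFGen K x) (φ : F →ₐ[K] L) (c : K)
    (w : Valuation L ℤᵐ⁰) (hwK : ∀ a : K, w (algebraMap K L a) ≤ 1)
    (hw : w (φ x - algebraMap K L c) < 1) (ψ : EmbOver K x (φ x)) :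
    ∃ v : Place K F, 0 < v.ord (x - algebraMap K F c) ∧ ∃ m : ℕ, 0 < m ∧
      ∀ f : F, f ≠ 0 → w (ψ.1 f) = exp (-((m : ℤ) * v.ord f)) := by
  refine h.exists_place_of_valuation' (w.comap (ψ.1 : F →+* L)) (fun a => ?_) c ?_
  · change w (ψ.1 (algebraMap K F a)) ≤ 1
    rw [AlgHom.commutes]
    exact hwK a
  · change w (ψ.1 (x - algebraMap K F c)) < 1
    rw [map_sub, AlgHom.commutes, ψ.2]
    exact hw

/-- Conversely, every embedding `ψ` over `K(x)` gives a pole of `x` (for `w` centred at infinity). -/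
theorem exists_place_of_embOver_infty {x : F} (h : IsFFGen K x) (φ : F →ₐ[K] L)
    (w : Valuation L ℤᵐ⁰) (hwK : ∀ a : K, w (algebraMap K L a) ≤ 1)
    (hw : w (φ x)⁻¹ < 1) (ψ : EmbOver K x (φ x)) :
    ∃ v : Place K F, v.ord x < 0 ∧ ∃ m : ℕ, 0 < m ∧
      ∀ f : F, f ≠ 0 → w (ψ.1 f) = exp (-((m : ℤ) * v.ord f)) := by
  refine h.exists_place_of_valuation_infty (w.comap (ψ.1 : F →+* L)) (fun a => ?_) ?_
  · change w (ψ.1 (algebraMap K F a)) ≤ 1
    rw [AlgHom.commutes]
    exact hwK a
  · change w (ψ.1 x⁻¹) < 1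
    rw [map_inv₀, ψ.2]
    exact hw

end FromPlace2

end Fermat.Agent.X0
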