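import Mathlib
import Fermat.Agent.X0.FF.NormInf

/-!
# X0 / FF5d helpers: the Dedekind–Weber reduced basis of the integral closure

In the generic-instance setting (`F` a `K[X]`-algebra and a finite `RatFunc K`-algebra), with
`𝔵 = algebraMap K[X] F X` a generator (`IsFFGen K 𝔵`):

* `RRBasis.exists_reduced_basis_integralClosure`: a `RatFunc K`-basis `ω` of `F` made of elements
  integral over `K[X]`, which is a `K[X]`-basis of the integral closure, and which is reduced for
  the norm at infinity `nuInf K 𝔵`;
* `RRBasis.forall_pole_ord_nonneg_iff`: for a reduced basis, `∑ aᵢ ωᵢ` is regular at all poles of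
  `𝔵` iff `deg aᵢ + dᵢ ≤ 0` for all `i` (`dᵢ = nuInf ωᵢ`).
-/

set_option autoImplicit false
set_option linter.unusedSectionVars false

namespace Fermat.Agent.X0.RRBasis

open AlgebraicCurve Polynomial IntermediateField

variable {K F : Type*} [Field K] [Field F] [Algebra K F] [Algebra K[X] F] [IsScalarTower K K[X] F]
  [FaithfulSMul K[X] F] [Algebra (RatFunc K) F] [IsScalarTower K[X] (RatFunc K) F]

/-- The integral closure of `K[X]` spans `F` over `RatFunc K`. -/
theorem span_integralClosure_eq_top [FiniteDimensional (RatFunc K) F] :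
    Submodule.span (RatFunc K) ((integralClosure K[X] F : Set F)) = ⊤ := by
  rw [eq_top_iff]
  intro y _
  have halg : IsAlgebraic (RatFunc K) y := Algebra.IsAlgebraic.isAlgebraic y
  obtain ⟨⟨m, hm⟩, hint⟩ :=
    IsIntegral.exists_multiple_integral_of_isLocalization (nonZeroDivisors K[X]) y
      halg.isIntegral
  have hm0 : algebraMap K[X] (RatFunc K) m ≠ 0 := by
    rw [Ne, map_eq_zero_iff _ (IsFractionRing.injective K[X] (RatFunc K))]
    exact nonZeroDivisors.ne_zero hm
  have hy : y = (algebraMap K[X] (RatFunc K) m)⁻¹ • (m • y) := by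
    rw [← IsScalarTower.algebraMap_smul (RatFunc K) m y, smul_smul, inv_mul_cancel₀ hm0, one_smul]
  rw [hy]
  exact Submodule.smul_mem _ _ (Submodule.subset_span hint)

variable [IsAlgClosed K] [CharZero K] [FiniteDimensional (RatFunc K) F]

/-- **Dedekind–Weber reduced basis** of the integral closure of `K[X]` in `F`. -/
theorem exists_reduced_basis_integralClosure (h : IsFFGen K (algebraMap K[X] F X)) {n : ℕ}
    (hn : Module.finrank (RatFunc K) F = n) :
    ∃ ω : Module.Basis (Fin n) (RatFunc K) F,
      (∀ i, IsIntegral K[X] (ω i)) ∧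
      (∀ a : Fin n → RatFunc K, nuInf K (algebraMap K[X] F X) (∑ i, a i • ω i) =
        DW.expNorm (nuInf K (algebraMap K[X] F X)) ω a) ∧
      (∀ y : F, IsIntegral K[X] y ↔
        ∃ p : Fin n → K[X], y = ∑ i, algebraMap K[X] (RatFunc K) (p i) • ω i) := by
  have hν := isDegNorm_nuInf (K := K) (F := F) h
  obtain ⟨ω, h1, h2, h3⟩ := DW.exists_reduced_basis hn hν
    (integralClosure K[X] F).toSubring.toAddSubgroup
    (fun p y hy => by
      have hy' : IsIntegral K[X] y := hy
      show IsIntegral K[X] (algebraMap K[X] (RatFunc K) p • y)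
      rw [IsScalarTower.algebraMap_smul (RatFunc K) p y, Algebra.smul_def]
      exact isIntegral_algebraMap.mul hy')
    (by
      have := span_integralClosure_eq_top (K := K) (F := F)
      exact this)
    0
    (fun y hy hy0 => nuInf_nonneg_of_isIntegral h hy0 hy)
  exact ⟨ω, h1, h2, h3⟩

/-- For a reduced basis: the pole orders of a nonzero combination in terms of the coefficients. -/
theorem forall_pole_mul_ord_le_iff (h : IsFFGen K (algebraMap K[X] F X)) {n : ℕ}
    (ω : Module.Basis (Fin n) (RatFunc K) F)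
    (hred : ∀ a : Fin n → RatFunc K, nuInf K (algebraMap K[X] F X) (∑ i, a i • ω i) =
        DW.expNorm (nuInf K (algebraMap K[X] F X)) ω a)
    (a : Fin n → RatFunc K) (h0 : ∑ i, a i • ω i ≠ 0) (m : ℤ) :
    (∀ v : Place K F, v.ord (algebraMap K[X] F X) < 0 →
        m * v.ord (algebraMap K[X] F X) ≤ v.ord (∑ i, a i • ω i)) ↔
      ∀ i, a i = 0 ∨
        (((a i).intDegree : ℤ) : WithBot ℤ) + nuInf K (algebraMap K[X] F X) (ω i) ≤
          (m : WithBot ℤ) := by
  rw [← h.nuInf_le_iff h0, hred, DW.expNorm_le_iff]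

/-- For a reduced basis: regularity at all poles of `𝔵` in terms of the coefficients. -/
theorem forall_pole_ord_nonneg_iff (h : IsFFGen K (algebraMap K[X] F X)) {n : ℕ}
    (ω : Module.Basis (Fin n) (RatFunc K) F)
    (hred : ∀ a : Fin n → RatFunc K, nuInf K (algebraMap K[X] F X) (∑ i, a i • ω i) =
        DW.expNorm (nuInf K (algebraMap K[X] F X)) ω a)
    (a : Fin n → RatFunc K) :
    (∀ v : Place K F, v.ord (algebraMap K[X] F X) < 0 → 0 ≤ v.ord (∑ i, a i • ω i)) ↔
      ∀ i, a i = 0 ∨
        (((a i).intDegree : ℤ) : WithBot ℤ) + nuInf K (algebraMap K[X] F X) (ω i) ≤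
          ((0 : ℤ) : WithBot ℤ) := by
  rcases eq_or_ne (∑ i, a i • ω i) 0 with h0 | h0
  · have ha : ∀ i, a i = 0 := fun i =>
      Fintype.linearIndependent_iff.mp ω.linearIndependent a h0 i
    constructor
    · exact fun _ i => Or.inl (ha i)
    · intro _ v _
      rw [h0, Place.ord_zero]
  · have := forall_pole_mul_ord_le_iff h ω hred a h0 0
    simpa using this

end Fermat.Agent.X0.RRBasis
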