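import Mathlib

/-!
# X0 / FF5d helpers: counting polynomial combinations of a basis

* `RRCount.comboMap ω m`: the `K`-linear map `(b_i)_i ↦ ∑ b_i(X) • ω_i` on tuples of polynomials with
  `deg b_i < m_i`; it is injective when `ω` is linearly independent over `RatFunc K`;
* `RRCount.sum_le_finrank_of_forall_mem`: hence `∑ m_i ≤ finrank K V` for every finite-dimensional
  `K`-subspace `V` containing all these combinations;
* `RRCount.sum_sub_add_one_le_sum_toNat`: the arithmetic `∑ d_i - n + 1 ≤ ∑ (d_i - 1)⁺` when all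
  `d_i ≥ 0` and some `d_i ≤ 0`.
-/

set_option autoImplicit false

namespace Fermat.Agent.X0.RRCount

open Polynomial

section Combo

variable {K F : Type*} [Field K] [Field F] [Algebra K F] [Algebra (RatFunc K) F]
  [IsScalarTower K (RatFunc K) F] {n : ℕ}

/-- Polynomial combinations of a family with prescribed degree bounds. -/
noncomputable def comboMap (ω : Fin n → F) (m : Fin n → ℕ) :
    (∀ i, Polynomial.degreeLT K (m i)) →ₗ[K] F where
  toFun b := ∑ i, algebraMap K[X] (RatFunc K) (b i : K[X]) • ω i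
  map_add' b c := by
    simp only [Pi.add_apply, Submodule.coe_add, map_add, add_smul, Finset.sum_add_distrib]
  map_smul' c b := by
    simp only [Pi.smul_apply, Submodule.coe_smul, RingHom.id_apply, Finset.smul_sum]
    refine Finset.sum_congr rfl fun i _ => ?_
    rw [Algebra.smul_def c (b i : K[X]), map_mul, ← IsScalarTower.algebraMap_apply K K[X] (RatFunc K),
      mul_smul, algebraMap_smul]

theorem comboMap_apply (ω : Fin n → F) (m : Fin n → ℕ) (b : ∀ i, Polynomial.degreeLT K (m i)) :
    comboMap ω m b = ∑ i, algebraMap K[X] (RatFunc K) (b i : K[X]) • ω i := rfl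

theorem comboMap_injective {ω : Fin n → F} (hω : LinearIndependent (RatFunc K) ω)
    (m : Fin n → ℕ) : Function.Injective (comboMap (K := K) ω m) := by
  rw [← LinearMap.ker_eq_bot, LinearMap.ker_eq_bot']
  intro b hb
  rw [comboMap_apply] at hb
  have h0 := Fintype.linearIndependent_iff.mp hω
    (fun i => algebraMap K[X] (RatFunc K) (b i : K[X])) hb
  funext i
  apply Subtype.ext
  have := h0 i
  rw [map_eq_zero_iff _ (IsFractionRing.injective K[X] (RatFunc K))] at this
  simpa using this

theorem finrank_pi_degreeLT (m : Fin n → ℕ) :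
    Module.finrank K (∀ i, Polynomial.degreeLT K (m i)) = ∑ i, m i := by
  rw [Module.finrank_pi_fintype]
  refine Finset.sum_congr rfl fun i _ => ?_
  rw [(Polynomial.degreeLTEquiv K (m i)).finrank_eq, Module.finrank_fin_fun]

/-- If a finite-dimensional subspace contains all the polynomial combinations, its dimension is at
least the number of free coefficients. -/
theorem sum_le_finrank_of_forall_mem {ω : Fin n → F} (hω : LinearIndependent (RatFunc K) ω)
    (m : Fin n → ℕ) (V : Submodule K F) [Module.Finite K V]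
    (hV : ∀ b : ∀ i, Polynomial.degreeLT K (m i), comboMap ω m b ∈ V) :
    ∑ i, m i ≤ Module.finrank K V := by
  rw [← finrank_pi_degreeLT (K := K) m]
  let g : (∀ i, Polynomial.degreeLT K (m i)) →ₗ[K] V :=
    (comboMap ω m).codRestrict V hV
  have hg : Function.Injective g := fun b c hbc =>
    comboMap_injective hω m (congrArg Subtype.val hbc)
  exact LinearMap.finrank_le_finrank_of_injective hg

end Combo

section Arith

/-- The arithmetic behind `dim L(W) ≥ ∑ d_i - n + 1`. -/
theorem sum_sub_add_one_le_sum_toNat {n : ℕ} (d : Fin n → ℤ) (h0 : ∀ i, 0 ≤ d i)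
    (h1 : ∃ i, d i ≤ 0) : ∑ i, d i - n + 1 ≤ ∑ i, (((d i - 1).toNat : ℕ) : ℤ) := by
  obtain ⟨i₀, hi₀⟩ := h1
  have hd0 : d i₀ = 0 := le_antisymm hi₀ (h0 i₀)
  have hle : ∀ i, d i - 1 ≤ (((d i - 1).toNat : ℕ) : ℤ) := fun i => Int.self_le_toNat _
  have hsum : ∑ i, (d i - 1) + 1 ≤ ∑ i, (((d i - 1).toNat : ℕ) : ℤ) := by
    rw [← Finset.add_sum_erase _ (fun i => d i - 1) (Finset.mem_univ i₀),
      ← Finset.add_sum_erase _ (fun i => (((d i - 1).toNat : ℕ) : ℤ)) (Finset.mem_univ i₀)]
    have h2 : ∑ i ∈ Finset.univ.erase i₀, (d i - 1) ≤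
        ∑ i ∈ Finset.univ.erase i₀, (((d i - 1).toNat : ℕ) : ℤ) :=
      Finset.sum_le_sum fun i _ => hle i
    have h3 : (((d i₀ - 1).toNat : ℕ) : ℤ) = 0 := by rw [hd0]; simp
    rw [h3, hd0]
    linarith
  have : ∑ i, (d i - 1) = ∑ i, d i - n := by
    rw [Finset.sum_sub_distrib]
    simp
  linarith

/-- Equality when exactly one `d_i` vanishes and the others are positive. -/
theorem sum_toNat_eq {n : ℕ} (d : Fin n → ℤ) (i₀ : Fin n) (hd0 : d i₀ = 0)
    (hpos : ∀ i, i ≠ i₀ → 1 ≤ d i) :
    ∑ i, (((d i - 1).toNat : ℕ) : ℤ) = ∑ i, d i - n + 1 := by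
  have hsum : ∑ i, (((d i - 1).toNat : ℕ) : ℤ) = ∑ i, (d i - 1) + 1 := by
    rw [← Finset.add_sum_erase _ (fun i => d i - 1) (Finset.mem_univ i₀),
      ← Finset.add_sum_erase _ (fun i => (((d i - 1).toNat : ℕ) : ℤ)) (Finset.mem_univ i₀)]
    have h2 : ∑ i ∈ Finset.univ.erase i₀, (((d i - 1).toNat : ℕ) : ℤ) =
        ∑ i ∈ Finset.univ.erase i₀, (d i - 1) :=
      Finset.sum_congr rfl fun i hi => by
        have := hpos i (Finset.ne_of_mem_erase hi)
        rw [Int.toNat_of_nonneg (by omega)]
    have h3 : (((d i₀ - 1).toNat : ℕ) : ℤ) = 0 := by rw [hd0]; simp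
    rw [h3, h2, hd0]
    ring
  have : ∑ i, (d i - 1) = ∑ i, d i - n := by
    rw [Finset.sum_sub_distrib]
    simp
  linarith

end Arith

end Fermat.Agent.X0.RRCount
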