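import Mathlib
import Fermat.Agent.X0.FF.ChartFin
import Fermat.Agent.X0.FF.ChartInf
import Fermat.Agent.X0.FF.Colength
import Fermat.Agent.X0.FF.InftyBridge
import Fermat.Agent.X0.FF.Main

/-!
# X0 / FF5d helpers: the different in terms of places

* `RRDiff.card_normalizedFactors_differentIdeal_eq_finsum` (generic): the number of prime factors
  of the different (with multiplicity) is `∑ (e_w - 1)` over the primes `w` of `B` (residue
  characteristic zero);
* `RRDiff.card_differentIdeal_poly`: for the integral closure of `K[X]` in `F` this is
  `∑ (e_v - 1)` over the places at which `𝔵 = algebraMap K[X] F X` is regular;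
* `RRDiff.card_differentIdeal_Oinf`: for the integral closure of `Oinf K` this is `∑ (e_v - 1)`
  over the poles of `𝔵`;
* `RRDiff.card_differentIdeal_add`: the two add up to `∑ᶠ v, (ramIdx 𝔵 v - 1)`.
-/

set_option autoImplicit false
set_option linter.unusedSectionVars false
set_option linter.style.haveILetI false

namespace Fermat.Agent.X0.RRDiff

open AlgebraicCurve IsDedekindDomain WithZero Polynomial UniqueFactorizationMonoid Module Infinity

attribute [local instance] FractionRing.liftAlgebra FractionRing.isScalarTower_liftAlgebra

section Generic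

variable (A : Type*) {B : Type*} [CommRing A] [CommRing B] [Algebra A B]
  [IsDedekindDomain A] [IsDedekindDomain B] [IsTorsionFree A B] [Module.Finite A B]
  [Algebra.IsSeparable (FractionRing A) (FractionRing B)]

open Classical in
/-- the number of prime factors of the different (with multiplicity) is `∑ (e_w - 1)` over all
primes of `B` (residue characteristic zero). -/
theorem card_normalizedFactors_differentIdeal_eq_finsum
    (hcz : ∀ p : Ideal A, p.IsMaximal → CharZero (A ⧸ p)) :
    (Multiset.card (normalizedFactors (differentIdeal A B)) : ℤ) =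
      ∑ᶠ w : HeightOneSpectrum B, ((w.asIdeal.ramificationIdx A : ℤ) - 1) := by
  set m := normalizedFactors (differentIdeal A B) with hm
  have h𝔇 : differentIdeal A B ≠ ⊥ := differentIdeal_ne_bot
  have hterm : ∀ w : HeightOneSpectrum B,
      ((w.asIdeal.ramificationIdx A : ℤ) - 1) = ((m.count w.asIdeal : ℕ) : ℤ) := by
    intro w
    have h1 := Different.count_normalizedFactors_differentIdeal_eq A hcz w.asIdeal w.ne_bot
    have h2 := Ideal.ramificationIdx_pos w.asIdeal A
    rw [hm, h1]
    omega
  rw [finsum_congr hterm]
  have hinj : Function.Injective (fun w : HeightOneSpectrum B => w.asIdeal) :=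
    fun w w' h => HeightOneSpectrum.ext h
  have hsupp : Function.support (fun Q : Ideal B => ((m.count Q : ℕ) : ℤ)) ⊆
      Set.range (fun w : HeightOneSpectrum B => w.asIdeal) := by
    intro Q hQ
    rw [Function.mem_support, Ne, Nat.cast_eq_zero, Multiset.count_eq_zero, not_not, hm,
      Ideal.mem_normalizedFactors_iff h𝔇] at hQ
    have hQ0 : Q ≠ ⊥ := by
      rintro rfl
      exact h𝔇 (le_bot_iff.mp hQ.2)
    exact ⟨⟨Q, hQ.1, hQ0⟩, rfl⟩
  have h1 : ∑ᶠ w : HeightOneSpectrum B, ((m.count w.asIdeal : ℕ) : ℤ) =
      ∑ᶠ Q : Ideal B, ((m.count Q : ℕ) : ℤ) := by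
    rw [← finsum_mem_range (f := fun Q : Ideal B => ((m.count Q : ℕ) : ℤ)) hinj, finsum_mem_def,
      Set.indicator_eq_self.mpr hsupp]
  have hsupp' : Function.support (fun Q : Ideal B => ((m.count Q : ℕ) : ℤ)) ⊆ ↑m.toFinset := by
    intro Q hQ
    rw [Function.mem_support, Ne, Nat.cast_eq_zero, Multiset.count_eq_zero, not_not] at hQ
    simpa using hQ
  rw [h1, finsum_eq_sum_of_support_subset _ hsupp', ← Nat.cast_sum, Multiset.toFinset_sum_count_eq]

end Generic

section Uniq

variable {K F : Type*} [Field K] [Field F] [Algebra K[X] F] [FaithfulSMul K[X] F]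

/-- uniqueness of the `RatFunc K`-algebra structure compatible with the `K[X]`-algebra structure -/
theorem algebra_ratFunc_eq (a : Algebra (RatFunc K) F)
    (h : @IsScalarTower K[X] (RatFunc K) F _ a.toSMul _) : a = RatFunc.liftAlgebra K F := by
  refine Algebra.algebra_ext _ _ fun r => ?_
  have key : (@algebraMap (RatFunc K) F _ _ a).comp (algebraMap K[X] (RatFunc K)) =
      (@algebraMap (RatFunc K) F _ _ (RatFunc.liftAlgebra K F)).comp
        (algebraMap K[X] (RatFunc K)) := by
    refine RingHom.ext fun p => ?_
    simp only [RingHom.comp_apply]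
    rw [← @IsScalarTower.algebraMap_apply K[X] (RatFunc K) F _ _ _ _ a _ h,
      ← @IsScalarTower.algebraMap_apply K[X] (RatFunc K) F _ _ _ _ (RatFunc.liftAlgebra K F) _
        (RatFunc.isScalarTower_liftAlgebra K F)]
  exact congrFun (congrArg DFunLike.coe
    (IsLocalization.ringHom_ext (nonZeroDivisors K[X]) key)) r

end Uniq

section FinScoped

open scoped RatFunc

variable {K F : Type*} [Field K] [Field F] [Algebra K F] [Algebra K[X] F] [IsScalarTower K K[X] F]
  [FaithfulSMul K[X] F] [FiniteDimensional (RatFunc K) F] [CharZero K] [IsAlgClosed K]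

attribute [local instance] isDedekindDomain_integralClosure isFractionRing_integralClosure
  finite_integralClosure

/-- **Finite chart**: the number of prime factors of the different of the integral closure of
`K[X]` is `∑ (e_v - 1)` over the places at which `𝔵` is regular (scoped-instance form). -/
theorem card_differentIdeal_poly_aux :
    (Multiset.card (normalizedFactors
        (differentIdeal K[X] (integralClosure K[X] F))) : ℤ) =
      ∑ᶠ v ∈ {v : Place K F | 0 ≤ v.ord (algebraMap K[X] F X)},
        (ramIdx (algebraMap K[X] F X) v - 1) := by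
  haveI : Algebra.IsSeparable (FractionRing K[X]) (FractionRing (integralClosure K[X] F)) :=
    Colength.isSeparable_fractionRing_of_charZero K[X]
  rw [card_normalizedFactors_differentIdeal_eq_finsum K[X]
    (Chart.charZero_quotient (K := K) K[X])]
  have hinj : Function.Injective (fun w : HeightOneSpectrum (integralClosure K[X] F) =>
      Place.ofHeightOneSpectrum (K := K) (F := F) w) := ofHeightOneSpectrum_injective
  have hrange : Set.range (fun w : HeightOneSpectrum (integralClosure K[X] F) =>
      Place.ofHeightOneSpectrum (K := K) (F := F) w) =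
      {v : Place K F | 0 ≤ v.ord (algebraMap K[X] F X)} := by
    ext v
    constructor
    · rintro ⟨w, rfl⟩
      exact ChartFin.ord_gen_nonneg w
    · intro hv
      exact exists_heightOneSpectrum_of_gen_mem v
        ((mem_iff_ord_nonneg v ChartFin.gen_ne_zero).mpr hv)
  rw [← hrange, finsum_mem_range hinj]
  refine finsum_congr fun w => ?_
  obtain ⟨c, hc⟩ := exists_centre w
  rw [ramIdx_of_centre ((ord_gen_sub_pos_iff w c).mpr hc), ChartFin.ramificationIdx_eq_ord w c hc]

end FinScoped

section Charts

variable {K F : Type*} [Field K] [Field F] [Algebra K F] [Algebra K[X] F] [IsScalarTower K K[X] F]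
  [FaithfulSMul K[X] F] [Algebra (RatFunc K) F] [IsScalarTower K[X] (RatFunc K) F]
  [IsAlgClosed K] [CharZero K] [FiniteDimensional (RatFunc K) F]

theorem isDedekindDomain_S : IsDedekindDomain (integralClosure K[X] F) :=
  Chart.isDedekindDomain_B (RatFunc K) K[X]

theorem finite_S : Module.Finite K[X] (integralClosure K[X] F) :=
  Chart.finite_B (RatFunc K) K[X]

attribute [local instance] isDedekindDomain_S finite_S

/-- **Finite chart**: the number of prime factors of the different of the integral closure of
`K[X]` is `∑ (e_v - 1)` over the places at which `𝔵` is regular. -/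
theorem card_differentIdeal_poly :
    (Multiset.card (normalizedFactors
        (differentIdeal K[X] (integralClosure K[X] F))) : ℤ) =
      ∑ᶠ v ∈ {v : Place K F | 0 ≤ v.ord (algebraMap K[X] F X)},
        (ramIdx (algebraMap K[X] F X) v - 1) := by
  obtain rfl := algebra_ratFunc_eq ‹Algebra (RatFunc K) F› ‹_›
  exact card_differentIdeal_poly_aux

variable [Algebra (Oinf K) F] [IsScalarTower (Oinf K) (RatFunc K) F]

attribute [local instance] ChartInf.isScalarTower_ratFunc ChartInf.isScalarTower_K_Oinf
  ChartInf.isDedekindDomain_Sinf ChartInf.isFractionRing_Sinf ChartInf.finite_Sinf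

theorem isTorsionFree_Sinf : IsTorsionFree (Oinf K) (integralClosure (Oinf K) F) :=
  Chart.isTorsionFree_B (F := F) (RatFunc K) (Oinf K)

attribute [local instance] isTorsionFree_Sinf

/-- **Chart at infinity**: the number of prime factors of the different of the integral closure of
`Oinf K` is `∑ (e_v - 1)` over the poles of `𝔵`. -/
theorem card_differentIdeal_Oinf :
    (Multiset.card (normalizedFactors
        (differentIdeal (Oinf K) (integralClosure (Oinf K) F))) : ℤ) =
      ∑ᶠ v ∈ {v : Place K F | v.ord (algebraMap K[X] F X) < 0},
        (ramIdx (algebraMap K[X] F X) v - 1) := by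
  haveI : CharZero (Oinf K) := charZero_of_injective_algebraMap (algebraMap K (Oinf K)).injective
  haveI : Algebra.IsSeparable (FractionRing (Oinf K))
      (FractionRing (integralClosure (Oinf K) F)) :=
    Colength.isSeparable_fractionRing_of_charZero (Oinf K)
  rw [card_normalizedFactors_differentIdeal_eq_finsum (Oinf K)
    (Chart.charZero_quotient (K := K) (Oinf K))]
  have hinj : Function.Injective (fun w : HeightOneSpectrum (integralClosure (Oinf K) F) =>
      Place.ofHeightOneSpectrum (K := K) (F := F) w) := ofHeightOneSpectrum_injective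
  have hrange : Set.range (fun w : HeightOneSpectrum (integralClosure (Oinf K) F) =>
      Place.ofHeightOneSpectrum (K := K) (F := F) w) =
      {v : Place K F | v.ord (algebraMap K[X] F X) < 0} := by
    ext v
    constructor
    · rintro ⟨w, rfl⟩
      exact ChartInf.ord_gen_neg_ofHeightOneSpectrum w
    · intro hv
      exact ChartInf.exists_heightOneSpectrum_of_pole v hv
  rw [← hrange, finsum_mem_range hinj]
  refine finsum_congr fun w => ?_
  rw [ramIdx_of_pole (ChartInf.ord_gen_neg_ofHeightOneSpectrum w),
    ChartInf.ord_gen_ofHeightOneSpectrum w, neg_neg]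

/-- **Total ramification**: the prime factors of the two differents add up to `∑ (e_v - 1)` over
all places. -/
theorem card_differentIdeal_add (h : IsFFGen K (algebraMap K[X] F X)) :
    (Multiset.card (normalizedFactors
        (differentIdeal K[X] (integralClosure K[X] F))) : ℤ) +
      (Multiset.card (normalizedFactors
        (differentIdeal (Oinf K) (integralClosure (Oinf K) F))) : ℤ) =
      ∑ᶠ v : Place K F, (ramIdx (algebraMap K[X] F X) v - 1) := by
  rw [card_differentIdeal_poly, card_differentIdeal_Oinf]
  have hfin : (Function.support fun v : Place K F =>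
      ramIdx (algebraMap K[X] F X) v - 1).Finite :=
    h.finite_support_sub_one _ (fun v hv => ramIdx_of_pole hv)
      (fun v c hc => ramIdx_of_centre hc)
  have hdisj : Disjoint {v : Place K F | 0 ≤ v.ord (algebraMap K[X] F X)}
      {v : Place K F | v.ord (algebraMap K[X] F X) < 0} := by
    rw [Set.disjoint_left]
    intro v h1 h2
    have h1' : 0 ≤ v.ord (algebraMap K[X] F X) := h1
    have h2' : v.ord (algebraMap K[X] F X) < 0 := h2
    omega
  have hunion : {v : Place K F | 0 ≤ v.ord (algebraMap K[X] F X)} ∪
      {v : Place K F | v.ord (algebraMap K[X] F X) < 0} = Set.univ := by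
    ext v
    refine ⟨fun _ => Set.mem_univ v, fun _ => ?_⟩
    rcases le_or_gt 0 (v.ord (algebraMap K[X] F X)) with h0 | h0
    · exact Or.inl h0
    · exact Or.inr h0
  rw [← finsum_mem_union' hdisj (hfin.subset Set.inter_subset_right)
    (hfin.subset Set.inter_subset_right), hunion, finsum_mem_univ]

end Charts

end Fermat.Agent.X0.RRDiff
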