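import Mathlib
import Fermat.Agent.X0.FF.DiscCharts
import Fermat.Agent.X0.FF.RRDiff

/-!
# X0 / FF5d (W4 + W5): the discriminant hypotheses of `RRCore.main` with the total ramification

ChartInf abstract variable block.  `RRHole.exists_Rfin_Rinf`: there are `Rfin Rinf : ℕ` with
`Rfin + Rinf = ∑ᶠ v, (e v - 1)` (for any ramification function `e` with the values `-ord_v 𝔵` at
poles and `ord_v (𝔵 - c)` at places centred at `c`) satisfying the hypotheses `hDfin`, `hDinf` of
`RRCore.main` for every `n`.
-/

set_option autoImplicit false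
set_option linter.unusedSectionVars false
set_option linter.style.haveILetI false

namespace Fermat.Agent.X0.RRHole

open AlgebraicCurve IsDedekindDomain Polynomial UniqueFactorizationMonoid Module Infinity

variable {K F : Type*} [Field K] [Field F] [Algebra K F] [Algebra K[X] F] [IsScalarTower K K[X] F]
  [FaithfulSMul K[X] F] [Algebra (RatFunc K) F] [IsScalarTower K[X] (RatFunc K) F]
  [Algebra (Oinf K) F] [IsScalarTower (Oinf K) (RatFunc K) F]
  [IsAlgClosed K] [CharZero K] [FiniteDimensional (RatFunc K) F]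

/-- a ramification function with the prescribed values is `ramIdx 𝔵` -/
theorem eq_ramIdx (h : IsFFGen K (algebraMap K[X] F X)) (e : Place K F → ℤ)
    (he_pole : ∀ v : Place K F, v.ord (algebraMap K[X] F X) < 0 →
      e v = -v.ord (algebraMap K[X] F X))
    (he_fin : ∀ (v : Place K F) (c : K), 0 < v.ord (algebraMap K[X] F X - algebraMap K F c) →
      e v = v.ord (algebraMap K[X] F X - algebraMap K F c)) (v : Place K F) :
    e v = ramIdx (algebraMap K[X] F X) v := by
  by_cases hp : v.ord (algebraMap K[X] F X) < 0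
  · rw [he_pole v hp, ramIdx_of_pole hp]
  · obtain ⟨c, hc⟩ := h.exists_centre v (not_lt.mp hp)
    rw [he_fin v c hc, ramIdx_of_centre hc]

/-- **(W4 + W5)**: the discriminant hypotheses of `RRCore.main`, with `Rfin + Rinf` the total
ramification `∑ᶠ v, (e v - 1)`. -/
theorem exists_Rfin_Rinf (h : IsFFGen K (algebraMap K[X] F X)) (e : Place K F → ℤ)
    (he_pole : ∀ v : Place K F, v.ord (algebraMap K[X] F X) < 0 →
      e v = -v.ord (algebraMap K[X] F X))
    (he_fin : ∀ (v : Place K F) (c : K), 0 < v.ord (algebraMap K[X] F X - algebraMap K F c) →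
      e v = v.ord (algebraMap K[X] F X - algebraMap K F c)) :
    ∃ Rfin Rinf : ℕ, (Rfin : ℤ) + Rinf = ∑ᶠ v : Place K F, (e v - 1) ∧
      (∀ {n : ℕ} (ω' : Basis (Fin n) (RatFunc K) F),
        (∀ y : F, IsIntegral K[X] y ↔
          ∀ i, ω'.repr y i ∈ (algebraMap K[X] (RatFunc K)).range) →
        ∃ D : K[X], algebraMap K[X] (RatFunc K) D = (Algebra.traceMatrix (RatFunc K) ω').det ∧
          D.natDegree = Rfin) ∧
      (∀ {n : ℕ} (η' : Basis (Fin n) (RatFunc K) F),
        (∀ y : F, IsIntegral (Oinf K) y ↔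
          ∀ i, η'.repr y i ∈ (algebraMap (Oinf K) (RatFunc K)).range) →
        ∃ δ : Oinf K, algebraMap (Oinf K) (RatFunc K) δ =
            (Algebra.traceMatrix (RatFunc K) η').det ∧ Associated δ (uInf K ^ Rinf)) := by
  refine ⟨_, _, ?_, fun ω' hω' => DiscCharts.hDfin ω' hω', fun η' hη' => DiscCharts.hDinf η' hη'⟩
  rw [finsum_congr fun v => by rw [eq_ramIdx h e he_pole he_fin v]]
  exact RRDiff.card_differentIdeal_add h

end Fermat.Agent.X0.RRHole
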