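import Mathlib
import Fermat.Agent.X0.FF.NormInf
import Fermat.Agent.X0.FF.ChartFin
import Fermat.Agent.X0.FF.ChartInf
import Fermat.Agent.X0.FF.Main
import Fermat.Agent.X0.FF.RRCore

/-!
# X0 / FF5d (wiring): the hypotheses of `RRCore.main` for the norm at infinity

In the abstract setting of `FF/ChartInf.lean` (`F` a `K[X]`-algebra, `𝔵 = algebraMap K[X] F X`,
finite over `RatFunc K`), with `ν = nuInf K 𝔵`:

* `RRWire.isIntegral_Oinf_iff_nuInf` : `y` is integral over `Oinf K` iff `ν y ≤ 0`;
* `RRWire.exists_const_of_isIntegral` : an element integral over `K[X]` and over `Oinf K` is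
  constant;
* `RRWire.holo_iff_ord` : the two trace conditions describing the holomorphic differentials
  `y d𝔵` are equivalent to the order conditions
  `ord_v y ≥ e_v + 1` at the poles of `𝔵`, `ord_v y ≥ -(e_v - 1)` elsewhere (`e = ramIdx 𝔵`).
-/

set_option autoImplicit false
set_option linter.unusedSectionVars false
set_option linter.style.haveILetI false

namespace Fermat.Agent.X0.RRWire

open AlgebraicCurve IsDedekindDomain Polynomial Infinity

section Abstract

variable {K F : Type*} [Field K] [Field F] [Algebra K F] [Algebra K[X] F] [IsScalarTower K K[X] F]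
  [FaithfulSMul K[X] F] [Algebra (RatFunc K) F] [IsScalarTower K[X] (RatFunc K) F]
  [Algebra (Oinf K) F] [IsScalarTower (Oinf K) (RatFunc K) F]
  [FiniteDimensional (RatFunc K) F] [CharZero K] [IsAlgClosed K]

/-- (W1) integrality over `Oinf K` in terms of the norm at infinity -/
theorem isIntegral_Oinf_iff_nuInf (h : IsFFGen K (algebraMap K[X] F X)) (y : F) :
    IsIntegral (Oinf K) y ↔ nuInf K (algebraMap K[X] F X) y ≤ 0 := by
  rcases eq_or_ne y 0 with rfl | hy
  · simp [isIntegral_zero]
  rw [ChartInf.isIntegral_Oinf_iff, ← WithBot.coe_zero, h.nuInf_le_iff hy]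
  constructor
  · intro H v hv
    rcases H v hv with h0 | h0
    · exact absurd h0 hy
    · simpa using h0
  · intro H v hv
    right
    simpa using H v hv

/-- (W2) elements integral over both `K[X]` and `Oinf K` are constant -/
theorem exists_const_of_isIntegral (h : IsFFGen K (algebraMap K[X] F X)) (y : F)
    (h1 : IsIntegral K[X] y) (h2 : IsIntegral (Oinf K) y) : ∃ c : K, algebraMap K F c = y := by
  apply h.exists_algebraMap_eq_of_ord_nonneg
  intro v
  rcases eq_or_ne y 0 with rfl | hy
  · simp
  rcases lt_or_ge (v.ord (algebraMap K[X] F X)) 0 with hv | hv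
  · rcases (ChartInf.isIntegral_Oinf_iff y).mp h2 v hv with h0 | h0
    · exact absurd h0 hy
    · exact h0
  · have hx : algebraMap K[X] F X ∈ v.toValuationSubring :=
      (mem_iff_ord_nonneg v h.ne_zero).mpr hv
    exact (mem_iff_ord_nonneg v hy).mp (integralClosure_mem v hx ⟨y, h1⟩)

end Abstract

section Transport

variable {K F : Type*} [Field K] [Field F] [Algebra K F] [Algebra K[X] F] [IsScalarTower K K[X] F]
  [FaithfulSMul K[X] F] [Algebra (RatFunc K) F] [IsScalarTower K[X] (RatFunc K) F]

/-- A `RatFunc K`-algebra structure on `F` compatible with the `K[X]`-algebra structure is the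
one of `RatFunc.liftAlgebra`. -/
theorem algebra_ratFunc_eq_liftAlgebra :
    (‹Algebra (RatFunc K) F› : Algebra (RatFunc K) F) = RatFunc.liftAlgebra K F := by
  refine Algebra.algebra_ext _ _ fun r => ?_
  have h : (@algebraMap (RatFunc K) F _ _ ‹Algebra (RatFunc K) F›) =
      (@algebraMap (RatFunc K) F _ _ (RatFunc.liftAlgebra K F)) := by
    refine IsLocalization.ringHom_ext (nonZeroDivisors K[X]) ?_
    ext p
    · simp only [RingHom.coe_comp, Function.comp_apply]
      rw [← IsScalarTower.algebraMap_apply K[X] (RatFunc K) F]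
      letI := RatFunc.liftAlgebra K F
      haveI := RatFunc.isScalarTower_liftAlgebra K F
      rw [← IsScalarTower.algebraMap_apply K[X] (RatFunc K) F]
    · simp only [RingHom.coe_comp, Function.comp_apply]
      rw [← IsScalarTower.algebraMap_apply K[X] (RatFunc K) F]
      letI := RatFunc.liftAlgebra K F
      haveI := RatFunc.isScalarTower_liftAlgebra K F
      rw [← IsScalarTower.algebraMap_apply K[X] (RatFunc K) F]
  exact congrFun (congrArg DFunLike.coe h) r

variable [FiniteDimensional (RatFunc K) F] [CharZero K] [IsAlgClosed K]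

/-- `ChartFin.trace_mem_poly_iff` for an arbitrary compatible `RatFunc K`-algebra structure. -/
theorem trace_mem_poly_iff' (y : F) :
    (∀ b : F, IsIntegral K[X] b →
        Algebra.trace (RatFunc K) F (y * b) ∈ (algebraMap K[X] (RatFunc K)).range) ↔
      ∀ (v : Place K F) (c : K), 0 < v.ord (algebraMap K[X] F X - algebraMap K F c) →
        y = 0 ∨ -(v.ord (algebraMap K[X] F X - algebraMap K F c) - 1) ≤ v.ord y := by
  have halg := algebra_ratFunc_eq_liftAlgebra (K := K) (F := F)
  subst halg
  rw [← ChartFin.trace_mem_poly_iff]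
  exact ⟨fun H b => H b b.2, fun H b hb => H ⟨b, hb⟩⟩

/-- `ChartFin.isIntegral_poly_iff` for an arbitrary compatible `RatFunc K`-algebra structure. -/
theorem isIntegral_poly_iff' (y : F) :
    IsIntegral K[X] y ↔
      ∀ v : Place K F, 0 ≤ v.ord (algebraMap K[X] F X) → y = 0 ∨ 0 ≤ v.ord y := by
  have halg := algebra_ratFunc_eq_liftAlgebra (K := K) (F := F)
  subst halg
  exact ChartFin.isIntegral_poly_iff y

end Transport

section Holo

variable {K F : Type*} [Field K] [Field F] [Algebra K F] [Algebra K[X] F] [IsScalarTower K K[X] F]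
  [FaithfulSMul K[X] F] [Algebra (RatFunc K) F] [IsScalarTower K[X] (RatFunc K) F]
  [Algebra (Oinf K) F] [IsScalarTower (Oinf K) (RatFunc K) F]
  [FiniteDimensional (RatFunc K) F] [CharZero K] [IsAlgClosed K]

/-- (W3) the holomorphic differentials in terms of orders -/
theorem holo_iff_ord (h : IsFFGen K (algebraMap K[X] F X)) (y : F) :
    ((∀ b : F, IsIntegral K[X] b →
        Algebra.trace (RatFunc K) F (y * b) ∈ (algebraMap K[X] (RatFunc K)).range) ∧
      (∀ b : F, IsIntegral (Oinf K) b →
        Algebra.trace (RatFunc K) F (algebraMap (RatFunc K) F RatFunc.X ^ 2 * y * b) ∈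
          (algebraMap (Oinf K) (RatFunc K)).range)) ↔
      ∀ v : Place K F, y = 0 ∨
        (if v.ord (algebraMap K[X] F X) < 0 then ramIdx (algebraMap K[X] F X) v + 1
          else -(ramIdx (algebraMap K[X] F X) v - 1)) ≤ v.ord y := by
  have hx0 : algebraMap K[X] F X ≠ 0 := h.ne_zero
  have e2 : (∀ b : F, IsIntegral (Oinf K) b →
        Algebra.trace (RatFunc K) F (algebraMap (RatFunc K) F RatFunc.X ^ 2 * y * b) ∈
          (algebraMap (Oinf K) (RatFunc K)).range) ↔
      ∀ v : Place K F, v.ord (algebraMap K[X] F X) < 0 →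
        algebraMap (RatFunc K) F RatFunc.X ^ 2 * y = 0 ∨
          -(-v.ord (algebraMap K[X] F X) - 1) ≤
            v.ord (algebraMap (RatFunc K) F RatFunc.X ^ 2 * y) := by
    rw [← ChartInf.trace_mem_Oinf_iff]
    exact ⟨fun H b => H b b.2, fun H b hb => H ⟨b, hb⟩⟩
  have hX : algebraMap (RatFunc K) F RatFunc.X = algebraMap K[X] F X :=
    ChartInf.algebraMap_ratFunc_X
  have hsq : ∀ v : Place K F, v.ord (algebraMap K[X] F X ^ 2) =
      2 * v.ord (algebraMap K[X] F X) := by
    intro v
    rw [pow_two, v.ord_mul hx0 hx0]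
    ring
  rw [trace_mem_poly_iff', e2, hX]
  constructor
  · rintro ⟨H1, H2⟩ v
    rcases eq_or_ne y 0 with rfl | hy
    · exact Or.inl rfl
    right
    by_cases hv : v.ord (algebraMap K[X] F X) < 0
    · rw [if_pos hv, ramIdx_of_pole hv]
      rcases H2 v hv with h0 | h0
      · exact absurd h0 (mul_ne_zero (pow_ne_zero 2 hx0) hy)
      · rw [v.ord_mul (pow_ne_zero 2 hx0) hy, hsq] at h0
        linarith
    · rw [if_neg hv]
      obtain ⟨c, hc⟩ := h.exists_centre v (not_lt.mp hv)
      rw [ramIdx_of_centre hc]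
      rcases H1 v c hc with h0 | h0
      · exact absurd h0 hy
      · exact h0
  · intro H
    refine ⟨fun v c hc => ?_, fun v hv => ?_⟩
    · rcases H v with h0 | h0
      · exact Or.inl h0
      · right
        have hv : ¬ v.ord (algebraMap K[X] F X) < 0 := by
          intro hp
          rw [ord_sub_const_of_ord_neg v hp c] at hc
          omega
        rwa [if_neg hv, ramIdx_of_centre hc] at h0
    · rcases H v with h0 | h0
      · left
        rw [h0, mul_zero]
      · right
        have hy : y ≠ 0 := by
          rintro rfl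
          rw [if_pos hv, ramIdx_of_pole hv, v.ord_zero] at h0
          omega
        rw [if_pos hv, ramIdx_of_pole hv] at h0
        rw [v.ord_mul (pow_ne_zero 2 hx0) hy, hsq]
        linarith

/-- **Riemann–Roch lite, modulo the two discriminant computations**: the space of holomorphic
differentials (described by order conditions) is finite dimensional of dimension `g` with
`2 g = Rfin + Rinf + 2 - 2 n`. -/
theorem exists_holo_of_disc [Algebra.IsSeparable (RatFunc K) F] {n : ℕ}
    (h : IsFFGen K (algebraMap K[X] F X)) (hn : Module.finrank (RatFunc K) F = n)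
    (Rfin Rinf : ℕ)
    (hDfin : ∀ ω' : Module.Basis (Fin n) (RatFunc K) F,
      (∀ y : F, IsIntegral K[X] y ↔ ∀ i, ω'.repr y i ∈ (algebraMap K[X] (RatFunc K)).range) →
      ∃ D : K[X], algebraMap K[X] (RatFunc K) D = (Algebra.traceMatrix (RatFunc K) ω').det ∧
        D.natDegree = Rfin)
    (hDinf : ∀ η' : Module.Basis (Fin n) (RatFunc K) F,
      (∀ y : F, IsIntegral (Oinf K) y ↔
        ∀ i, η'.repr y i ∈ (algebraMap (Oinf K) (RatFunc K)).range) →
      ∃ δ : Oinf K, algebraMap (Oinf K) (RatFunc K) δ =
          (Algebra.traceMatrix (RatFunc K) η').det ∧ Associated δ (uInf K ^ Rinf)) :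
    ∃ W : Submodule K F, Module.Finite K W ∧
      (∀ y : F, y ∈ W ↔ ∀ v : Place K F, y = 0 ∨
        (if v.ord (algebraMap K[X] F X) < 0 then ramIdx (algebraMap K[X] F X) v + 1
          else -(ramIdx (algebraMap K[X] F X) v - 1)) ≤ v.ord y) ∧
      2 * (Module.finrank K W : ℤ) = (Rfin : ℤ) + Rinf + 2 - 2 * n := by
  haveI := ChartInf.isScalarTower_ratFunc (K := K) (F := F)
  obtain ⟨W, hfin, hmem, hdim⟩ := RRCore.main (K := K) (F := F) hn (isDegNorm_nuInf h)
    (fun y hy hy0 => nuInf_nonneg_of_isIntegral h hy0 hy) (isIntegral_Oinf_iff_nuInf h)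
    (exists_const_of_isIntegral h) Rfin Rinf hDfin hDinf
  exact ⟨W, hfin, fun y => (hmem y).trans (holo_iff_ord h y), hdim⟩

end Holo

end Fermat.Agent.X0.RRWire
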